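import Mathlib

/-!
# The regular locus of a rational function on an integral scheme
-/

set_option autoImplicit false

universe u

open CategoryTheory AlgebraicGeometry TopologicalSpace Opposite

namespace FLTA.Jacobian

variable {X : Scheme.{u}} [IsIntegral X]

lemma nonempty_of_genericPoint_mem {V : X.Opens} (h : genericPoint X ∈ V) : Nonempty V :=
  ⟨⟨_, h⟩⟩

lemma genericPoint_mem {V : X.Opens} {x : X} (h : x ∈ V) : genericPoint X ∈ V :=
  ((genericPoint_spec X).specializes trivial).mem_open V.isOpen h

/-- The element of the function field defined by a section over a nonempty open. -/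
noncomputable def toFF (V : X.Opens) (h : genericPoint X ∈ V) (s : Γ(X, V)) : X.functionField :=
  X.presheaf.germ V (genericPoint X) h s

lemma toFF_injective (V : X.Opens) (h : genericPoint X ∈ V) :
    Function.Injective (toFF V h) :=
  germ_injective_of_isIntegral _ _ _

lemma toFF_res {V W : X.Opens} (i : W ≤ V) (hW : genericPoint X ∈ W) (s : Γ(X, V)) :
    toFF W hW (X.presheaf.map (homOfLE i).op s) = toFF V (i hW) s :=
  X.presheaf.germ_res_apply _ _ _ _

/-- The set of points at which a rational function is regular. -/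
noncomputable def regularLocus (f : X.functionField) : X.Opens :=
  sSup {V | ∃ (h : genericPoint X ∈ V) (s : Γ(X, V)), toFF V h s = f}

lemma mem_regularLocus {f : X.functionField} {x : X} :
    x ∈ regularLocus f ↔
      ∃ (V : X.Opens) (hx : x ∈ V) (s : Γ(X, V)), toFF V (genericPoint_mem hx) s = f := by
  simp only [regularLocus, Opens.mem_sSup, Set.mem_setOf_eq]
  constructor
  · rintro ⟨V, ⟨h, s, hs⟩, hx⟩; exact ⟨V, hx, s, hs⟩
  · rintro ⟨V, hx, s, hs⟩; exact ⟨V, ⟨_, s, hs⟩, hx⟩

lemma mem_regularLocus_iff_range {f : X.functionField} {x : X} :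
    x ∈ regularLocus f ↔ f ∈ (algebraMap (X.presheaf.stalk x) X.functionField).range := by
  rw [mem_regularLocus]
  constructor
  · rintro ⟨V, hx, s, hs⟩
    have : Nonempty V := ⟨⟨x, hx⟩⟩
    exact ⟨X.presheaf.germ V x hx s, by rw [Scheme.algebraMap_germ_eq_germToFunctionField]; exact hs⟩
  · rintro ⟨g, hg⟩
    obtain ⟨V, hx, s, rfl⟩ := X.presheaf.exists_germ_eq g
    have : Nonempty V := ⟨⟨x, hx⟩⟩
    exact ⟨V, hx, s, by rw [← hg, Scheme.algebraMap_germ_eq_germToFunctionField]; rfl⟩

lemma genericPoint_mem_regularLocus (f : X.functionField) :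
    genericPoint X ∈ regularLocus f := by
  obtain ⟨V, hx, s, hs⟩ := X.presheaf.exists_germ_eq f
  exact mem_regularLocus.mpr ⟨V, hx, s, hs⟩

lemma exists_regularSection (f : X.functionField) :
    ∃ s : Γ(X, regularLocus f), toFF _ (genericPoint_mem_regularLocus f) s = f := by
  let ι := {V : X.Opens // ∃ (h : genericPoint X ∈ V) (s : Γ(X, V)), toFF V h s = f}
  choose h sf hsf using fun i : ι => i.2
  have hU : ∀ i : ι, i.1 ≤ regularLocus f := fun i => le_sSup i.2
  have hcov : regularLocus f ≤ ⨆ i : ι, i.1 := sSup_le fun V hV => le_iSup (fun i : ι => i.1) ⟨V, hV⟩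
  obtain ⟨s, hs, -⟩ := X.sheaf.existsUnique_gluing' (fun i : ι => i.1) (regularLocus f)
    (fun i => homOfLE (hU i)) hcov sf (fun i j => by
      have hij : genericPoint X ∈ i.1 ⊓ j.1 := ⟨h i, h j⟩
      apply toFF_injective (i.1 ⊓ j.1) hij
      exact ((toFF_res inf_le_left hij (sf i)).trans (hsf i)).trans
        ((toFF_res inf_le_right hij (sf j)).trans (hsf j)).symm)
  obtain ⟨V, hx, s₀, hs₀⟩ := mem_regularLocus.mp (genericPoint_mem_regularLocus f)
  refine ⟨s, ?_⟩
  let i : ι := ⟨V, hx, s₀, hs₀⟩
  have := congr_arg (toFF i.1 (h i)) (hs i)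
  exact ((toFF_res (hU i) (h i) s).symm.trans this).trans (hsf i)

/-- The section of `𝒪_X` over the regular locus of `f` that represents `f`. -/
noncomputable def regularSection (f : X.functionField) : Γ(X, regularLocus f) :=
  (exists_regularSection f).choose

lemma toFF_regularSection (f : X.functionField) :
    toFF _ (genericPoint_mem_regularLocus f) (regularSection f) = f :=
  (exists_regularSection f).choose_spec

end FLTA.Jacobian
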