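import Fermat.Agent.Jacobian.DiagonalClass

/-!
# Classes of points with values in a field (S25; for the comparison with algebraic equivalence)
-/

set_option autoImplicit false
set_option linter.style.haveILetI false

universe u

open CategoryTheory CategoryTheory.Limits AlgebraicGeometry NeronModelInfra
  AlgebraicGeometry.RelPicard TopologicalSpace
open TensorProduct
open scoped FLTA.Jacobian.TwoCover FLTA.Jacobian.Triple

namespace FLTA.Jacobian

namespace Triple

variable {k : Type u} [Field k] [IsAlgClosed k] (E : TwoCover k) {K : Type u} [Field K]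
  [Algebra k K]

/-- The universal graph specialises to the point triples, with values in any field. -/
theorem graphTriple_pt_field (φ : E.A →ₐ[k] K) :
    letI := φ.toRingHom.toAlgebra
    haveI : IsScalarTower k E.A K := IsScalarTower.of_algebraMap_eq fun x => (φ.commutes x).symm
    Nonempty (BaseChange (graphTriple E) (ptTriple E (evR φ))) := by
  letI := φ.toRingHom.toAlgebra
  haveI : IsScalarTower k E.A K := IsScalarTower.of_algebraMap_eq fun x => (φ.commutes x).symm
  have e : (IsScalarTower.toAlgHom k E.A K).comp (AlgHom.id k E.A) = φ := AlgHom.ext fun _ => rfl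
  have e1 : (graphId (AlgHom.id k E.A)).map (E.bcA E.A K) = RingHom.ker (evR φ) := by
    rw [E.map_graphId_bcA, e]; rfl
  have e2 : (E.otherId (AlgHom.id k E.A)).map (E.bcA' E.A K) = ptIdeal' E (evR φ) := by
    rw [E.map_otherId_bcA', e]; rfl
  exact ⟨ofIdealsBC _ _ e1 e2⟩

/-- The universal graph at the marked point, over any field. -/
theorem graphTriple'_ε_field :
    letI := ((Algebra.ofId k K).comp E.ε).toRingHom.toAlgebra
    haveI : IsScalarTower k E.A' K :=
      IsScalarTower.of_algebraMap_eq fun x => (((Algebra.ofId k K).comp E.ε).commutes x).symm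
    Nonempty (BaseChange (graphTriple' E) (εTriple E (K := K))) := by
  letI := ((Algebra.ofId k K).comp E.ε).toRingHom.toAlgebra
  haveI : IsScalarTower k E.A' K :=
    IsScalarTower.of_algebraMap_eq fun x => (((Algebra.ofId k K).comp E.ε).commutes x).symm
  have e : (IsScalarTower.toAlgHom k E.A' K).comp (AlgHom.id k E.A') =
      (Algebra.ofId k K).comp E.ε := AlgHom.ext fun _ => rfl
  have e2 : (graphId (AlgHom.id k E.A')).map (E.bcA' E.A' K) = RingHom.ker (E.εR K) := by
    rw [E.map_graphId_bcA', e]; rfl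
  have e1 : (E.otherId' (AlgHom.id k E.A')).map (E.bcA E.A' K) = ⊤ := by
    rw [E.map_otherId'_bcA, e, TwoCover.otherId', Ideal.eq_top_iff_one, Ideal.mem_comap, map_one,
      ← Ideal.eq_top_iff_one]
    refine Ideal.eq_top_of_isUnit_mem _ (Ideal.mem_map_of_mem _ ?_) (E.isUnit_ιR'_sR K)
    simp [mem_graphId, TwoCover.sR, E.ε_s]
  exact ⟨ofIdealsBC _ _ e1 e2⟩

end Triple

variable {k : Type u} [Field k] {C : Scheme.{u}} {c : C ⟶ Spec (CommRingCat.of k)}
  {ε : SchemeHomOver (𝟙 (Spec (CommRingCat.of k))) c} {K : Type u} [Field K] [Algebra k K]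

/-- A class on the curve over a field is rigidified. -/
lemma rigidify_baseMap_field (a : Pic (pullback c (baseMap k K)) ⊤) : (rigidify ε a).1 = a := by
  have : Subsingleton (Spec (CommRingCat.of K)) :=
    inferInstanceAs (Subsingleton (PrimeSpectrum K))
  simp [rigidify, pic_point_eq_one (Pic.pullTop (rigSection c (baseMap k K) ε) a)]

variable (c ε K) in
/-- The marked point with values in a field. -/
noncomputable def basePoint : SchemeHomOver (baseMap k K) c :=
  ⟨baseMap k K ≫ ε.1, by rw [Category.assoc, ε.2, Category.comp_id]⟩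

/-- A point of a chart with values in a field, seen in the base of the chart. -/
lemma exists_chart_point_field {B : Type u} [CommRing B] [Algebra k B] (φ : B →ₐ[k] K)
    (j : Spec (CommRingCat.of B) ⟶ C)
    (hj : j ≫ c = Spec.map (CommRingCat.ofHom (algebraMap k B))) :
    ∃ (P : SchemeHomOver (baseMap k K) c) (Q : SchemeHomOver (baseMap k K) (j ≫ c)),
      P.1 = Spec.map (CommRingCat.ofHom φ.toRingHom) ≫ j ∧
      postComp (overHom (t := c) j) Q = P ∧
        postComp (⟨𝟙 _, (Category.id_comp _).trans hj.symm⟩ :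
          SchemeHomOver (j ≫ c) (baseMap k B)) Q = algOver φ :=
  ⟨⟨Spec.map (CommRingCat.ofHom φ.toRingHom) ≫ j, by
      rw [Category.assoc, hj]; exact (algOver φ).2⟩,
    ⟨Spec.map (CommRingCat.ofHom φ.toRingHom), by rw [hj]; exact (algOver φ).2⟩,
    rfl, Subtype.ext rfl, Subtype.ext (Category.comp_id _)⟩

variable (cc : CurveCover c ε) [IsAlgClosed k]

/-- The diagonal class at points with values in fields. -/
theorem exists_diagonal_class_field :
    ∃ δ : Pic (pullback c c) ⊤, ∀ (K : Type u) [Field K] [Algebra k K],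
      (∀ φ : cc.E.AR K →ₐ[K] K, ∃ P : SchemeHomOver (baseMap k K) c,
          Nonempty (Triple.Iso (tripleOf K cc (Pic.pullTop (baseChangeSnd c P) δ))
            (Triple.ptTriple cc.E φ))) ∧
        Nonempty (Triple.Iso (tripleOf K cc (Pic.pullTop (baseChangeSnd c (basePoint c ε K)) δ))
          (Triple.εTriple cc.E)) := by
  obtain ⟨aA, aA', b, ⟨eA⟩, ⟨eA'⟩, hb, hb'⟩ := exists_glued_graph cc
  refine ⟨b.1, fun K _ _ => ⟨fun φ => ?_, ?_⟩⟩
  · let φ₀ : cc.E.A →ₐ[k] K := (φ.restrictScalars k).comp Algebra.TensorProduct.includeRight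
    have hφ : evR φ₀ = φ := Algebra.TensorProduct.ext (AlgHom.ext fun r => by
        show evR φ₀ (r ⊗ₜ 1) = φ (r ⊗ₜ 1)
        rw [evR_tmul, map_one, mul_one]
        exact (φ.commutes r).symm)
      (AlgHom.ext fun x => by
        show evR φ₀ (1 ⊗ₜ x) = φ (1 ⊗ₜ x)
        rw [evR_tmul, one_mul]; rfl)
    obtain ⟨P, Q, -, hQ, hQ'⟩ := exists_chart_point_field φ₀ cc.j cc.j_over
    refine ⟨P, ?_⟩
    letI := φ₀.toRingHom.toAlgebra
    haveI : IsScalarTower k cc.E.A K := IsScalarTower.of_algebraMap_eq fun x => (φ₀.commutes x).symm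
    have hpull : Pic.pullTop (baseChangeSnd c P) b.1 =
        Pic.pullTop (baseChangeSnd c (baseHom (k := k) cc.E.A K)) aA := by
      rw [← coe_rmap, ← hQ, ← rmap_rmap, hb, rmap_rmap, hQ', rigidify_pull, rigidify_baseMap_field]
      rfl
    obtain ⟨p⟩ := tripleOf_pull cc.E.A cc K aA
    obtain ⟨g⟩ := Triple.graphTriple_pt_field cc.E φ₀
    rw [hpull, ← hφ]
    exact ⟨(p.congrLeft eA.symm).iso g⟩
  · let ψ : cc.E.A' →ₐ[k] K := (Algebra.ofId k K).comp cc.E.ε
    obtain ⟨P, Q, hP, hQ, hQ'⟩ := exists_chart_point_field ψ cc.j' cc.j'_over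
    have hbase : basePoint c ε K = P := by
      apply Subtype.ext
      rw [hP, show CommRingCat.ofHom ψ.toRingHom =
        CommRingCat.ofHom cc.E.ε.toRingHom ≫ CommRingCat.ofHom (algebraMap k K) from rfl,
        Spec.map_comp, Category.assoc, cc.ε_eq]
      rfl
    letI := ψ.toRingHom.toAlgebra
    haveI : IsScalarTower k cc.E.A' K := IsScalarTower.of_algebraMap_eq fun x => (ψ.commutes x).symm
    have hpull : Pic.pullTop (baseChangeSnd c P) b.1 =
        Pic.pullTop (baseChangeSnd c (baseHom (k := k) cc.E.A' K)) aA' := by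
      rw [← coe_rmap, ← hQ, ← rmap_rmap, hb', rmap_rmap, hQ', rigidify_pull, rigidify_baseMap_field]
      rfl
    obtain ⟨p⟩ := tripleOf_pull cc.E.A' cc K aA'
    obtain ⟨g⟩ := Triple.graphTriple'_ε_field cc.E (K := K)
    rw [hbase, hpull]
    exact ⟨(p.congrLeft eA'.symm).iso g⟩

end FLTA.Jacobian
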