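import Fermat.Agent.Jacobian.AssembleFibre

/-!
# The charts: translates of the good locus of the universal chart (S25, assembly).
-/

set_option autoImplicit false
set_option linter.style.haveILetI false

universe u

open CategoryTheory CategoryTheory.Limits AlgebraicGeometry NeronModelInfra
  AlgebraicGeometry.RelPicard TopologicalSpace
open scoped FLTA.Jacobian.TwoCover FLTA.Jacobian.Triple

namespace FLTA.Jacobian

variable {k : Type u} [Field k] {C : Scheme.{u}} {c : C ⟶ Spec (CommRingCat.of k)}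
  {ε : SchemeHomOver (𝟙 (Spec (CommRingCat.of k))) c} (cc : CurveCover c ε)
  {T : Scheme.{u}} {t : T ⟶ Spec (CommRingCat.of k)}
  {g : ℕ} (b : Fin g → cc.E.A) (m : ℕ) (xs : List (cc.E.A →ₐ[k] k))

/-- Any morphism from an affine scheme to `Spec k` comes from an algebra structure. -/
lemma exists_algebra_baseMap {R : CommRingCat.{u}} (t : Spec R ⟶ Spec (CommRingCat.of k)) :
    ∃ _ : Algebra k R, t = baseMap k R := by
  refine ⟨(Spec.preimage t).hom.toAlgebra, ?_⟩
  rw [baseMap, RingHom.algebraMap_toAlgebra, CommRingCat.ofHom_hom, Spec.map_preimage]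

/-- The open subscheme of good points of the universal chart. -/
noncomputable def chartOpen : (Spec (CommRingCat.of (ChartRing cc.E b))).Opens :=
  chartLocus cc.E b

/-- The scheme of a chart. -/
noncomputable abbrev chartScheme : Scheme.{u} := (chartOpen cc b).toScheme

/-- Its structure morphism. -/
noncomputable def chartHom : chartScheme cc b ⟶ Spec (CommRingCat.of k) :=
  (chartOpen cc b).ι ≫ baseMap k (ChartRing cc.E b)

/-- The inclusion into the affine chart. -/
noncomputable def chartIncl :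
    SchemeHomOver (chartHom cc b) (baseMap k (ChartRing cc.E b)) :=
  ⟨(chartOpen cc b).ι, rfl⟩

/-- The class on the affine chart. -/
noncomputable def chartPic : Pic (pullback c (baseMap k (ChartRing cc.E b))) ⊤ :=
  (exists_tripleOf (ChartRing cc.E b) cc (chartTriple cc.E b)).choose

lemma chartPic_spec :
    Nonempty (Triple.Iso (tripleOf _ cc (chartPic cc b)) (chartTriple cc.E b)) :=
  (exists_tripleOf (ChartRing cc.E b) cc (chartTriple cc.E b)).choose_spec

/-- The good universal class. -/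
noncomputable def chartU : RPic ε (chartHom cc b) :=
  rigidify ε (Pic.pullTop (baseChangeSnd c (chartIncl cc b)) (chartPic cc b))

/-- The class of the chart. -/
noncomputable def chartClass : RPic ε (chartHom cc b) :=
  unshift cc m xs (chartU cc b)

variable {R : Type u} [CommRing R] [Algebra k R]

lemma comap_mem_chartLocus {φ : ChartRing cc.E b →ₐ[k] R}
    (s : SchemeHomOver (baseMap k R) (chartHom cc b))
    (h : postComp (chartIncl cc b) s = algOver φ) (p : PrimeSpectrum R) :
    PrimeSpectrum.comap φ.toRingHom p ∈ chartLocus cc.E b := by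
  have e : (algOver φ).1.base p = (chartOpen cc b).ι.base (s.1.base p) := by
    rw [← h]; rfl
  change (algOver φ).1.base p ∈ chartOpen cc b
  rw [e]
  exact (s.1.base p).2

lemma triAt_chartU {φ : ChartRing cc.E b →ₐ[k] R}
    (s : SchemeHomOver (baseMap k R) (chartHom cc b))
    (h : postComp (chartIncl cc b) s = algOver φ) :
    Nonempty (Triple.Iso (triAt cc s (chartU cc b)) (chartTripleAt φ)) := by
  letI := φ.toRingHom.toAlgebra
  haveI : IsScalarTower k (ChartRing cc.E b) R :=
    IsScalarTower.of_algebraMap_eq fun x => (φ.commutes x).symm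
  obtain ⟨bp⟩ := tripleOf_pull (ChartRing cc.E b) cc R (chartPic cc b)
  obtain ⟨eH⟩ := chartPic_spec cc b
  have e0 : baseHom (k := k) (ChartRing cc.E b) R = algOver φ := Subtype.ext rfl
  rw [e0] at bp
  set a := Pic.pullTop (baseChangeSnd c (algOver φ)) (chartPic cc b) with ha
  have e1 : Triple.Iso (tripleOf R cc a) (chartTripleAt φ) :=
    (bp.congrLeft eH.symm).iso (Triple.bcBaseChange (chartTriple cc.E b) R)
  have hgood : Triple.IsGood b (chartTripleAt φ) :=
    (isGood_chartTripleAt_iff φ).mpr (comap_mem_chartLocus cc b s h)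
  obtain ⟨σ, -, -, hσ, -⟩ := (hgood.of_iso e1.symm).section_
  have hrig : a ∈ RPic ε (baseMap k R) :=
    mem_rPic.mpr ((pull_rigSection_eq_one_iff R cc a).mpr ⟨_, hσ⟩)
  have : rmap s (chartU cc b) = ⟨a, hrig⟩ := by
    rw [chartU, rigidify_pull, Pic.pullTop_comp]
    rw [Pic.pullTop_congr (show baseChangeSnd c s ≫ baseChangeSnd c (chartIncl cc b) =
      baseChangeSnd c (algOver φ) by rw [baseChangeSnd_comp, h])]
    exact rigidify_of_mem (⟨a, hrig⟩ : RPic ε (baseMap k R))
  rw [triAt, this]
  exact ⟨e1⟩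

lemma isGood_chartU (s : SchemeHomOver (baseMap k R) (chartHom cc b)) :
    Triple.IsGood b (triAt cc s (chartU cc b)) := by
  obtain ⟨φ, hφ⟩ := exists_algOver (postComp (chartIncl cc b) s)
  obtain ⟨e⟩ := triAt_chartU cc b s hφ.symm
  exact ((isGood_chartTripleAt_iff φ).mpr (comap_mem_chartLocus cc b s hφ.symm)).of_iso e.symm

lemma goodFib_chartClass : GoodFib cc m xs b (chartClass cc b m xs) := by
  intro K _ _ _ s
  rw [GoodAt, chartClass, shift_unshift]
  exact isGood_chartU cc b s

/-- A good triple over a field has degree the genus. -/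
lemma degree_of_isGood {E : TwoCover k} {K : Type u} [Field K] [Algebra k K] {g : ℕ}
    {b : Fin g → E.A} {T : Triple E K} (h : Triple.IsGood b T) : T.degree = E.genus := by
  obtain ⟨σ, hspan, hfree, -, -⟩ := h.section_
  have h0 : Module.finrank K T.H0 = 1 := by
    refine finrank_eq_one σ (fun h0 => one_ne_zero (hfree 1 (by rw [h0, smul_zero]))) fun v => ?_
    exact Submodule.mem_span_singleton.mp (hspan ▸ Submodule.mem_top)
  have := h.h1
  have h1 : Module.finrank K T.H1 = 0 := Module.finrank_zero_of_subsingleton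
  simp [Triple.degree, Triple.chi, h0, h1]

variable {cc m xs}

lemma isDeg0_of_goodFib {b : Fin g → cc.E.A} (hm : (m * cc.E.deg : ℤ) - xs.length = cc.E.genus)
    {a : RPic ε t} (h : GoodFib cc m xs b a) : IsDeg0 cc a := by
  intro K _ _ _ s
  obtain ⟨e⟩ := triAt_shift cc s m xs a
  have hd := degree_of_isGood (h K s)
  rw [← e.degree_eq, Triple.degree_modify] at hd
  omega

variable (cc m xs)

lemma existsUnique_classify_affine {R : Type u} [CommRing R] [Algebra k R]
    (a : RPic ε (baseMap k R)) (ha : GoodFib cc m xs b a) :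
    ∃! ψ : SchemeHomOver (baseMap k R) (chartHom cc b), rmap ψ (chartClass cc b m xs) = a := by
  let idp : SchemeHomOver (baseMap k R) (baseMap k R) := ⟨𝟙 _, Category.id_comp _⟩
  have hgood := isGood_of_goodFib idp ha
  have eT : triAt cc idp (shift cc m xs a) = tripleOf R cc (shift cc m xs a).1 := by
    rw [triAt, rmap_id]
  rw [eT] at hgood
  obtain ⟨φ, ⟨eφ⟩, huniq⟩ := existsUnique_chartTripleAt hgood
  have hmem : ∀ p, PrimeSpectrum.comap φ.toRingHom p ∈ chartLocus cc.E b :=
    (isGood_chartTripleAt_iff φ).mp (hgood.of_iso eφ.symm)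
  have hr : Set.range (algOver φ).1 ⊆ Set.range (chartOpen cc b).ι := by
    rintro _ ⟨p, rfl⟩
    rw [Scheme.Opens.range_ι]
    exact hmem p
  let ψ : SchemeHomOver (baseMap k R) (chartHom cc b) :=
    ⟨IsOpenImmersion.lift (chartOpen cc b).ι (algOver φ).1 hr, by
      rw [chartHom, ← Category.assoc, IsOpenImmersion.lift_fac]; exact (algOver φ).2⟩
  have hψ : postComp (chartIncl cc b) ψ = algOver φ :=
    Subtype.ext (IsOpenImmersion.lift_fac _ _ _)
  refine ⟨ψ, ?_, fun ψ' hψ' => ?_⟩
  · dsimp only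
    obtain ⟨e⟩ := triAt_chartU cc b ψ hψ
    have h1 : rmap ψ (chartU cc b) = shift cc m xs a :=
      Subtype.ext ((tripleOf_iso_iff R cc _ _).mp ⟨e.trans eφ⟩)
    rw [chartClass, rmap_unshift, h1, unshift_shift]
  · obtain ⟨φ', hφ'⟩ := exists_algOver (postComp (chartIncl cc b) ψ')
    have h1 : rmap ψ' (chartU cc b) = shift cc m xs a := by
      rw [← hψ', chartClass, rmap_unshift, shift_unshift]
    obtain ⟨e⟩ := triAt_chartU cc b ψ' hφ'.symm
    have h2 : φ' = φ := by
      refine huniq φ' ⟨?_⟩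
      rw [triAt, h1] at e
      exact e.symm
    apply Subtype.ext
    rw [← cancel_mono (chartOpen cc b).ι]
    exact (congrArg Subtype.val (hφ'.symm.trans (h2 ▸ hψ.symm))).trans rfl

variable [IsAlgClosed k]

/-- The universal property of a chart. -/
theorem existsUnique_classify (a : RPic ε t) (ha : GoodFib cc m xs b a) :
    ∃! ψ : SchemeHomOver t (chartHom cc b), rmap ψ (chartClass cc b m xs) = a := by
  classical
  have aff : ∀ (S : CommRingCat.{u}) (s : Spec S ⟶ Spec (CommRingCat.of k)) (a : RPic ε s),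
      GoodFib cc m xs b a →
      ∃! ψ : SchemeHomOver s (chartHom cc b), rmap ψ (chartClass cc b m xs) = a := by
    intro S s a ha
    obtain ⟨inst, rfl⟩ := exists_algebra_baseMap s
    exact existsUnique_classify_affine cc b m xs a ha
  have uniq : ∀ {T : Scheme.{u}} {t : T ⟶ Spec (CommRingCat.of k)}
      (ψ ψ' : SchemeHomOver t (chartHom cc b)),
      rmap ψ (chartClass cc b m xs) = rmap ψ' (chartClass cc b m xs) → ψ = ψ' := by
    intro T t ψ ψ' h
    apply Subtype.ext
    refine T.affineCover.hom_ext _ _ fun i => ?_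
    let q : SchemeHomOver (T.affineCover.f i ≫ t) t := overHom (T.affineCover.f i)
    have := (aff _ _ (rmap (postComp ψ q) (chartClass cc b m xs))
      ((goodFib_chartClass cc b m xs).rmap _)).unique (y₁ := postComp ψ q) (y₂ := postComp ψ' q)
      rfl ((rmap_rmap ψ' q _).symm.trans ((congrArg (rmap q) h.symm).trans (rmap_rmap ψ q _)))
    exact congrArg Subtype.val this
  let 𝒰 := T.affineCover
  choose ψ hψ using fun i => (aff _ _ (rmap (coverHom 𝒰 t i) a) (ha.rmap _)).exists
  have hag : ∀ i j, pullback.fst (𝒰.f i) (𝒰.f j) ≫ (ψ i).1 =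
      pullback.snd (𝒰.f i) (𝒰.f j) ≫ (ψ j).1 := by
    intro i j
    let p : SchemeHomOver (pullback.fst (𝒰.f i) (𝒰.f j) ≫ 𝒰.f i ≫ t) (𝒰.f i ≫ t) :=
      overHom _
    let q : SchemeHomOver (pullback.fst (𝒰.f i) (𝒰.f j) ≫ 𝒰.f i ≫ t) (𝒰.f j ≫ t) :=
      ⟨pullback.snd _ _, by rw [← Category.assoc, ← pullback.condition, Category.assoc]⟩
    refine congrArg Subtype.val (uniq (postComp (ψ i) p) (postComp (ψ j) q) ?_)
    refine (rmap_rmap (ψ i) p _).symm.trans (Eq.trans ?_ (rmap_rmap (ψ j) q _))
    refine (congrArg (rmap p) (hψ i)).trans (Eq.trans ?_ (congrArg (rmap q) (hψ j)).symm)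
    refine (rmap_rmap (coverHom 𝒰 t i) p a).trans (Eq.trans ?_ (rmap_rmap (coverHom 𝒰 t j) q a).symm)
    exact DFunLike.congr_fun (rmap_congr pullback.condition) a
  refine ⟨⟨𝒰.glueMorphisms (fun i => (ψ i).1) hag, ?_⟩, ?_, fun ψ' hψ' => ?_⟩
  · refine 𝒰.hom_ext _ _ fun i => ?_
    exact (Category.assoc _ _ _).symm.trans
      ((congrArg (· ≫ chartHom cc b) (Scheme.Cover.ι_glueMorphisms 𝒰 _ hag i)).trans (ψ i).2)
  · refine rPic_ext cc 𝒰 _ _ fun i => ?_
    refine (rmap_rmap _ (coverHom 𝒰 t i) _).trans (Eq.trans ?_ (hψ i))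
    exact DFunLike.congr_fun (rmap_congr (Scheme.Cover.ι_glueMorphisms 𝒰 _ hag i)) _
  · apply Subtype.ext
    refine 𝒰.hom_ext _ _ fun i => ?_
    refine Eq.trans ?_ (Scheme.Cover.ι_glueMorphisms 𝒰 _ hag i).symm
    refine congrArg Subtype.val (uniq (postComp ψ' (coverHom 𝒰 t i)) (ψ i) ?_)
    exact (rmap_rmap ψ' (coverHom 𝒰 t i) _).symm.trans ((congrArg _ hψ').trans (hψ i).symm)

/-- The set of points near which all fibres are good. -/
def goodLocus (a : RPic ε t) : T.Opens :=
  sSup {U | GoodFib cc m xs b (rmap (overHom (t := t) U.ι) a)}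

omit [IsAlgClosed k] in
lemma mem_goodLocus_of_goodAt {a : RPic ε t} {K : Type u} [Field K] [Algebra k K]
    (s : SchemeHomOver (baseMap k K) t) (h : GoodAt cc m xs b a s) :
    s.1.base (IsLocalRing.closedPoint K) ∈ goodLocus cc b m xs a := by
  obtain ⟨U, hU, hxU, -⟩ :=
    exists_isAffineOpen_mem_and_subset (Opens.mem_top (s.1.base (IsLocalRing.closedPoint K)))
  obtain ⟨inst, ht⟩ := exists_algebra_baseMap (hU.fromSpec ≫ t)
  let j : SchemeHomOver (baseMap k Γ(T, U)) t := ⟨hU.fromSpec, ht⟩
  obtain ⟨s', hs'⟩ := exists_lift_point hU.fromSpec s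
    (by rw [hU.opensRange_fromSpec]; exact hxU)
  let s'' : SchemeHomOver (baseMap k K) (baseMap k Γ(T, U)) := ⟨s'.1, by rw [← ht]; exact s'.2⟩
  obtain ⟨φ, hφ⟩ := exists_algOver s''
  have e : postComp j (algOver φ) = s := by
    rw [hφ]; exact Subtype.ext (congrArg Subtype.val hs' :)
  obtain ⟨f, hf, hgood⟩ := exists_away_goodAt (m := m) (xs := xs) (b := b) (a := a) j K φ
    (by rw [e]; exact h)
  refine Opens.mem_sSup.mpr ⟨hU.fromSpec ''ᵁ PrimeSpectrum.basicOpen f, ?_, ?_⟩
  · change GoodFib cc m xs b (rmap (overHom (t := t) (hU.fromSpec ''ᵁ PrimeSpectrum.basicOpen f).ι) a)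
    generalize hOdef : hU.fromSpec ''ᵁ PrimeSpectrum.basicOpen f = O
    intro L _ _ _ q
    rw [goodAt_rmap]
    have hmem : (q.1.base (IsLocalRing.closedPoint L)).1 ∈
        hU.fromSpec ''ᵁ PrimeSpectrum.basicOpen f := by
      rw [hOdef]; exact (q.1.base (IsLocalRing.closedPoint L)).2
    have hq : (q.1.base (IsLocalRing.closedPoint L)).1 ∈ hU.fromSpec.opensRange :=
      (hU.fromSpec.image_le_opensRange _) hmem
    obtain ⟨q', hq'⟩ := exists_lift_point hU.fromSpec (postComp (overHom (t := t) O.ι) q) hq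
    obtain ⟨χ, hχ⟩ := exists_algOver
      (⟨q'.1, by rw [← ht]; exact q'.2⟩ : SchemeHomOver (baseMap k L) (baseMap k Γ(T, U)))
    have eq : postComp j (algOver χ) = postComp (overHom (t := t) O.ι) q := by
      rw [hχ]; exact Subtype.ext (congrArg Subtype.val hq' :)
    rw [← eq]
    refine hgood L χ (IsUnit.mk0 _ fun h0 => ?_)
    obtain ⟨p, hp, hpe⟩ := hmem
    have e' : hU.fromSpec.base ((algOver χ).1.base (IsLocalRing.closedPoint L)) =
        hU.fromSpec.base p := by
      refine Eq.trans ?_ hpe.symm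
      exact congrArg (fun F : SchemeHomOver (baseMap k L) t =>
        F.1.base (IsLocalRing.closedPoint L)) eq
    have e'' := hU.fromSpec.isOpenEmbedding.injective e'
    rw [← e''] at hp
    apply hp
    change χ f ∈ IsLocalRing.maximalIdeal L
    rw [h0]
    exact zero_mem _
  · refine ⟨(algOver φ).1.base (IsLocalRing.closedPoint K), fun h0 => hf ?_, ?_⟩
    · have : φ f ∈ IsLocalRing.maximalIdeal K := h0
      rwa [IsLocalRing.maximalIdeal_eq_bot, Ideal.mem_bot] at this
    · exact congrArg (fun F : SchemeHomOver (baseMap k K) t =>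
        F.1.base (IsLocalRing.closedPoint K)) e

omit [IsAlgClosed k] in
lemma goodAt_of_mem_goodLocus {a : RPic ε t} {K : Type u} [Field K] [IsAlgClosed K] [Algebra k K]
    (s : SchemeHomOver (baseMap k K) t)
    (h : s.1.base (IsLocalRing.closedPoint K) ∈ goodLocus cc b m xs a) :
    GoodAt cc m xs b a s := by
  obtain ⟨U, hU, hx⟩ := Opens.mem_sSup.mp h
  obtain ⟨s', hs'⟩ := exists_lift_point (Scheme.Opens.ι U) s
    (by rw [Scheme.Opens.opensRange_ι]; exact hx)
  have := (goodAt_rmap (m := m) (xs := xs) (b := b) (cc := cc) _ a s').mp (hU K s')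
  rwa [hs'] at this

omit [IsAlgClosed k] in
lemma goodFib_goodLocus (a : RPic ε t) :
    GoodFib cc m xs b (rmap (overHom (t := t) (goodLocus cc b m xs a).ι) a) := by
  intro K _ _ _ s
  rw [goodAt_rmap]
  exact goodAt_of_mem_goodLocus cc b m xs _ (s.1.base (IsLocalRing.closedPoint K)).2

end FLTA.Jacobian
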