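import Fermat.Agent.Jacobian.AlgEquivFamily
import Fermat.Agent.Jacobian.AssembleChart
import Fermat.Agent.Jacobian.AlgEquivPoint

/-!
# Algebraic equivalence to zero on the curve over a field is degree zero (S25)
-/

set_option autoImplicit false
set_option linter.style.haveILetI false

universe u

open CategoryTheory CategoryTheory.Limits AlgebraicGeometry NeronModelInfra
  AlgebraicGeometry.RelPicard TopologicalSpace TensorProduct
open scoped FLTA.Jacobian.TwoCover FLTA.Jacobian.Triple

namespace FLTA.Jacobian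

variable {k : Type u} [Field k] {C : Scheme.{u}} {c : C ⟶ Spec (CommRingCat.of k)}
  {ε : SchemeHomOver (𝟙 (Spec (CommRingCat.of k))) c} (cc : CurveCover c ε)
  {T : Scheme.{u}} {t : T ⟶ Spec (CommRingCat.of k)}

/-- The degree is constant near every point of the base. -/
lemma exists_degree_nhds (a : RPic ε t) (x : T) :
    ∃ U : T.Opens, x ∈ U ∧ ∃ d : ℤ, ∀ (K : Type u) [Field K] [Algebra k K]
      (s : SchemeHomOver (baseMap k K) t), s.1.base (IsLocalRing.closedPoint K) ∈ U →
        (triAt cc s a).degree = d := by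
  obtain ⟨V, hV, hxV, -⟩ := exists_isAffineOpen_mem_and_subset (Opens.mem_top x)
  obtain ⟨inst, ht⟩ := exists_algebra_baseMap (hV.fromSpec ≫ t)
  let j : SchemeHomOver (baseMap k Γ(T, V)) t := ⟨hV.fromSpec, ht⟩
  obtain ⟨p, hp⟩ : ∃ p, hV.fromSpec.base p = x := by
    have : x ∈ Set.range hV.fromSpec.base := by rw [hV.range_fromSpec]; exact hxV
    exact this
  obtain ⟨f, d, hf, hd⟩ := Triple.chi_locally_constant (triAt cc j a) p
  refine ⟨hV.fromSpec ''ᵁ PrimeSpectrum.basicOpen f, ⟨p, hf, hp⟩, d - (1 - (cc.E.genus : ℤ)),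
    fun K _ _ s hs => ?_⟩
  obtain ⟨s', hs'⟩ := exists_lift_point hV.fromSpec s (hV.fromSpec.image_le_opensRange _ hs)
  obtain ⟨φ, hφ⟩ := exists_algOver
    (⟨s'.1, by rw [← ht]; exact s'.2⟩ : SchemeHomOver (baseMap k K) (baseMap k Γ(T, V)))
  have e : postComp j (algOver φ) = s := by
    rw [hφ]; exact Subtype.ext (congrArg Subtype.val hs' :)
  letI := φ.toRingHom.toAlgebra
  haveI : IsScalarTower k Γ(T, V) K := IsScalarTower.of_algebraMap_eq fun y => (φ.commutes y).symm
  obtain ⟨bc⟩ := triAt_baseChange cc (S := K) j a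
  have e0 : baseHom (k := k) Γ(T, V) K = algOver φ := Subtype.ext rfl
  rw [e0, e] at bc
  obtain ⟨p', hp', hpe⟩ := hs
  have e' : hV.fromSpec.base ((algOver φ).1.base (IsLocalRing.closedPoint K)) =
      hV.fromSpec.base p' := by
    refine Eq.trans ?_ hpe.symm
    exact congrArg (fun F : SchemeHomOver (baseMap k K) t =>
      F.1.base (IsLocalRing.closedPoint K)) e
  rw [← hV.fromSpec.isOpenEmbedding.injective e'] at hp'
  rw [Triple.degree, hd K (fun h0 => hp' ?_) _ bc]
  change φ f ∈ IsLocalRing.maximalIdeal K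
  rw [show φ f = 0 from h0]
  exact zero_mem _

/-- Over an irreducible base the degree is constant. -/
lemma degree_eq_degree_of_irreducible [PreirreducibleSpace T] (a : RPic ε t) {K L : Type u}
    [Field K] [Algebra k K] [Field L] [Algebra k L] (s : SchemeHomOver (baseMap k K) t)
    (s' : SchemeHomOver (baseMap k L) t) :
    (triAt cc s a).degree = (triAt cc s' a).degree := by
  obtain ⟨U, hU, d, hd⟩ := exists_degree_nhds cc a (s.1.base (IsLocalRing.closedPoint K))
  obtain ⟨U', hU', d', hd'⟩ := exists_degree_nhds cc a (s'.1.base (IsLocalRing.closedPoint L))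
  obtain ⟨z, hz, hz'⟩ := nonempty_preirreducible_inter U.2 U'.2 ⟨_, hU⟩ ⟨_, hU'⟩
  obtain ⟨F, iF, iC, iA, r, hr⟩ := exists_point_of_mem (t := t) z
  rw [hd K s hU, hd' L s' hU', ← hd F r (by rw [hr]; exact hz),
    ← hd' F r (by rw [hr]; exact hz')]

variable (K : Type u) [Field K] [Algebra k K]

/-- Classes algebraically equivalent to zero have degree zero. -/
theorem degree_eq_zero_of_aez {a : Pic (pullback c (baseMap k K)) ⊤} (ha : AEZ c K a) :
    (tripleOf K cc a).degree = 0 := by
  obtain ⟨T, h, hl, hg, α, t₀, t₁, h₀, h₁⟩ := ha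
  have : Subsingleton (Spec (CommRingCat.of K)) :=
    inferInstanceAs (Subsingleton (PrimeSpectrum K))
  have : IsIntegral T := GeometricallyIntegral.isIntegral_of_subsingleton h
  have key : ∀ s, triAt cc (secPt K s) (rigidify ε α) =
      tripleOf K cc (Pic.pullTop (baseChangeSnd c (secPt K s)) α) := fun s => by
    rw [triAt, rigidify_pull, rigidify_baseMap_field]
  have := degree_eq_degree_of_irreducible cc (rigidify ε α) (secPt K t₁) (secPt K t₀)
  rw [key, key, h₀, h₁] at this
  rw [this, (tripleOf_one cc).some.degree_eq, Triple.degree_one]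

/-- An isomorphism keeps nonzero sections. -/
lemma Triple.Iso.h0_ne_bot {E : TwoCover k} {X Y : Triple E K} (e : Triple.Iso X Y)
    (h : X.H0 ≠ ⊥) : Y.H0 ≠ ⊥ := by
  intro hb
  obtain ⟨x, hx, hne⟩ := Submodule.exists_mem_ne_zero_of_ne_bot h
  have := e.toHom.fX_mem_h0 hx
  rw [hb, Submodule.mem_bot] at this
  refine hne (Prod.ext (e.eM.injective ?_) (e.eM'.injective ?_))
  · exact (congrArg Prod.fst this).trans (map_zero _).symm
  · exact (congrArg Prod.snd this).trans (map_zero _).symm

variable [IsAlgClosed k]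

include cc in
/-- The class of the diagonal at a point has degree `-1`, and every class of degree zero is a
product of quotients of the marked point by a point. -/
theorem exists_point_decomp [IsIntegral C] : ∃ δ : Pic (pullback c c) ⊤,
    ∀ (K : Type u) [Field K] [IsAlgClosed K] [Algebra k K],
      (∀ P : SchemeHomOver (baseMap k K) c,
        (tripleOf K cc (Pic.pullTop (baseChangeSnd c P) δ)).degree = -1) ∧
      ∀ a : Pic (pullback c (baseMap k K)) ⊤, (tripleOf K cc a).degree = 0 →
        ∃ l : List (SchemeHomOver (baseMap k K) c), l.length = cc.E.genus ∧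
          a = (l.map fun P => Pic.pullTop (baseChangeSnd c (basePoint c ε K)) δ /
            Pic.pullTop (baseChangeSnd c P) δ).prod := by
  obtain ⟨δ, hδ⟩ := exists_diagonal_class_field cc
  refine ⟨δ, fun K _ _ _ => ?_⟩
  obtain ⟨hpt, ⟨eε⟩⟩ := hδ K
  set aε := Pic.pullTop (baseChangeSnd c (basePoint c ε K)) δ with haε
  let f : SchemeHomOver (baseMap k K) c → Pic (pullback c (baseMap k K)) ⊤ :=
    fun P => Pic.pullTop (baseChangeSnd c P) δ
  have hdegε : (tripleOf K cc aε).degree = -1 := by rw [eε.degree_eq, Triple.degree_εTriple]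
  have hdegP : ∀ P, (tripleOf K cc (f P)).degree = -1 := fun P => by
    have key : ∀ Q, triAt cc Q (rigidify ε δ) = tripleOf K cc (f Q) := fun Q => by
      rw [triAt, rigidify_pull, rigidify_baseMap_field]
    have := degree_eq_degree_of_irreducible cc (rigidify ε δ) P (basePoint c ε K)
    rwa [key, key, show f (basePoint c ε K) = aε from rfl, hdegε] at this
  refine ⟨hdegP, fun a ha => ?_⟩
  have hdeg_mul : ∀ x y, (tripleOf K cc (x * y)).degree =
      (tripleOf K cc x).degree + (tripleOf K cc y).degree := fun x y => by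
    rw [← (tripleOf_mul_iso cc x y).some.degree_eq, Triple.degree_tensor]
  -- effective classes
  have main : ∀ (n : ℕ) (b : Pic (pullback c (baseMap k K)) ⊤),
      (tripleOf K cc b).degree = (n : ℤ) → (tripleOf K cc b).H0 ≠ ⊥ →
        ∃ l : List (SchemeHomOver (baseMap k K) c), l.length = n ∧ b * (l.map f).prod = 1 := by
    intro n
    induction n with
    | zero =>
      intro b hb h0
      obtain ⟨e⟩ := Triple.nonempty_iso_one (tripleOf K cc b) (by simpa using hb) h0
      obtain ⟨e1⟩ := tripleOf_one (R := K) cc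
      exact ⟨[], rfl, by simp [(tripleOf_iso_iff K cc b 1).mp ⟨e.trans e1.symm⟩]⟩
    | succ n ih =>
      intro b hb h0
      obtain ⟨P, hP⟩ : ∃ P, (tripleOf K cc (b * f P)).H0 ≠ ⊥ := by
        rcases Triple.exists_point_of_section (tripleOf K cc b) (by omega) h0 with ⟨φ, hφ⟩ | hφ
        · obtain ⟨P, ⟨eP⟩⟩ := hpt φ
          obtain ⟨e2⟩ := tripleOf_mul_iso cc b (f P)
          exact ⟨P, (((Triple.Iso.refl (tripleOf K cc b)).tensor eP.symm).trans e2).h0_ne_bot K hφ⟩
        · obtain ⟨e2⟩ := tripleOf_mul_iso cc b aε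
          exact ⟨basePoint c ε K,
            (((Triple.Iso.refl (tripleOf K cc b)).tensor eε.symm).trans e2).h0_ne_bot K hφ⟩
      obtain ⟨l, hl, hl'⟩ := ih _ (by rw [hdeg_mul, hb, hdegP]; push_cast; ring) hP
      exact ⟨P :: l, by rw [List.length_cons, hl], by
        rw [List.map_cons, List.prod_cons, ← mul_assoc]; exact hl'⟩
  have hdeg_pow : ∀ n : ℕ, (tripleOf K cc (aε⁻¹ ^ n)).degree = (n : ℤ) := by
    intro n
    induction n with
    | zero => rw [pow_zero, (tripleOf_one cc).some.degree_eq, Triple.degree_one]; rfl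
    | succ n ih =>
      have h1 := hdeg_mul aε⁻¹ aε
      rw [inv_mul_cancel, (tripleOf_one cc).some.degree_eq, Triple.degree_one, hdegε] at h1
      rw [pow_succ, hdeg_mul, ih]
      push_cast; omega
  have hb : (tripleOf K cc (a * aε⁻¹ ^ cc.E.genus)).degree = (cc.E.genus : ℤ) := by
    rw [hdeg_mul, ha, hdeg_pow, zero_add]
  obtain ⟨l, hl, hl'⟩ := main _ _ hb (Triple.h0_ne_bot_of_genus_le _ hb.ge)
  have hprod : ∀ m : List (SchemeHomOver (baseMap k K) c),
      (m.map fun P => aε / f P).prod = aε ^ m.length / (m.map f).prod := by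
    intro m
    induction m with
    | nil => simp
    | cons P m ih => simp [ih, pow_succ', div_mul_div_comm]
  refine ⟨l, hl, ?_⟩
  rw [hprod l, hl, eq_div_iff_mul_eq']
  rw [mul_right_comm, inv_pow, ← div_eq_mul_inv, div_eq_one] at hl'
  exact hl'

variable [IsProper c] [SmoothOfRelativeDimension 1 c] [IsIntegral C] [IsAlgClosed K]

/-- Classes of degree zero are algebraically equivalent to zero. -/
theorem aez_of_degree_eq_zero {a : Pic (pullback c (baseMap k K)) ⊤}
    (ha : (tripleOf K cc a).degree = 0) : AEZ c K a := by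
  obtain ⟨δ, hδ⟩ := exists_point_decomp cc
  obtain ⟨l, -, rfl⟩ := (hδ K).2 a ha
  set aε := Pic.pullTop (baseChangeSnd c (basePoint c ε K)) δ with haε
  -- one point against the marked point
  have hP : ∀ P : SchemeHomOver (baseMap k K) c,
      AEZ c K (Pic.pullTop (baseChangeSnd c P) δ / aε) := by
    intro P
    have : LocallyOfFiniteType c := locallyOfFiniteType_of_smooth c
    have : GeometricallyIntegral c := geometricallyIntegral_of_isIntegral c
    let h := pullback.snd c (baseMap k K)
    let π : SchemeHomOver (h ≫ baseMap k K) c := ⟨pullback.fst c _, pullback.condition⟩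
    let toK : SchemeHomOver (h ≫ baseMap k K) (baseMap k K) := ⟨h, rfl⟩
    let sec : SchemeHomOver (baseMap k K) c → SchemeHomOver (𝟙 (Spec (CommRingCat.of K))) h :=
      fun Q => ⟨pullback.lift Q.1 (𝟙 _) (Q.2.trans (Category.id_comp _).symm),
        pullback.lift_snd _ _ _⟩
    have key : ∀ Q, Pic.pullTop (baseChangeSnd c (secPt K (sec Q)))
        (Pic.pullTop (baseChangeSnd c π) δ / Pic.pullTop (baseChangeSnd c toK) aε) =
          Pic.pullTop (baseChangeSnd c Q) δ / aε := fun Q => by
      rw [map_div, Pic.pullTop_comp, Pic.pullTop_comp, baseChangeSnd_comp, baseChangeSnd_comp,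
        show postComp π (secPt K (sec Q)) = Q from Subtype.ext (pullback.lift_fst _ _ _),
        show postComp toK (secPt K (sec Q)) = ⟨𝟙 _, Category.id_comp _⟩ from
          Subtype.ext (pullback.lift_snd _ _ _),
        Pic.pullTop_congr (baseChangeSnd_id c (baseMap k K)), Pic.pullTop_id]
    exact ⟨_, h, inferInstance, inferInstance, _, sec (basePoint c ε K), sec P,
      (key _).trans (div_self' _), key P⟩
  clear ha
  induction l with
  | nil => exact aez_one
  | cons P l ih =>
    rw [List.map_cons, List.prod_cons]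
    have h1 := (hP P).inv
    rw [inv_div] at h1
    exact h1.mul ih

end FLTA.Jacobian
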