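import Fermat.Agent.Jacobian.CurveTensor

/-!
# Integral schemes over algebraically closed fields are geometrically integral (S25; owner helper13).
-/

set_option autoImplicit false

universe u

open CategoryTheory CategoryTheory.Limits AlgebraicGeometry TopologicalSpace
open scoped TensorProduct

namespace FLTA.Jacobian

variable {k : Type u} [Field k] [IsAlgClosed k]

/-- An affine integral scheme of finite type over an algebraically closed field stays integral
after extending the field. -/
lemma isIntegral_pullback_spec {R : CommRingCat.{u}} [IsIntegral (Spec R)]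
    (ρ : Spec R ⟶ Spec (CommRingCat.of k)) [LocallyOfFiniteType ρ] (K : Type u) [Field K]
    [Algebra k K] :
    IsIntegral (pullback ρ (Spec.map (CommRingCat.ofHom (algebraMap k K)))) := by
  have : IsDomain R := (affine_isIntegral_iff R).mp inferInstance
  obtain ⟨φ, rfl⟩ := Spec.map_surjective ρ
  have hφ : φ.hom.FiniteType :=
    (HasRingHomProperty.Spec_iff (P := @LocallyOfFiniteType)).mp inferInstance
  algebraize [φ.hom]
  have : Algebra.FiniteType k R := hφ
  have : IsDomain (K ⊗[k] R) := isDomain_tensorProduct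
  have : IsDomain (R ⊗[k] K) :=
    MulEquiv.isDomain (K ⊗[k] R) (Algebra.TensorProduct.comm k R K).toRingEquiv.toMulEquiv
  have : IsDomain (CommRingCat.of (R ⊗[k] K)) := ‹IsDomain (R ⊗[k] K)›
  exact IsIntegral.of_isIso (pullbackSpecIso k R K).inv

/-- Integral schemes of finite type over an algebraically closed field are geometrically
integral. -/
theorem geometricallyIntegral_of_isIntegral {X : Scheme.{u}}
    (f : X ⟶ Spec (CommRingCat.of k)) [LocallyOfFiniteType f] [IsIntegral X] :
    GeometricallyIntegral f := by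
  rw [geometricallyIntegral_iff, geometrically_iff_of_commRing]
  intro K _ _ Z p q hZ
  let g : Spec (CommRingCat.of K) ⟶ Spec (CommRingCat.of k) :=
    Spec.map (CommRingCat.ofHom (algebraMap k K))
  suffices IsIntegral (pullback f g) from IsIntegral.of_isIso hZ.isoPullback.inv
  have : Surjective g :=
    ⟨fun x => ⟨IsLocalRing.closedPoint K, Subsingleton.elim _ _⟩⟩
  let 𝒱 := X.affineCover.ulift
  let 𝒰 : (pullback f g).OpenCover := Scheme.Pullback.openCoverOfLeft 𝒱 f g
  have hne : ∀ i, Nonempty (𝒱.X i) := fun i => ⟨(X.affineCover.exists_eq i).choose_spec.choose⟩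
  have hU : ∀ i, IsIntegral (𝒰.X i) := fun i => by
    have := hne i
    have : IsIntegral (𝒱.X i) := isIntegral_of_isOpenImmersion (𝒱.f i)
    exact @isIntegral_pullback_spec k _ _ _ this (𝒱.f i ≫ f)
      (locallyOfFiniteType_comp (𝒱.f i) f) K _ _
  have : IsReduced (pullback f g) := IsReduced.of_openCover _ 𝒰
  have hrange : ∀ i, Set.range (𝒰.f i) =
      pullback.fst f g ⁻¹' Set.range (𝒱.f i) := fun i => by
    have e := Scheme.Pullback.range_map (𝒱.f i ≫ f) g f g (𝒱.f i) (𝟙 _) (𝟙 _)
      (Category.comp_id _) ((Category.comp_id _).trans (Category.id_comp _).symm)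
    exact e.trans (Set.inter_eq_left.mpr fun z _ => ⟨(pullback.snd f g) z, rfl⟩)
  let R : _ → (pullback f g).Opens := fun i => (𝒰.f i).opensRange
  have hirr : ∀ i, IsPreirreducible (Set.range (𝒰.f i)) := fun i => by
    rw [← Set.image_univ]
    exact (PreirreducibleSpace.isPreirreducible_univ).image _ (𝒰.f i).continuous.continuousOn
  have hinter : ∀ i j, (Set.range (𝒰.f i) ∩ Set.range (𝒰.f j)).Nonempty := fun i j => by
    obtain ⟨x, hx⟩ := nonempty_preirreducible_inter (𝒱.f i).opensRange.2
      (𝒱.f j).opensRange.2 ⟨_, (hne i).some, rfl⟩ ⟨_, (hne j).some, rfl⟩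
    obtain ⟨z, rfl⟩ := (pullback.fst f g).surjective x
    exact ⟨z, (hrange i).ge hx.1, (hrange j).ge hx.2⟩
  have : PreirreducibleSpace (pullback f g : Scheme) := by
    refine ⟨fun u v hu hv ⟨x, _, hx⟩ ⟨y, _, hy⟩ => ?_⟩
    obtain ⟨i, hi⟩ : ∃ i, x ∈ Set.range (𝒰.f i) := ⟨_, 𝒰.covers x⟩
    obtain ⟨j, hj⟩ : ∃ j, y ∈ Set.range (𝒰.f j) := ⟨_, 𝒰.covers y⟩
    obtain ⟨z, hzi, hzu, hzj⟩ := hirr i u (Set.range (𝒰.f j)) hu (R j).2 ⟨x, hi, hx⟩ (hinter i j)
    obtain ⟨w, _, hwu, hwv⟩ := hirr j u v hu hv ⟨z, hzj, hzu⟩ ⟨y, hj, hy⟩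
    exact ⟨w, trivial, hwu, hwv⟩
  have : IrreducibleSpace (pullback f g : Scheme) := by
    have : Nonempty X := inferInstance
    exact { toNonempty := ⟨((pullback.fst f g).surjective this.some).choose⟩ }
  exact isIntegral_of_irreducibleSpace_of_isReduced _

end FLTA.Jacobian
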