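import Fermat.Agent.Jacobian.PicModulesPullback

/-!
# Line bundle classes versus invertible sheaves of modules (S25, part A; owner helper13).
-/

set_option autoImplicit false

universe u

open CategoryTheory AlgebraicGeometry

namespace FLTA.Jacobian

variable {X Y : Scheme.{u}}

/-- The class of an invertible sheaf of modules. -/
noncomputable def classOfModule (M : X.Modules) (hM : Scheme.Modules.IsInvertible M) : Pic X ⊤ :=
  (exists_frames hM).some.cocycle.cls

/-- An invertible sheaf is the sheaf of a cocycle representing its class. -/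
lemma exists_iso_modOf {M : X.Modules} (hM : Scheme.Modules.IsInvertible M) :
    ∃ c : Cocycle X ⊤ X, c.cls = classOfModule M hM ∧ Nonempty (modOf c ≅ M) :=
  ⟨_, rfl, ⟨(exists_frames hM).some.isoModOf⟩⟩

lemma classOfModule_eq_cls {M : X.Modules} (hM : Scheme.Modules.IsInvertible M) {ι : Type u}
    (c : Cocycle X ⊤ ι) (e : M ≅ modOf c) : classOfModule M hM = c.cls := by
  let G : Frames (modOf c) ι :=
    { U := c.U
      cover := fun x => c.cover x trivial
      e := modGen c
      isFrame := fun i W h => by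
        constructor
        · intro r r' hrr
          have := congrArg (fun s => modOfVal c s i) hrr
          simp only [modOfVal_smul, modOfVal_mrs, modOfVal_modGen, Cocycle.g_res, Cocycle.g_self,
            mul_one] at this
          have h2 := congrArg (rs (le_inf le_rfl h : W ≤ W ⊓ c.U i)) this
          simpa using h2
        · intro s
          refine ⟨rs (le_inf le_rfl h) (modOfVal c s i), ?_⟩
          exact ((mrs_eq_smul_modGen c s i W (le_inf le_rfl h)).symm.trans (mrs_self _ _ _)) }
  have hG : CocycleIso G.cocycle c :=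
    { h := fun i j W hi hj => c.g i j W hi hj
      h_res := fun i j W W' hi hj hW => c.g_res _ _ _ _ _ _ _
      h_unit := fun i j W hi hj => c.isUnit_g _ _ _ _ _
      h_left := fun i i' j W hi hi' hj => by
        rw [show G.cocycle.g i i' W hi hi' = c.g i i' W hi hi' from
          G.coef_unique hi' (modGen_compat c i i' W hi hi').symm]
        exact c.g_mul _ _ _ _ _ _ _
      h_right := fun i j j' W hi hj hj' => c.g_mul _ _ _ _ _ _ _ }
  exact cls_eq (((exists_frames hM).some.cocycleIso G e.hom).trans hG)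

lemma isInvertible_modOf {ι : Type u} (c : Cocycle X ⊤ ι) :
    Scheme.Modules.IsInvertible (modOf c) := by
  refine ⟨fun x => ?_⟩
  obtain ⟨i, hi⟩ := c.cover x trivial
  have htop : (⊤ : (c.U i).toScheme.Opens) ≤ (pullCocycle (c.U i).ι c).U i :=
    fun y _ => ⟨trivial, y.2⟩
  let H : CocycleIso (pullCocycle (c.U i).ι c) (Cocycle.one (X := (c.U i).toScheme) ⊤) :=
    { h := fun j _ W hj _ => (pullCocycle (c.U i).ι c).g j i W hj ((le_top).trans htop)
      h_res := fun j _ W W' hj _ hW => Cocycle.g_res _ _ _ _ _ _ _ _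
      h_unit := fun j _ W hj _ => Cocycle.isUnit_g _ _ _ _ _ _
      h_left := fun j j' _ W hj hj' _ => Cocycle.g_mul _ _ _ _ _ _ _ _
      h_right := fun j _ _ W hj _ _ => mul_one _ }
  exact ⟨c.U i, hi, ⟨pullbackModOfIso _ c ≪≫ H.modIso ≪≫ modOfOneIso _⟩⟩

theorem classOfModule_eq_iff {M M' : X.Modules} (hM : Scheme.Modules.IsInvertible M)
    (hM' : Scheme.Modules.IsInvertible M') :
    classOfModule M hM = classOfModule M' hM' ↔ Nonempty (M ≅ M') := by
  obtain ⟨c, hc, ⟨e⟩⟩ := exists_iso_modOf hM
  obtain ⟨c', hc', ⟨e'⟩⟩ := exists_iso_modOf hM'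
  constructor
  · intro h
    rw [← hc, ← hc', cls_eq_iff] at h
    obtain ⟨H⟩ := h
    exact ⟨e.symm ≪≫ H.modIso ≪≫ e'⟩
  · rintro ⟨φ⟩
    rw [← hc', ← classOfModule_eq_cls hM c' (φ ≪≫ e'.symm)]

theorem classOfModule_surjective (a : Pic X ⊤) :
    ∃ (M : X.Modules) (hM : Scheme.Modules.IsInvertible M), classOfModule M hM = a := by
  obtain ⟨c, rfl⟩ := exists_cls a
  exact ⟨modOf c, isInvertible_modOf c, classOfModule_eq_cls _ c (Iso.refl _)⟩

theorem classOfModule_unit :
    classOfModule (SheafOfModules.unit X.ringCatSheaf) (Scheme.Modules.isInvertible_unit X) = 1 :=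
  (classOfModule_eq_cls _ (Cocycle.one ⊤) (modOfOneIso X).symm).trans cls_one

theorem classOfModule_pullback (f : X ⟶ Y) {M : Y.Modules} (hM : Scheme.Modules.IsInvertible M) :
    classOfModule ((Scheme.Modules.pullback f).obj M) (hM.pullback f) =
      Pic.pullTop f (classOfModule M hM) := by
  obtain ⟨c, hc, ⟨e⟩⟩ := exists_iso_modOf hM
  rw [← hc, classOfModule_eq_cls (hM.pullback f) (pullCocycle f c)
    ((Scheme.Modules.pullback f).mapIso e.symm ≪≫ pullbackModOfIso f c)]
  exact cls_pull c ⊤ le_top

end FLTA.Jacobian
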