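import Fermat.Agent.Jacobian.AssembleFibre
import Fermat.Agent.Jacobian.GeomIntegral
import Fermat.Agent.Jacobian.PicModules
import Fermat.Prelude.Def_AlgebraicGeometry_RelPicardAlgEquivZeroCut

/-!
# Classes of line bundles algebraically equivalent to zero (S25)

`AEZ c K a` says that the class `a` on the curve over `K` is joined to the trivial class by a
family over a geometrically integral base; it is compared with `IsAlgEquivZero`.
-/

set_option autoImplicit false
set_option linter.style.haveILetI false

universe u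

open CategoryTheory CategoryTheory.Limits AlgebraicGeometry NeronModelInfra
  AlgebraicGeometry.RelPicard TopologicalSpace

namespace FLTA.Jacobian

variable {k : Type u} [Field k] {C : Scheme.{u}} (c : C ⟶ Spec (CommRingCat.of k))
  (K : Type u) [Field K] [Algebra k K]

/-- A section over `K` as a point over `k`. -/
def secPt {T : Scheme.{u}} {h : T ⟶ Spec (CommRingCat.of K)}
    (s : SchemeHomOver (𝟙 (Spec (CommRingCat.of K))) h) :
    SchemeHomOver (baseMap k K) (h ≫ baseMap k K) :=
  ⟨s.1, by rw [← Category.assoc, s.2, Category.id_comp]⟩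

/-- The class is joined to the trivial one by a family. -/
def AEZ (a : Pic (pullback c (baseMap k K)) ⊤) : Prop :=
  ∃ (T : Scheme.{u}) (h : T ⟶ Spec (CommRingCat.of K)) (_ : LocallyOfFiniteType h)
    (_ : GeometricallyIntegral h) (α : Pic (pullback c (h ≫ baseMap k K)) ⊤)
    (t₀ t₁ : SchemeHomOver (𝟙 (Spec (CommRingCat.of K))) h),
      Pic.pullTop (baseChangeSnd c (secPt K t₀)) α = 1 ∧
        Pic.pullTop (baseChangeSnd c (secPt K t₁)) α = a

variable {c K}

lemma aez_one : AEZ c K 1 :=
  ⟨_, 𝟙 _, inferInstance, geometricallyIntegral_id_Spec K, 1, ⟨𝟙 _, Category.comp_id _⟩,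
    ⟨𝟙 _, Category.comp_id _⟩, map_one _, map_one _⟩

lemma AEZ.inv {a : Pic (pullback c (baseMap k K)) ⊤} (ha : AEZ c K a) : AEZ c K a⁻¹ := by
  obtain ⟨T, h, hl, hg, α, t₀, t₁, h₀, h₁⟩ := ha
  exact ⟨T, h, hl, hg, α⁻¹, t₀, t₁, by rw [map_inv, h₀, inv_one], by rw [map_inv, h₁]⟩

/-- Products of families over an algebraically closed field. -/
lemma AEZ.mul [IsAlgClosed K] {a b : Pic (pullback c (baseMap k K)) ⊤} (ha : AEZ c K a)
    (hb : AEZ c K b) : AEZ c K (a * b) := by
  obtain ⟨T, h, hl, hg, α, t₀, t₁, h₀, h₁⟩ := ha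
  obtain ⟨T', h', hl', hg', α', t₀', t₁', h₀', h₁'⟩ := hb
  have : Subsingleton (Spec (CommRingCat.of K)) :=
    inferInstanceAs (Subsingleton (PrimeSpectrum K))
  have : IsIntegral T' := GeometricallyIntegral.isIntegral_of_subsingleton h'
  have : IsLocallyNoetherian T' := LocallyOfFiniteType.isLocallyNoetherian h'
  have : Flat h := inferInstance
  have : UniversallyOpen h := inferInstance
  have : IsIntegral (pullback h h') := inferInstance
  let h'' : pullback h h' ⟶ Spec (CommRingCat.of K) := pullback.fst h h' ≫ h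
  have : LocallyOfFiniteType h'' := inferInstanceAs (LocallyOfFiniteType (pullback.fst h h' ≫ h))
  have hgi : GeometricallyIntegral h'' := geometricallyIntegral_of_isIntegral h''
  let p : SchemeHomOver (h'' ≫ baseMap k K) (h ≫ baseMap k K) :=
    ⟨pullback.fst h h', (Category.assoc _ _ _).symm⟩
  let q : SchemeHomOver (h'' ≫ baseMap k K) (h' ≫ baseMap k K) :=
    ⟨pullback.snd h h', by rw [← Category.assoc, ← pullback.condition]⟩
  let pair (s : SchemeHomOver (𝟙 (Spec (CommRingCat.of K))) h)
      (s' : SchemeHomOver (𝟙 (Spec (CommRingCat.of K))) h') :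
      SchemeHomOver (𝟙 (Spec (CommRingCat.of K))) h'' :=
    ⟨pullback.lift s.1 s'.1 (s.2.trans s'.2.symm), by
      rw [← Category.assoc, pullback.lift_fst, s.2]⟩
  have hp : ∀ s s', postComp p (secPt K (pair s s')) = secPt (k := k) K s := fun s s' =>
    Subtype.ext (pullback.lift_fst _ _ _)
  have hq : ∀ s s', postComp q (secPt K (pair s s')) = secPt (k := k) K s' := fun s s' =>
    Subtype.ext (pullback.lift_snd _ _ _)
  have key : ∀ s s', Pic.pullTop (baseChangeSnd c (secPt K (pair s s')))
      (Pic.pullTop (baseChangeSnd c p) α * Pic.pullTop (baseChangeSnd c q) α') =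
        Pic.pullTop (baseChangeSnd c (secPt K s)) α *
          Pic.pullTop (baseChangeSnd c (secPt K s')) α' := fun s s' => by
    rw [map_mul, Pic.pullTop_comp, Pic.pullTop_comp, baseChangeSnd_comp, baseChangeSnd_comp, hp,
      hq]
  exact ⟨_, h'', inferInstance, hgi, _, pair t₀ t₀', pair t₁ t₁',
    (key _ _).trans (by rw [h₀, h₀', one_mul]), (key _ _).trans (by rw [h₁, h₁'])⟩

/-- The comparison with algebraic equivalence of sheaves of modules. -/
theorem isAlgEquivZero_iff_aez {L : (pullback c (baseMap k K)).Modules}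
    (hL : Scheme.Modules.IsInvertible L) :
    IsAlgEquivZero (pullback.snd c (baseMap k K)) L ↔ AEZ c K (classOfModule L hL) := by
  let aK := pullback.snd c (baseMap k K)
  let j : pullback c (baseMap k K) ⟶ pullback aK (𝟙 (Spec (CommRingCat.of K))) :=
    pullback.lift (𝟙 _) aK (by simp)
  have hj : j ≫ pullback.fst aK (𝟙 _) = 𝟙 _ := pullback.lift_fst _ _ _
  have hj' : pullback.fst aK (𝟙 _) ≫ j = 𝟙 _ := by
    apply pullback.hom_ext
    · rw [Category.assoc, hj, Category.id_comp, Category.comp_id]
    · simp only [j, Category.assoc, pullback.lift_snd, Category.id_comp]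
      rw [pullback.condition, Category.comp_id]
  have inj : Function.Injective (Pic.pullTop j) := fun x y hxy => by
    have := congrArg (Pic.pullTop (pullback.fst aK (𝟙 _))) hxy
    simpa only [Pic.pullTop_comp, Pic.pullTop_congr hj', Pic.pullTop_id] using this
  have hfst : ∀ x, Pic.pullTop j (Pic.pullTop (pullback.fst aK (𝟙 _)) x) = x := fun x => by
    rw [Pic.pullTop_comp, Pic.pullTop_congr hj, Pic.pullTop_id]
  -- the two families over a base over `K`
  have key : ∀ {T : Scheme.{u}} (h : T ⟶ Spec (CommRingCat.of K))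
      (s : SchemeHomOver (𝟙 (Spec (CommRingCat.of K))) h),
      baseChangeSnd c (secPt K s) ≫ (pullbackLeftPullbackSndIso c (baseMap k K) h).inv =
        j ≫ baseChangeSnd aK s := by
    intro T h s
    rw [Iso.comp_inv_eq]
    have a1 : baseChangeSnd c (secPt (k := k) K s) ≫ pullback.fst c (h ≫ baseMap k K) =
        pullback.fst c (baseMap k K) :=
      (pullback.lift_fst _ _ _).trans (Category.comp_id _)
    have a2 : baseChangeSnd c (secPt (k := k) K s) ≫ pullback.snd c (h ≫ baseMap k K) =
        pullback.snd c (baseMap k K) ≫ s.1 :=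
      pullback.lift_snd _ _ _
    have b1 : baseChangeSnd aK s ≫ pullback.fst aK h = pullback.fst aK (𝟙 _) :=
      (pullback.lift_fst _ _ _).trans (Category.comp_id _)
    have b2 : baseChangeSnd aK s ≫ pullback.snd aK h = pullback.snd aK (𝟙 _) ≫ s.1 :=
      pullback.lift_snd _ _ _
    have c2 : j ≫ pullback.snd aK (𝟙 _) = aK := pullback.lift_snd _ _ _
    apply pullback.hom_ext
    · refine a1.trans ?_
      rw [Category.assoc, pullbackLeftPullbackSndIso_hom_fst, Category.assoc,
        ← Category.assoc (baseChangeSnd aK s), b1, ← Category.assoc, hj, Category.id_comp]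
    · refine a2.trans ?_
      rw [Category.assoc, pullbackLeftPullbackSndIso_hom_snd, Category.assoc, b2, ← Category.assoc,
        c2]
  constructor
  · rintro ⟨T, h, hl, hg, M, hM, t₀, t₁, ⟨e₀⟩, ⟨e₁⟩⟩
    refine ⟨T, h, hl, hg, Pic.pullTop (pullbackLeftPullbackSndIso c (baseMap k K) h).inv
      (classOfModule M hM), t₀, t₁, ?_, ?_⟩
    · rw [Pic.pullTop_comp, Pic.pullTop_congr (key h t₀), ← Pic.pullTop_comp,
        ← classOfModule_pullback, (classOfModule_eq_iff _ (Scheme.Modules.isInvertible_unit _)).mpr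
          ⟨e₀⟩, classOfModule_unit, map_one]
    · rw [Pic.pullTop_comp, Pic.pullTop_congr (key h t₁), ← Pic.pullTop_comp,
        ← classOfModule_pullback, (classOfModule_eq_iff _ (hL.pullback _)).mpr ⟨e₁⟩,
        classOfModule_pullback, hfst]
  · rintro ⟨T, h, hl, hg, α, t₀, t₁, h₀, h₁⟩
    let e := pullbackLeftPullbackSndIso c (baseMap k K) h
    obtain ⟨M, hM, hMα⟩ := classOfModule_surjective (Pic.pullTop e.hom α)
    have hcl : ∀ s, Pic.pullTop j (Pic.pullTop (baseChangeSnd aK s) (classOfModule M hM)) =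
        Pic.pullTop (baseChangeSnd c (secPt K s)) α := fun s => by
      rw [Pic.pullTop_comp, Pic.pullTop_congr (key h s).symm, hMα, Pic.pullTop_comp,
        Pic.pullTop_congr (show (baseChangeSnd c (secPt K s) ≫ e.inv) ≫ e.hom = _ by
          rw [Category.assoc, e.inv_hom_id, Category.comp_id])]
    refine ⟨T, h, hl, hg, M, hM, t₀, t₁, ?_, ?_⟩
    · refine (classOfModule_eq_iff (hM.pullback _) (Scheme.Modules.isInvertible_unit _)).mp (inj ?_)
      rw [classOfModule_pullback _ hM, classOfModule_unit, map_one, hcl, h₀]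
    · refine (classOfModule_eq_iff (hM.pullback _) (hL.pullback _)).mp (inj ?_)
      rw [classOfModule_pullback _ hM, classOfModule_pullback _ hL, hcl, h₁, hfst]

end FLTA.Jacobian
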