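import Fermat.Agent.Jacobian.AlgEquivDegree

/-!
# Fibrewise algebraic equivalence to zero is fibrewise degree zero (S25)
-/

set_option autoImplicit false
set_option linter.style.haveILetI false

universe u

open CategoryTheory CategoryTheory.Limits AlgebraicGeometry NeronModelInfra
  AlgebraicGeometry.RelPicard TopologicalSpace
open scoped FLTA.Jacobian.TwoCover FLTA.Jacobian.Triple

namespace FLTA.Jacobian

variable {k : Type u} [Field k] {C : Scheme.{u}} {c : C ⟶ Spec (CommRingCat.of k)}
  {ε : SchemeHomOver (𝟙 (Spec (CommRingCat.of k))) c}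
  {T : Scheme.{u}} {t : T ⟶ Spec (CommRingCat.of k)}

/-- The fibre at a point with values in a field is the curve over that field. -/
lemma isAlgEquivZero_fibre_iff {K : Type u} [Field K] [Algebra k K]
    (s : SchemeHomOver (baseMap k K) t) (L : (pullback c t).Modules) :
    IsAlgEquivZero (fibreAt c t s.1) ((Scheme.Modules.pullback (pullback.fst _ s.1)).obj L) ↔
      IsAlgEquivZero (pullback.snd c (baseMap k K))
        ((Scheme.Modules.pullback (baseChangeSnd c s)).obj L) := by
  let e := (isPullback_baseChangeSnd (c := c) s).isoPullback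
  have h1 : e.hom ≫ fibreAt c t s.1 = pullback.snd c (baseMap k K) :=
    (isPullback_baseChangeSnd (c := c) s).isoPullback_hom_snd
  have h2 : e.hom ≫ pullback.fst (pullback.snd c t) s.1 = baseChangeSnd c s :=
    (isPullback_baseChangeSnd (c := c) s).isoPullback_hom_fst
  constructor
  · exact fun h => (h.pullback e.hom h1).of_iso
      ((Scheme.Modules.pullbackComp _ _).app L ≪≫ (Scheme.Modules.pullbackCongr h2).app L)
  · exact fun h => (h.pullback e.inv (by rw [Iso.inv_comp_eq, h1])).of_iso
      ((Scheme.Modules.pullbackComp _ _).app L ≪≫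
        (Scheme.Modules.pullbackCongr (by rw [Iso.inv_comp_eq, h2])).app L)

variable [IsAlgClosed k] [IsProper c] [SmoothOfRelativeDimension 1 c] [IsIntegral C]

/-- Fibrewise algebraic equivalence to zero is fibrewise degree zero. -/
theorem fibrewiseAlgEquivZero_iff (cc : CurveCover c ε) (M : RigidifiedLineBundle c ε t)
    (a : RPic ε t) (ha : a.1 = classOfModule M.L M.isInvertible) :
    FibrewiseAlgEquivZero M ↔ IsDeg0 cc a := by
  have fib : ∀ (K : Type u) [Field K] [Algebra k K] (s : SchemeHomOver (baseMap k K) t),
      IsAlgEquivZero (fibreAt c t s.1) ((Scheme.Modules.pullback (pullback.fst _ s.1)).obj M.L) ↔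
        AEZ c K (rmap s a).1 := fun K _ _ s => by
    rw [isAlgEquivZero_fibre_iff, isAlgEquivZero_iff_aez (M.isInvertible.pullback _),
      classOfModule_pullback _ M.isInvertible, coe_rmap, ha]
  constructor
  · intro h K _ _ _ s
    exact degree_eq_zero_of_aez cc K ((fib K s).mp (h K s.1))
  · intro h K _ _ s
    algebraize_only [(Spec.preimage (s ≫ t)).hom]
    have hs : s ≫ t = baseMap k K := by
      rw [baseMap, RingHom.algebraMap_toAlgebra, CommRingCat.ofHom_hom, Spec.map_preimage]
    exact (fib K ⟨s, hs⟩).mpr (aez_of_degree_eq_zero cc K (h K ⟨s, hs⟩))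

end FLTA.Jacobian
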