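import Fermat.Agent.Jacobian.AlgEquivDegree

/-!
# A proper geometrically integral family through all classes of degree zero (S25)
-/

set_option autoImplicit false
set_option linter.style.haveILetI false

universe u

open CategoryTheory CategoryTheory.Limits AlgebraicGeometry NeronModelInfra
  AlgebraicGeometry.RelPicard TopologicalSpace
open scoped FLTA.Jacobian.TwoCover FLTA.Jacobian.Triple

namespace FLTA.Jacobian

variable {k : Type u} [Field k] [IsAlgClosed k] {C : Scheme.{u}} {c : C ⟶ Spec (CommRingCat.of k)}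
  {ε : SchemeHomOver (𝟙 (Spec (CommRingCat.of k))) c}
  [IsProper c] [SmoothOfRelativeDimension 1 c] [IsIntegral C]

/-- Products of the curve parametrise products of a fixed class at lists of points. -/
lemma exists_product_family (cc : CurveCover c ε) (θ₁ : RPic ε c) (h₁ : IsDeg0 cc θ₁) (n : ℕ) :
    ∃ (Z : Scheme.{u}) (z : Z ⟶ Spec (CommRingCat.of k)) (_ : IsProper z)
      (_ : GeometricallyIntegral z) (θ : RPic ε z), IsDeg0 cc θ ∧
        ∀ (K : Type u) [Field K] [Algebra k K] (l : List (SchemeHomOver (baseMap k K) c)),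
          l.length = n → ∃ s : SchemeHomOver (baseMap k K) z,
            rmap s θ = (l.map fun P => rmap P θ₁).prod := by
  induction n with
  | zero =>
    refine ⟨_, 𝟙 _, inferInstance, geometricallyIntegral_id_Spec k, 1, isDeg0_one,
      fun K _ _ l hl => ⟨⟨baseMap k K, Category.comp_id _⟩, ?_⟩⟩
    rw [List.length_eq_zero_iff.mp hl, List.map_nil, List.prod_nil, map_one]
  | succ n ih =>
    obtain ⟨Z, z, hzp, hzg, θ, hθ, hl⟩ := ih
    have : Subsingleton (Spec (CommRingCat.of k)) :=
      inferInstanceAs (Subsingleton (PrimeSpectrum k))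
    have : IsIntegral Z := GeometricallyIntegral.isIntegral_of_subsingleton z
    have : LocallyOfFiniteType c := locallyOfFiniteType_of_smooth c
    have : GeometricallyIntegral c := geometricallyIntegral_of_isIntegral c
    have : IsLocallyNoetherian Z := LocallyOfFiniteType.isLocallyNoetherian z
    have : IsIntegral (pullback c z) := inferInstance
    let z' : pullback c z ⟶ Spec (CommRingCat.of k) := pullback.snd c z ≫ z
    have : IsProper z' := inferInstanceAs (IsProper (pullback.snd c z ≫ z))
    let p : SchemeHomOver z' c := ⟨pullback.fst c z, pullback.condition⟩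
    let q : SchemeHomOver z' z := ⟨pullback.snd c z, rfl⟩
    refine ⟨_, z', ‹IsProper z'›, geometricallyIntegral_of_isIntegral z', rmap p θ₁ * rmap q θ,
      (h₁.rmap p).mul (hθ.rmap q), fun K _ _ l hn => ?_⟩
    obtain ⟨P, l', rfl⟩ := List.exists_cons_of_length_eq_add_one hn
    obtain ⟨s, hs⟩ := hl K l' (by simpa using hn)
    refine ⟨⟨pullback.lift P.1 s.1 (P.2.trans s.2.symm), by
      rw [← Category.assoc, pullback.lift_snd, s.2]⟩, ?_⟩
    rw [map_mul, rmap_rmap, rmap_rmap, List.map_cons, List.prod_cons, ← hs]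
    exact congrArg₂ (· * ·) (DFunLike.congr_fun (rmap_congr (pullback.lift_fst _ _ _)) θ₁)
      (DFunLike.congr_fun (rmap_congr (pullback.lift_snd _ _ _)) θ)

/-- One proper geometrically integral family contains every class of degree zero. -/
theorem exists_theta_family (cc : CurveCover c ε) :
    ∃ (Z : Scheme.{u}) (z : Z ⟶ Spec (CommRingCat.of k)) (_ : IsProper z)
      (_ : GeometricallyIntegral z) (θ : RPic ε z), IsDeg0 cc θ ∧
        ∀ (K : Type u) [Field K] [IsAlgClosed K] [Algebra k K] (a : RPic ε (baseMap k K)),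
          IsDeg0 cc a → ∃ s : SchemeHomOver (baseMap k K) z, rmap s θ = a := by
  obtain ⟨δ, hδ⟩ := exists_point_decomp cc
  let β : RPic ε c := rigidify ε δ
  let base₀ : SchemeHomOver c c :=
    ⟨c ≫ ε.1, by rw [Category.assoc, ε.2, Category.comp_id]⟩
  let θ₁ : RPic ε c := rmap base₀ β / β
  have key : ∀ (K : Type u) [Field K] [Algebra k K] (P : SchemeHomOver (baseMap k K) c),
      (rmap P θ₁).1 = Pic.pullTop (baseChangeSnd c (basePoint c ε K)) δ /
        Pic.pullTop (baseChangeSnd c P) δ := fun K _ _ P => by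
    have e : postComp base₀ P = basePoint c ε K :=
      Subtype.ext (by
        show P.1 ≫ c ≫ ε.1 = baseMap k K ≫ ε.1
        rw [← Category.assoc, P.2])
    rw [map_div, rmap_rmap, e, Subgroup.coe_div, rigidify_pull, rigidify_pull,
      rigidify_baseMap_field, rigidify_baseMap_field]
  have h₁ : IsDeg0 cc θ₁ := by
    intro K _ _ _ P
    obtain ⟨e⟩ := tripleOf_mul_iso cc (rmap P θ₁).1 (Pic.pullTop (baseChangeSnd c P) δ)
    have h := e.degree_eq
    rw [Triple.degree_tensor, key K P, div_mul_cancel, (hδ K).1, (hδ K).1, ← key K P] at h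
    show (tripleOf K cc (rmap P θ₁).1).degree = 0
    omega
  obtain ⟨Z, z, hzp, hzg, θ, hθ, hl⟩ := exists_product_family cc θ₁ h₁ cc.E.genus
  refine ⟨Z, z, hzp, hzg, θ, hθ, fun K _ _ _ a ha => ?_⟩
  obtain ⟨l, hn, hla⟩ := (hδ K).2 a.1 (by
    have := ha K ⟨𝟙 _, Category.id_comp _⟩
    rwa [triAt, rmap_id] at this)
  obtain ⟨s, hs⟩ := hl K l hn
  refine ⟨s, hs.trans (Subtype.ext ?_)⟩
  rw [Subgroup.val_list_prod, List.map_map, hla]
  exact congrArg List.prod (List.map_congr_left fun P _ => key K P)

end FLTA.Jacobian
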