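import Fermat.Agent.Jacobian.ChartUniv

/-!
# The universal chart
-/

set_option autoImplicit false
set_option maxHeartbeats 400000

universe u

open TensorProduct
open scoped FLTA.Jacobian.TwoCover FLTA.Jacobian.Triple

namespace FLTA.Jacobian

variable {k : Type u} [Field k]

/-- The tautological line bundle `O(D)`. -/
noncomputable def chartTriple (E : TwoCover k) {g : ℕ} (b : Fin g → E.A) :
    Triple E (ChartRing E b) :=
  (ChartRing.isChartData b).triple

/-- The tautological section of `chartTriple`. -/
noncomputable def chartSect (E : TwoCover k) {g : ℕ} (b : Fin g → E.A) : (chartTriple E b).H0 :=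
  (ChartRing.isChartData b).sect

theorem hasDivisor_chartSect (E : TwoCover k) {g : ℕ} (b : Fin g → E.A) :
    (chartTriple E b).HasDivisor b (chartSect E b) :=
  (ChartRing.isChartData b).hasDivisor

theorem evalIdeal_chartSect (E : TwoCover k) {g : ℕ} (b : Fin g → E.A) :
    evalIdeal (E.AR (ChartRing E b)) (chartSect E b).1.1 = (ChartRing.isChartData b).ideal :=
  (ChartRing.isChartData b).evalIdeal_sect

theorem isOpen_chartLocus (E : TwoCover k) {g : ℕ} (b : Fin g → E.A) :
    IsOpen {p : PrimeSpectrum (ChartRing E b) |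
      Triple.IsGood b ((chartTriple E b).bc p.asIdeal.ResidueField)} := by
  refine isOpen_iff_forall_mem_open.mpr fun p hp => ?_
  obtain ⟨f, hf, hU⟩ := Triple.IsGood.exists_away (K := p.asIdeal.ResidueField) p
    (Ideal.ker_algebraMap_residueField _) ((chartTriple E b).bcBaseChange _) hp
  refine ⟨PrimeSpectrum.basicOpen f, fun q hq => ?_, PrimeSpectrum.isOpen_basicOpen, hf⟩
  refine hU q.asIdeal.ResidueField (IsUnit.mk0 _ fun h0 => hq ?_) _
    ((chartTriple E b).bcBaseChange _)
  exact Ideal.algebraMap_residueField_eq_zero.mp h0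

/-- The set of points where the tautological bundle is good. -/
noncomputable def chartLocus (E : TwoCover k) {g : ℕ} (b : Fin g → E.A) :
    TopologicalSpace.Opens (PrimeSpectrum (ChartRing E b)) :=
  ⟨_, isOpen_chartLocus E b⟩

variable {E : TwoCover k} {g : ℕ} {b : Fin g → E.A}
variable {R : Type u} [CommRing R] [Algebra k R]

/-- The tautological bundle at an `R`-point. -/
noncomputable def chartTripleAt (φ : ChartRing E b →ₐ[k] R) : Triple E R :=
  letI := φ.toRingHom.toAlgebra
  haveI : IsScalarTower k (ChartRing E b) R :=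
    IsScalarTower.of_algebraMap_eq fun x => (φ.commutes x).symm
  (chartTriple E b).bc R

theorem chartTripleAt_baseChange {S : Type u} [CommRing S] [Algebra k S] [Algebra R S]
    [IsScalarTower k R S] (φ : ChartRing E b →ₐ[k] R) :
    Nonempty (Triple.BaseChange (chartTripleAt φ)
      (chartTripleAt ((IsScalarTower.toAlgHom k R S).comp φ))) := by
  let := φ.toRingHom.toAlgebra
  have : IsScalarTower k (ChartRing E b) R :=
    IsScalarTower.of_algebraMap_eq fun x => (φ.commutes x).symm
  let := ((IsScalarTower.toAlgHom k R S).comp φ).toRingHom.toAlgebra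
  have : IsScalarTower k (ChartRing E b) S := IsScalarTower.of_algebraMap_eq fun x =>
    (((IsScalarTower.toAlgHom k R S).comp φ).commutes x).symm
  have : IsScalarTower (ChartRing E b) R S := IsScalarTower.of_algebraMap_eq fun x => rfl
  exact ⟨((chartTriple E b).bcBaseChange R).descend ((chartTriple E b).bcBaseChange S)⟩

theorem isGood_chartTripleAt_iff (φ : ChartRing E b →ₐ[k] R) :
    Triple.IsGood b (chartTripleAt φ) ↔
      ∀ p : PrimeSpectrum R, PrimeSpectrum.comap φ.toRingHom p ∈ chartLocus E b := by
  let := φ.toRingHom.toAlgebra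
  have : IsScalarTower k (ChartRing E b) R :=
    IsScalarTower.of_algebraMap_eq fun x => (φ.commutes x).symm
  let T := chartTriple E b
  let bR := T.bcBaseChange R
  constructor
  · intro h p
    let K := p.asIdeal.ResidueField
    let := ((algebraMap R K).comp φ.toRingHom).toAlgebra
    have : IsScalarTower (ChartRing E b) R K := IsScalarTower.of_algebraMap_eq fun x => rfl
    have : IsScalarTower k (ChartRing E b) K := IsScalarTower.of_algebraMap_eq fun x => by
      change algebraMap k K x = algebraMap R K (φ (algebraMap k (ChartRing E b) x))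
      rw [φ.commutes, ← IsScalarTower.algebraMap_apply]
    let q := PrimeSpectrum.comap φ.toRingHom p
    have hgood : Triple.IsGood b (T.bc K) :=
      Triple.IsGood.baseChange (T := T.bc R) h (bR.descend (T.bcBaseChange K))
    have hK : RingHom.ker (algebraMap (ChartRing E b) K) = q.asIdeal := by
      ext x
      exact Ideal.algebraMap_residueField_eq_zero
    obtain ⟨f, hf, hU⟩ :=
      Triple.IsGood.exists_away (T := T) q hK (T.bcBaseChange K) hgood
    exact hU q.asIdeal.ResidueField
      (IsUnit.mk0 _ fun h0 => hf (Ideal.algebraMap_residueField_eq_zero.mp h0)) _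
      (T.bcBaseChange _)
  · intro h
    refine Triple.IsGood.of_fibres (T := T.bc R)
      ⟨_, Triple.GeneratesAtε.baseChange bR (ChartRing.isChartData b).sect_generates⟩ ?_
    intro K _ _ _ _ TK bK
    let := ((algebraMap R K).comp φ.toRingHom).toAlgebra
    have : IsScalarTower (ChartRing E b) R K := IsScalarTower.of_algebraMap_eq fun x => rfl
    have : IsScalarTower k (ChartRing E b) K := IsScalarTower.of_algebraMap_eq fun x => by
      change algebraMap k K x = algebraMap R K (φ (algebraMap k (ChartRing E b) x))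
      rw [φ.commutes, ← IsScalarTower.algebraMap_apply]
    let p : PrimeSpectrum R := ⟨RingHom.ker (algebraMap R K), RingHom.ker_isPrime _⟩
    let q := PrimeSpectrum.comap φ.toRingHom p
    obtain ⟨f, hf, hU⟩ := Triple.IsGood.exists_away (T := T) (K := q.asIdeal.ResidueField) q
      (Ideal.ker_algebraMap_residueField _) (T.bcBaseChange _) (h p)
    exact hU K (IsUnit.mk0 _ fun h0 => hf h0) TK (bR.trans bK)

theorem bcA_chartProj (φ : ChartRing E b →ₐ[k] R) {π : E.AR R →ₗ[R] (Fin g → R)}
    (hπ : ∀ a i, φ (ChartRing.proj b a i) = π ((1 : R) ⊗ₜ[k] a) i) :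
    letI := φ.toRingHom.toAlgebra
    haveI : IsScalarTower k (ChartRing E b) R :=
      IsScalarTower.of_algebraMap_eq fun x => (φ.commutes x).symm
    ∀ x i, π (E.bcA (ChartRing E b) R x) i =
      φ (chartProj (ChartRing.proj b) x i) := by
  let := φ.toRingHom.toAlgebra
  have : IsScalarTower k (ChartRing E b) R :=
    IsScalarTower.of_algebraMap_eq fun x => (φ.commutes x).symm
  intro x i
  induction x using TensorProduct.induction_on with
  | zero => simp
  | add x y hx hy => simp only [map_add, Pi.add_apply, hx, hy]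
  | tmul r a =>
    rw [LinearMap.liftBaseChange_tmul, Pi.smul_apply, smul_eq_mul, map_mul, hπ]
    have : E.bcA (ChartRing E b) R (r ⊗ₜ a) = φ r • ((1 : R) ⊗ₜ[k] a) := by
      rw [TensorProduct.smul_tmul', smul_eq_mul, mul_one]
      rfl
    rw [this, map_smul, Pi.smul_apply, smul_eq_mul]

theorem existsUnique_chartTripleAt {T : Triple E R} (h : Triple.IsGood b T) :
    ∃! φ : ChartRing E b →ₐ[k] R, Nonempty (Triple.Iso (chartTripleAt φ) T) := by
  obtain ⟨-, σ, hσ, hd⟩ := Triple.isGood_iff.mp h
  obtain ⟨π, hker, hπ⟩ := hd.2.exists_proj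
  let π₀ : E.A →ₗ[k] (Fin g → R) := π.restrictScalars k ∘ₗ
    (Algebra.TensorProduct.includeRight (R := k) (A := R) (B := E.A)).toLinearMap
  have hπ₀ : IsChartData b π₀ := by
    refine ⟨hπ, fun a c => ?_⟩
    have hc : (1 : R) ⊗ₜ[k] c - ∑ j, π₀ c j • Triple.bR R b j ∈
        evalIdeal (E.AR R) σ.1.1 :=
      hker.le (LinearMap.mem_ker.mpr (by
        rw [map_sub, IsBasisMod.proj_sum hπ]; exact sub_self _))
    have h1 := LinearMap.mem_ker.mp (hker.ge (Ideal.mul_mem_left _ ((1 : R) ⊗ₜ[k] a) hc))
    rw [mul_sub, map_sub, sub_eq_zero, Finset.mul_sum, map_sum] at h1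
    simp only [mul_smul_comm, map_smul, Triple.bR, Algebra.TensorProduct.tmul_mul_tmul,
      one_mul] at h1
    exact h1
  refine ⟨ChartRing.lift hπ₀, ?_, fun ψ hψ => ?_⟩
  · let φ := ChartRing.lift hπ₀
    let := φ.toRingHom.toAlgebra
    have : IsScalarTower k (ChartRing E b) R :=
      IsScalarTower.of_algebraMap_eq fun x => (φ.commutes x).symm
    let bc := (chartTriple E b).bcBaseChange R
    have hx := Triple.HasDivisor.baseChange (hasDivisor_chartSect E b) bc
    refine Triple.GeneratesAtε.nonempty_iso (T₁ := (chartTriple E b).bc R) hx.1 hd.1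
      (IsBasisMod.eq_of_le hx.2 hd.2 ?_)
    change evalIdeal (E.AR R) (bc.fM (chartSect E b).1.1) ≤ _
    rw [evalIdeal_map bc.fM bc.gen, evalIdeal_chartSect,
      Ideal.map_le_iff_le_comap]
    intro z hz
    refine hker.le (LinearMap.mem_ker.mpr (funext fun i => ?_))
    refine (bcA_chartProj φ (fun a j => ChartRing.lift_proj hπ₀ a j) z i).trans ?_
    rw [(ChartRing.isChartData b).mem_ideal.mp hz, Pi.zero_apply, map_zero]
    rfl
  · obtain ⟨e⟩ := hψ
    refine ChartRing.algHom_ext fun a i => ?_
    rw [ChartRing.lift_proj hπ₀]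
    let := ψ.toRingHom.toAlgebra
    have : IsScalarTower k (ChartRing E b) R :=
      IsScalarTower.of_algebraMap_eq fun x => (ψ.commutes x).symm
    let bc : Triple.BaseChange (chartTriple E b) T :=
      ((chartTriple E b).bcBaseChange R).congrRight e
    have hx := Triple.HasDivisor.baseChange (hasDivisor_chartSect E b) bc
    obtain ⟨c, hc⟩ := Submodule.mem_span_singleton.mp
      (hσ.ge (Submodule.mem_top (x := bc.sect (chartSect E b))))
    obtain ⟨ℓ, -, hℓ, -⟩ := hx.1.exists_functional
    have hcu : IsUnit c := by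
      refine IsUnit.of_mul_eq_one (ℓ σ.1.2) ?_
      rw [← smul_eq_mul, ← map_smul]
      exact (congrArg (fun w : T.H0 => ℓ w.1.2) hc).trans hℓ
    have hle : evalIdeal (E.AR R) (bc.fM (chartSect E b).1.1) ≤
        evalIdeal (E.AR R) σ.1.1 := by
      have he : c • σ.1.1 = bc.fM (chartSect E b).1.1 :=
        congrArg (fun w : T.H0 => w.1.1) hc
      rw [← he]
      rintro _ ⟨f, rfl⟩
      refine ⟨algebraMap R (E.AR R) c • f, ?_⟩
      change algebraMap R (E.AR R) c * f σ.1.1 = f (c • σ.1.1)
      rw [← algebraMap_smul (E.AR R) c σ.1.1, map_smul, smul_eq_mul]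
    rw [evalIdeal_map bc.fM bc.gen, evalIdeal_chartSect] at hle
    let z : E.AR (ChartRing E b) := (1 : ChartRing E b) ⊗ₜ[k] a -
      ∑ j, ChartRing.proj b a j • Triple.bR (ChartRing E b) b j
    have hz : z ∈ (ChartRing.isChartData b).ideal := by
      rw [IsChartData.mem_ideal, map_sub,
        IsBasisMod.proj_sum (ChartRing.isChartData b).proj_bR]
      simp
    have h1 := LinearMap.mem_ker.mp (hker.ge (hle (Ideal.mem_map_of_mem _ hz)))
    have h2 : (E.bcA (ChartRing E b) R).toRingHom z =
        (1 : R) ⊗ₜ[k] a - ∑ j, ψ (ChartRing.proj b a j) • Triple.bR R b j := by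
      simp [z, TwoCover.bcA, Triple.bR, TensorProduct.smul_tmul', RingHom.algebraMap_toAlgebra]
    rw [h2, map_sub, IsBasisMod.proj_sum hπ, sub_eq_zero] at h1
    exact (congrFun h1 i).symm

end FLTA.Jacobian
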