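import Fermat.Agent.Jacobian.AssembleTriple
import Fermat.Agent.Jacobian.ChartRing

/-!
# Fibrewise conditions: degree zero and the chart conditions (S25, assembly).
-/

set_option autoImplicit false
set_option linter.style.haveILetI false

universe u

open CategoryTheory CategoryTheory.Limits AlgebraicGeometry NeronModelInfra
  AlgebraicGeometry.RelPicard TopologicalSpace
open scoped FLTA.Jacobian.TwoCover FLTA.Jacobian.Triple

namespace FLTA.Jacobian

variable {k : Type u} [Field k] {C : Scheme.{u}} {c : C ⟶ Spec (CommRingCat.of k)}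
  {ε : SchemeHomOver (𝟙 (Spec (CommRingCat.of k))) c} (cc : CurveCover c ε)
  {T T' : Scheme.{u}} {t : T ⟶ Spec (CommRingCat.of k)} {t' : T' ⟶ Spec (CommRingCat.of k)}

/-- Every point with values in `K` factors through any member of an open cover that meets its
image. -/
lemma exists_lift_point {K : Type u} [Field K] [Algebra k K] (j : T' ⟶ T) [IsOpenImmersion j]
    (s : SchemeHomOver (baseMap k K) t) (hs : s.1.base (IsLocalRing.closedPoint K) ∈ j.opensRange) :
    ∃ s' : SchemeHomOver (baseMap k K) (j ≫ t), postComp (overHom j) s' = s := by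
  have hr : Set.range s.1 ⊆ Set.range j := by
    rintro _ ⟨y, rfl⟩
    rw [Subsingleton.elim y (IsLocalRing.closedPoint K)]
    exact hs
  exact ⟨⟨IsOpenImmersion.lift j s.1 hr, by rw [← Category.assoc, IsOpenImmersion.lift_fac, s.2]⟩,
    Subtype.ext (IsOpenImmersion.lift_fac _ _ _)⟩

/-- Geometric points have an algebraic closure above them. -/
lemma exists_point_of_mem (x : T) :
    ∃ (K : Type u) (_ : Field K) (_ : IsAlgClosed K) (_ : Algebra k K)
      (s : SchemeHomOver (baseMap k K) t), s.1.base (IsLocalRing.closedPoint K) = x := by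
  let F := T.residueField x
  let K := AlgebraicClosure F
  let f : Spec (CommRingCat.of K) ⟶ T :=
    Spec.map (CommRingCat.ofHom (algebraMap F K)) ≫ T.fromSpecResidueField x
  letI : Algebra k K := (Spec.preimage (f ≫ t)).hom.toAlgebra
  refine ⟨K, inferInstance, inferInstance, inferInstance, ⟨f, ?_⟩, ?_⟩
  · rw [baseMap, RingHom.algebraMap_toAlgebra, CommRingCat.ofHom_hom, Spec.map_preimage]
  · simp only [f, Scheme.Hom.comp_base, TopCat.coe_comp]
    exact Scheme.fromSpecResidueField_apply _ _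

/-- Degree zero on all geometric fibres. -/
def IsDeg0 (a : RPic ε t) : Prop :=
  ∀ (K : Type u) [Field K] [IsAlgClosed K] [Algebra k K] (s : SchemeHomOver (baseMap k K) t),
    (triAt cc s a).degree = 0

variable {cc}

lemma IsDeg0.degree_eq {a : RPic ε t} (h : IsDeg0 cc a) (K : Type u) [Field K] [Algebra k K]
    (s : SchemeHomOver (baseMap k K) t) : (triAt cc s a).degree = 0 := by
  obtain ⟨b⟩ := triAt_baseChange cc (S := AlgebraicClosure K) s a
  rw [← b.degree_eq]
  exact h _ _

lemma IsDeg0.rmap {a : RPic ε t} (h : IsDeg0 cc a) (ψ : SchemeHomOver t' t) :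
    IsDeg0 cc (rmap ψ a) := by
  intro K _ _ _ s
  rw [triAt_rmap]
  exact h _ _

lemma isDeg0_of_cover {a : RPic ε t} (𝒰 : Scheme.OpenCover.{u} T)
    (h : ∀ i, IsDeg0 cc (rmap (coverHom 𝒰 t i) a)) : IsDeg0 cc a := by
  intro K _ _ _ s
  obtain ⟨i, hi⟩ := cover_mem 𝒰 (s.1.base (IsLocalRing.closedPoint K))
  obtain ⟨s', hs'⟩ := exists_lift_point (𝒰.f i) s hi
  have := h i K s'
  rw [triAt_rmap] at this
  rwa [hs'] at this

lemma isDeg0_one : IsDeg0 cc (1 : RPic ε t) := by
  intro K _ _ _ s
  simp only [triAt, map_one, OneMemClass.coe_one]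
  rw [(tripleOf_one cc).some.degree_eq, Triple.degree_one]

lemma IsDeg0.mul {a b : RPic ε t} (ha : IsDeg0 cc a) (hb : IsDeg0 cc b) : IsDeg0 cc (a * b) := by
  intro K _ _ _ s
  rw [← (triAt_mul cc s a b).some.degree_eq, Triple.degree_tensor, ha K s, hb K s, add_zero]

lemma IsDeg0.inv {a : RPic ε t} (ha : IsDeg0 cc a) : IsDeg0 cc a⁻¹ := by
  intro K _ _ _ s
  have h := (triAt_mul cc s a a⁻¹).some.degree_eq
  rw [Triple.degree_tensor, ha K s, zero_add, mul_inv_cancel] at h
  rw [h]
  exact isDeg0_one K s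

variable (cc) in
/-- The subgroup of classes of degree zero. -/
noncomputable def RPic0 (t : T ⟶ Spec (CommRingCat.of k)) : Subgroup (RPic ε t) where
  carrier := {a | IsDeg0 cc a}
  one_mem' := isDeg0_one
  mul_mem' := IsDeg0.mul
  inv_mem' := IsDeg0.inv

lemma mem_rPic0 {a : RPic ε t} : a ∈ RPic0 cc t ↔ IsDeg0 cc a := Iff.rfl

/-- Over a field every class on the point is trivial. -/
lemma pic_point_eq_one {X : Scheme.{u}} [Subsingleton X] (a : Pic X ⊤) : a = 1 := by
  induction a using Pic.cls_ind with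
  | _ c =>
    rw [← cls_one, cls_eq_iff]
    by_cases hX : Nonempty X
    · obtain ⟨x⟩ := hX
      obtain ⟨i₀, hi₀⟩ := c.cover x trivial
      have hV : ∀ (W : X.Opens), W ≤ c.U i₀ := fun W y _ => Subsingleton.elim x y ▸ hi₀
      exact ⟨{
        h := fun i _ W hi _ => c.g i i₀ W hi (hV W)
        h_res := fun i _ W W' hi _ h => c.g_res _ _ _ _ _ _ _
        h_unit := fun i _ W hi _ => c.isUnit_g _ _ _ _ _
        h_left := fun i i' _ W hi hi' _ => c.g_mul _ _ _ _ _ _ _
        h_right := fun i _ _ W hi _ _ => mul_one _ }⟩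
    · exact ⟨{
        h := fun i _ _ _ _ => (hX ⟨i.1⟩).elim
        h_res := fun i _ _ _ _ _ _ => (hX ⟨i.1⟩).elim
        h_unit := fun i _ _ _ _ => (hX ⟨i.1⟩).elim
        h_left := fun i _ _ _ _ _ _ => (hX ⟨i.1⟩).elim
        h_right := fun i _ _ _ _ _ _ => (hX ⟨i.1⟩).elim }⟩

variable (cc)

/-- The class over `k` by which a chart is translated. -/
noncomputable def nClass (m : ℕ) (xs : List (cc.E.A →ₐ[k] k)) : RPic ε (baseMap k k) :=
  ⟨(exists_tripleOf k cc (Triple.modify cc.E (Triple.one cc.E k) m xs)).choose,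
    mem_rPic.mpr (pic_point_eq_one _)⟩

/-- Translate by the constant class. -/
noncomputable def shift (m : ℕ) (xs : List (cc.E.A →ₐ[k] k)) (a : RPic ε t) : RPic ε t :=
  a * rmap (toBasePt t) (nClass cc m xs)

/-- Translate back. -/
noncomputable def unshift (m : ℕ) (xs : List (cc.E.A →ₐ[k] k)) (a : RPic ε t) : RPic ε t :=
  a / rmap (toBasePt t) (nClass cc m xs)

lemma shift_unshift (m : ℕ) (xs : List (cc.E.A →ₐ[k] k)) (a : RPic ε t) :
    shift cc m xs (unshift cc m xs a) = a := div_mul_cancel _ _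

lemma unshift_shift (m : ℕ) (xs : List (cc.E.A →ₐ[k] k)) (a : RPic ε t) :
    unshift cc m xs (shift cc m xs a) = a := mul_div_cancel_right _ _

lemma rmap_toBasePt (ψ : SchemeHomOver t' t) (a : RPic ε (baseMap k k)) :
    rmap ψ (rmap (toBasePt t) a) = rmap (toBasePt t') a := by
  rw [rmap_rmap]
  exact DFunLike.congr_fun (rmap_congr (by simp [postComp, toBasePt, ψ.2])) a

lemma rmap_shift (ψ : SchemeHomOver t' t) (m : ℕ) (xs : List (cc.E.A →ₐ[k] k)) (a : RPic ε t) :
    rmap ψ (shift cc m xs a) = shift cc m xs (rmap ψ a) := by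
  rw [shift, shift, map_mul, rmap_toBasePt]

lemma rmap_unshift (ψ : SchemeHomOver t' t) (m : ℕ) (xs : List (cc.E.A →ₐ[k] k))
    (a : RPic ε t) : rmap ψ (unshift cc m xs a) = unshift cc m xs (rmap ψ a) := by
  rw [unshift, unshift, map_div, rmap_toBasePt]

/-- The triple of a translated class is the modified triple. -/
theorem triAt_shift {R : Type u} [CommRing R] [Algebra k R] (s : SchemeHomOver (baseMap k R) t)
    (m : ℕ) (xs : List (cc.E.A →ₐ[k] k)) (a : RPic ε t) :
    Nonempty (Triple.Iso ((triAt cc s a).modify cc.E m xs) (triAt cc s (shift cc m xs a))) := by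
  obtain ⟨e1⟩ := triAt_mul cc s a (rmap (toBasePt t) (nClass cc m xs))
  have hn := (exists_tripleOf k cc (Triple.modify cc.E (Triple.one cc.E k) m xs)).choose_spec
  obtain ⟨eN⟩ := hn
  obtain ⟨bN⟩ := tripleOf_pull k cc R (nClass cc m xs).1
  have hcl : (rmap s (rmap (toBasePt t) (nClass cc m xs))).1 =
      Pic.pullTop (baseChangeSnd c (baseHom k R)) (nClass cc m xs).1 := by
    rw [rmap_rmap, coe_rmap]
    refine Pic.pullTop_congr (congrArg (baseChangeSnd c) (Subtype.ext ?_)) _
    change s.1 ≫ t = baseMap k R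
    exact s.2
  have e2 : Nonempty (Triple.Iso ((Triple.modify cc.E (Triple.one cc.E k) m xs).bc R)
      (triAt cc s (rmap (toBasePt t) (nClass cc m xs)))) := by
    rw [triAt, hcl]
    exact ⟨Triple.BaseChange.iso (Triple.bcBaseChange _ R) (bN.congrLeft eN.symm)⟩
  let e3 := (Triple.BaseChange.iso (Triple.BaseChange.refl (triAt cc s a))
    (Triple.BaseChange.refl (triAt cc s a))).tensor e2.some
  obtain ⟨e4⟩ := Triple.modifyIso (triAt cc s a) m xs
  exact ⟨(e4.trans e3).trans e1⟩

variable {g : ℕ}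

/-- The chart condition at one geometric point. -/
def GoodAt (m : ℕ) (xs : List (cc.E.A →ₐ[k] k)) (b : Fin g → cc.E.A) (a : RPic ε t)
    {K : Type u} [Field K] [Algebra k K] (s : SchemeHomOver (baseMap k K) t) : Prop :=
  Triple.IsGood b (triAt cc s (shift cc m xs a))

/-- All geometric fibres satisfy the chart condition. -/
def GoodFib (m : ℕ) (xs : List (cc.E.A →ₐ[k] k)) (b : Fin g → cc.E.A) (a : RPic ε t) : Prop :=
  ∀ (K : Type u) [Field K] [IsAlgClosed K] [Algebra k K] (s : SchemeHomOver (baseMap k K) t),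
    GoodAt cc m xs b a s

variable {cc} {m : ℕ} {xs : List (cc.E.A →ₐ[k] k)} {b : Fin g → cc.E.A}

lemma goodAt_rmap (ψ : SchemeHomOver t' t) (a : RPic ε t) {K : Type u} [Field K] [Algebra k K]
    (s : SchemeHomOver (baseMap k K) t') :
    GoodAt cc m xs b (rmap ψ a) s ↔ GoodAt cc m xs b a (postComp ψ s) := by
  rw [GoodAt, GoodAt, ← rmap_shift, triAt_rmap]

lemma GoodFib.rmap {a : RPic ε t} (h : GoodFib cc m xs b a) (ψ : SchemeHomOver t' t) :
    GoodFib cc m xs b (rmap ψ a) :=
  fun K _ _ _ s => (goodAt_rmap ψ a s).mpr (h K _)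

lemma goodAt_baseChange {a : RPic ε t} {R : Type u} [CommRing R] [Algebra k R]
    (s : SchemeHomOver (baseMap k R) t) (h : Triple.IsGood b (triAt cc s (shift cc m xs a)))
    (K : Type u) [Field K] [Algebra k K] (φ : R →ₐ[k] K) :
    GoodAt cc m xs b a (postComp s (algOver φ)) := by
  letI := φ.toRingHom.toAlgebra
  haveI : IsScalarTower k R K := IsScalarTower.of_algebraMap_eq fun x => (φ.commutes x).symm
  obtain ⟨bc⟩ := triAt_baseChange cc (S := K) s (shift cc m xs a)
  have : baseHom (k := k) R K = algOver φ := Subtype.ext rfl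
  rw [this] at bc
  exact h.baseChange bc

/-- Near a good point over an affine base all points are good. -/
lemma exists_away_goodAt {a : RPic ε t} {R : Type u} [CommRing R] [Algebra k R]
    (s : SchemeHomOver (baseMap k R) t) (K : Type u) [Field K] [Algebra k K] (φ : R →ₐ[k] K)
    (h : GoodAt cc m xs b a (postComp s (algOver φ))) :
    ∃ f : R, φ f ≠ 0 ∧ ∀ (U : Type u) [CommRing U] [Algebra k U] (ψ : R →ₐ[k] U),
      IsUnit (ψ f) → Triple.IsGood b (triAt cc (postComp s (algOver ψ)) (shift cc m xs a)) := by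
  letI := φ.toRingHom.toAlgebra
  haveI : IsScalarTower k R K := IsScalarTower.of_algebraMap_eq fun x => (φ.commutes x).symm
  obtain ⟨bc⟩ := triAt_baseChange cc (S := K) s (shift cc m xs a)
  have e : baseHom (k := k) R K = algOver φ := Subtype.ext rfl
  rw [e] at bc
  have : (RingHom.ker (algebraMap R K)).IsPrime := RingHom.ker_isPrime _
  obtain ⟨f, hf, hU⟩ :=
    Triple.IsGood.exists_away ⟨RingHom.ker (algebraMap R K), this⟩ rfl bc h
  refine ⟨f, fun h0 => hf h0, fun U _ _ ψ hψ => ?_⟩
  letI := ψ.toRingHom.toAlgebra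
  haveI : IsScalarTower k R U := IsScalarTower.of_algebraMap_eq fun x => (ψ.commutes x).symm
  obtain ⟨bcU⟩ := triAt_baseChange cc (S := U) s (shift cc m xs a)
  have eU : baseHom (k := k) R U = algOver ψ := Subtype.ext rfl
  rw [eU] at bcU
  exact hU U hψ _ bcU

/-- Fibrewise good over an affine base is good. -/
theorem isGood_of_goodFib {a : RPic ε t} {R : Type u} [CommRing R] [Algebra k R]
    (s : SchemeHomOver (baseMap k R) t) (h : GoodFib cc m xs b a) :
    Triple.IsGood b (triAt cc s (shift cc m xs a)) := by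
  refine Triple.IsGood.of_fibres (exists_generatesAtε cc s _) ?_
  intro K _ _ _ _ TK bTK
  let φ := IsScalarTower.toAlgHom k R K
  let L := AlgebraicClosure K
  obtain ⟨f, hf, hU⟩ := exists_away_goodAt s L ((IsScalarTower.toAlgHom k K L).comp φ) (h L _)
  have hK : IsUnit (φ f) := IsUnit.mk0 _ fun h0 => hf (by simp [h0])
  obtain ⟨bK⟩ := triAt_baseChange cc (S := K) s (shift cc m xs a)
  rw [baseHom_eq_algOver] at bK
  exact (hU K φ hK).of_iso (bK.iso bTK)

end FLTA.Jacobian
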