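import Fermat.Agent.Jacobian.AssembleChart

/-!
# The Zariski sheaf of degree zero rigidified classes and its representability (S25, assembly).
-/

set_option autoImplicit false
set_option linter.style.haveILetI false

universe u

open CategoryTheory CategoryTheory.Limits AlgebraicGeometry NeronModelInfra
  AlgebraicGeometry.RelPicard TopologicalSpace Opposite
open scoped FLTA.Jacobian.TwoCover FLTA.Jacobian.Triple

namespace FLTA.Jacobian

attribute [local irreducible] Pic.pull rmap rigidify chartClass goodLocus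

variable {k : Type u} [Field k] {C : Scheme.{u}} {c : C ⟶ Spec (CommRingCat.of k)}
  {ε : SchemeHomOver (𝟙 (Spec (CommRingCat.of k))) c} (cc : CurveCover c ε)

/-- A structure map together with a class of degree zero. -/
structure JacPt (T : Scheme.{u}) : Type u where
  /-- The structure map. -/
  fst : T ⟶ Spec (CommRingCat.of k)
  /-- The class. -/
  snd : RPic0 cc fst

/-- Identity over a changed structure map. -/
def castHom {T : Scheme.{u}} {t t' : T ⟶ Spec (CommRingCat.of k)} (e : t' = t) :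
    SchemeHomOver t' t := ⟨𝟙 T, by rw [Category.id_comp, e]⟩

variable {cc}

lemma JacPt.ext' {T : Scheme.{u}} {x y : JacPt cc T} (e : x.fst = y.fst)
    (h : rmap (castHom e) y.snd.1 = x.snd.1) : x = y := by
  obtain ⟨t, a⟩ := x
  obtain ⟨t', a'⟩ := y
  dsimp only at e
  subst e
  have : a' = a := Subtype.ext (by rw [← h]; exact (rmap_id a'.1).symm)
  rw [this]

variable (cc)

/-- Pullback of points of the functor. -/
noncomputable def JacPt.map {T T' : Scheme.{u}} (f : T' ⟶ T) (x : JacPt cc T) : JacPt cc T' :=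
  ⟨f ≫ x.fst, ⟨rmap (overHom (t := x.fst) f) x.snd.1, x.snd.2.rmap _⟩⟩

lemma JacPt.map_id_apply {T : Scheme.{u}} (x : JacPt cc T) : JacPt.map cc (𝟙 T) x = x := by
  refine JacPt.ext' (Category.id_comp x.fst) ?_
  dsimp only [JacPt.map]
  exact DFunLike.congr_fun (rmap_congr rfl) _

lemma JacPt.map_map {T T' T'' : Scheme.{u}} (f : T' ⟶ T) (g : T'' ⟶ T') (x : JacPt cc T) :
    JacPt.map cc g (JacPt.map cc f x) = JacPt.map cc (g ≫ f) x := by
  refine JacPt.ext' (Category.assoc g f x.fst).symm ?_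
  dsimp only [JacPt.map]
  refine (rmap_rmap _ _ _).trans (Eq.trans ?_ (rmap_rmap _ _ _).symm)
  refine DFunLike.congr_fun (rmap_congr ?_) _
  simp only [postComp, castHom, overHom, Category.id_comp]

/-- The functor of degree zero rigidified classes on all schemes. -/
noncomputable def jacPresheaf : Scheme.{u}ᵒᵖ ⥤ Type u where
  obj T := JacPt cc T.unop
  map f := TypeCat.ofHom (JacPt.map cc f.unop)
  map_id T := TypeCat.homEquiv.injective (funext fun x => JacPt.map_id_apply cc x)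
  map_comp f g := TypeCat.homEquiv.injective
    (funext fun x => (JacPt.map_map cc f.unop g.unop x).symm)

lemma jacPresheaf_map_apply {T T' : Scheme.{u}} (f : T' ⟶ T) (x : JacPt cc T) :
    (jacPresheaf cc).map f.op x = JacPt.map cc f x := rfl

lemma JacPt.cls_congr {T : Scheme.{u}} {z : T ⟶ Spec (CommRingCat.of k)} {p q : JacPt cc T}
    (e : p = q) (hp : z = p.fst) (hq : z = q.fst) :
    rmap (castHom hp) p.snd.1 = rmap (castHom hq) q.snd.1 := by
  subst e; rfl

lemma JacPt.rmap_castHom_map {T T' : Scheme.{u}} {z : T' ⟶ Spec (CommRingCat.of k)} (g : T' ⟶ T)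
    (x : JacPt cc T) (h : g ≫ x.fst = z) :
    rmap (castHom (t' := z) (t := g ≫ x.fst) h.symm) (JacPt.map cc g x).2.1 =
      rmap (⟨g, h⟩ : SchemeHomOver z x.fst) x.snd.1 :=
  (rmap_rmap (overHom (t := x.fst) g) (castHom h.symm) x.snd.1).trans
    (DFunLike.congr_fun (rmap_congr (Category.id_comp g)) _)

lemma JacPt.rmap_eq_of_map_eq {T₁ T₂ T' : Scheme.{u}} {z : T' ⟶ Spec (CommRingCat.of k)}
    {g₁ : T' ⟶ T₁} {g₂ : T' ⟶ T₂} {x : JacPt cc T₁} {y : JacPt cc T₂}
    (e : JacPt.map cc g₁ x = JacPt.map cc g₂ y) (h₁ : g₁ ≫ x.fst = z) (h₂ : g₂ ≫ y.fst = z) :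
    rmap (⟨g₁, h₁⟩ : SchemeHomOver z x.fst) x.snd.1 = rmap (⟨g₂, h₂⟩ : SchemeHomOver z y.fst) y.snd.1 :=
  (JacPt.rmap_castHom_map cc g₁ x h₁).symm.trans
    ((JacPt.cls_congr cc e h₁.symm h₂.symm).trans (JacPt.rmap_castHom_map cc g₂ y h₂))

lemma JacPt.cast_compat {T₁ T₂ T' : Scheme.{u}} {z : T' ⟶ Spec (CommRingCat.of k)}
    {t₁ : T₁ ⟶ Spec (CommRingCat.of k)} {t₂ : T₂ ⟶ Spec (CommRingCat.of k)}
    {x : JacPt cc T₁} {y : JacPt cc T₂} (e₁ : t₁ = x.fst) (e₂ : t₂ = y.fst)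
    (g₁ : SchemeHomOver z t₁) (g₂ : SchemeHomOver z t₂)
    (e : JacPt.map cc g₁.1 x = JacPt.map cc g₂.1 y) :
    rmap g₁ (rmap (castHom e₁) x.snd.1) = rmap g₂ (rmap (castHom e₂) y.snd.1) := by
  subst e₁ e₂
  exact (congrArg (rmap g₁) (rmap_id x.snd.1)).trans
    ((JacPt.rmap_eq_of_map_eq cc e g₁.2 g₂.2).trans (congrArg (rmap g₂) (rmap_id y.snd.1)).symm)

lemma JacPt.map_eq_map {T₁ T₂ T' : Scheme.{u}} (x : JacPt cc T₁) (y : JacPt cc T₂)
    (g₁ : T' ⟶ T₁) (g₂ : T' ⟶ T₂) (e : g₁ ≫ x.fst = g₂ ≫ y.fst)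
    (h : rmap (⟨g₁, e⟩ : SchemeHomOver (g₂ ≫ y.fst) x.fst) x.snd.1 =
      rmap (overHom (t := y.fst) g₂) y.snd.1) :
    JacPt.map cc g₁ x = JacPt.map cc g₂ y :=
  JacPt.ext' e <| (congrArg (rmap (castHom e)) h.symm).trans <|
    (rmap_rmap _ _ _).trans (DFunLike.congr_fun (rmap_congr (Category.id_comp g₁)) _)

variable [IsAlgClosed k]

/-- A small subcover. -/
@[reducible] noncomputable def subCover {T : Scheme.{u}} (𝒰 : Scheme.OpenCover.{u + 1} T)
    {ι : Type u} (e : ι → 𝒰.I₀) (he : ∀ x, ∃ i y, 𝒰.f (e i) y = x) : Scheme.OpenCover.{u} T :=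
  Scheme.Cover.mkOfCovers ι (fun i => 𝒰.X (e i)) (fun i => 𝒰.f (e i)) he
    (fun i => 𝒰.map_prop (e i))

lemma exists_idx_eq {T : Scheme.{u}} (𝒰 : Scheme.OpenCover.{u + 1} T) (x : T) :
    ∃ i y, 𝒰.f (𝒰.idx i) y = x := ⟨x, 𝒰.covers x⟩

include cc in
/-- Rigidified classes are separated for covers with a large index type. -/
theorem rPic_ext_large {T : Scheme.{u}} (𝒰 : Scheme.OpenCover.{u + 1} T)
    {t : T ⟶ Spec (CommRingCat.of k)} (b b' : RPic ε t)
    (h : ∀ j, rmap (overHom (t := t) (𝒰.f j)) b = rmap (overHom (t := t) (𝒰.f j)) b') : b = b' :=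
  rPic_ext cc (subCover 𝒰 (fun x => 𝒰.idx x) (exists_idx_eq 𝒰)) b b' fun x => h (𝒰.idx x)

include cc in
/-- Gluing of rigidified classes for covers with a large index type. -/
theorem rPic_exists_glue_large {T : Scheme.{u}} (𝒰 : Scheme.OpenCover.{u + 1} T)
    {t : T ⟶ Spec (CommRingCat.of k)} (a : ∀ j, RPic ε (𝒰.f j ≫ t))
    (h : ∀ (i j : 𝒰.I₀) (Z : Scheme.{u}) (z : Z ⟶ Spec (CommRingCat.of k))
      (gi : SchemeHomOver z (𝒰.f i ≫ t)) (gj : SchemeHomOver z (𝒰.f j ≫ t)),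
      gi.1 ≫ 𝒰.f i = gj.1 ≫ 𝒰.f j → rmap gi (a i) = rmap gj (a j)) :
    ∃ b : RPic ε t, ∀ j, rmap (overHom (t := t) (𝒰.f j)) b = a j := by
  obtain ⟨b, hb⟩ := rPic_exists_glue cc (subCover 𝒰 (fun x => 𝒰.idx x) (exists_idx_eq 𝒰))
    (t := t) (fun x => a (𝒰.idx x)) (fun i j => h (𝒰.idx i) (𝒰.idx j))
  refine ⟨b, fun j => ?_⟩
  obtain ⟨b', hb'⟩ := rPic_exists_glue cc
    (subCover 𝒰 (fun o : Option T => o.elim j 𝒰.idx) fun x => ⟨some x, 𝒰.covers x⟩)
    (t := t) (fun o => a (o.elim j 𝒰.idx)) (fun i i' => h (i.elim j 𝒰.idx) (i'.elim j 𝒰.idx))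
  have hbb : b' = b := rPic_ext cc (subCover 𝒰 (fun x => 𝒰.idx x) (exists_idx_eq 𝒰)) b' b
    fun x => (hb' (some x)).trans (hb x).symm
  exact hbb ▸ hb' none

/-- The functor is a sheaf for the Zariski topology. -/
theorem isSheaf_jacPresheaf :
    Presieve.IsSheaf Scheme.zariskiTopology.{u} (jacPresheaf cc) := by
  rw [Precoverage.isSheaf_toGrothendieck_iff_of_isStableUnderBaseChange]
  rintro T S hS x hx
  obtain ⟨(𝒰 : Scheme.OpenCover T), rfl⟩ := Scheme.exists_cover_of_mem_pretopology hS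
  let X : ∀ j, JacPt cc (𝒰.X j) := fun j => x (𝒰.f j) (.mk j)
  have hX : ∀ (i j : 𝒰.I₀) (Z : Scheme.{u}) (g₁ : Z ⟶ 𝒰.X i) (g₂ : Z ⟶ 𝒰.X j),
      g₁ ≫ 𝒰.f i = g₂ ≫ 𝒰.f j → JacPt.map cc g₁ (X i) = JacPt.map cc g₂ (X j) :=
    fun i j Z g₁ g₂ h => hx g₁ g₂ (.mk i) (.mk j) h
  let t : T ⟶ Spec (CommRingCat.of k) := 𝒰.glueMorphisms (fun j => (X j).fst) fun i j =>
    congrArg JacPt.fst (hX i j _ _ _ pullback.condition)
  have ht : ∀ j, 𝒰.f j ≫ t = (X j).fst := fun j => Scheme.Cover.ι_glueMorphisms _ _ _ j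
  obtain ⟨b, hb⟩ := rPic_exists_glue_large cc 𝒰 (t := t)
    (fun j => rmap (castHom (ht j)) (X j).snd.1) fun i j Z z gi gj h =>
      JacPt.cast_compat cc (x := X i) (y := X j) (ht i) (ht j) gi gj (hX i j Z gi.1 gj.1 h)
  refine ⟨⟨t, b, isDeg0_of_cover (subCover 𝒰 (fun x => 𝒰.idx x) (exists_idx_eq 𝒰)) fun i =>
    (hb (𝒰.idx i)).symm ▸ (X (𝒰.idx i)).snd.2.rmap _⟩, ?_, ?_⟩
  · rintro Z e ⟨j⟩
    refine JacPt.ext' (ht j) ?_
    change rmap (castHom _) (X j).snd.1 = rmap (overHom (𝒰.f j)) b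
    exact (hb j).symm
  · rintro ⟨t', b'⟩ hy
    have hj : ∀ j, JacPt.map cc (𝒰.f j) ⟨t', b'⟩ = X j := fun j => hy (𝒰.f j) (.mk j)
    have e : t' = t := 𝒰.hom_ext _ _ fun j => by
      rw [ht]; exact congrArg JacPt.fst (hj j)
    subst e
    refine congrArg (JacPt.mk _) (Subtype.ext (rPic_ext_large cc 𝒰 _ _ fun j => ?_))
    refine Eq.trans ?_ (hb j).symm
    exact (JacPt.rmap_castHom_map cc (𝒰.f j) ⟨t, b'⟩ rfl).symm.trans
      ((DFunLike.congr_fun (rmap_congr rfl) _).trans (JacPt.cls_congr cc (hj j) rfl (ht j)))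

/-- The sheaf. -/
noncomputable def jacSheaf : Sheaf Scheme.zariskiTopology.{u} (Type u) :=
  ⟨jacPresheaf cc, (isSheaf_iff_isSheaf_of_type _ _).mpr (isSheaf_jacPresheaf cc)⟩

section charts

variable {g : ℕ} (b : Fin g → cc.E.A) (m : ℕ) (xs : List (cc.E.A →ₐ[k] k))
  (hm : (m * cc.E.deg : ℤ) - xs.length = cc.E.genus)

/-- The point of a chart. -/
noncomputable def chartPt : JacPt cc (chartScheme cc b) :=
  ⟨chartHom cc b, chartClass cc b m xs, isDeg0_of_goodFib hm (goodFib_chartClass cc b m xs)⟩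

/-- The map from a chart to the functor. -/
noncomputable def chartMap : yoneda.obj (chartScheme cc b) ⟶ (jacSheaf cc).1 :=
  yonedaEquiv.symm (chartPt cc b m xs hm)

lemma chartMap_app {S : Scheme.{u}} (h : S ⟶ chartScheme cc b) :
    (chartMap cc b m xs hm).app (op S) h = JacPt.map cc h (chartPt cc b m xs hm) := rfl

omit [IsAlgClosed k] in
lemma yonedaEquiv_symm_jac_app {S T : Scheme.{u}} (x : JacPt cc T) (h : S ⟶ T) :
    (yonedaEquiv.symm x : yoneda.obj T ⟶ jacPresheaf cc).app (op S) h = JacPt.map cc h x := rfl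

/-- Charts are open subfunctors. -/
theorem isOpenImmersion_chartMap : IsOpenImmersion.presheaf (chartMap cc b m xs hm) := by
  refine MorphismProperty.relative.of_exists fun T γ => ?_
  obtain ⟨⟨t, a⟩, rfl⟩ := yonedaEquiv.symm.surjective γ
  let O := goodLocus cc b m xs a.1
  let j : SchemeHomOver (O.ι ≫ t) t := overHom (t := t) O.ι
  obtain ⟨ψ, hψ, -⟩ := existsUnique_classify cc b m xs (rmap j a.1)
    (goodFib_goodLocus cc b m xs a.1)
  refine ⟨O.toScheme, yoneda.map ψ.1, O.ι, ?_, inferInstanceAs (IsOpenImmersion O.ι)⟩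
  have hpt : JacPt.map cc ψ.1 (chartPt cc b m xs hm) = JacPt.map cc O.ι ⟨t, a⟩ := by
    refine JacPt.ext' ψ.2 ?_
    change rmap (castHom _) (rmap j a.1) = rmap (overHom ψ.1) (chartClass cc b m xs)
    rw [← hψ, rmap_rmap]
    exact DFunLike.congr_fun (rmap_congr (Category.id_comp _)) _
  refine IsPullback.of_forall_isPullback_app fun S => ?_
  obtain ⟨S⟩ := S
  rw [Types.isPullback_iff]
  refine ⟨?_, ?_, ?_⟩
  · ext (h : S ⟶ O.toScheme)
    change JacPt.map cc (h ≫ ψ.1) (chartPt cc b m xs hm) = JacPt.map cc (h ≫ O.ι) ⟨t, a⟩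
    exact (JacPt.map_map cc ψ.1 h _).symm.trans
      ((congrArg (JacPt.map cc h) hpt).trans (JacPt.map_map cc O.ι h _))
  · rintro (h₁ : S ⟶ O.toScheme) (h₂ : S ⟶ O.toScheme) ⟨-, h⟩
    exact (cancel_mono O.ι).mp h
  · intro (h₁ : S ⟶ chartScheme cc b) (h₂ : S ⟶ T) heq
    replace heq : JacPt.map cc h₁ (chartPt cc b m xs hm) = JacPt.map cc h₂ ⟨t, a⟩ := heq
    have e : h₁ ≫ chartHom cc b = h₂ ≫ t := congrArg JacPt.fst heq
    let s₁ : SchemeHomOver (h₂ ≫ t) (chartHom cc b) := ⟨h₁, e⟩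
    have hc : rmap s₁ (chartClass cc b m xs) = rmap (overHom (t := t) h₂) a.1 := by
      exact JacPt.rmap_eq_of_map_eq cc heq e rfl
    have hmem : Set.range h₂ ⊆ Set.range O.ι := by
      rintro _ ⟨z, rfl⟩
      rw [Scheme.Opens.range_ι]
      obtain ⟨K, _, _, _, s, hs⟩ := exists_point_of_mem (t := h₂ ≫ t) z
      have hg : GoodAt cc m xs b (rmap (overHom (t := t) h₂) a.1) s := by
        rw [← hc]
        exact (goodFib_chartClass cc b m xs).rmap s₁ K s
      rw [goodAt_rmap] at hg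
      have := mem_goodLocus_of_goodAt cc b m xs _ hg
      rw [← hs]
      exact this
    let l : S ⟶ O.toScheme := IsOpenImmersion.lift O.ι h₂ hmem
    have hl : l ≫ O.ι = h₂ := IsOpenImmersion.lift_fac _ _ _
    refine ⟨l, ?_, hl⟩
    change l ≫ ψ.1 = h₁
    let lo : SchemeHomOver (h₂ ≫ t) (O.ι ≫ t) := ⟨l, by rw [← Category.assoc, hl]⟩
    have hu : rmap (postComp ψ lo) (chartClass cc b m xs) = rmap s₁ (chartClass cc b m xs) := by
      rw [hc, ← rmap_rmap, hψ, rmap_rmap]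
      exact DFunLike.congr_fun (rmap_congr hl) _
    exact congrArg Subtype.val ((existsUnique_classify cc b m xs (rmap s₁ (chartClass cc b m xs))
      ((goodFib_chartClass cc b m xs).rmap s₁)).unique (y₁ := postComp ψ lo) (y₂ := s₁) hu rfl)

end charts

/-- The numerical parameters of the covering. -/
noncomputable def coverParams : ℕ × ℕ :=
  ⟨(Triple.exists_modify_isGood cc.E).choose,
    (Triple.exists_modify_isGood cc.E).choose_spec.choose⟩

lemma coverParams_spec :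
    ((coverParams cc).1 * cc.E.deg : ℤ) - (coverParams cc).2 = cc.E.genus ∧
      ∀ (K : Type u) [Field K] [IsAlgClosed K] [Algebra k K] (T : Triple cc.E K), T.degree = 0 →
        ∃ (xs : List (cc.E.A →ₐ[k] k)) (b : Fin cc.E.genus → cc.E.A),
          xs.length = (coverParams cc).2 ∧ Triple.IsGood b (T.modify cc.E (coverParams cc).1 xs) :=
  (Triple.exists_modify_isGood cc.E).choose_spec.choose_spec

/-- The index type of the charts. -/
def ChartIndex : Type u :=
  {xs : List (cc.E.A →ₐ[k] k) // xs.length = (coverParams cc).2} × (Fin cc.E.genus → cc.E.A)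

lemma hm_index (i : ChartIndex cc) :
    ((coverParams cc).1 * cc.E.deg : ℤ) - i.1.1.length = cc.E.genus := by
  rw [i.1.2]
  exact (coverParams_spec cc).1

/-- The family of charts. -/
noncomputable def chartFamily (i : ChartIndex cc) :
    yoneda.obj (chartScheme cc i.2) ⟶ (jacSheaf cc).1 :=
  chartMap cc i.2 (coverParams cc).1 i.1.1 (hm_index cc i)

lemma isOpenImmersion_chartFamily (i : ChartIndex cc) :
    IsOpenImmersion.presheaf (chartFamily cc i) :=
  isOpenImmersion_chartMap cc _ _ _ _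

/-- The good loci of the charts cover. -/
theorem isOpenCover_goodLocus {T : Scheme.{u}} {t : T ⟶ Spec (CommRingCat.of k)}
    (a : RPic0 cc t) :
    IsOpenCover fun i : ChartIndex cc => goodLocus cc i.2 (coverParams cc).1 i.1.1 a.1 := by
  refine IsOpenCover.mk (top_unique fun x _ => ?_)
  obtain ⟨K, _, _, _, s, hs⟩ := exists_point_of_mem (t := t) x
  obtain ⟨xs, b, hl, hgood⟩ := (coverParams_spec cc).2 K (triAt cc s a.1) (a.2 K s)
  obtain ⟨e⟩ := triAt_shift cc s (coverParams cc).1 xs a.1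
  exact Opens.mem_iSup.mpr ⟨(⟨xs, hl⟩, b),
    hs ▸ mem_goodLocus_of_goodAt cc b (coverParams cc).1 xs s (hgood.of_iso e)⟩

/-- On a good locus a class comes from the chart. -/
theorem exists_chart_lift {T : Scheme.{u}} {t : T ⟶ Spec (CommRingCat.of k)}
    (a : RPic0 cc t) (i : ChartIndex cc) :
    ∃ ψ : (goodLocus cc i.2 (coverParams cc).1 i.1.1 a.1).toScheme ⟶ chartScheme cc i.2,
      JacPt.map cc ψ (chartPt cc i.2 (coverParams cc).1 i.1.1 (hm_index cc i)) =
        JacPt.map cc (goodLocus cc i.2 (coverParams cc).1 i.1.1 a.1).ι ⟨t, a⟩ := by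
  let O := goodLocus cc i.2 (coverParams cc).1 i.1.1 a.1
  obtain ⟨ψ, hψ, -⟩ := existsUnique_classify cc i.2 (coverParams cc).1 i.1.1
    (rmap (overHom (t := t) O.ι) a.1) (goodFib_goodLocus cc _ _ _ a.1)
  exact ⟨ψ.1, JacPt.map_eq_map cc (chartPt cc i.2 (coverParams cc).1 i.1.1 (hm_index cc i))
    ⟨t, a⟩ ψ.1 O.ι ψ.2 hψ⟩

lemma sigma_desc_chart_app {S : Scheme.{u}} (i : ChartIndex cc) (h : S ⟶ chartScheme cc i.2) :
    (Sigma.desc (chartFamily cc)).app (op S)
        ((Sigma.ι (fun i => yoneda.obj (chartScheme cc i.2)) i).app (op S) h) =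
      JacPt.map cc h (chartPt cc i.2 (coverParams cc).1 i.1.1 (hm_index cc i)) :=
  congr($(Sigma.ι_desc (chartFamily cc) i).app (op S) h)

instance isLocallySurjective_chartFamily :
    Presheaf.IsLocallySurjective Scheme.zariskiTopology (Sigma.desc (chartFamily cc)) where
  imageSieve_mem {T} x := by
    obtain ⟨t, a⟩ := x
    refine Scheme.zariskiTopology.superset_covering ?_
      (T.openCoverOfIsOpenCover _ (isOpenCover_goodLocus cc a)).mem_grothendieckTopology
    rw [Sieve.generate_le_iff]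
    rintro Z f ⟨i⟩
    obtain ⟨ψ, hψ⟩ := exists_chart_lift cc a i
    exact ⟨_, (sigma_desc_chart_app cc i ψ).trans hψ⟩

/-- The Jacobian scheme. -/
noncomputable def jacScheme : Scheme.{u} :=
  (Scheme.LocalRepresentability.glueData (isOpenImmersion_chartFamily cc)).glued

/-- It represents degree zero rigidified classes. -/
noncomputable def jacRepresentableBy : (jacPresheaf cc).RepresentableBy (jacScheme cc) :=
  Scheme.LocalRepresentability.representableBy (isOpenImmersion_chartFamily cc)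

end FLTA.Jacobian
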