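import Fermat.Agent.Jacobian.AssembleSetting

/-!
# Rigidified classes: functoriality and the Zariski sheaf property (S25, assembly).
-/

set_option autoImplicit false

universe u

open CategoryTheory CategoryTheory.Limits AlgebraicGeometry NeronModelInfra
  AlgebraicGeometry.RelPicard TopologicalSpace

namespace FLTA.Jacobian

variable {k : Type u} [Field k] {C : Scheme.{u}} {c : C ⟶ Spec (CommRingCat.of k)}
  (ε : SchemeHomOver (𝟙 (Spec (CommRingCat.of k))) c) {T T' T'' : Scheme.{u}}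
  {t : T ⟶ Spec (CommRingCat.of k)} {t' : T' ⟶ Spec (CommRingCat.of k)}
  {t'' : T'' ⟶ Spec (CommRingCat.of k)}

/-- Classes trivial along the section. -/
noncomputable def RPic (t : T ⟶ Spec (CommRingCat.of k)) :
    Subgroup (Pic (pullback c t) ⊤) :=
  (Pic.pullTop (rigSection c t ε)).ker

variable {ε}

lemma mem_rPic {a : Pic (pullback c t) ⊤} :
    a ∈ RPic ε t ↔ Pic.pullTop (rigSection c t ε) a = 1 :=
  MonoidHom.mem_ker

lemma pullTop_rigSection (ψ : SchemeHomOver t' t) (a : Pic (pullback c t) ⊤) :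
    Pic.pullTop (rigSection c t' ε) (Pic.pullTop (baseChangeSnd c ψ) a) =
      Pic.pullTop ψ.1 (Pic.pullTop (rigSection c t ε) a) := by
  rw [Pic.pullTop_comp, Pic.pullTop_comp]
  exact Pic.pullTop_congr (rigSection_baseChangeSnd c ε ψ) a

/-- Pullback of rigidified classes. -/
noncomputable def rmap (ψ : SchemeHomOver t' t) : RPic ε t →* RPic ε t' :=
  ((Pic.pullTop (baseChangeSnd c ψ)).comp (RPic ε t).subtype).codRestrict (RPic ε t') fun a => by
    rw [mem_rPic, MonoidHom.comp_apply, Subgroup.coe_subtype, pullTop_rigSection, mem_rPic.mp a.2,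
      map_one]

@[simp]
lemma coe_rmap (ψ : SchemeHomOver t' t) (a : RPic ε t) :
    (rmap ψ a : Pic (pullback c t') ⊤) = Pic.pullTop (baseChangeSnd c ψ) a.1 := rfl

lemma rmap_rmap (ψ : SchemeHomOver t' t) (φ : SchemeHomOver t'' t') (a : RPic ε t) :
    rmap φ (rmap ψ a) = rmap (postComp ψ φ) a := by
  apply Subtype.ext
  simp only [coe_rmap, Pic.pullTop_comp]
  exact Pic.pullTop_congr (baseChangeSnd_comp c ψ φ) _

lemma rmap_id (a : RPic ε t) : rmap (⟨𝟙 T, Category.id_comp t⟩ : SchemeHomOver t t) a = a := by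
  apply Subtype.ext
  rw [coe_rmap, Pic.pullTop_congr (baseChangeSnd_id c t), Pic.pullTop_id]

lemma rmap_congr {ψ ψ' : SchemeHomOver t' t} (e : ψ.1 = ψ'.1) : rmap (ε := ε) ψ = rmap ψ' := by
  rw [Subtype.ext e]

variable (ε) in
/-- Dividing by the value along the section. -/
noncomputable def rigidify (a : Pic (pullback c t) ⊤) : RPic ε t :=
  ⟨a / Pic.pullTop (pullback.snd c t) (Pic.pullTop (rigSection c t ε) a), by
    rw [mem_rPic, map_div, Pic.pullTop_comp (rigSection c t ε) (pullback.snd c t),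
      Pic.pullTop_congr (rigSection_snd t ε), Pic.pullTop_id, div_self']⟩

lemma rigidify_pull (ψ : SchemeHomOver t' t) (a : Pic (pullback c t) ⊤) :
    rmap ψ (rigidify ε a) = rigidify ε (Pic.pullTop (baseChangeSnd c ψ) a) := by
  apply Subtype.ext
  simp only [coe_rmap, rigidify, map_div]
  congr 1
  rw [pullTop_rigSection, Pic.pullTop_comp, Pic.pullTop_comp (pullback.snd c t') ψ.1]
  exact Pic.pullTop_congr (baseChangeSnd_snd ψ) _

lemma rigidify_of_mem (a : RPic ε t) : rigidify ε a.1 = a := by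
  apply Subtype.ext
  simp [rigidify, mem_rPic.mp a.2]

section sheaf

variable (cc : CurveCover c ε) (𝒰 : Scheme.OpenCover.{u} T)

/-- The composite to `Spec k` on a member of a cover. -/
abbrev coverHom (t : T ⟶ Spec (CommRingCat.of k)) (i : 𝒰.I₀) : SchemeHomOver (𝒰.f i ≫ t) t :=
  overHom (t := t) (𝒰.f i)

instance (i : 𝒰.I₀) : IsOpenImmersion (coverHom 𝒰 t i).1 :=
  inferInstanceAs (IsOpenImmersion (𝒰.f i))

/-- Classes on the part of the curve over `V = range`. -/
noncomputable def toMember (i : 𝒰.I₀) :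
    Pic (pullback c t) (pullback.snd c t ⁻¹ᵁ (𝒰.f i).opensRange) →*
      Pic (pullback c (𝒰.f i ≫ t)) ⊤ :=
  Pic.pull (baseChangeSnd c (coverHom 𝒰 t i)) ⊤ (by
    have e : (baseChangeSnd c (coverHom 𝒰 t i)).opensRange =
        pullback.snd c t ⁻¹ᵁ (𝒰.f i).opensRange := opensRange_baseChangeSnd _
    rw [← e, Scheme.Hom.preimage_opensRange])

lemma bijective_toMember (i : 𝒰.I₀) : Function.Bijective (toMember (c := c) (t := t) 𝒰 i) := by
  have e : (baseChangeSnd c (coverHom 𝒰 t i)).opensRange =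
      pullback.snd c t ⁻¹ᵁ (𝒰.f i).opensRange := opensRange_baseChangeSnd _
  have key : ∀ (V : (pullback c t).Opens), V = (baseChangeSnd c (coverHom 𝒰 t i)).opensRange →
      ∀ (h : (⊤ : (pullback c (𝒰.f i ≫ t)).Opens) ≤ baseChangeSnd c (coverHom 𝒰 t i) ⁻¹ᵁ V),
      Function.Bijective (Pic.pull (baseChangeSnd c (coverHom 𝒰 t i)) ⊤ h) := by
    rintro V rfl h
    exact bijective_pull_openImmersion _ h
  exact key _ e.symm _

lemma toMember_res (i : 𝒰.I₀) (a : Pic (pullback c t) ⊤) :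
    toMember 𝒰 i (Pic.res le_top a) = Pic.pullTop (baseChangeSnd c (coverHom 𝒰 t i)) a :=
  Pic.pull_res _ _ _ a

lemma cover_mem (x : T) : ∃ i, x ∈ (𝒰.f i).opensRange := by
  obtain ⟨y, hy⟩ := 𝒰.covers x
  exact ⟨_, y, hy⟩

include cc in
variable [IsAlgClosed k] in
/-- Rigidified classes are separated for open covers. -/
theorem rPic_ext (a b : RPic ε t)
    (h : ∀ i, rmap (coverHom 𝒰 t i) a = rmap (coverHom 𝒰 t i) b) : a = b := by
  rw [← div_eq_one]
  apply Subtype.ext
  have hd : ∀ i, rmap (coverHom 𝒰 t i) (a / b) = 1 := fun i => by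
    rw [map_div, h, div_self']
  have S := rigidSetting cc t
  have hV : ∀ (a : Pic (pullback c t) ⊤), Pic.pull (rigSection c t ε) ⊤ le_top a =
      Pic.pullTop (rigSection c t ε) a := fun _ => rfl
  refine S.eq_one_of_locally_rigid (fun i => (𝒰.f i).opensRange) ⊤ (fun _ => le_top)
    (fun x _ => cover_mem 𝒰 x) (a / b).1 ((hV _).trans (mem_rPic.mp (a / b).2)) fun i => ?_
  apply (bijective_toMember 𝒰 i).1
  rw [map_one]
  exact (toMember_res 𝒰 i _).trans (congrArg Subtype.val (hd i))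

include cc in
variable [IsAlgClosed k] in
/-- Rigidified classes glue along open covers. -/
theorem rPic_exists_glue (a : ∀ i, RPic ε (𝒰.f i ≫ t))
    (h : ∀ (i j : 𝒰.I₀) (Z : Scheme.{u}) (z : Z ⟶ Spec (CommRingCat.of k))
      (gi : SchemeHomOver z (𝒰.f i ≫ t)) (gj : SchemeHomOver z (𝒰.f j ≫ t)),
      gi.1 ≫ 𝒰.f i = gj.1 ≫ 𝒰.f j → rmap gi (a i) = rmap gj (a j)) :
    ∃ b : RPic ε t, ∀ i, rmap (coverHom 𝒰 t i) b = a i := by
  have S := rigidSetting cc t
  choose α hα using fun i => (bijective_toMember (c := c) (t := t) 𝒰 i).2 (a i).1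
  have hσ : ∀ i, Pic.pull (rigSection c t ε) (𝒰.f i).opensRange (S.le _) (α i) = 1 := by
    intro i
    apply (bijective_pull_openImmersion (𝒰.f i) (by rw [Scheme.Hom.preimage_opensRange])).1
    rw [map_one, Pic.pull_pull, ← mem_rPic.mp (a i).2, ← hα i]
    dsimp only [toMember]
    refine Eq.trans ?_ (Pic.pull_pull _ _ _ _ (α i)).symm
    exact DFunLike.congr_fun
      (Pic.pull_congr (rigSection_baseChangeSnd c ε (coverHom 𝒰 t i)).symm _ _ _) (α i)
  have hag : ∀ i j, Pic.res ((pullback.snd c t).preimage_mono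
        (inf_le_left : (𝒰.f i).opensRange ⊓ (𝒰.f j).opensRange ≤ (𝒰.f i).opensRange)) (α i) =
      Pic.res ((pullback.snd c t).preimage_mono
        (inf_le_right : (𝒰.f i).opensRange ⊓ (𝒰.f j).opensRange ≤ (𝒰.f j).opensRange)) (α j) := by
    intro i j
    let O := (𝒰.f i).opensRange ⊓ (𝒰.f j).opensRange
    let li : (O : Scheme.{u}) ⟶ 𝒰.X i := IsOpenImmersion.lift (𝒰.f i) O.ι (by
      rw [Scheme.Opens.range_ι]; exact fun x hx => hx.1)
    let lj : (O : Scheme.{u}) ⟶ 𝒰.X j := IsOpenImmersion.lift (𝒰.f j) O.ι (by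
      rw [Scheme.Opens.range_ι]; exact fun x hx => hx.2)
    let gi : SchemeHomOver (O.ι ≫ t) (𝒰.f i ≫ t) :=
      ⟨li, by rw [← Category.assoc, IsOpenImmersion.lift_fac]⟩
    let gj : SchemeHomOver (O.ι ≫ t) (𝒰.f j ≫ t) :=
      ⟨lj, by rw [← Category.assoc, IsOpenImmersion.lift_fac]⟩
    have hij := congrArg Subtype.val (h i j _ _ gi gj
      (by simp only [gi, gj, li, lj, IsOpenImmersion.lift_fac]))
    let ψ : SchemeHomOver (O.ι ≫ t) t := overHom (t := t) O.ι
    have : IsOpenImmersion ψ.1 := inferInstanceAs (IsOpenImmersion O.ι)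
    have hr : (baseChangeSnd c ψ).opensRange = pullback.snd c t ⁻¹ᵁ O := by
      rw [opensRange_baseChangeSnd ψ]
      exact congrArg _ (Scheme.Opens.opensRange_ι O)
    have htop : (⊤ : (pullback c (O.ι ≫ t)).Opens) ≤
        baseChangeSnd c ψ ⁻¹ᵁ (pullback.snd c t ⁻¹ᵁ O) := by
      rw [← hr, Scheme.Hom.preimage_opensRange]
    have inj : Function.Injective (Pic.pull (baseChangeSnd c ψ) ⊤ htop) := by
      have key : ∀ (V : (pullback c t).Opens), V = (baseChangeSnd c ψ).opensRange →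
          ∀ (h : (⊤ : (pullback c (O.ι ≫ t)).Opens) ≤ baseChangeSnd c ψ ⁻¹ᵁ V),
          Function.Injective (Pic.pull (baseChangeSnd c ψ) ⊤ h) := by
        rintro V rfl h
        exact (bijective_pull_openImmersion _ h).1
      exact key _ hr.symm _
    apply inj
    rw [Pic.pull_res, Pic.pull_res]
    have e : ∀ (l : 𝒰.I₀) (g : SchemeHomOver (O.ι ≫ t) (𝒰.f l ≫ t)) (_ : g.1 ≫ 𝒰.f l = O.ι)
        (hh : (⊤ : (pullback c (O.ι ≫ t)).Opens) ≤
          baseChangeSnd c ψ ⁻¹ᵁ (pullback.snd c t ⁻¹ᵁ (𝒰.f l).opensRange)),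
        Pic.pull (baseChangeSnd c ψ) ⊤ hh (α l) =
          Pic.pullTop (baseChangeSnd c g) (a l).1 := by
      intro l g hg hh
      rw [← hα l, Pic.pullTop]
      dsimp only [toMember]
      refine Eq.trans ?_ (Pic.pull_pull _ _ _ _ (α l)).symm
      refine DFunLike.congr_fun (Pic.pull_congr ?_ _ _ _) (α l)
      rw [baseChangeSnd_comp c (coverHom 𝒰 t l) g]
      exact congrArg (baseChangeSnd c) (Subtype.ext hg.symm)
    rw [e i gi (IsOpenImmersion.lift_fac _ _ _), e j gj (IsOpenImmersion.lift_fac _ _ _)]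
    exact hij
  obtain ⟨b, hb, hres⟩ := S.exists_glue_rigid (fun i => (𝒰.f i).opensRange) ⊤ (fun _ => le_top)
    (fun x _ => cover_mem 𝒰 x) α hσ hag
  refine ⟨⟨b, hb⟩, fun i => Subtype.ext ?_⟩
  rw [coe_rmap, ← hα i, ← hres i]
  exact (toMember_res 𝒰 i b).symm

end sheaf

end FLTA.Jacobian
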