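import Fermat.Agent.Jacobian.PicFunctor

/-!
# Gluing of classes rigidified along a section (S25, part A).

For `p : X ⟶ T` with a section `σ` such that functions on `p ⁻¹ O` all come from `O`, the rule
`O ↦ {a : Pic X (p ⁻¹ O) | σ^* a = 1}` is a sheaf on `T`.
-/

set_option autoImplicit false
set_option linter.unusedVariables false

universe u

open CategoryTheory AlgebraicGeometry Opposite TopologicalSpace

namespace FLTA.Jacobian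

variable {X T : Scheme.{u}}

/-- Restriction of a cocycle. -/
noncomputable abbrev Cocycle.restrict {V : X.Opens} {ι : Type u} (c : Cocycle X V ι) (D : X.Opens)
    (hD : D ≤ V) : Cocycle X D ι where
  U i := c.U i ⊓ D
  le i := inf_le_right
  cover x hx := ⟨(c.cover x (hD hx)).choose, (c.cover x (hD hx)).choose_spec, hx⟩
  g i j W hi hj := c.g i j W (hi.trans inf_le_left) (hj.trans inf_le_left)
  g_res i j W W' hi hj h := c.g_res _ _ _ _ _ _ _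
  g_self i W hi := c.g_self _ _ _
  g_mul i j l W hi hj hl := c.g_mul _ _ _ _ _ _ _

lemma cls_restrict {V : X.Opens} {ι : Type u} (c : Cocycle X V ι) (D : X.Opens) (hD : D ≤ V) :
    (c.restrict D hD).cls = Pic.res hD c.cls := by
  rw [show Pic.res hD c.cls = (c.pull (𝟙 X) D hD).cls from (cls_pull (f := 𝟙 X) c D hD).symm]
  refine cls_eq (CocycleIso.ofEq (c.restrict D hD) (c.pull (𝟙 X) D hD)
    (fun i x hx => ⟨hx.2, hx.1⟩) fun i j O hi hj => ?_)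
  exact (pb_id _ _).trans (c.g_res _ _ _ _ _ _ _)

/-- The setting of a section with functions descending. -/
structure RigidSetting (p : X ⟶ T) (σ : T ⟶ X) : Prop where
  comp : σ ≫ p = 𝟙 T
  descend : ∀ O : T.Opens, Function.Bijective (pb p (le_refl (p ⁻¹ᵁ O)))

namespace RigidSetting

variable {p : X ⟶ T} {σ : T ⟶ X}

lemma le (S : RigidSetting p σ) (O : T.Opens) : O ≤ σ ⁻¹ᵁ (p ⁻¹ᵁ O) := by
  rw [← Scheme.Hom.comp_preimage, S.comp]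
  exact le_rfl

lemma pb_σ_pb_p (S : RigidSetting p σ) {O W : T.Opens} (hW : W ≤ O) (v : Γ(T, O)) :
    pb σ (hW.trans (S.le O)) (pb p (le_refl (p ⁻¹ᵁ O)) v) = rs hW v := by
  rw [pb_pb]
  have key : ∀ (f : T ⟶ T) (e : f = 𝟙 T) (h : W ≤ f ⁻¹ᵁ O), pb f h v = rs hW v := by
    rintro f rfl h
    exact pb_id _ _
  exact key _ S.comp _

/-- A function on `p ⁻¹ O` given locally, equal to one along the section, is one. -/
lemma eq_of_section (S : RigidSetting p σ) {O : T.Opens} {P : Type u} (U : P → X.Opens)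
    (hU : ∀ x ∈ p ⁻¹ᵁ O, ∃ i, x ∈ U i) (a : ∀ i, Γ(X, p ⁻¹ᵁ O ⊓ U i))
    (hagree : ∀ i j, rs (show p ⁻¹ᵁ O ⊓ U i ⊓ U j ≤ p ⁻¹ᵁ O ⊓ U i from inf_le_left) (a i) =
      rs (show p ⁻¹ᵁ O ⊓ U i ⊓ U j ≤ p ⁻¹ᵁ O ⊓ U j from
        le_inf (inf_le_left.trans inf_le_left) inf_le_right) (a j))
    (hσ : ∀ i, pb σ (show O ⊓ σ ⁻¹ᵁ U i ≤ σ ⁻¹ᵁ (p ⁻¹ᵁ O ⊓ U i) from
      fun x hx => ⟨S.le O hx.1, hx.2⟩) (a i) = 1) (i : P) : a i = 1 := by
  obtain ⟨v, hv⟩ := (S.descend O).2 (glue U hU a hagree)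
  have h1 : v = 1 := by
    refine eq_of_locally (fun i => σ ⁻¹ᵁ U i) (fun x hx => hU _ (S.le O hx)) fun j => ?_
    have := congrArg (pb σ (show O ⊓ σ ⁻¹ᵁ U j ≤ σ ⁻¹ᵁ (p ⁻¹ᵁ O) from
      inf_le_left.trans (S.le O))) hv
    rw [S.pb_σ_pb_p inf_le_left] at this
    rw [this, map_one, ← hσ j]
    have e := glue_spec U hU a hagree j (W := p ⁻¹ᵁ O ⊓ U j) inf_le_left inf_le_right
    rw [rs_self] at e
    rw [← e, pb_rs]
  have e := glue_spec U hU a hagree i (W := p ⁻¹ᵁ O ⊓ U i) inf_le_left inf_le_right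
  rw [rs_self] at e
  rw [← e, ← hv, h1, map_one, map_one]

variable (S : RigidSetting p σ) {Va Vb Vc : T.Opens} {ι ι' ι'' : Type u}

/-- An isomorphism over `Oa ⊓ Ob` respecting given trivialisations along the section. -/
structure NormIso (S : RigidSetting p σ) {a : Cocycle X (p ⁻¹ᵁ Va) ι}
    {b : Cocycle X (p ⁻¹ᵁ Vb) ι'}
    (τa : CocycleIso (a.pull σ Va (S.le Va)) (Cocycle.one Va))
    (τb : CocycleIso (b.pull σ Vb (S.le Vb)) (Cocycle.one Vb)) : Type u where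
  iso : CocycleIso (a.restrict (p ⁻¹ᵁ (Va ⊓ Vb)) (p.preimage_mono inf_le_left))
    (b.restrict (p ⁻¹ᵁ (Va ⊓ Vb)) (p.preimage_mono inf_le_right))
  norm : ∀ (i : ι) (j : ι') (W : T.Opens) (hW : W ≤ Va ⊓ Vb) (hi : W ≤ σ ⁻¹ᵁ a.U i)
    (hj : W ≤ σ ⁻¹ᵁ b.U j),
    pb σ (show W ≤ σ ⁻¹ᵁ (a.U i ⊓ b.U j ⊓ p ⁻¹ᵁ (Va ⊓ Vb)) from
        fun x hx => ⟨⟨hi hx, hj hx⟩, S.le _ (hW hx)⟩)
      (iso.h i j (a.U i ⊓ b.U j ⊓ p ⁻¹ᵁ (Va ⊓ Vb)) (inf_le_inf_right _ inf_le_left)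
        (inf_le_inf_right _ inf_le_right)) *
      τb.h j ⟨⟩ W (le_inf (hW.trans inf_le_right) hj) (hW.trans inf_le_right) =
    τa.h i ⟨⟩ W (le_inf (hW.trans inf_le_left) hi) (hW.trans inf_le_left)

variable {S}
variable {a : Cocycle X (p ⁻¹ᵁ Va) ι} {b : Cocycle X (p ⁻¹ᵁ Vb) ι'}
  {c : Cocycle X (p ⁻¹ᵁ Vc) ι''}
  {τa : CocycleIso (a.pull σ Va (S.le Va)) (Cocycle.one Va)}
  {τb : CocycleIso (b.pull σ Vb (S.le Vb)) (Cocycle.one Vb)}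
  {τc : CocycleIso (c.pull σ Vc (S.le Vc)) (Cocycle.one Vc)}

lemma NormIso.norm' (H : S.NormIso τa τb) (i : ι) (j : ι') (O : X.Opens) (W : T.Opens)
    (hW : W ≤ Va ⊓ Vb) (hWO : W ≤ σ ⁻¹ᵁ O) (hi : O ≤ a.U i ⊓ p ⁻¹ᵁ (Va ⊓ Vb))
    (hj : O ≤ b.U j ⊓ p ⁻¹ᵁ (Va ⊓ Vb)) :
    pb σ hWO (H.iso.h i j O hi hj) * τb.h j ⟨⟩ W
      (le_inf (hW.trans inf_le_right) fun x hx => (hj (hWO hx)).1) (hW.trans inf_le_right) =
    τa.h i ⟨⟩ W (le_inf (hW.trans inf_le_left) fun x hx => (hi (hWO hx)).1)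
      (hW.trans inf_le_left) := by
  have e := H.iso.h_res i j (a.U i ⊓ b.U j ⊓ p ⁻¹ᵁ (Va ⊓ Vb)) O (inf_le_inf_right _ inf_le_left)
    (inf_le_inf_right _ inf_le_right) (fun x hx => ⟨⟨(hi hx).1, (hj hx).1⟩, (hi hx).2⟩)
  refine (congrArg (· * _) ((congrArg (pb σ hWO) e.symm).trans (pb_rs σ _ _ _))).trans ?_
  exact H.norm i j W hW (fun x hx => (hi (hWO hx)).1) fun x hx => (hj (hWO hx)).1

/-- The cocycle relation for normalised isomorphisms. -/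
lemma NormIso.comp_eq (Hab : S.NormIso τa τb) (Hbc : S.NormIso τb τc) (Hac : S.NormIso τa τc)
    (i : ι) (j : ι') (l : ι'') (W : X.Opens) (hW : W ≤ p ⁻¹ᵁ (Va ⊓ Vb ⊓ Vc)) (hi : W ≤ a.U i)
    (hj : W ≤ b.U j) (hl : W ≤ c.U l) :
    Hab.iso.h i j W (le_inf hi fun x hx => (hW hx).1) (le_inf hj fun x hx => (hW hx).1) *
      Hbc.iso.h j l W (le_inf hj fun x hx => ⟨(hW hx).1.2, (hW hx).2⟩)
        (le_inf hl fun x hx => ⟨(hW hx).1.2, (hW hx).2⟩) =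
    Hac.iso.h i l W (le_inf hi fun x hx => ⟨(hW hx).1.1, (hW hx).2⟩)
      (le_inf hl fun x hx => ⟨(hW hx).1.1, (hW hx).2⟩) := by
  classical
  let O := Va ⊓ Vb ⊓ Vc
  let U : ι × ι' × ι'' → X.Opens := fun q => a.U q.1 ⊓ b.U q.2.1 ⊓ c.U q.2.2
  have hab : p ⁻¹ᵁ O ≤ p ⁻¹ᵁ (Va ⊓ Vb) := p.preimage_mono inf_le_left
  have hbc : p ⁻¹ᵁ O ≤ p ⁻¹ᵁ (Vb ⊓ Vc) := p.preimage_mono (inf_le_inf_right _ inf_le_right)
  have hac : p ⁻¹ᵁ O ≤ p ⁻¹ᵁ (Va ⊓ Vc) := p.preimage_mono (inf_le_inf_right _ inf_le_left)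
  let num : ∀ (q : ι × ι' × ι'') (W : X.Opens), W ≤ p ⁻¹ᵁ O ⊓ U q → Γ(X, W) := fun q W h =>
    Hab.iso.h q.1 q.2.1 W
      (le_inf (fun x hx => (h hx).2.1.1) fun x hx => hab (h hx).1)
      (le_inf (fun x hx => (h hx).2.1.2) fun x hx => hab (h hx).1) *
    Hbc.iso.h q.2.1 q.2.2 W
      (le_inf (fun x hx => (h hx).2.1.2) fun x hx => hbc (h hx).1)
      (le_inf (fun x hx => (h hx).2.2) fun x hx => hbc (h hx).1)
  let den : ∀ (q : ι × ι' × ι'') (W : X.Opens), W ≤ p ⁻¹ᵁ O ⊓ U q → Γ(X, W) := fun q W h =>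
    Hac.iso.h q.1 q.2.2 W
      (le_inf (fun x hx => (h hx).2.1.1) fun x hx => hac (h hx).1)
      (le_inf (fun x hx => (h hx).2.2) fun x hx => hac (h hx).1)
  have hden : ∀ q W h, IsUnit (den q W h) := fun q W h => Hac.iso.h_unit ..
  have num_res : ∀ q W W' h (h' : W' ≤ W), rs h' (num q W h) = num q W' (h'.trans h) := by
    intro q W W' h h'; simp only [num, map_mul, CocycleIso.h_res]
  have den_res : ∀ q W W' h (h' : W' ≤ W), rs h' (den q W h) = den q W' (h'.trans h) := by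
    intro q W W' h h'; simp only [den, CocycleIso.h_res]
  have indep : ∀ q q' W (h : W ≤ p ⁻¹ᵁ O ⊓ U q) (h' : W ≤ p ⁻¹ᵁ O ⊓ U q'),
      num q W h * den q' W h' = num q' W h' * den q W h := by
    intro q q' W h h'
    have wa : W ≤ a.U q.1 := fun x hx => (h hx).2.1.1
    have wa' : W ≤ a.U q'.1 := fun x hx => (h' hx).2.1.1
    have wb : W ≤ b.U q.2.1 := fun x hx => (h hx).2.1.2
    have wb' : W ≤ b.U q'.2.1 := fun x hx => (h' hx).2.1.2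
    have wc : W ≤ c.U q.2.2 := fun x hx => (h hx).2.2
    have wc' : W ≤ c.U q'.2.2 := fun x hx => (h' hx).2.2
    have wab : W ≤ p ⁻¹ᵁ (Va ⊓ Vb) := fun x hx => hab (h hx).1
    have wbc : W ≤ p ⁻¹ᵁ (Vb ⊓ Vc) := fun x hx => hbc (h hx).1
    have wac : W ≤ p ⁻¹ᵁ (Va ⊓ Vc) := fun x hx => hac (h hx).1
    simp only [num, den]
    rw [← Hab.iso.h_left q'.1 q.1 q'.2.1 W (le_inf wa' wab) (le_inf wa wab) (le_inf wb' wab),
      ← Hab.iso.h_right q.1 q.2.1 q'.2.1 W (le_inf wa wab) (le_inf wb wab) (le_inf wb' wab),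
      ← Hbc.iso.h_left q.2.1 q'.2.1 q.2.2 W (le_inf wb wbc) (le_inf wb' wbc) (le_inf wc wbc),
      ← Hbc.iso.h_right q'.2.1 q.2.2 q'.2.2 W (le_inf wb' wbc) (le_inf wc wbc) (le_inf wc' wbc),
      ← Hac.iso.h_left q'.1 q.1 q'.2.2 W (le_inf wa' wac) (le_inf wa wac) (le_inf wc' wac),
      ← Hac.iso.h_right q.1 q.2.2 q'.2.2 W (le_inf wa wac) (le_inf wc wac) (le_inf wc' wac)]
    dsimp only [Cocycle.restrict]
    ring
  let uq : ∀ q, Γ(X, p ⁻¹ᵁ O ⊓ U q) := fun q =>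
    num q _ le_rfl * ((hden q _ le_rfl).unit⁻¹ : _ˣ)
  have huq : ∀ q, uq q * den q _ le_rfl = num q _ le_rfl := fun q => by
    rw [mul_assoc, IsUnit.val_inv_mul, mul_one]
  have key := S.eq_of_section U (fun x hx => by
      have hx' : p.base x ∈ O := hx
      obtain ⟨i, hi⟩ := a.cover x hx'.1.1
      obtain ⟨j, hj⟩ := b.cover x hx'.1.2
      obtain ⟨l, hl⟩ := c.cover x hx'.2
      exact ⟨(i, j, l), ⟨hi, hj⟩, hl⟩) uq (fun q q' => ?_) (fun q => ?_) (i, j, l)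
  · have := congrArg (rs (show W ≤ p ⁻¹ᵁ O ⊓ U (i, j, l) from
      le_inf hW (le_inf (le_inf hi hj) hl))) (huq (i, j, l))
    rw [key, one_mul] at this
    exact (num_res _ _ _ le_rfl _).symm.trans (this.symm.trans (den_res _ _ _ le_rfl _))
  · have hq := congrArg (rs (show p ⁻¹ᵁ O ⊓ U q ⊓ U q' ≤ p ⁻¹ᵁ O ⊓ U q from inf_le_left)) (huq q)
    have hq' := congrArg (rs (show p ⁻¹ᵁ O ⊓ U q ⊓ U q' ≤ p ⁻¹ᵁ O ⊓ U q' from
      le_inf (inf_le_left.trans inf_le_left) inf_le_right)) (huq q')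
    simp only [map_mul, num_res, den_res] at hq hq'
    have w : p ⁻¹ᵁ O ⊓ U q ⊓ U q' ≤ p ⁻¹ᵁ O ⊓ U q := inf_le_left
    have w' : p ⁻¹ᵁ O ⊓ U q ⊓ U q' ≤ p ⁻¹ᵁ O ⊓ U q' :=
      le_inf (inf_le_left.trans inf_le_left) inf_le_right
    refine ((hden q _ w).mul (hden q' _ w')).mul_right_cancel ?_
    rw [← mul_assoc, hq, mul_left_comm, hq', indep q q' _ w w', mul_comm]
  · set Wσ := O ⊓ σ ⁻¹ᵁ U q
    have hWab : Wσ ≤ Va ⊓ Vb := inf_le_left.trans inf_le_left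
    have hWbc : Wσ ≤ Vb ⊓ Vc := inf_le_left.trans (inf_le_inf_right _ inf_le_right)
    have hWac : Wσ ≤ Va ⊓ Vc := inf_le_left.trans (inf_le_inf_right _ inf_le_left)
    have hO : Wσ ≤ σ ⁻¹ᵁ (p ⁻¹ᵁ O ⊓ U q) := fun x hx => ⟨S.le O hx.1, hx.2⟩
    have e1 := Hab.norm' q.1 q.2.1 _ Wσ hWab hO
      (le_inf (fun x hx => hx.2.1.1) fun x hx => hab hx.1)
      (le_inf (fun x hx => hx.2.1.2) fun x hx => hab hx.1)
    have e2 := Hbc.norm' q.2.1 q.2.2 _ Wσ hWbc hO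
      (le_inf (fun x hx => hx.2.1.2) fun x hx => hbc hx.1)
      (le_inf (fun x hx => hx.2.2) fun x hx => hbc hx.1)
    have e3 := Hac.norm' q.1 q.2.2 _ Wσ hWac hO
      (le_inf (fun x hx => hx.2.1.1) fun x hx => hac hx.1)
      (le_inf (fun x hx => hx.2.2) fun x hx => hac hx.1)
    have h3 := congrArg (pb σ hO) (huq q)
    simp only [num, den, map_mul] at h3
    rw [← e2, ← mul_assoc, ← h3, mul_assoc, e3] at e1
    exact (τa.h_unit ..).mul_right_cancel (e1.trans (one_mul _).symm)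

end RigidSetting

end FLTA.Jacobian
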