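import Fermat.Agent.Jacobian.PicAffineExtend
import Fermat.Agent.Jacobian.PicRigid

/-!
# Gluing two cocycles along an isomorphism of sections on the overlap (S25, part A).
-/

set_option autoImplicit false
set_option linter.unusedVariables false

universe u

open CategoryTheory AlgebraicGeometry Opposite TopologicalSpace

namespace FLTA.Jacobian

variable {X : Scheme.{u}} {V : X.Opens} {ι : Type u}

/-- Sections of a cocycle as sections of its restriction. -/
noncomputable def CSec.toRestrict (c : Cocycle X V ι) {D W : X.Opens} (hD : D ≤ V) (hW : W ≤ D) :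
    CSec c W ≃ₗ[Γ(X, W)] CSec (c.restrict D hD) W where
  toFun x := ⟨fun i O hO hi => x.val i O hO (hi.trans inf_le_left),
    fun i O O' hO hi h => x.val_res _ _ _ _ _ _, fun i j O hO hi hj => x.val_g _ _ _ _ _ _⟩
  map_add' x y := CSec.ext' fun i O hO hi => rfl
  map_smul' a x := CSec.ext' fun i O hO hi => rfl
  invFun y := ⟨fun i O hO hi => y.val i O hO (le_inf hi (hO.trans hW)),
    fun i O O' hO hi h => y.val_res _ _ _ _ _ _, fun i j O hO hi hj => y.val_g _ _ _ _ _ _⟩
  left_inv x := CSec.ext' fun i O hO hi => rfl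
  right_inv y := CSec.ext' fun i O hO hi => rfl

variable {U₁ U₂ : X.Opens} {ι₁ ι₂ : Type u} (c₁ : Cocycle X U₁ ι₁) (c₂ : Cocycle X U₂ ι₂)
  (hcover : ∀ x : X, x ∈ U₁ ∨ x ∈ U₂)
  (H : CocycleIso (c₁.restrict (U₁ ⊓ U₂) inf_le_left) (c₂.restrict (U₁ ⊓ U₂) inf_le_right))

/-- The transition function between the two pieces. -/
noncomputable def crossFun (i : ι₁) (j : ι₂) (O : X.Opens) (hi : O ≤ c₁.U i) (hj : O ≤ c₂.U j) :
    Γ(X, O) :=
  H.h i j O (le_inf hi (le_inf (hi.trans (c₁.le i)) (hj.trans (c₂.le j))))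
    (le_inf hj (le_inf (hi.trans (c₁.le i)) (hj.trans (c₂.le j))))

/-- The inverse transition function between the two pieces. -/
noncomputable def crossFunInv (j : ι₂) (i : ι₁) (O : X.Opens) (hj : O ≤ c₂.U j) (hi : O ≤ c₁.U i) :
    Γ(X, O) :=
  H.symm.h j i O (le_inf hj (le_inf (hi.trans (c₁.le i)) (hj.trans (c₂.le j))))
    (le_inf hi (le_inf (hi.trans (c₁.le i)) (hj.trans (c₂.le j))))

/-- The transition functions of the glued cocycle. -/
noncomputable def glueG : ∀ (p q : ι₁ ⊕ ι₂) (O : X.Opens),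
    O ≤ Sum.elim c₁.U c₂.U p → O ≤ Sum.elim c₁.U c₂.U q → Γ(X, O)
  | .inl i, .inl j, O, hi, hj => c₁.g i j O hi hj
  | .inr i, .inr j, O, hi, hj => c₂.g i j O hi hj
  | .inl i, .inr j, O, hi, hj => crossFun c₁ c₂ H i j O hi hj
  | .inr j, .inl i, O, hj, hi => crossFunInv c₁ c₂ H j i O hj hi

include hcover in
lemma glue_cover (x : X) : ∃ p, x ∈ Sum.elim c₁.U c₂.U p := by
  rcases hcover x with h | h
  · obtain ⟨i, hi⟩ := c₁.cover x h; exact ⟨.inl i, hi⟩
  · obtain ⟨i, hi⟩ := c₂.cover x h; exact ⟨.inr i, hi⟩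

/-- The glued cocycle. -/
noncomputable def glueTwo : Cocycle X ⊤ (ι₁ ⊕ ι₂) where
  U := Sum.elim c₁.U c₂.U
  le _ := le_top
  cover x _ := glue_cover c₁ c₂ hcover x
  g := glueG c₁ c₂ H
  g_res p q O O' hp hq h := by
    rcases p with i | j <;> rcases q with i' | j'
    · exact c₁.g_res _ _ _ _ _ _ _
    · exact H.h_res _ _ _ _ _ _ _
    · exact H.symm.h_res _ _ _ _ _ _ _
    · exact c₂.g_res _ _ _ _ _ _ _
  g_self p O hp := by
    rcases p with i | j
    · exact c₁.g_self _ _ _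
    · exact c₂.g_self _ _ _
  g_mul p q r O hp hq hr := by
    rcases p with i | j <;> rcases q with i' | j' <;> rcases r with i'' | j''
    · exact c₁.g_mul _ _ _ _ _ _ _
    · exact H.h_left _ _ _ _ _ _ _
    · show H.h _ _ _ _ _ * H.symm.h _ _ _ _ _ = c₁.g _ _ _ _ _
      rw [← H.h_left i i'' j' O (le_inf hp (le_inf (hp.trans (c₁.le i)) (hq.trans (c₂.le j'))))
        (le_inf hr (le_inf (hr.trans (c₁.le i'')) (hq.trans (c₂.le j')))) _, mul_assoc]
      simp [CocycleIso.symm, IsUnit.mul_val_inv]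
    · exact H.h_right _ _ _ _ _ _ _
    · exact H.symm.h_right _ _ _ _ _ _ _
    · show H.symm.h _ _ _ _ _ * H.h _ _ _ _ _ = c₂.g _ _ _ _ _
      rw [← H.h_right i' j j'' O
        (le_inf hq (le_inf (hq.trans (c₁.le i')) (hp.trans (c₂.le j))))
        (le_inf hp (le_inf (hq.trans (c₁.le i')) (hp.trans (c₂.le j)))) _, ← mul_assoc]
      simp [CocycleIso.symm, IsUnit.val_inv_mul]
    · exact H.symm.h_left _ _ _ _ _ _ _
    · exact c₂.g_mul _ _ _ _ _ _ _

variable {W : X.Opens}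

/-- The first component of a section of the glued cocycle. -/
noncomputable def projLeft : CSec (glueTwo c₁ c₂ hcover H) W →ₗ[Γ(X, W)] CSec c₁ W where
  toFun x := ⟨fun i O hO hi => x.val (.inl i) O hO hi,
    fun i O O' hO hi h => x.val_res (.inl i) _ _ _ _ _,
    fun i j O hO hi hj => x.val_g (.inl i) (.inl j) _ _ _ _⟩
  map_add' x y := CSec.ext' fun i O hO hi => rfl
  map_smul' a x := CSec.ext' fun i O hO hi => rfl

/-- The second component of a section of the glued cocycle. -/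
noncomputable def projRight : CSec (glueTwo c₁ c₂ hcover H) W →ₗ[Γ(X, W)] CSec c₂ W where
  toFun x := ⟨fun j O hO hj => x.val (.inr j) O hO hj,
    fun j O O' hO hj h => x.val_res (.inr j) _ _ _ _ _,
    fun i j O hO hi hj => x.val_g (.inr i) (.inr j) _ _ _ _⟩
  map_add' x y := CSec.ext' fun i O hO hi => rfl
  map_smul' a x := CSec.ext' fun i O hO hi => rfl

/-- Overlap compatibility of the two components. -/
lemma proj_overlap (x : CSec (glueTwo c₁ c₂ hcover H) W) (i : ι₁) (j : ι₂) (O : X.Opens)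
    (hO : O ≤ W) (hi : O ≤ c₁.U i) (hj : O ≤ c₂.U j) :
    crossFun c₁ c₂ H i j O hi hj * (projRight c₁ c₂ hcover H x).val j O hO hj =
      (projLeft c₁ c₂ hcover H x).val i O hO hi :=
  x.val_g (.inl i) (.inr j) O hO hi hj

lemma bijective_projLeft (hW : IsAffineOpen W) (h₁ : W ≤ U₁) :
    Function.Bijective (projLeft c₁ c₂ hcover H (W := W)) := by
  let P := CSec.Partition.choice (c := glueTwo c₁ c₂ hcover H) hW le_top
  let v' : Fin P.n → CSec c₁.inv W := fun l =>
    ⟨fun i O hO hi => (P.v l).val (.inl i) O hO hi,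
      fun i O O' hO hi h => (P.v l).val_res (.inl i) _ _ _ _ _,
      fun i j O hO hi hj => (P.v l).val_g (.inl i) (.inl j) _ _ _ _⟩
  let Q : CSec.Partition c₁ W h₁ := ⟨P.n, fun l => projLeft c₁ c₂ hcover H (P.u l), v', by
    refine eq_of_locally c₁.U (CSec.cover_of_le h₁) fun i => ?_
    rw [map_sum, map_one]
    simp_rw [CSec.ctr_spec h₁ _ _ i (W ⊓ c₁.U i) inf_le_left inf_le_right]
    exact CSec.sum_val P (.inl i) _ inf_le_left inf_le_right⟩
  haveI : Module.Invertible Γ(X, W) (CSec (glueTwo c₁ c₂ hcover H) W) := P.invertible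
  haveI : Module.Invertible Γ(X, W) (CSec c₁ W) := Q.invertible
  refine Module.Invertible.bijective_of_surjective (LinearMap.range_eq_top.mp ?_)
  exact (Submodule.span_eq (LinearMap.range (projLeft c₁ c₂ hcover H))).symm.trans
    (Q.span_eq_top fun l => Submodule.subset_span ⟨P.u l, rfl⟩)

lemma bijective_projRight (hW : IsAffineOpen W) (h₂ : W ≤ U₂) :
    Function.Bijective (projRight c₁ c₂ hcover H (W := W)) := by
  let P := CSec.Partition.choice (c := glueTwo c₁ c₂ hcover H) hW le_top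
  let v' : Fin P.n → CSec c₂.inv W := fun l =>
    ⟨fun i O hO hi => (P.v l).val (.inr i) O hO hi,
      fun i O O' hO hi h => (P.v l).val_res (.inr i) _ _ _ _ _,
      fun i j O hO hi hj => (P.v l).val_g (.inr i) (.inr j) _ _ _ _⟩
  let Q : CSec.Partition c₂ W h₂ := ⟨P.n, fun l => projRight c₁ c₂ hcover H (P.u l), v', by
    refine eq_of_locally c₂.U (CSec.cover_of_le h₂) fun i => ?_
    rw [map_sum, map_one]
    simp_rw [CSec.ctr_spec h₂ _ _ i (W ⊓ c₂.U i) inf_le_left inf_le_right]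
    exact CSec.sum_val P (.inr i) _ inf_le_left inf_le_right⟩
  haveI : Module.Invertible Γ(X, W) (CSec (glueTwo c₁ c₂ hcover H) W) := P.invertible
  haveI : Module.Invertible Γ(X, W) (CSec c₂ W) := Q.invertible
  refine Module.Invertible.bijective_of_surjective (LinearMap.range_eq_top.mp ?_)
  exact (Submodule.span_eq (LinearMap.range (projRight c₁ c₂ hcover H))).symm.trans
    (Q.span_eq_top fun l => Submodule.subset_span ⟨P.u l, rfl⟩)

omit hcover H in
/-- An isomorphism of sections on an affine overlap gives an isomorphism of cocycles there. -/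
theorem exists_overlapIso (hW : IsAffineOpen W) (h₁₂ : W ≤ U₁ ⊓ U₂) (h₂₁ : U₁ ⊓ U₂ ≤ W)
    (e : CSec c₁ W ≃ₗ[Γ(X, W)] CSec c₂ W) :
    ∃ H : CocycleIso (c₁.restrict (U₁ ⊓ U₂) inf_le_left) (c₂.restrict (U₁ ⊓ U₂) inf_le_right),
      ∀ (y : CSec c₁ W) (i : ι₁) (j : ι₂) (O : X.Opens) (hO : O ≤ W)
        (hi : O ≤ c₁.U i) (hj : O ≤ c₂.U j),
        crossFun c₁ c₂ H i j O hi hj * (e y).val j O hO hj = y.val i O hO hi := by
  obtain rfl : W = U₁ ⊓ U₂ := le_antisymm h₁₂ h₂₁
  let e' : CSec (c₂.restrict (U₁ ⊓ U₂) inf_le_right) (U₁ ⊓ U₂) ≃ₗ[Γ(X, U₁ ⊓ U₂)]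
      CSec (c₁.restrict (U₁ ⊓ U₂) inf_le_left) (U₁ ⊓ U₂) :=
    ((CSec.toRestrict c₂ inf_le_right le_rfl).symm.trans e.symm).trans
      (CSec.toRestrict c₁ inf_le_left le_rfl)
  let P := CSec.Partition.choice (c := c₂.restrict (U₁ ⊓ U₂) inf_le_right) hW le_rfl
  let Q := CSec.Partition.choice (c := c₁.restrict (U₁ ⊓ U₂) inf_le_left) hW le_rfl
  refine ⟨CocycleIso.ofSec (CSec.homSec P e'.toLinearMap) (CSec.isUnit_homSec P e' Q),
    fun y i j O hO hi hj => ?_⟩
  have key := CSec.homSec_apply P e'.toLinearMap (CSec.toRestrict c₂ inf_le_right le_rfl (e y))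
    i j O hO (le_inf hi hO) (le_inf hj hO)
  refine key.trans ?_
  simp only [e', LinearEquiv.coe_coe, LinearEquiv.trans_apply, LinearEquiv.symm_apply_apply]
  rfl

end FLTA.Jacobian
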