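import Fermat.Agent.Jacobian.PicAffineExtend

/-!
# The cocycle of an invertible module over the functions on an open (S25, part A).
-/

set_option autoImplicit false
set_option linter.unusedVariables false

universe u

open CategoryTheory AlgebraicGeometry Opposite TopologicalSpace

open TensorProduct

namespace FLTA.Jacobian

section Invertible

variable {B : Type u} [CommRing B] {M : Type u} [AddCommGroup M] [Module B M]
  [Module.Invertible B M]

lemma dual_smul_comm (v : Module.Dual B M) (a b : M) : v a • b = v b • a := by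
  let f : M →ₗ[B] M →ₗ[B] M := (LinearMap.lsmul B M).comp v
  exact congrArg (TensorProduct.lift f)
    (Module.Invertible.tmul_comm (R := B) (M := M) (m₁ := a) (m₂ := b))

lemma dual_mul_comm (v v' : Module.Dual B M) (a b : M) : v a * v' b = v b * v' a := by
  simpa only [map_smul, smul_eq_mul] using congrArg v' (dual_smul_comm v a b)

lemma exists_dual_sum_eq_one :
    ∃ (n : ℕ) (u : Fin n → M) (v : Fin n → Module.Dual B M), ∑ l, v l (u l) = 1 := by
  classical
  have h1 : (1 : B) ∈ Ideal.span (Set.range fun q : Module.Dual B M × M => q.1 q.2) := by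
    obtain ⟨t, ht⟩ := (Module.Invertible.bijective (R := B) (M := M)).surjective 1
    rw [← ht]
    clear ht
    induction t using TensorProduct.induction_on with
    | zero => simp
    | tmul v m => exact Ideal.subset_span ⟨(v, m), rfl⟩
    | add x y hx hy => rw [map_add]; exact Ideal.add_mem _ hx hy
  obtain ⟨l, hl⟩ := Finsupp.mem_ideal_span_range_iff_exists_finsupp.mp h1
  refine ⟨l.support.card, fun a => l (l.support.equivFin.symm a) • (l.support.equivFin.symm a).1.2,
    fun a => (l.support.equivFin.symm a).1.1, ?_⟩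
  simp_rw [map_smul, smul_eq_mul]
  rw [← hl, Finsupp.sum,
    Equiv.sum_comp l.support.equivFin.symm fun q => l q.1 * q.1.1 q.1.2]
  exact Finset.sum_coe_sort l.support fun q => l q * q.1 q.2

end Invertible

variable {X : Scheme.{u}} {U : X.Opens} {B : Type u} [CommRing B] (φ : B ≃+* Γ(X, U))
  {M : Type u} [AddCommGroup M] [Module B M] [Module.Invertible B M]

namespace ModCocycle

/-- An element of `B` as a function on a smaller open. -/
noncomputable def fn {O : X.Opens} (hO : O ≤ U) : B →+* Γ(X, O) := (rs hO).comp φ.toRingHom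

@[simp] lemma rs_fn {O O' : X.Opens} (hO : O ≤ U) (h : O' ≤ O) (b : B) :
    rs h (fn φ hO b) = fn φ (h.trans hO) b := rs_rs _ _ _

/-- The domain of the trivialisation given by a vector and a functional. -/
noncomputable def dom (q : M × Module.Dual B M) : X.Opens := X.basicOpen (φ (q.2 q.1))

lemma dom_le (q : M × Module.Dual B M) : dom φ q ≤ U := X.basicOpen_le _

lemma isUnit_fn {q : M × Module.Dual B M} {O : X.Opens} (hi : O ≤ dom φ q) :
    IsUnit (fn φ (hi.trans (dom_le φ q)) (q.2 q.1)) := by
  have h : IsUnit (rs (dom_le φ q) (φ (q.2 q.1))) := RingedSpace.isUnit_res_basicOpen _ _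
  have := h.map (rs hi)
  rwa [rs_rs] at this

/-- The inverse of the diagonal value. -/
noncomputable def den {q : M × Module.Dual B M} {O : X.Opens} (hi : O ≤ dom φ q) : Γ(X, O) :=
  ((isUnit_fn φ hi).unit⁻¹ : Γ(X, O)ˣ)

lemma fn_mul_den {q : M × Module.Dual B M} {O : X.Opens} (hi : O ≤ dom φ q) :
    fn φ (hi.trans (dom_le φ q)) (q.2 q.1) * den φ hi = 1 :=
  IsUnit.mul_val_inv _

lemma rs_den {q : M × Module.Dual B M} {O O' : X.Opens} (hi : O ≤ dom φ q) (h : O' ≤ O) :
    rs h (den φ hi) = den φ (h.trans hi) := by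
  refine left_inv_eq_right_inv (a := fn φ ((h.trans hi).trans (dom_le φ q)) (q.2 q.1)) ?_
    (fn_mul_den φ _)
  rw [mul_comm, ← rs_fn φ (hi.trans (dom_le φ q)) h, ← map_mul, fn_mul_den, map_one]

lemma key_identity {q q' : M × Module.Dual B M} {O : X.Opens} (hi : O ≤ dom φ q)
    (hj : O ≤ dom φ q') (x : M) :
    fn φ (hi.trans (dom_le φ q)) (q.2 q'.1) * den φ hi *
      (fn φ (hi.trans (dom_le φ q)) (q'.2 x) * den φ hj) =
      fn φ (hi.trans (dom_le φ q)) (q.2 x) * den φ hi := by
  calc _ = fn φ (hi.trans (dom_le φ q)) (q.2 q'.1 * q'.2 x) * den φ hj * den φ hi := by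
        rw [map_mul]; ring
    _ = fn φ (hi.trans (dom_le φ q)) (q.2 x) *
          (fn φ (hj.trans (dom_le φ q')) (q'.2 q'.1) * den φ hj) * den φ hi := by
        rw [dual_mul_comm, map_mul]; ring
    _ = _ := by rw [fn_mul_den, mul_one]

end ModCocycle

open ModCocycle

/-- The cocycle of an invertible module. -/
noncomputable def moduleCocycle : Cocycle X U (M × Module.Dual B M) where
  U := dom φ
  le := dom_le φ
  cover x hx := by
    classical
    obtain ⟨n, u, v, h⟩ := exists_dual_sum_eq_one (B := B) (M := M)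
    by_contra hne
    push Not at hne
    have hmem : ∀ l, X.presheaf.germ U x hx (φ (v l (u l))) ∈
        IsLocalRing.maximalIdeal (X.presheaf.stalk x) := fun l => by
      rw [IsLocalRing.mem_maximalIdeal, mem_nonunits_iff]
      exact fun hl => hne (u l, v l) ((X.mem_basicOpen _ x hx).mpr hl)
    have hsum := Ideal.sum_mem _ fun l (_ : l ∈ Finset.univ) => hmem l
    rw [← map_sum, ← map_sum, h, map_one, map_one] at hsum
    exact (IsLocalRing.maximalIdeal.isMaximal (X.presheaf.stalk x)).ne_top
      ((Ideal.eq_top_iff_one _).mpr hsum)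
  g q q' O hi hj := fn φ (hi.trans (dom_le φ q)) (q.2 q'.1) * den φ hi
  g_res q q' O O' hi hj h := by rw [map_mul, rs_fn, rs_den]
  g_self q O hi := fn_mul_den φ hi
  g_mul q q' q'' O hi hj hl := key_identity φ hi hj q''.1

/-- A vector as a section. -/
noncomputable def toModuleSec (x : M) : CSec (moduleCocycle φ (M := M)) U where
  val q O _ hi := fn φ (hi.trans (dom_le φ q)) (q.2 x) * den φ hi
  val_res q O O' _ hi h := by rw [map_mul, rs_fn, rs_den]
  val_g q q' O _ hi hj := key_identity φ hi hj x

/-- A functional as a section of the dual. -/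
noncomputable def toDualSec (v : Module.Dual B M) : CSec (moduleCocycle φ (M := M)).inv U where
  val q O _ hi := fn φ (hi.trans (dom_le φ q)) (v q.1)
  val_res q O O' _ hi h := rs_fn φ _ _ _
  val_g q q' O _ hi hj := by
    change fn φ (hj.trans (dom_le φ q')) (q'.2 q.1) * den φ hj *
      fn φ (hj.trans (dom_le φ q')) (v q'.1) = fn φ (hi.trans (dom_le φ q)) (v q.1)
    rw [mul_right_comm, ← map_mul, dual_mul_comm, map_mul, mul_right_comm,
      fn_mul_den φ hj, one_mul]

lemma ctr_toModuleSec (x : M) (v : Module.Dual B M) :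
    CSec.ctr le_rfl (toModuleSec φ x) (toDualSec φ v) = φ (v x) := by
  refine (CSec.eq_ctr le_rfl _ _ _ fun q O hO hi => ?_).symm
  change fn φ hO (v x) = fn φ hO (q.2 x) * den φ hi * fn φ hO (v q.1)
  rw [mul_right_comm, ← map_mul, dual_mul_comm, map_mul, mul_right_comm, fn_mul_den φ hi, one_mul]

lemma toModuleSec_smul (b : B) (x : M) :
    toModuleSec φ (b • x) = φ b • toModuleSec φ x := by
  refine CSec.ext' fun q O hO hi => ?_
  change fn φ hO (q.2 (b • x)) * den φ hi = rs hO (φ b) * (fn φ hO (q.2 x) * den φ hi)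
  rw [map_smul, smul_eq_mul, map_mul, mul_assoc]
  rfl

lemma toModuleSec_add (x y : M) :
    toModuleSec φ (x + y) = toModuleSec φ x + toModuleSec φ y := by
  refine CSec.ext' fun q O hO hi => ?_
  change fn φ hO (q.2 (x + y)) * den φ hi =
    fn φ hO (q.2 x) * den φ hi + fn φ hO (q.2 y) * den φ hi
  rw [map_add, map_add, add_mul]

/-- Vectors to sections, semilinearly. -/
noncomputable def toModuleSecLin :
    M →ₛₗ[(φ : B →+* Γ(X, U))] CSec (moduleCocycle φ (M := M)) U where
  toFun := toModuleSec φ
  map_add' := toModuleSec_add φ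
  map_smul' := toModuleSec_smul φ

/-- The partition of unity of the cocycle of a module. -/
theorem nonempty_modulePartition :
    Nonempty (CSec.Partition (moduleCocycle φ (M := M)) U le_rfl) := by
  obtain ⟨n, u, v, h⟩ := exists_dual_sum_eq_one (B := B) (M := M)
  refine ⟨⟨n, fun l => toModuleSec φ (u l), fun l => toDualSec φ (v l), ?_⟩⟩
  simp_rw [ctr_toModuleSec, ← map_sum, h, map_one]

theorem bijective_toModuleSec : Function.Bijective (toModuleSec φ (M := M)) := by
  obtain ⟨n, u, v, h⟩ := exists_dual_sum_eq_one (B := B) (M := M)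
  let P : CSec.Partition (moduleCocycle φ (M := M)) U le_rfl :=
    ⟨n, fun l => toModuleSec φ (u l), fun l => toDualSec φ (v l),
      by simp_rw [ctr_toModuleSec, ← map_sum, h, map_one]⟩
  let back : CSec (moduleCocycle φ (M := M)) U → M := fun s =>
    ∑ l, φ.symm (CSec.ctr le_rfl s (toDualSec φ (v l))) • u l
  refine Function.bijective_iff_has_inverse.mpr ⟨back, fun x => ?_, fun s => ?_⟩
  · simp only [back, ctr_toModuleSec, RingEquiv.symm_apply_apply]
    rw [Finset.sum_congr rfl fun l _ => dual_smul_comm (v l) x (u l), ← Finset.sum_smul, h,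
      one_smul]
  · change toModuleSecLin φ (∑ l, φ.symm (CSec.ctr le_rfl s (toDualSec φ (v l))) • u l) = s
    rw [map_sum]
    simp only [LinearMap.map_smulₛₗ, RingEquiv.coe_toRingHom, RingEquiv.apply_symm_apply]
    exact P.expand s

end FLTA.Jacobian
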