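import Fermat.Agent.Jacobian.PicAffineTriple
import Fermat.Agent.Jacobian.PicAffineModule
import Fermat.Agent.Jacobian.PicAffineGlue

/-!
# Every triple comes from a cocycle (S25, part A).
-/

set_option autoImplicit false
set_option linter.unusedVariables false

universe u

open CategoryTheory CategoryTheory.Limits AlgebraicGeometry NeronModelInfra TopologicalSpace
open scoped FLTA.Jacobian.TwoCover FLTA.Jacobian.Triple

namespace FLTA.Jacobian

section general

variable {X : Scheme.{u}} {B : Type u} [CommRing B] (f : Spec (CommRingCat.of B) ⟶ X)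
  [IsOpenImmersion f] {M : Type u} [AddCommGroup M] [Module B M] [Module.Invertible B M]

/-- The sections of the cocycle of an invertible module are the module. -/
noncomputable def moduleSecEquiv :
    M ≃ₗ[B] ChartSec f (moduleCocycle (chartEquiv f) (M := M)) :=
  LinearEquiv.ofBijective
    ({ toFun := fun x => ChartSec.mk f (toModuleSec (chartEquiv f) x)
       map_add' := fun x y => toModuleSec_add (chartEquiv f) x y
       map_smul' := fun b x => toModuleSec_smul (chartEquiv f) b x } :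
      M →ₗ[B] ChartSec f (moduleCocycle (chartEquiv f) (M := M)))
    (bijective_toModuleSec (chartEquiv f))

variable {U₁ U₂ : X.Opens} {ι₁ ι₂ : Type u} (c₁ : Cocycle X U₁ ι₁) (c₂ : Cocycle X U₂ ι₂)
  (hcover : ∀ x : X, x ∈ U₁ ∨ x ∈ U₂)
  (H : CocycleIso (c₁.restrict (U₁ ⊓ U₂) inf_le_left) (c₂.restrict (U₁ ⊓ U₂) inf_le_right))

lemma projRight_eq {W : X.Opens} (h₁ : W ≤ U₁)
    (e : CSec c₁ W ≃ₗ[Γ(X, W)] CSec c₂ W)
    (he : ∀ (y : CSec c₁ W) (i : ι₁) (j : ι₂) (O : X.Opens) (hO : O ≤ W) (hi : O ≤ c₁.U i)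
      (hj : O ≤ c₂.U j), crossFun c₁ c₂ H i j O hi hj * (e y).val j O hO hj = y.val i O hO hi)
    (x : CSec (glueTwo c₁ c₂ hcover H) W) :
    projRight c₁ c₂ hcover H x = e (projLeft c₁ c₂ hcover H x) := by
  refine CSec.ext' fun j O hO hj =>
    eq_of_locally c₁.U (CSec.cover_of_le (hO.trans h₁)) fun i => ?_
  rw [CSec.val_res, CSec.val_res]
  have hu : IsUnit (crossFun c₁ c₂ H i j (O ⊓ c₁.U i) inf_le_right (inf_le_left.trans hj)) :=
    H.h_unit _ _ _ _ _
  refine hu.mul_left_cancel ?_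
  exact (proj_overlap c₁ c₂ hcover H x i j _ (inf_le_left.trans hO) inf_le_right
    (inf_le_left.trans hj)).trans (he _ i j _ _ inf_le_right (inf_le_left.trans hj)).symm

end general

variable {k : Type u} [Field k] {C : Scheme.{u}} {c : C ⟶ Spec (CommRingCat.of k)}
  {ε : SchemeHomOver (𝟙 (Spec (CommRingCat.of k))) c}

variable {R : Type u} [CommRing R] [Algebra k R] (cc : CurveCover c ε)

/-- Every triple is the triple of a cocycle. -/
theorem exists_tripleOfCocycle (T : Triple cc.E R) :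
    ∃ (ι : Type u) (d : Cocycle (pullback c (Spec.map (CommRingCat.ofHom (algebraMap k R)))) ⊤ ι),
      Nonempty (Triple.Iso (tripleOfCocycle cc d) T) := by
  let c₁ := moduleCocycle (chartEquiv (cc.chA R)) (M := T.M)
  let c₂ := moduleCocycle (chartEquiv (cc.chA' R)) (M := T.M')
  let ψ₁ : T.M ≃ₗ[cc.E.AR R] ChartSec (cc.chA R) c₁ := moduleSecEquiv (cc.chA R)
  let ψ₂ : T.M' ≃ₗ[cc.E.AR' R] ChartSec (cc.chA' R) c₂ := moduleSecEquiv (cc.chA' R)
  have hle := subChart_le _ _ _ (cc.SpecMap_ιR_chA R)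
  have hle' := subChart_le _ _ _ (cc.SpecMap_ιR'_chA' R)
  let r₁ : ChartSec (cc.chA R) c₁ →ₛₗ[(cc.E.ιR R).toRingHom] ChartSec (cc.ch01 R) c₁ :=
    chartRes (cc.chA R) (cc.ch01 R) (cc.E.ιR R).toRingHom (cc.SpecMap_ιR_chA R)
  let r₂ : ChartSec (cc.chA' R) c₂ →ₛₗ[(cc.E.ιR' R).toRingHom] ChartSec (cc.ch01 R) c₂ :=
    chartRes (cc.chA' R) (cc.ch01 R) (cc.E.ιR' R).toRingHom (cc.SpecMap_ιR'_chA' R)
  haveI : Module.Invertible (cc.E.AR01 R) (ChartSec (cc.ch01 R) c₁) := ChartSec.invertible hle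
  haveI : Module.Invertible (cc.E.AR01 R) (ChartSec (cc.ch01 R) c₂) := ChartSec.invertible hle'
  have hs₁ : Submodule.span (cc.E.AR01 R) (Set.range (r₁.comp ψ₁.toLinearMap)) = ⊤ := by
    rw [LinearMap.coe_comp, LinearEquiv.coe_coe, ψ₁.surjective.range_comp]
    exact span_range_chartRes _ _ _ _ le_rfl
  have hs₂ : Submodule.span (cc.E.AR01 R) (Set.range (r₂.comp ψ₂.toLinearMap)) = ⊤ := by
    rw [LinearMap.coe_comp, LinearEquiv.coe_coe, ψ₂.surjective.range_comp]
    exact span_range_chartRes _ _ _ _ le_rfl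
  let eN₁ : T.N ≃ₗ[cc.E.AR01 R] ChartSec (cc.ch01 R) c₁ :=
    spanEquiv T.res T.span_range_res _ hs₁
  let eN₂ : T.N ≃ₗ[cc.E.AR01 R] ChartSec (cc.ch01 R) c₂ :=
    spanEquiv T.res' T.span_range_res' _ hs₂
  let e12 := ChartSec.unmap (eN₁.symm.trans eN₂)
  obtain ⟨H, hH⟩ := exists_overlapIso c₁ c₂ (isAffineOpen_opensRange (cc.ch01 R)) (le_inf hle hle')
    (cc.chart_overlap_eq R).ge e12
  let G := glueTwo c₁ c₂ (cc.chart_cover R) H
  let pL :=
    LinearEquiv.ofBijective _ (bijective_projLeft c₁ c₂ (cc.chart_cover R) H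
      (isAffineOpen_opensRange (cc.chA R)) le_rfl)
  let pR :=
    LinearEquiv.ofBijective _ (bijective_projRight c₁ c₂ (cc.chart_cover R) H
      (isAffineOpen_opensRange (cc.chA' R)) le_rfl)
  let pN :=
    LinearEquiv.ofBijective _ (bijective_projLeft c₁ c₂ (cc.chart_cover R) H
      (isAffineOpen_opensRange (cc.ch01 R)) hle)
  refine ⟨_, G, ⟨{
    eM := (ChartSec.map pL).trans ψ₁.symm
    eM' := (ChartSec.map pR).trans ψ₂.symm
    eN := (ChartSec.map pN).trans eN₁.symm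
    comm := fun m => ?_
    comm' := fun m => ?_ }⟩⟩
  · apply eN₁.injective
    refine Eq.trans ?_ (spanEquiv_apply T.res T.span_range_res _ hs₁ _).symm
    show eN₁ (eN₁.symm _) = r₁ (ψ₁ (ψ₁.symm (ChartSec.map pL m)))
    rw [eN₁.apply_symm_apply, ψ₁.apply_symm_apply]
    rfl
  · apply eN₂.injective
    refine Eq.trans ?_ (spanEquiv_apply T.res' T.span_range_res' _ hs₂ _).symm
    show eN₂ (eN₁.symm _) = r₂ (ψ₂ (ψ₂.symm (ChartSec.map pR m)))
    rw [ψ₂.apply_symm_apply]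
    exact (projRight_eq c₁ c₂ (cc.chart_cover R) H hle e12 hH (m.sec.restrict hle')).symm

end FLTA.Jacobian
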