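import Fermat.Agent.Jacobian.CechCoord

/-!
# Two-chart line bundles: cohomology
-/

set_option autoImplicit false

universe u

open TensorProduct Polynomial
open scoped FLTA.Jacobian.TwoCover FLTA.Jacobian.Triple

namespace FLTA.Jacobian

variable {k : Type u} [Field k] {E : TwoCover k}

namespace TwoCover

/-- The degree of the map to the line. -/
noncomputable def deg (E : TwoCover k) : ℕ :=
  Module.finrank k (E.A' ⧸ Ideal.span {E.s})

theorem finite_quot_s (E : TwoCover k) : FiniteDimensional k (E.A' ⧸ Ideal.span {E.s}) := by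
  have := E.isDomain_A'
  obtain ⟨n, c, e, -, he⟩ := exists_coord E.s E.finite' E.aeval_s_injective
  refine Module.Finite.of_surjective
    ((Ideal.Quotient.mkₐ k (Ideal.span {E.s})).toLinearMap ∘ₗ Fintype.linearCombination k e) ?_
  intro z
  obtain ⟨a, rfl⟩ := Ideal.Quotient.mk_surjective z
  refine ⟨fun i => (c i a).eval 0, ?_⟩
  conv_rhs => rw [← he a]
  simp only [LinearMap.coe_comp, Function.comp_apply, Fintype.linearCombination_apply, map_sum,
    AlgHom.toLinearMap_apply, Ideal.Quotient.mkₐ_eq_mk]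
  refine Finset.sum_congr rfl fun i _ => ?_
  rw [Ideal.Quotient.eq, Ideal.mem_span_singleton]
  have h : X ∣ (c i a).eval 0 • (1 : k[X]) - c i a := by
    rw [X_dvd_iff, coeff_sub, coeff_smul, coeff_zero_eq_eval_zero (c i a)]
    simp
  obtain ⟨q, hq⟩ := h
  refine ⟨aeval E.s q * e i, ?_⟩
  have hq' := congrArg (aeval E.s) hq
  rw [map_sub, map_smul, map_one, map_mul, aeval_X] at hq'
  rw [← mul_assoc, ← hq', sub_mul, smul_mul_assoc, one_mul]

end TwoCover

namespace Triple

section Gens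

variable {R : Type u} [CommRing R] [Algebra k R] (T : Triple E R)

scoped instance projective_M : Module.Projective R T.M := projective_of_tower R (E.AR R) T.M

scoped instance projective_M' : Module.Projective R T.M' := projective_of_tower R (E.AR' R) T.M'

scoped instance projective_N : Module.Projective R T.N := projective_of_tower R (E.AR01 R) T.N

lemma tauEnd_pow_M (j : ℕ) (m : T.M) :
    ((tauEnd (k := k) E.t R T.M) ^ j) m = (E.tR R) ^ j • m := by
  rw [tauEnd, ← map_pow]
  rfl

lemma tauEnd_pow_M' (j : ℕ) (m : T.M') :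
    ((tauEnd (k := k) E.s R T.M') ^ j) m = (E.sR R) ^ j • m := by
  rw [tauEnd, ← map_pow]
  rfl

theorem exists_span_M : ∃ G : Finset T.M,
    Submodule.span R {x | ∃ (j : ℕ), ∃ y ∈ G, (E.tR R) ^ j • y = x} = ⊤ := by
  have := E.isDomain_A
  obtain ⟨ι, _, ψ, g, -, hrec⟩ :=
    exists_coord_module E.t R E.finite E.aeval_t_injective T.M
  obtain ⟨G, hG⟩ := span_tau_eq_top R _ ψ g hrec
  simp only [tauEnd_pow_M] at hG
  exact ⟨G, hG⟩

/-- Generators of `N` modulo the image of the differential. -/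
theorem exists_gens : ∃ (G : Finset T.M) (d : ℕ),
    (∀ y ∈ G, ∀ l, d ≤ l → ∃ x, T.res' x = (E.ιR' R (E.sR R)) ^ l • T.res y) ∧
    Submodule.span R {x : T.N | ∃ l < d, ∃ y ∈ G, (E.ιR' R (E.sR R)) ^ l • T.res y = x} ⊔
      LinearMap.range T.diff = ⊤ := by
  classical
  obtain ⟨G, hG⟩ := T.exists_span_M
  have hd : ∀ y : T.M, ∃ (d : ℕ) (x : T.M'), (E.ιR' R (E.sR R)) ^ d • T.res y = T.res' x :=
    fun y => by
      obtain ⟨x, d, h⟩ := T.res'_surj (T.res y)
      exact ⟨d, x, h⟩
  choose d x hx using hd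
  have hbig : ∀ y ∈ G, ∀ l, G.sup d ≤ l →
      ∃ x', T.res' x' = (E.ιR' R (E.sR R)) ^ l • T.res y := by
    intro y hy l hl
    have hdy : d y ≤ l := le_trans (Finset.le_sup hy) hl
    refine ⟨(E.sR R) ^ (l - d y) • x y, ?_⟩
    rw [LinearMap.map_smulₛₗ, ← hx, smul_smul, map_pow]
    congr 1
    change (E.ιR' R (E.sR R)) ^ (l - d y) * _ = _
    rw [← pow_add]
    congr 1
    omega
  refine ⟨G, G.sup d, hbig, ?_⟩
  rw [eq_top_iff]
  intro n _
  obtain ⟨m, i, hm⟩ := T.res_surj n
  have hn : n = (E.ιR' R (E.sR R)) ^ i • T.res m := by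
    rw [← hm, smul_smul, mul_comm, E.tR_pow_mul_ιR', one_smul]
  rw [hn]
  clear hn hm
  have hmem : m ∈ Submodule.span R {x | ∃ (j : ℕ), ∃ y ∈ G, (E.tR R) ^ j • y = x} :=
    hG ▸ Submodule.mem_top
  induction hmem using Submodule.span_induction with
  | mem z hz =>
    obtain ⟨j, y, hy, rfl⟩ := hz
    rw [LinearMap.map_smulₛₗ, map_pow, smul_smul]
    change ((E.ιR' R (E.sR R)) ^ i * (E.ιR R (E.tR R)) ^ j) • T.res y ∈ _
    rcases le_or_gt i j with h | h
    · refine Submodule.mem_sup_right ⟨((E.tR R) ^ (j - i) • y, 0), ?_⟩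
      rw [diff_apply, map_zero, sub_zero, LinearMap.map_smulₛₗ, map_pow]
      congr 1
      change (E.ιR R (E.tR R)) ^ (j - i) = _
      conv_rhs => rw [show j = i + (j - i) by omega, pow_add, ← mul_assoc,
        mul_comm ((E.ιR' R (E.sR R)) ^ i), E.tR_pow_mul_ιR', one_mul]
    · have e : (E.ιR' R (E.sR R)) ^ i * (E.ιR R (E.tR R)) ^ j =
          (E.ιR' R (E.sR R)) ^ (i - j) := by
        conv_lhs => rw [show i = (i - j) + j by omega, pow_add, mul_assoc,
          mul_comm ((E.ιR' R (E.sR R)) ^ j), E.tR_pow_mul_ιR', mul_one]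
      rw [e]
      rcases lt_or_ge (i - j) (G.sup d) with h' | h'
      · exact Submodule.mem_sup_left (Submodule.subset_span ⟨_, h', y, hy, rfl⟩)
      · obtain ⟨x', hx'⟩ := hbig y hy _ h'
        refine Submodule.mem_sup_right ⟨(0, -x'), ?_⟩
        rw [diff_apply, map_zero, map_neg, zero_sub, neg_neg, hx']
  | zero => simp
  | add a b _ _ ha hb =>
    rw [map_add, smul_add]
    exact add_mem ha hb
  | smul r a _ ha =>
    rw [← resLin_apply, map_smul, smul_comm, resLin_apply]
    exact Submodule.smul_mem _ r ha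

instance finite_h1 (T : Triple E R) : Module.Finite R T.H1 := by
  classical
  obtain ⟨G, d, -, hG⟩ := T.exists_gens
  constructor
  let S : Set T.N := {x | ∃ l < d, ∃ y ∈ G, (E.ιR' R (E.sR R)) ^ l • T.res y = x}
  have hS : S.Finite := by
    refine ((Finset.range d ×ˢ G).image
      fun p => (E.ιR' R (E.sR R)) ^ p.1 • T.res p.2).finite_toSet.subset ?_
    rintro _ ⟨l, hl, y, hy, rfl⟩
    simp only [Finset.coe_image, Set.mem_image, Finset.mem_coe, Finset.mem_product,
      Finset.mem_range]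
    exact ⟨(l, y), ⟨hl, hy⟩, rfl⟩
  have hfg := (Submodule.fg_span (R := R) hS).map (LinearMap.range T.diff).mkQ
  have htop : Submodule.map (LinearMap.range T.diff).mkQ (Submodule.span R S) = ⊤ := by
    have h := congrArg (Submodule.map (LinearMap.range T.diff).mkQ) hG
    rw [Submodule.map_sup, Submodule.map_top, Submodule.range_mkQ, Submodule.mkQ_map_self,
      sup_bot_eq] at h
    exact h
  rwa [htop] at hfg

theorem exists_twist_h1 (T : Triple E R) :
    ∃ d : ℕ, ∀ m : ℕ, d ≤ m → Subsingleton (T.twist m).H1 := by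
  obtain ⟨G, d, hd, hG⟩ := T.exists_gens
  refine ⟨d, fun m hm => ?_⟩
  rw [Submodule.Quotient.subsingleton_iff, eq_top_iff]
  intro (n : T.N) _
  suffices h : ∃ z : T.M × T.M', T.res z.1 - (E.ιR R (E.tR R)) ^ m • T.res' z.2 = n by
    obtain ⟨z, hz⟩ := h
    exact ⟨z, hz⟩
  let P : Submodule R T.N := LinearMap.range
    (T.resLin.coprod (-(LinearMap.lsmul (E.AR01 R) T.N ((E.ιR R (E.tR R)) ^ m)).restrictScalars R
      ∘ₗ T.resLin'))
  have hP : ∀ x, x ∈ P ↔
      ∃ z : T.M × T.M', T.res z.1 - (E.ιR R (E.tR R)) ^ m • T.res' z.2 = x := by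
    intro x
    simp [P, sub_eq_add_neg]
  rw [← hP]
  have hle : Submodule.span R {x : T.N | ∃ l < d, ∃ y ∈ G,
      (E.ιR' R (E.sR R)) ^ l • T.res y = x} ⊔ LinearMap.range T.diff ≤ P := by
    refine sup_le (Submodule.span_le.mpr ?_) ?_
    · rintro _ ⟨l, -, y, hy, rfl⟩
      obtain ⟨x, hx⟩ := hd y hy (m + l) (by omega)
      rw [SetLike.mem_coe, hP]
      refine ⟨(0, -x), ?_⟩
      rw [map_zero, map_neg, zero_sub, smul_neg, neg_neg, hx, smul_smul, pow_add, ← mul_assoc,
        E.tR_pow_mul_ιR', one_mul]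
    · rintro _ ⟨z, rfl⟩
      rw [hP]
      refine ⟨(z.1, (E.sR R) ^ m • z.2), ?_⟩
      rw [diff_apply, LinearMap.map_smulₛₗ, map_pow, smul_smul]
      change _ - ((E.ιR R (E.tR R)) ^ m * (E.ιR' R (E.sR R)) ^ m) • _ = _
      rw [E.tR_pow_mul_ιR', one_smul]
  exact hle (hG ▸ Submodule.mem_top)

/-- `H0` is contained in a finitely generated submodule. -/
theorem exists_fg_h0 (T : Triple E R) :
    ∃ W : Submodule R (T.M × T.M'), W.FG ∧ T.H0 ≤ W := by
  have := E.isDomain_A
  have := E.isDomain_A'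
  obtain ⟨ι, _, ψ, g, hψ, hrec⟩ :=
    exists_coord_module E.t R E.finite E.aeval_t_injective T.M
  obtain ⟨ι', _, ψ', g', hψ', hrec'⟩ :=
    exists_coord_module E.s R E.finite' E.aeval_s_injective T.M'
  obtain ⟨G, hG⟩ := span_tau_eq_top R _ ψ g hrec
  obtain ⟨G', hG'⟩ := span_tau_eq_top R _ ψ' g' hrec'
  obtain ⟨W₁, hW₁, h₁⟩ := exists_fg_of_mem_range (v := Algebra.lsmul R R T.N (E.ιR R (E.tR R)))
    (res := T.resLin) (res' := T.resLin') (σ := tauEnd (k := k) E.s R T.M') T.res_injective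
    (fun m => T.res.map_smulₛₗ _ m)
    (fun x => by
      change E.ιR R (E.tR R) • T.res' ((E.sR R) • x) = T.res' x
      rw [LinearMap.map_smulₛₗ, smul_smul]
      change (E.ιR R (E.tR R) * E.ιR' R (E.sR R)) • _ = _
      rw [E.ιR_tR_mul_sR, one_smul])
    ψ g hψ hrec hG'
    (fun y _ => by
      obtain ⟨m, d, h⟩ := T.res_surj (T.res' y)
      refine ⟨d, m, ?_⟩
      rw [← map_pow]
      exact h)
  obtain ⟨W₂, hW₂, h₂⟩ := exists_fg_of_mem_range (v := Algebra.lsmul R R T.N (E.ιR' R (E.sR R)))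
    (res := T.resLin') (res' := T.resLin) (σ := tauEnd (k := k) E.t R T.M) T.res'_injective
    (fun m => T.res'.map_smulₛₗ _ m)
    (fun x => by
      change E.ιR' R (E.sR R) • T.res ((E.tR R) • x) = T.res x
      rw [LinearMap.map_smulₛₗ, smul_smul]
      change (E.ιR' R (E.sR R) * E.ιR R (E.tR R)) • _ = _
      rw [mul_comm, E.ιR_tR_mul_sR, one_smul])
    ψ' g' hψ' hrec' hG
    (fun y _ => by
      obtain ⟨m, d, h⟩ := T.res'_surj (T.res y)
      refine ⟨d, m, ?_⟩
      rw [← map_pow]
      exact h)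
  refine ⟨W₁.prod W₂, hW₁.prod hW₂, fun z hz => ⟨h₁ z.1 z.2 ?_, h₂ z.2 z.1 ?_⟩⟩
  · exact (T.mem_h0_iff z).mp hz
  · exact ((T.mem_h0_iff z).mp hz).symm

theorem finite_h0 (T : Triple E R) [IsNoetherianRing R] : Module.Finite R T.H0 := by
  obtain ⟨W, hW, hle⟩ := T.exists_fg_h0
  have := isNoetherian_of_fg_of_noetherian W hW
  exact Module.Finite.of_injective (Submodule.inclusion hle) (Submodule.inclusion_injective hle)

theorem exists_proj_h0 (T : Triple E R) (h : Subsingleton T.H1) :
    ∃ (σ : T.N →ₗ[R] T.M × T.M') (π : T.M × T.M' →ₗ[R] T.H0),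
      (∀ n, T.diff (σ n) = n) ∧ (∀ z, (π z).1 = z - σ (T.diff z)) := by
  have hs : Function.Surjective T.diff :=
    LinearMap.range_eq_top.mp ((Submodule.Quotient.subsingleton_iff).mp h)
  obtain ⟨σ, hσ⟩ := Module.projective_lifting_property T.diff LinearMap.id hs
  refine ⟨σ, (LinearMap.id - σ ∘ₗ T.diff).codRestrict T.H0 fun z => ?_,
    LinearMap.congr_fun hσ, fun z => rfl⟩
  rw [LinearMap.mem_ker]
  simp [show ∀ n, T.diff (σ n) = n from LinearMap.congr_fun hσ]

theorem finite_h0_of_h1 (T : Triple E R) (h : Subsingleton T.H1) :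
    Module.Finite R T.H0 := by
  obtain ⟨σ, π, -, hπ⟩ := T.exists_proj_h0 h
  obtain ⟨W, hW, hle⟩ := T.exists_fg_h0
  have : Module.Finite R W := Module.Finite.iff_fg.mpr hW
  refine Module.Finite.of_surjective (π ∘ₗ W.subtype) fun z => ⟨⟨z.1, hle z.2⟩, ?_⟩
  apply Subtype.ext
  rw [LinearMap.comp_apply, Submodule.subtype_apply, hπ, LinearMap.mem_ker.mp z.2, map_zero,
    sub_zero]

theorem projective_h0_of_h1 (T : Triple E R) (h : Subsingleton T.H1) :
    Module.Projective R T.H0 := by
  obtain ⟨σ, π, -, hπ⟩ := T.exists_proj_h0 h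
  refine Module.Projective.of_split T.H0.subtype π (LinearMap.ext fun z => Subtype.ext ?_)
  rw [LinearMap.comp_apply, LinearMap.id_apply, hπ, Submodule.subtype_apply,
    LinearMap.mem_ker.mp z.2, map_zero, sub_zero]

end Gens

section BC

variable {R : Type u} [CommRing R] [Algebra k R]
  {S : Type u} [CommRing S] [Algebra k S] [Algebra R S] [IsScalarTower k R S]
  {T : Triple E R} {T' : Triple E S}

/-- Restriction of scalars on `M`. -/
@[reducible] noncomputable def modRM (T' : Triple E S) : Module R T'.M :=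
  Module.compHom T'.M (algebraMap R S)

/-- Restriction of scalars on `M'`. -/
@[reducible] noncomputable def modRM' (T' : Triple E S) : Module R T'.M' :=
  Module.compHom T'.M' (algebraMap R S)

/-- Restriction of scalars on `N`. -/
@[reducible] noncomputable def modRN (T' : Triple E S) : Module R T'.N :=
  Module.compHom T'.N (algebraMap R S)

attribute [local instance] modRM modRM' modRN

theorem towRSM (T' : Triple E S) : IsScalarTower R S T'.M :=
  IsScalarTower.of_algebraMap_smul fun _ _ => rfl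

theorem towRSM' (T' : Triple E S) : IsScalarTower R S T'.M' :=
  IsScalarTower.of_algebraMap_smul fun _ _ => rfl

theorem towRSN (T' : Triple E S) : IsScalarTower R S T'.N :=
  IsScalarTower.of_algebraMap_smul fun _ _ => rfl

attribute [local instance] towRSM towRSM' towRSN

/-- `fM` as an `R`-linear map. -/
noncomputable def BaseChange.linM (b : BaseChange T T') : T.M →ₗ[R] T'.M :=
  bcLin k E.A R S b.fM

/-- `fM'` as an `R`-linear map. -/
noncomputable def BaseChange.linM' (b : BaseChange T T') : T.M' →ₗ[R] T'.M' :=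
  bcLin k E.A' R S b.fM'

/-- `fN` as an `R`-linear map. -/
noncomputable def BaseChange.linN (b : BaseChange T T') : T.N →ₗ[R] T'.N :=
  bcLin k E.A01 R S b.fN

theorem BaseChange.isBaseChange_M (b : BaseChange T T') : IsBaseChange S b.linM :=
  isBaseChange_bcLin k E.A R S b.fM b.gen

theorem BaseChange.isBaseChange_M' (b : BaseChange T T') : IsBaseChange S b.linM' :=
  isBaseChange_bcLin k E.A' R S b.fM' b.gen'

theorem BaseChange.isBaseChange_N (b : BaseChange T T') : IsBaseChange S b.linN :=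
  isBaseChange_bcLin k E.A01 R S b.fN b.genN

theorem BaseChange.linN_diff (b : BaseChange T T') (z : T.M × T.M') :
    b.linN (T.diff z) = T'.diff (b.linM z.1, b.linM' z.2) := by
  simp only [BaseChange.linN, BaseChange.linM, BaseChange.linM', diff_apply, map_sub, bcLin_apply]
  exact congrArg₂ (· - ·) (b.comm z.1) (b.comm' z.2)

/-- The map on first cohomology. -/
noncomputable def BaseChange.h1Map (b : BaseChange T T') : T.H1 →ₗ[R] T'.H1 :=
  (LinearMap.range T.diff).liftQ
    (((LinearMap.range T'.diff).mkQ.restrictScalars R) ∘ₗ b.linN) (by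
      rintro _ ⟨z, rfl⟩
      rw [LinearMap.mem_ker, LinearMap.comp_apply, b.linN_diff]
      exact (Submodule.Quotient.mk_eq_zero _).mpr ⟨_, rfl⟩)

theorem BaseChange.exists_h1Inv (b : BaseChange T T') :
    ∃ ψ : T'.H1 →ₗ[S] S ⊗[R] T.H1,
      ∀ n, ψ (Submodule.Quotient.mk (b.linN n)) = 1 ⊗ₜ Submodule.Quotient.mk n := by
  let ψ₀ : T'.N →ₗ[S] S ⊗[R] T.H1 := b.isBaseChange_N.lift
    ((TensorProduct.mk R S T.H1 1) ∘ₗ (LinearMap.range T.diff).mkQ)
  have h₀ : ∀ n, ψ₀ (b.linN n) = 1 ⊗ₜ Submodule.Quotient.mk n := fun n =>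
    b.isBaseChange_N.lift_eq _ n
  have h1 : ψ₀ ∘ₗ T'.resLin = 0 := b.isBaseChange_M.algHom_ext _ _ fun m => by
    rw [LinearMap.comp_apply, LinearMap.zero_apply,
      show T'.resLin (b.linM m) = b.linN (T.diff (m, 0)) by
        rw [b.linN_diff, diff_apply, map_zero, map_zero, sub_zero]; rfl,
      h₀, (Submodule.Quotient.mk_eq_zero _).mpr (LinearMap.mem_range_self _ _),
      TensorProduct.tmul_zero]
  have h2 : ψ₀ ∘ₗ T'.resLin' = 0 := b.isBaseChange_M'.algHom_ext _ _ fun m => by
    rw [LinearMap.comp_apply, LinearMap.zero_apply,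
      show T'.resLin' (b.linM' m) = b.linN (T.diff (0, -m)) by
        rw [b.linN_diff, diff_apply, map_zero, map_zero, zero_sub, map_neg, map_neg, neg_neg]
        rfl,
      h₀, (Submodule.Quotient.mk_eq_zero _).mpr (LinearMap.mem_range_self _ _),
      TensorProduct.tmul_zero]
  refine ⟨(LinearMap.range T'.diff).liftQ ψ₀ ?_, h₀⟩
  rintro _ ⟨z, rfl⟩
  rw [LinearMap.mem_ker, diff_apply, map_sub]
  exact sub_eq_zero.mpr ((LinearMap.congr_fun h1 z.1).trans (LinearMap.congr_fun h2 z.2).symm)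

/-- First cohomology commutes with every base change. -/
noncomputable def BaseChange.h1Equiv (b : BaseChange T T') : S ⊗[R] T.H1 ≃ₗ[S] T'.H1 :=
  LinearEquiv.ofLinearMap (b.h1Map.liftBaseChange S) b.exists_h1Inv.choose
    (by
      refine Submodule.linearMap_qext _ (b.isBaseChange_N.algHom_ext _ _ fun n => ?_)
      simp only [LinearMap.comp_apply, LinearMap.id_apply, Submodule.mkQ_apply,
        b.exists_h1Inv.choose_spec, LinearMap.liftBaseChange_tmul, one_smul]
      rfl)
    (by
      refine (TensorProduct.isBaseChange R T.H1 S).algHom_ext _ _ fun x => ?_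
      induction x using Submodule.Quotient.induction_on with
      | H n =>
        simp only [LinearMap.comp_apply, LinearMap.id_apply, TensorProduct.mk_apply,
          LinearMap.liftBaseChange_tmul, one_smul]
        exact b.exists_h1Inv.choose_spec n)

theorem BaseChange.h1_subsingleton (b : BaseChange T T') (h : Subsingleton T.H1) :
    Subsingleton T'.H1 :=
  b.h1Equiv.symm.injective.subsingleton

theorem h1_open (T : Triple E R) (p : PrimeSpectrum R) {K : Type u} [Field K] [Algebra k K]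
    [Algebra R K] [IsScalarTower k R K] (hK : RingHom.ker (algebraMap R K) = p.asIdeal)
    {TK : Triple E K} (b : BaseChange T TK) (h : Subsingleton TK.H1) :
    ∃ f : R, f ∉ p.asIdeal ∧ ∀ (U : Type u) [CommRing U] [Algebra k U] [Algebra R U]
      [IsScalarTower k R U], IsUnit (algebraMap R U f) → ∀ TU : Triple E U,
        BaseChange T TU → Subsingleton TU.H1 := by
  have hsub : Subsingleton (K ⊗[R] T.H1) := b.h1Equiv.injective.subsingleton
  let φ : p.asIdeal.ResidueField →+* K :=
    Ideal.ResidueField.lift p.asIdeal (algebraMap R K) hK.ge (by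
      intro x (hx : x ∉ p.asIdeal)
      exact IsUnit.mk0 _ fun h0 => hx (hK ▸ h0))
  let := φ.toAlgebra
  have : IsScalarTower R p.asIdeal.ResidueField K :=
    IsScalarTower.of_algebraMap_eq fun x =>
      (Ideal.ResidueField.lift_algebraMap p.asIdeal (algebraMap R K) _ _ x).symm
  let e := TensorProduct.AlgebraTensorModule.cancelBaseChange R p.asIdeal.ResidueField K K T.H1
  have hres : Subsingleton (p.asIdeal.ResidueField ⊗[R] T.H1) :=
    (Module.FaithfullyFlat.subsingleton_tensorProduct_iff_right p.asIdeal.ResidueField K).mp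
      e.injective.subsingleton
  have hp : p ∉ Module.support R T.H1 := fun hp => not_nontrivial_iff_subsingleton.mpr hres
    ((Module.mem_support_iff_nontrivial_residueField_tensorProduct p).mp hp)
  rw [Module.mem_support_iff_of_finite, SetLike.not_le_iff_exists] at hp
  obtain ⟨f, hf, hfp⟩ := hp
  refine ⟨f, hfp, fun U _ _ _ _ hu TU bU => ?_⟩
  have : Subsingleton (U ⊗[R] T.H1) := by
    refine subsingleton_of_forall_eq 0 fun z => ?_
    induction z using TensorProduct.induction_on with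
    | zero => rfl
    | add x y hx hy => rw [hx, hy, add_zero]
    | tmul u m =>
      obtain ⟨v, hv⟩ := hu.exists_right_inv
      rw [show u = f • (v * u) by rw [Algebra.smul_def, ← mul_assoc, hv, one_mul],
        TensorProduct.smul_tmul, Module.mem_annihilator.mp hf m, TensorProduct.tmul_zero]
  exact bU.h1Equiv.symm.injective.subsingleton

/-- Global sections commute with base change when `H1` vanishes. -/
theorem BaseChange.h0_base_change (b : BaseChange T T') (h : Subsingleton T.H1) :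
    ∃ e : S ⊗[R] T.H0 ≃ₗ[S] T'.H0,
      ∀ x : T.H0, (e ((1 : S) ⊗ₜ[R] x)).1 = (b.fM x.1.1, b.fM' x.1.2) := by
  obtain ⟨σ, π, hσ, hπ⟩ := T.exists_proj_h0 h
  let F : T.M × T.M' →ₗ[R] T'.M × T'.M' := b.linM.prodMap b.linM'
  have hFdiff : ∀ z, T'.diff (F z) = b.linN (T.diff z) := fun z => (b.linN_diff z).symm
  let i₀ : T.H0 →ₗ[R] T'.H0 :=
    (F ∘ₗ T.H0.subtype).codRestrict (T'.H0.restrictScalars R) fun z => by
      change T'.diff (F z.1) = 0
      rw [hFdiff, LinearMap.mem_ker.mp z.2, map_zero]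
  let φ : S ⊗[R] T.H0 →ₗ[S] T'.H0 := i₀.liftBaseChange S
  let σ' : T'.N →ₗ[S] T'.M × T'.M' := b.isBaseChange_N.lift (F ∘ₗ σ)
  let ψ₁ : T'.M →ₗ[S] S ⊗[R] T.H0 :=
    b.isBaseChange_M.lift ((TensorProduct.mk R S T.H0 1) ∘ₗ π ∘ₗ LinearMap.inl R T.M T.M')
  let ψ₂ : T'.M' →ₗ[S] S ⊗[R] T.H0 :=
    b.isBaseChange_M'.lift ((TensorProduct.mk R S T.H0 1) ∘ₗ π ∘ₗ LinearMap.inr R T.M T.M')
  let ψ : T'.M × T'.M' →ₗ[S] S ⊗[R] T.H0 := ψ₁.coprod ψ₂
  have hψF : ∀ z, ψ (F z) = 1 ⊗ₜ π z := by
    intro z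
    simp only [ψ, F, LinearMap.prodMap_apply, LinearMap.coprod_apply, ψ₁, ψ₂,
      IsBaseChange.lift_eq, LinearMap.comp_apply, TensorProduct.mk_apply]
    rw [← TensorProduct.tmul_add, ← map_add]
    simp
  have hφ : ∀ x, (φ (1 ⊗ₜ x)).1 = F x.1 := by
    intro x
    simp [φ, i₀]
    rfl
  have hkey : ∀ z : T'.M × T'.M', (φ (ψ z)).1 = z - σ' (T'.diff z) := by
    have : T'.H0.subtype ∘ₗ φ ∘ₗ ψ = LinearMap.id - σ' ∘ₗ T'.diff := by
      refine LinearMap.prod_ext (b.isBaseChange_M.algHom_ext _ _ fun m => ?_)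
        (b.isBaseChange_M'.algHom_ext _ _ fun m => ?_)
      · have hF : (b.linM m, (0 : T'.M')) = F (m, 0) := by simp [F]
        simp only [LinearMap.comp_apply, LinearMap.inl_apply, LinearMap.sub_apply,
          LinearMap.id_apply, hF, hψF, Submodule.subtype_apply, hφ, hπ, hFdiff, σ',
          IsBaseChange.lift_eq, map_sub]
      · have hF : ((0 : T'.M), b.linM' m) = F (0, m) := by simp [F]
        simp only [LinearMap.comp_apply, LinearMap.inr_apply, LinearMap.sub_apply,
          LinearMap.id_apply, hF, hψF, Submodule.subtype_apply, hφ, hπ, hFdiff, σ',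
          IsBaseChange.lift_eq, map_sub]
    exact fun z => LinearMap.congr_fun this z
  refine ⟨LinearEquiv.ofLinearMap φ (ψ ∘ₗ T'.H0.subtype) ?_ ?_, fun x => ?_⟩
  · refine LinearMap.ext fun z => Subtype.ext ?_
    rw [LinearMap.comp_apply, LinearMap.comp_apply, LinearMap.id_apply, Submodule.subtype_apply,
      hkey, LinearMap.mem_ker.mp z.2, map_zero, sub_zero]
  · refine (TensorProduct.isBaseChange R T.H0 S).algHom_ext _ _ fun x => ?_
    simp only [LinearMap.comp_apply, LinearMap.id_apply, TensorProduct.mk_apply,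
      Submodule.subtype_apply, hφ, hψF]
    congr 1
    exact Subtype.ext (by rw [hπ, LinearMap.mem_ker.mp x.2, map_zero, sub_zero])
  · exact hφ x

end BC

section Field

variable {K : Type u} [Field K] [Algebra k K]

theorem finrank_quot_sR (T : Triple E K) :
    FiniteDimensional K
        (T.M' ⧸ LinearMap.range (tauEnd (k := k) E.s K T.M')) ∧
      Module.finrank K (T.M' ⧸ LinearMap.range (tauEnd (k := k) E.s K T.M')) = E.deg := by
  let I : Ideal (E.AR' K) := Ideal.span {E.sR K}
  have hI : I = (Ideal.span {E.s}).map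
      (Algebra.TensorProduct.includeRight (R := k) (A := K) (B := E.A')) := by
    rw [Ideal.map_span, Set.image_singleton]
    rfl
  have := E.finite_quot_s
  let e₀ : (K ⊗[k] (E.A' ⧸ Ideal.span {E.s})) ≃ₐ[K] E.AR' K ⧸ I :=
    (Algebra.TensorProduct.tensorQuotientEquiv _ _ _ _).trans
      (Ideal.quotientEquivAlgOfEq K hI.symm)
  have hB : FiniteDimensional K (E.AR' K ⧸ I) := Module.Finite.equiv e₀.toLinearEquiv
  have hdim : Module.finrank K (E.AR' K ⧸ I) = E.deg := by
    rw [← e₀.toLinearEquiv.finrank_eq, Module.finrank_baseChange, TwoCover.deg]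
  have : IsArtinianRing (E.AR' K ⧸ I) := IsArtinianRing.of_finite K _
  obtain ⟨e₁⟩ := Module.Invertible.free_iff_linearEquiv.mp
    (inferInstance : Module.Free (E.AR' K ⧸ I) ((E.AR' K ⧸ I) ⊗[E.AR' K] T.M'))
  let e₂ : (T.M' ⧸ (I • ⊤ : Submodule (E.AR' K) T.M')) ≃ₗ[K] E.AR' K ⧸ I :=
    ((TensorProduct.quotTensorEquivQuotSMul T.M' I).symm.restrictScalars K) ≪≫ₗ
      e₁.restrictScalars K
  have hrange : LinearMap.range (tauEnd (k := k) E.s K T.M') =
      (I • ⊤ : Submodule (E.AR' K) T.M').restrictScalars K := by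
    ext x
    rw [Submodule.restrictScalars_mem, Submodule.ideal_span_singleton_smul,
      Submodule.mem_smul_pointwise_iff_exists]
    simp [tauEnd, TwoCover.sR]
  let e₃ : (T.M' ⧸ LinearMap.range (tauEnd (k := k) E.s K T.M')) ≃ₗ[K]
      E.AR' K ⧸ I :=
    (Submodule.quotEquivOfEq _ _ hrange) ≪≫ₗ (Submodule.Quotient.restrictScalarsEquiv K _) ≪≫ₗ e₂
  exact ⟨Module.Finite.equiv e₃.symm, e₃.finrank_eq.trans hdim⟩

theorem chi_twist_one (T : Triple E K) : (T.twist 1).chi = T.chi + E.deg := by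
  have := T.finite_h0
  have := (T.twist 1).finite_h0
  obtain ⟨hfin, hdim⟩ := T.finrank_quot_sR
  let σ := tauEnd (k := k) E.s K T.M'
  let j : T.M × T.M' →ₗ[K] T.M × T.M' := LinearMap.id.prodMap σ
  let d : T.M × T.M' →ₗ[K] T.N := (T.twist 1).diff
  have hσ : ∀ x, (E.ιR K (E.tR K)) ^ 1 • T.res' (σ x) = T.res' x := by
    intro x
    change (E.ιR K (E.tR K)) ^ 1 • T.res' (E.sR K • x) = T.res' x
    rw [LinearMap.map_smulₛₗ, smul_smul, pow_one]
    change (E.ιR K (E.tR K) * E.ιR' K (E.sR K)) • _ = _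
    rw [E.ιR_tR_mul_sR, one_smul]
  have hdj : d ∘ₗ j = T.diff := by
    refine LinearMap.ext fun z => ?_
    change T.res z.1 - (E.ιR K (E.tR K)) ^ 1 • T.res' (σ z.2) = _
    rw [hσ, diff_apply]
  have hj : Function.Injective j := by
    intro x y h
    have h2 : σ x.2 = σ y.2 := congrArg Prod.snd h
    exact Prod.ext (congrArg Prod.fst h :) (T.res'_injective (by rw [← hσ x.2, h2, hσ]))
  have hjr : LinearMap.range j = (⊤ : Submodule K T.M).prod (LinearMap.range σ) := by
    rw [LinearMap.range_prodMap, LinearMap.range_id]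
  let q : ((T.M × T.M') ⧸ LinearMap.range j) ≃ₗ[K] T.M' ⧸ LinearMap.range σ :=
    (Submodule.quotEquivOfEq _ _ (by
      rw [hjr, LinearMap.ker_comp, Submodule.ker_mkQ]
      ext z
      simp)) ≪≫ₗ
    LinearMap.quotKerEquivOfSurjective ((LinearMap.range σ).mkQ ∘ₗ LinearMap.snd K T.M T.M')
      ((Submodule.mkQ_surjective _).comp LinearMap.snd_surjective)
  have : FiniteDimensional K ((T.M × T.M') ⧸ LinearMap.range j) := Module.Finite.equiv q.symm
  have : FiniteDimensional K (LinearMap.ker d) := (T.twist 1).finite_h0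
  have : FiniteDimensional K (T.N ⧸ LinearMap.range (d ∘ₗ j)) := by
    rw [hdj]; exact finite_h1 T
  have key := index_comp_injective j d hj
  rw [hdj, q.finrank_eq, hdim] at key
  exact key

theorem chi_twist (T : Triple E K) (m : ℕ) : (T.twist m).chi = T.chi + m * E.deg := by
  induction m with
  | zero =>
    have h : ((T.twist 0).diff : T.M × T.M' →ₗ[K] T.N) = T.diff := by
      refine LinearMap.ext fun z => ?_
      change T.res z.1 - (E.ιR K (E.tR K)) ^ 0 • T.res' z.2 = _
      rw [pow_zero, one_smul]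
      exact (diff_apply T z).symm
    have h' := congrArg (fun f : T.M × T.M' →ₗ[K] T.N =>
      (Module.finrank K (LinearMap.ker f) : ℤ) -
        Module.finrank K (T.N ⧸ LinearMap.range f)) h
    rw [Nat.cast_zero, zero_mul, add_zero]
    exact h'
  | succ m ih =>
    have h : (((T.twist m).twist 1).diff : T.M × T.M' →ₗ[K] T.N) = (T.twist (m + 1)).diff := by
      refine LinearMap.ext fun z => ?_
      change T.res z.1 - (E.ιR K (E.tR K)) ^ 1 • (E.ιR K (E.tR K)) ^ m • T.res' z.2 =
        T.res z.1 - (E.ιR K (E.tR K)) ^ (m + 1) • T.res' z.2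
      rw [smul_smul, ← pow_add, add_comm]
    have h' := congrArg (fun f : T.M × T.M' →ₗ[K] T.N =>
      (Module.finrank K (LinearMap.ker f) : ℤ) -
        Module.finrank K (T.N ⧸ LinearMap.range f)) h
    calc (T.twist (m + 1)).chi = ((T.twist m).twist 1).chi := h'.symm
      _ = _ := by rw [chi_twist_one, ih]; push_cast; ring

theorem chi_eq_of_h1 (T : Triple E K) (h : Subsingleton T.H1) :
    T.chi = Module.finrank K T.H0 := by
  rw [chi, Module.finrank_zero_of_subsingleton (R := K) (M := T.H1), Nat.cast_zero, sub_zero]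

theorem BaseChange.chi_eq {L : Type u} [Field L] [Algebra k L] [Algebra K L]
    [IsScalarTower k K L] {T : Triple E K} {TL : Triple E L} (b : BaseChange T TL) :
    TL.chi = T.chi := by
  obtain ⟨d, hd⟩ := T.exists_twist_h1
  have h1 := hd d le_rfl
  obtain ⟨e, -⟩ := (b.twist d).h0_base_change h1
  have hT := chi_twist T d
  have hL := chi_twist TL d
  rw [chi_eq_of_h1 _ h1] at hT
  rw [chi_eq_of_h1 _ ((b.twist d).h1_subsingleton h1), ← e.finrank_eq,
    Module.finrank_baseChange] at hL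
  omega

theorem Iso.chi_eq {T T' : Triple E K} (e : Iso T T') : T.chi = T'.chi :=
  (((BaseChange.refl T).congrRight e).chi_eq).symm

end Field

section LocConst

variable {R : Type u} [CommRing R] [Algebra k R]

theorem chi_locally_constant (T : Triple E R) (p : PrimeSpectrum R) :
    ∃ (f : R) (c : ℤ), f ∉ p.asIdeal ∧ ∀ (K : Type u) [Field K] [Algebra k K] [Algebra R K]
      [IsScalarTower k R K], algebraMap R K f ≠ 0 → ∀ TK : Triple E K,
        BaseChange T TK → TK.chi = c := by
  obtain ⟨d, hd⟩ := T.exists_twist_h1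
  have h1 := hd d le_rfl
  have := (T.twist d).finite_h0_of_h1 h1
  have := (T.twist d).projective_h0_of_h1 h1
  have : Module.FinitePresentation R (T.twist d).H0 := Module.finitePresentation_of_projective R _
  obtain ⟨U, hU, hpU, hc⟩ := (IsLocallyConstant.iff_exists_open _).mp
    (Module.isLocallyConstant_rankAtStalk (R := R) (M := (T.twist d).H0)) p
  obtain ⟨_, ⟨f, rfl⟩, hpf, hfU⟩ :=
    PrimeSpectrum.isTopologicalBasis_basic_opens.exists_subset_of_mem_open hpU hU
  refine ⟨f, Module.rankAtStalk (T.twist d).H0 p - d * E.deg, hpf,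
    fun K _ _ _ _ hfK TK b => ?_⟩
  obtain ⟨e, -⟩ := (b.twist d).h0_base_change h1
  have hK := chi_twist TK d
  rw [chi_eq_of_h1 _ ((b.twist d).h1_subsingleton h1), ← e.finrank_eq] at hK
  let q : PrimeSpectrum K := ⟨⊥, Ideal.isPrime_bot⟩
  have hq : Module.finrank K (K ⊗[R] (T.twist d).H0) = Module.rankAtStalk (T.twist d).H0 p := by
    have h2 := Module.rankAtStalk_baseChange (R := R) (M := (T.twist d).H0) (S := K) q
    rw [Module.rankAtStalk_eq_finrank_of_free, Pi.natCast_apply, Nat.cast_id] at h2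
    rw [h2]
    exact hc _ (hfU (by simpa [q, PrimeSpectrum.mem_basicOpen] using hfK))
  omega

end LocConst

end Triple

end FLTA.Jacobian
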