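import Fermat.Agent.Jacobian.CurvePoint
import Fermat.Agent.Jacobian.CechCohom

/-!
# Cohomology of the trivial bundle over a field
-/

set_option autoImplicit false

universe u

open TensorProduct
open scoped FLTA.Jacobian.TwoCover FLTA.Jacobian.Triple

namespace FLTA.Jacobian

namespace Triple

variable {k : Type u} [Field k] {E : TwoCover k} {K : Type u} [Field K] [Algebra k K]

/-- Global functions, as a subalgebra of the first chart. -/
noncomputable def globalFunctions (E : TwoCover k) (K : Type u) [Field K] [Algebra k K] :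
    Subalgebra K (E.AR K) :=
  (E.ιR' K).range.comap (E.ιR K)

lemma mem_globalFunctions {a : E.AR K} :
    a ∈ globalFunctions E K ↔ ∃ b, E.ιR' K b = E.ιR K a :=
  AlgHom.mem_range _

/-- The projection of a global section of the trivial bundle to the first chart. -/
noncomputable def h0OneFst : (one E K).H0 →ₗ[K] globalFunctions E K :=
  ((LinearMap.fst K (one E K).M (one E K).M').comp (one E K).H0.subtype).codRestrict
    (globalFunctions E K).toSubmodule fun x =>
      mem_globalFunctions.mpr ⟨x.1.2, (((one E K).mem_h0_iff x.1).mp x.2).symm⟩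

lemma h0OneFst_bijective : Function.Bijective (h0OneFst (E := E) (K := K)) := by
  constructor
  · intro x y h
    have h1 : x.1.1 = y.1.1 := congrArg Subtype.val h
    refine Subtype.ext (Prod.ext h1 ((one E K).res'_injective ?_))
    rw [← ((one E K).mem_h0_iff x.1).mp x.2, ← ((one E K).mem_h0_iff y.1).mp y.2, h1]
  · intro a
    obtain ⟨b, hb⟩ := mem_globalFunctions.mp a.2
    exact ⟨⟨(a.1, b), ((one E K).mem_h0_iff _).mpr hb.symm⟩, Subtype.ext rfl⟩

lemma globalFunctions_eq_bot : globalFunctions E K = ⊥ := by
  have := E.domain K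
  have : Module.Finite K (one E K).H0 := (one E K).finite_h0
  have : Module.Finite K (globalFunctions E K) :=
    Module.Finite.equiv (LinearEquiv.ofBijective h0OneFst h0OneFst_bijective)
  have hF : IsField (globalFunctions E K) :=
    isField_of_isIntegral_of_isField' (R := K) (Field.toIsField K)
  refine eq_bot_iff.mpr fun a ha => ?_
  obtain ⟨b, hb⟩ := mem_globalFunctions.mp ha
  by_contra hne
  let d : globalFunctions E K :=
    ⟨a - algebraMap K _ (E.εR K b), sub_mem ha (Subalgebra.algebraMap_mem _ _)⟩
  have hd : d ≠ 0 := fun h => hne (Algebra.mem_bot.mpr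
    ⟨E.εR K b, (sub_eq_zero.mp (congrArg Subtype.val h)).symm⟩)
  obtain ⟨y, hy⟩ := hF.mul_inv_cancel hd
  obtain ⟨b', hb'⟩ := mem_globalFunctions.mp y.2
  have h1 : (b - algebraMap K _ (E.εR K b)) * b' = 1 := E.ιR'_injective K <| by
    rw [map_mul, map_sub, map_one, AlgHom.commutes, hb, hb', ← (E.ιR K).commutes, ← map_sub,
      ← map_mul, show (a - algebraMap K _ (E.εR K b)) * y.1 = 1 from congrArg Subtype.val hy,
      map_one]
  have h2 := congrArg (E.εR K) h1
  rw [map_mul, map_sub, AlgHom.commutes, map_one, Algebra.algebraMap_self, RingHom.id_apply,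
    sub_self, zero_mul] at h2
  exact zero_ne_one h2

theorem finrank_h0_one' : Module.finrank K (one E K).H0 = 1 := by
  have := E.domain K
  rw [(LinearEquiv.ofBijective h0OneFst h0OneFst_bijective).finrank_eq]
  change Module.finrank K (globalFunctions E K) = 1
  rw [globalFunctions_eq_bot, Subalgebra.finrank_bot]

/-- The trivial bundle over `S` is the base change of the trivial bundle over `R`. -/
noncomputable def oneBaseChange (E : TwoCover k) (R S : Type u) [CommRing R] [Algebra k R]
    [CommRing S] [Algebra k S] [Algebra R S] [IsScalarTower k R S] :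
    BaseChange (one E R) (one E S) where
  fM :=
    { toFun := E.bcA R S
      map_add' := map_add _
      map_smul' := fun a x => map_mul (E.bcA R S) a x }
  fM' :=
    { toFun := E.bcA' R S
      map_add' := map_add _
      map_smul' := fun a x => map_mul (E.bcA' R S) a x }
  fN :=
    { toFun := E.bc01 R S
      map_add' := map_add _
      map_smul' := fun a x => map_mul (E.bc01 R S) a x }
  comm m := E.bc01_ιR R S m
  comm' m := E.bc01_ιR' R S m
  gen := by
    change Submodule.span (E.AR S) (Set.range (E.bcA R S)) = ⊤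
    refine eq_top_iff.mpr fun x _ => ?_
    rw [← mul_one x, ← smul_eq_mul]
    exact Submodule.smul_mem _ _ (Submodule.subset_span ⟨1, map_one _⟩)
  gen' := by
    change Submodule.span (E.AR' S) (Set.range (E.bcA' R S)) = ⊤
    refine eq_top_iff.mpr fun x _ => ?_
    rw [← mul_one x, ← smul_eq_mul]
    exact Submodule.smul_mem _ _ (Submodule.subset_span ⟨1, map_one _⟩)

lemma finrank_h1_one_base : Module.finrank k (one E k).H1 = E.genus := by
  let e : (one E k).N ≃ₗ[k] E.A01 := (Algebra.TensorProduct.lid k E.A01).toLinearEquiv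
  have h : (LinearMap.range (one E k).diff).map e.toLinearMap =
      LinearMap.range E.ι.toLinearMap ⊔ LinearMap.range E.ι'.toLinearMap := by
    have hA : ∀ a : E.A, e ((one E k).res ((1 : k) ⊗ₜ[k] a)) = E.ι a := fun a => by
      change Algebra.TensorProduct.lid k E.A01 (E.ιR k ((1 : k) ⊗ₜ[k] a)) = E.ι a
      simp [TwoCover.ιR]
    have hA' : ∀ a : E.A', e ((one E k).res' ((1 : k) ⊗ₜ[k] a)) = E.ι' a := fun a => by
      change Algebra.TensorProduct.lid k E.A01 (E.ιR' k ((1 : k) ⊗ₜ[k] a)) = E.ι' a
      simp [TwoCover.ιR']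
    apply le_antisymm
    · rw [Submodule.map_le_iff_le_comap]
      rintro _ ⟨⟨x, y⟩, rfl⟩
      obtain ⟨a, rfl⟩ := (Algebra.TensorProduct.lid k E.A).symm.surjective x
      obtain ⟨b, rfl⟩ := (Algebra.TensorProduct.lid k E.A').symm.surjective y
      change e ((one E k).diff _) ∈ LinearMap.range E.ι.toLinearMap ⊔ LinearMap.range E.ι'.toLinearMap
      rw [diff_apply, map_sub]
      refine sub_mem (Submodule.mem_sup_left ⟨a, ?_⟩) (Submodule.mem_sup_right ⟨b, ?_⟩)
      · exact (hA a).symm
      · exact (hA' b).symm
    · refine sup_le ?_ ?_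
      · rintro _ ⟨a, rfl⟩
        refine Submodule.mem_map.mpr ⟨_, ⟨(1 ⊗ₜ a, 0), rfl⟩, ?_⟩
        rw [diff_apply]
        exact (congrArg e ((congrArg _ (map_zero (one E k).res')).trans (sub_zero _))).trans (hA a)
      · rintro _ ⟨a, rfl⟩
        refine Submodule.mem_map.mpr ⟨_, ⟨(0, -(1 ⊗ₜ a)), rfl⟩, ?_⟩
        rw [diff_apply]
        refine Eq.trans (congrArg e ?_) (hA' a)
        exact ((congrArg₂ (· - ·) (map_zero (one E k).res) (map_neg (one E k).res' _))).trans
          ((zero_sub _).trans (neg_neg _))
  exact (Submodule.Quotient.equiv _ _ e h).finrank_eq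

theorem finrank_h1_one' : Module.finrank K (one E K).H1 = E.genus := by
  rw [← (oneBaseChange E k K).h1Equiv.finrank_eq, Module.finrank_baseChange, finrank_h1_one_base]

theorem chi_one' : (one E K).chi = 1 - (E.genus : ℤ) := by
  rw [chi, finrank_h0_one', finrank_h1_one']
  rfl

theorem finite_quot_s (E : TwoCover k) : Module.Finite k (E.A' ⧸ Ideal.span {E.s}) := by
  classical
  algebraize [(Polynomial.aeval (R := k) E.s).toRingHom]
  have : Module.Finite (Polynomial k) E.A' := E.finite'
  obtain ⟨G, hG⟩ := this.fg_top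
  refine ⟨⟨G.image (Ideal.Quotient.mk _), top_unique ?_⟩⟩
  intro x _
  obtain ⟨x, rfl⟩ := Ideal.Quotient.mk_surjective x
  have hx : x ∈ Submodule.span (Polynomial k) (G : Set E.A') := hG ▸ Submodule.mem_top
  induction hx using Submodule.span_induction with
  | mem g hg => exact Submodule.subset_span (by simpa using ⟨g, hg, rfl⟩)
  | zero => rw [map_zero]; exact zero_mem _
  | add a b _ _ ha hb => rw [map_add]; exact add_mem (ha trivial) (hb trivial)
  | smul p a _ ha =>
    have : Ideal.Quotient.mk (Ideal.span {E.s}) (p • a) =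
        p.coeff 0 • Ideal.Quotient.mk (Ideal.span {E.s}) a := by
      rw [Algebra.smul_def, RingHom.algebraMap_toAlgebra, map_mul]
      change Ideal.Quotient.mk _ (Polynomial.aeval E.s p) * _ = _
      rw [Algebra.smul_def]
      congr 1
      conv_lhs => rw [← Polynomial.X_mul_divX_add p]
      rw [map_add, map_mul, Polynomial.aeval_X, map_add, map_mul,
        Ideal.Quotient.eq_zero_iff_mem.mpr (Ideal.mem_span_singleton_self E.s), zero_mul, zero_add,
        Polynomial.aeval_C]
      rfl
    rw [this]
    exact Submodule.smul_mem _ _ (ha trivial)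

theorem deg_pos' : 0 < E.deg := by
  have := finite_quot_s E
  have : Nontrivial (E.A' ⧸ Ideal.span {E.s}) := by
    rw [Ideal.Quotient.nontrivial_iff]
    refine ne_top_of_le_ne_top (RingHom.ker_ne_top E.ε) ?_
    rw [Ideal.span_singleton_le_iff_mem]
    exact E.ε_s
  exact Module.finrank_pos

end Triple

end FLTA.Jacobian
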