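import Fermat.Agent.Jacobian.PicAffineTriple
import Fermat.Agent.Jacobian.CurveField

/-!
# Functions on the curve over an affine base (S25, part A).
-/

set_option autoImplicit false
set_option linter.unusedVariables false

universe u

open CategoryTheory CategoryTheory.Limits AlgebraicGeometry NeronModelInfra TopologicalSpace
open TensorProduct
open scoped FLTA.Jacobian.TwoCover FLTA.Jacobian.Triple

namespace FLTA.Jacobian

variable {k : Type u} [Field k]

namespace TwoCover

variable (E : TwoCover k)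

lemma exists_eq_algebraMap_of_eq {a : E.A} {b : E.A'} (h : E.ι a = E.ι' b) :
    ∃ r : k, algebraMap k E.A r = a ∧ algebraMap k E.A' r = b := by
  have hmem : (1 : k) ⊗ₜ[k] a ∈ Triple.globalFunctions E k :=
    Triple.mem_globalFunctions.mpr ⟨(1 : k) ⊗ₜ[k] b, by
      simp only [ιR, ιR', Algebra.TensorProduct.map_tmul, AlgHom.coe_id, id_eq, h]⟩
  rw [Triple.globalFunctions_eq_bot, Algebra.mem_bot] at hmem
  obtain ⟨r, hr⟩ := hmem
  have ha : algebraMap k E.A r = a := by
    have := congrArg (Algebra.TensorProduct.lid k E.A) hr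
    simpa [Algebra.TensorProduct.algebraMap_apply, Algebra.smul_def] using this
  refine ⟨r, ha, E.ι'_injective ?_⟩
  rw [AlgHom.commutes, ← E.ι.commutes, ha, h]

variable (R : Type u) [CommRing R] [Algebra k R]

/-- Functions on the two charts agreeing on the overlap are constants. -/
theorem exists_eq_algebraMap_of_ιR_eq {x : E.AR R} {x' : E.AR' R}
    (h : E.ιR R x = E.ιR' R x') :
    ∃ r : R, algebraMap R (E.AR R) r = x ∧ algebraMap R (E.AR' R) r = x' := by
  let diag : k →ₗ[k] E.A × E.A' := (Algebra.linearMap k E.A).prod (Algebra.linearMap k E.A')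
  let d : E.A × E.A' →ₗ[k] E.A01 :=
    E.ι.toLinearMap ∘ₗ LinearMap.fst k E.A E.A' - E.ι'.toLinearMap ∘ₗ LinearMap.snd k E.A E.A'
  have hex : Function.Exact diag d := by
    rintro ⟨a, b⟩
    constructor
    · intro hab
      obtain ⟨r, ha, hb⟩ := E.exists_eq_algebraMap_of_eq (sub_eq_zero.mp hab)
      exact ⟨r, Prod.ext ha hb⟩
    · rintro ⟨r, hr⟩
      rw [← hr]
      exact sub_eq_zero.mpr ((E.ι.commutes r).trans (E.ι'.commutes r).symm)
  let P := TensorProduct.prodRight k R R E.A E.A'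
  have key : ∀ z, d.lTensor R z = E.ιR R (P z).1 - E.ιR' R (P z).2 := fun z => by
    induction z using TensorProduct.induction_on with
    | zero => simp
    | tmul r q => simp [d, P, ιR, ιR']
    | add y z hy hz => simp only [map_add, hy, hz, Prod.fst_add, Prod.snd_add]; abel
  have hz : d.lTensor R (P.symm (x, x')) = 0 := by
    rw [key, P.apply_symm_apply, h, sub_self]
  obtain ⟨w, hw⟩ := (Module.Flat.lTensor_exact R hex _).mp hz
  obtain ⟨r, hr⟩ : ∃ r : R, r ⊗ₜ[k] (1 : k) = w :=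
    ⟨TensorProduct.rid k R w, by rw [← TensorProduct.rid_symm_apply, LinearEquiv.symm_apply_apply]⟩
  have hP := congrArg P hw
  rw [← hr, P.apply_symm_apply] at hP
  have hP' : (r ⊗ₜ[k] algebraMap k E.A 1, r ⊗ₜ[k] algebraMap k E.A' 1) = (x, x') := hP
  rw [map_one, map_one, Prod.ext_iff] at hP'
  exact ⟨r, hP'.1, hP'.2⟩

end TwoCover

variable {C : Scheme.{u}} {c : C ⟶ Spec (CommRingCat.of k)}
  {ε : SchemeHomOver (𝟙 (Spec (CommRingCat.of k))) c}
lemma appTop_eq_pb {X Y : Scheme.{u}} (q : X ⟶ Y) (a : Γ(Y, ⊤)) :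
    q.appTop a = pb q (le_top : (⊤ : X.Opens) ≤ q ⁻¹ᵁ ⊤) a := by
  show (q.app ⊤) a = (q.appLE ⊤ ⊤ le_top) a
  rw [show q.appLE ⊤ ⊤ le_top = q.app ⊤ from Scheme.Hom.appLE_eq_app ..]; rfl

lemma injective_appTop_of_section {X Y : Scheme.{u}} (q : X ⟶ Y) (σ : Y ⟶ X) (h : σ ≫ q = 𝟙 Y) :
    Function.Injective q.appTop := by
  intro a b hab
  rw [appTop_eq_pb, appTop_eq_pb] at hab
  have e : ∀ a, pb σ (le_top : (⊤ : Y.Opens) ≤ σ ⁻¹ᵁ ⊤) (pb q (le_top : (⊤ : X.Opens) ≤ q ⁻¹ᵁ ⊤) a) = a := fun a =>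
    (pb_pb σ q _ _ a).trans ((pb_congr h _ a).trans ((pb_id _ a).trans (rs_self (V := ⊤) le_rfl a)))
  rw [← e a, hab, e b]

lemma rs_pb_rs {X Y : Scheme.{u}} (q : X ⟶ Y) {V : Y.Opens} (hV : (⊤ : Y.Opens) ≤ V)
    {W : X.Opens} (h : W ≤ q ⁻¹ᵁ V) (y : Γ(Y, V)) :
    rs (le_top : W ≤ ⊤) (pb q (le_top : (⊤ : X.Opens) ≤ q ⁻¹ᵁ ⊤) (rs hV y)) = pb q h y :=
  (rs_pb q _ _ _).trans (pb_rs q _ hV _)

variable (R : Type u) [CommRing R] [Algebra k R]

/-- Functions on the curve over `R` come from `R`. -/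
theorem bijective_snd_appTop (cc : CurveCover c ε) :
    Function.Bijective (pullback.snd c (Spec.map (CommRingCat.ofHom (algebraMap k R)))).appTop := by
  let t := Spec.map (CommRingCat.ofHom (algebraMap k R))
  let q := pullback.snd c t
  refine ⟨injective_appTop_of_section _ (RelPicard.rigSection c t ε) (pullback.lift_snd _ _ _),
    fun a => ?_⟩
  · let g := 𝟙 (Spec (CommRingCat.of R))
    let x := chartEv (cc.chA R) (rs le_top a)
    let x' := chartEv (cc.chA' R) (rs le_top a)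
    have hxx : cc.E.ιR R x = cc.E.ιR' R x' := by
      apply (chartEquiv (cc.ch01 R)).injective
      have h1 := rs_chartEquiv (cc.chA R) (cc.ch01 R) _ (cc.SpecMap_ιR_chA R) x
      have h2 := rs_chartEquiv (cc.chA' R) (cc.ch01 R) _ (cc.SpecMap_ιR'_chA' R) x'
      simp only [x, x', chartEquiv_chartEv, rs_rs] at h1 h2
      exact h1.symm.trans h2
    obtain ⟨r, hx, hx'⟩ := cc.E.exists_eq_algebraMap_of_ιR_eq R hxx
    have wA : Spec.map (CommRingCat.ofHom (algebraMap R (cc.E.AR R))) ≫ g = cc.chA R ≫ q :=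
      (Category.comp_id _).trans (liftChart_snd R cc.j cc.j_over).symm
    have wA' : Spec.map (CommRingCat.ofHom (algebraMap R (cc.E.AR' R))) ≫ g = cc.chA' R ≫ q :=
      (Category.comp_id _).trans (liftChart_snd R cc.j' cc.j'_over).symm
    have htop : (⊤ : (Spec (CommRingCat.of R)).Opens) ≤ g.opensRange := fun z _ => ⟨z, rfl⟩
    refine ⟨rs htop (chartEquiv g r), (appTop_eq_pb q _).trans ?_⟩
    refine eq_of_locally (ι := ULift.{u} Bool)
      (fun b => cond b.down (cc.chA R).opensRange (cc.chA' R).opensRange) (fun z _ => ?_) ?_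
    · rcases cc.chart_cover R z with hz | hz
      · exact ⟨⟨true⟩, hz⟩
      · exact ⟨⟨false⟩, hz⟩
    · have hA : rs le_top (pb q (le_top : (⊤ : (pullback c t).Opens) ≤ q ⁻¹ᵁ ⊤)
          (rs htop (chartEquiv g r))) = rs (le_top : (cc.chA R).opensRange ≤ ⊤) a := by
        refine (rs_pb_rs q htop (fun z _ => ⟨_, rfl⟩) _).trans ?_
        exact (pb_chartEquiv g (cc.chA R) q _ wA _ r).trans
          ((congrArg (chartEquiv (cc.chA R)) hx).trans (chartEquiv_chartEv _ _))
      have hA' : rs le_top (pb q (le_top : (⊤ : (pullback c t).Opens) ≤ q ⁻¹ᵁ ⊤)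
          (rs htop (chartEquiv g r))) = rs (le_top : (cc.chA' R).opensRange ≤ ⊤) a := by
        refine (rs_pb_rs q htop (fun z _ => ⟨_, rfl⟩) _).trans ?_
        exact (pb_chartEquiv g (cc.chA' R) q _ wA' _ r).trans
          ((congrArg (chartEquiv (cc.chA' R)) hx').trans (chartEquiv_chartEv _ _))
      rintro ⟨b⟩
      cases b
      · exact (rs_rs _ inf_le_right _).symm.trans ((congrArg _ hA').trans (rs_rs _ inf_le_right _))
      · exact (rs_rs _ inf_le_right _).symm.trans ((congrArg _ hA).trans (rs_rs _ inf_le_right _))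

end FLTA.Jacobian
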