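import Fermat.Agent.Jacobian.PicAffineTriple

/-!
# Triviality along the marked section in terms of the triple (S25, part A).
-/

set_option autoImplicit false
set_option linter.unusedVariables false

universe u

open CategoryTheory CategoryTheory.Limits AlgebraicGeometry NeronModelInfra TopologicalSpace
open scoped FLTA.Jacobian.TwoCover FLTA.Jacobian.Triple

namespace FLTA.Jacobian

section algebra

variable {A R M N : Type u} [CommRing A] [CommRing R] [AddCommGroup M] [AddCommGroup N]
  [Module A M] [Module R N] {σ : A →+* R}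

lemma surjective_of_span_range [RingHomSurjective σ] (p : M →ₛₗ[σ] N)
    (hp : Submodule.span R (Set.range p) = ⊤) : Function.Surjective p :=
  LinearMap.range_eq_top.mp (eq_top_iff.mpr (hp ▸ Submodule.span_le.mpr fun y hy => hy))

lemma span_singleton_map_eq_top_iff [RingHomSurjective σ] (p : M →ₛₗ[σ] N)
    (hp : Function.Surjective p) (hker : ∀ x, p x = 0 → x ∈ RingHom.ker σ • (⊤ : Submodule A M))
    (μ : M) :
    Submodule.span A {μ} ⊔ RingHom.ker σ • (⊤ : Submodule A M) = ⊤ ↔
      Submodule.span R {p μ} = ⊤ := by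
  have hkill : ∀ x ∈ RingHom.ker σ • (⊤ : Submodule A M), p x = 0 := fun x hx => by
    refine Submodule.smul_induction_on hx (fun a ha y _ => ?_) fun x y hx hy => ?_
    · rw [LinearMap.map_smulₛₗ, (RingHom.mem_ker).mp ha, zero_smul]
    · rw [map_add, hx, hy, add_zero]
  constructor <;> intro h <;> refine eq_top_iff.mpr fun y _ => ?_
  · obtain ⟨x, rfl⟩ := hp y
    obtain ⟨y₁, hy₁, y₂, hy₂, rfl⟩ := Submodule.mem_sup.mp (h.ge (Submodule.mem_top (x := x)))
    obtain ⟨a, rfl⟩ := Submodule.mem_span_singleton.mp hy₁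
    rw [map_add, hkill _ hy₂, add_zero, LinearMap.map_smulₛₗ]
    exact Submodule.smul_mem _ _ (Submodule.subset_span rfl)
  · obtain ⟨r, hr⟩ := Submodule.mem_span_singleton.mp (h.ge (Submodule.mem_top (x := p y)))
    obtain ⟨a, rfl⟩ := RingHom.surjective σ r
    refine Submodule.mem_sup.mpr ⟨a • μ, Submodule.smul_mem _ _ (Submodule.subset_span rfl),
      y - a • μ, hker _ ?_, by abel⟩
    rw [map_sub, LinearMap.map_smulₛₗ, hr, sub_self]

end algebra

section point

variable {X : Scheme.{u}} {B : Type u} [CommRing B] (f : Spec (CommRingCat.of B) ⟶ X)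
  [IsOpenImmersion f] {ι : Type u} {d : Cocycle X ⊤ ι} {R : Type u} [CommRing R] (φ : B →+* R)
  (F : Spec (CommRingCat.of R) ⟶ X)
  (w : Spec.map (CommRingCat.ofHom φ) ≫ f = 𝟙 (Spec (CommRingCat.of R)) ≫ F)

lemma chartPull_eq_zero
    (x : ChartSec f d)
    (hx : chartPull f (𝟙 (Spec (CommRingCat.of R))) F φ w (V' := ⊤) (hV' := le_top) x = 0) :
    x ∈ RingHom.ker φ • (⊤ : Submodule B (ChartSec f d)) := by
  let P := CSec.Partition.choice (c := d) (isAffineOpen_opensRange f) le_top
  have he : ∑ l, chartEv f (CSec.ctr le_top x.sec (P.v l)) • ChartSec.mk f (P.u l) = x := by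
    simp_rw [← ChartSec.smul_mk]
    exact P.expand x.sec
  rw [← he]
  refine Submodule.sum_mem _ fun l _ => Submodule.smul_mem_smul ?_ Submodule.mem_top
  rw [RingHom.mem_ker]
  apply (chartEquiv (𝟙 (Spec (CommRingCat.of R)))).injective
  have hr := chartRange_le f (𝟙 (Spec (CommRingCat.of R))) F φ w
  rw [map_zero, ← pb_chartEquiv f _ F φ w hr, chartEquiv_chartEv,
    CSec.ctr_pull F le_top le_top hr x.sec (P.v l) ((P.v l).pullInv F hr (hV := le_top))
      (fun _ _ _ _ => rfl)]
  refine (CSec.eq_ctr _ _ _ _ fun i O hO hi => ?_).symm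
  have h0 : (x.sec.pull F hr (V := ⊤) (hV := le_top)).val i O hO hi = 0 :=
    congrArg (fun t : ChartSec (𝟙 (Spec (CommRingCat.of R))) (d.pull F ⊤ le_top) =>
      t.sec.val i O hO hi) hx
  rw [map_zero, h0, zero_mul]

include w in
/-- A class is trivial at an affine point iff some section generates there. -/
theorem pullTop_eq_one_iff (hφ : Function.Surjective φ) :
    Pic.pullTop F d.cls = 1 ↔ ∃ μ : ChartSec f d,
      Submodule.span B {μ} ⊔ RingHom.ker φ • (⊤ : Submodule B (ChartSec f d)) = ⊤ := by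
  haveI : RingHomSurjective φ := ⟨hφ⟩
  let g := 𝟙 (Spec (CommRingCat.of R))
  let p := chartPull f g F φ w (c := d) (V' := ⊤) (hV' := le_top)
  have hp : Function.Surjective p :=
    surjective_of_span_range p (span_range_chartPull f g F φ w le_top le_top)
  have htop : (⊤ : (Spec (CommRingCat.of R)).Opens) ≤ g.opensRange := fun x _ => ⟨x, rfl⟩
  rw [show Pic.pullTop F d.cls = (d.pull F ⊤ le_top).cls from (cls_pull d ⊤ le_top).symm,
    cls_eq_one_iff]
  constructor
  · rintro ⟨z, hz⟩
    obtain ⟨μ, hμ⟩ := hp (ChartSec.mk g (z.restrict le_top))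
    refine ⟨μ, (span_singleton_map_eq_top_iff p hp (chartPull_eq_zero f φ F w) μ).mpr ?_⟩
    rw [hμ]
    refine ChartSec.span_eq_top (CSec.Partition.single (W := g.opensRange) le_top (z.restrict le_top)
      fun i O hO hi => hz _ _ _ _) fun l => Submodule.subset_span rfl
  · rintro ⟨μ, hμ⟩
    have h := (span_singleton_map_eq_top_iff p hp (chartPull_eq_zero f φ F w) μ).mp hμ
    have hu : (p μ).sec.IsUnitSec := by
      refine (CSec.span_singleton_eq_top_iff
        (CSec.Partition.choice (isAffineOpen_opensRange g) le_top) _).mp (eq_top_iff.mpr fun y _ => ?_)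
      obtain ⟨r, hr⟩ :=
        Submodule.mem_span_singleton.mp (h.ge (Submodule.mem_top (x := ChartSec.mk g y)))
      exact Submodule.mem_span_singleton.mpr ⟨chartEquiv g r, hr⟩
    exact ⟨(p μ).sec.restrict htop, fun i O hO hi => hu i O (hO.trans htop) hi⟩

end point

end FLTA.Jacobian
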