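import Fermat.Agent.Jacobian.PicGroup

/-!
# Functoriality of line bundle classes (S25, part A).
-/

set_option autoImplicit false
set_option linter.unusedVariables false

universe u

open CategoryTheory AlgebraicGeometry Opposite TopologicalSpace

namespace FLTA.Jacobian

variable {X Y Z : Scheme.{u}} {ι : Type u}

@[simp]
lemma pb_id {U : X.Opens} {W : X.Opens} (h : W ≤ 𝟙 X ⁻¹ᵁ U) (a : Γ(X, U)) :
    pb (𝟙 X) h a = rs h a := by
  simp only [pb, rs, Scheme.Hom.appLE]
  simp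
  rfl

/-- An isomorphism between two cocycles with the same indices, from equality of transition
functions. -/
noncomputable def CocycleIso.ofEq {V : X.Opens} (c c' : Cocycle X V ι) (hU : ∀ i, c'.U i ≤ c.U i)
    (hg : ∀ (i j : ι) (W : X.Opens) (hi : W ≤ c'.U i) (hj : W ≤ c'.U j),
      c'.g i j W hi hj = c.g i j W (hi.trans (hU i)) (hj.trans (hU j))) : CocycleIso c c' where
  h i j W hi hj := c.g i j W hi (hj.trans (hU j))
  h_res i j W W' hi hj hW := c.g_res _ _ _ _ _ _ _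
  h_unit i j W hi hj := c.isUnit_g _ _ _ _ _
  h_left i i' j W hi hi' hj := c.g_mul _ _ _ _ _ _ _
  h_right i j j' W hi hj hj' := by
    rw [hg]
    exact c.g_mul _ _ _ _ _ _ _

namespace Pic

lemma pull_pull (f : X ⟶ Y) (g : Y ⟶ Z) {U : Z.Opens} {V : Y.Opens} {W : X.Opens}
    (h : W ≤ f ⁻¹ᵁ V) (h' : V ≤ g ⁻¹ᵁ U) (a : Pic Z U) :
    pull f W h (pull g V h' a) = pull (f ≫ g) W (h.trans (f.preimage_mono h')) a := by
  induction a using Pic.cls_ind with
  | _ c =>
    rw [← cls_pull, ← cls_pull, ← cls_pull]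
    refine (cls_eq (CocycleIso.ofEq (c.pull (f ≫ g) W _) ((c.pull g V h').pull f W h)
      (fun i x hx => ⟨hx.1, hx.2.2⟩) fun i j O hi hj => ?_)).symm
    rw [Cocycle.pull_g (c.pull g V h') f W h i j O hi hj _
      (show O ≤ f ⁻¹ᵁ ((c.pull g V h').U i ⊓ (c.pull g V h').U j) from
        fun x hx => ⟨(hi hx).2, (hj hx).2⟩) inf_le_left inf_le_right]
    change pb f _ (pb g _ _) = pb (f ≫ g) _ _
    rw [pb_pb]

lemma pull_id {U : X.Opens} (h : U ≤ 𝟙 X ⁻¹ᵁ U) (a : Pic X U) : pull (𝟙 X) U h a = a := by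
  induction a using Pic.cls_ind with
  | _ c =>
    rw [← cls_pull]
    refine (cls_eq (CocycleIso.ofEq c (c.pull (𝟙 X) U h) (fun i => inf_le_right)
      fun i j O hi hj => ?_)).symm
    change pb (𝟙 X) _ _ = _
    exact (pb_id _ _).trans (c.g_res _ _ _ _ _ _ _)

lemma pull_congr {f f' : X ⟶ Y} (e : f = f') {U : Y.Opens} (W : X.Opens) (h : W ≤ f ⁻¹ᵁ U)
    (h' : W ≤ f' ⁻¹ᵁ U) : pull f W h = pull f' W h' := by
  subst e
  rfl

/-- Restriction of classes to a smaller open. -/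
noncomputable def res {U V : X.Opens} (h : V ≤ U) : Pic X U →* Pic X V :=
  pull (𝟙 X) V h

@[simp]
lemma res_self {U : X.Opens} (h : U ≤ U) (a : Pic X U) : res h a = a := pull_id _ a

lemma res_res {U V W : X.Opens} (h : V ≤ U) (h' : W ≤ V) (a : Pic X U) :
    res h' (res h a) = res (h'.trans h) a := by
  exact (pull_pull (𝟙 X) (𝟙 X) _ _ a).trans
    (DFunLike.congr_fun (pull_congr (Category.comp_id _) _ _ _) a)

lemma pull_res (f : X ⟶ Y) {U V : Y.Opens} {W : X.Opens} (h : W ≤ f ⁻¹ᵁ V) (h' : V ≤ U)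
    (a : Pic Y U) : pull f W h (res h' a) = pull f W (h.trans (f.preimage_mono h')) a := by
  exact (pull_pull f (𝟙 Y) _ _ a).trans
    (DFunLike.congr_fun (pull_congr (Category.comp_id _) _ _ _) a)

lemma res_pull (f : X ⟶ Y) {U : Y.Opens} {V W : X.Opens} (h : V ≤ f ⁻¹ᵁ U) (h' : W ≤ V)
    (a : Pic Y U) : res h' (pull f V h a) = pull f W (h'.trans h) a := by
  exact (pull_pull (𝟙 X) f _ _ a).trans
    (DFunLike.congr_fun (pull_congr (Category.id_comp _) _ _ _) a)

/-- Pullback along a morphism, global classes. -/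
noncomputable def pullTop (f : X ⟶ Y) : Pic Y ⊤ →* Pic X ⊤ := pull f ⊤ le_top

lemma pullTop_comp (f : X ⟶ Y) (g : Y ⟶ Z) (a : Pic Z ⊤) :
    pullTop f (pullTop g a) = pullTop (f ≫ g) a :=
  pull_pull f g _ _ a

@[simp]
lemma pullTop_id (a : Pic X ⊤) : pullTop (𝟙 X) a = a := pull_id _ a

lemma pullTop_congr {f f' : X ⟶ Y} (e : f = f') (a : Pic Y ⊤) : pullTop f a = pullTop f' a := by
  subst e
  rfl

end Pic

end FLTA.Jacobian
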