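import Fermat.Agent.Jacobian.Cover

/-!
# S25 (Jacobian): `T''` is the tensor product of `T` and `T'`, witnessed by a pairing.
-/

set_option autoImplicit false

universe u

open TensorProduct

namespace FLTA.Jacobian.Triple

variable {k : Type u} [Field k] {E : TwoCover k} {R : Type u} [CommRing R] [Algebra k R]

/-- A pairing exhibiting `T''` as the product of the line bundles `T` and `T'`. -/
structure Pairing (T T' T'' : Triple E R) : Type u where
  μM : T.M →ₗ[E.AR R] T'.M →ₗ[E.AR R] T''.M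
  μM' : T.M' →ₗ[E.AR' R] T'.M' →ₗ[E.AR' R] T''.M'
  μN : T.N →ₗ[E.AR01 R] T'.N →ₗ[E.AR01 R] T''.N
  comm : ∀ x y, μN (T.res x) (T'.res y) = T''.res (μM x y)
  comm' : ∀ x y, μN (T.res' x) (T'.res' y) = T''.res' (μM' x y)
  gen : Submodule.span (E.AR R) (Set.range fun q : T.M × T'.M => μM q.1 q.2) = ⊤
  gen' : Submodule.span (E.AR' R) (Set.range fun q : T.M' × T'.M' => μM' q.1 q.2) = ⊤

end FLTA.Jacobian.Triple
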