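import Fermat.Agent.Jacobian.CurveCover
import Fermat.Agent.Jacobian.PicAffineExists
import Fermat.Agent.Jacobian.PicAffineH0
import Fermat.Agent.Jacobian.PicAffineRigid
import Fermat.Agent.Jacobian.TripleMul
import Fermat.Agent.Jacobian.PicFunctor
import Fermat.Prelude.Def_AlgebraicGeometry_RelativePicardFunctor

/-!
# Line bundle classes on the curve over an affine base versus triples (S25, part A; owner helper16).
-/

set_option autoImplicit false
set_option linter.unusedVariables false

universe u

open CategoryTheory CategoryTheory.Limits AlgebraicGeometry NeronModelInfra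
  AlgebraicGeometry.RelPicard TopologicalSpace
open scoped FLTA.Jacobian.TwoCover FLTA.Jacobian.Triple

namespace FLTA.Jacobian

variable {k : Type u} [Field k] {C : Scheme.{u}} {c : C ⟶ Spec (CommRingCat.of k)}
  {ε : SchemeHomOver (𝟙 (Spec (CommRingCat.of k))) c}

/-- `Spec R ⟶ Spec k`. -/
noncomputable abbrev baseMap (k R : Type u) [Field k] [CommRing R] [Algebra k R] :
    Spec (CommRingCat.of R) ⟶ Spec (CommRingCat.of k) :=
  Spec.map (CommRingCat.ofHom (algebraMap k R))

lemma pull_restrict {X Y : Scheme.{u}} (F : X ⟶ Y) {ι : Type u} {d : Cocycle Y ⊤ ι}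
    {O O₁ : Y.Opens} {W W₁ : X.Opens} (hO : O₁ ≤ O) (hW : W₁ ≤ W) (h : W ≤ F ⁻¹ᵁ O)
    (h₁ : W₁ ≤ F ⁻¹ᵁ O₁) (s : CSec d O) :
    (s.restrict hO).pull F h₁ (V := ⊤) (hV := le_top) = (s.pull F h).restrict hW := by
  refine CSec.ext' fun i P hP hi => ?_
  have e : P ≤ F ⁻¹ᵁ (O₁ ⊓ d.U i) := fun x hx => ⟨h₁ (hP hx), (hi hx).2⟩
  rw [CSec.val_restrict, CSec.pull_val F h s i P (hP.trans hW) hi _ e (inf_le_left.trans hO)
    inf_le_right]
  rfl

section mulChart

variable {X : Scheme.{u}} {B : Type u} [CommRing B] (f : Spec (CommRingCat.of B) ⟶ X)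
  [IsOpenImmersion f] {ι ι' ι'' : Type u} {d : Cocycle X ⊤ ι} {d' : Cocycle X ⊤ ι'}
  {d'' : Cocycle X ⊤ ι''} (H : CocycleIso (d.mul d') d'')

/-- The product of sections on a chart. -/
noncomputable def mulChart : ChartSec f d →ₗ[B] ChartSec f d' →ₗ[B] ChartSec f d'' :=
  LinearMap.mk₂ B (fun x y => ChartSec.map (H.secEquiv le_top) (ChartSec.mk f (x.sec.mul y.sec)))
    (fun x x' y => by
      rw [← map_add]
      exact congrArg _ (CSec.ext' fun p O hO hp => add_mul _ _ _))
    (fun b x y => by
      rw [← map_smul]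
      exact congrArg _ (CSec.ext' fun p O hO hp => mul_assoc _ _ _))
    (fun x y y' => by
      rw [← map_add]
      exact congrArg _ (CSec.ext' fun p O hO hp => mul_add _ _ _))
    (fun b x y => by
      rw [← map_smul]
      exact congrArg _ (CSec.ext' fun p O hO hp => mul_left_comm _ _ _))

lemma span_range_mulChart :
    Submodule.span B (Set.range fun q : ChartSec f d × ChartSec f d' => mulChart f H q.1 q.2) =
      ⊤ := by
  let P := CSec.Partition.choice (c := d) (isAffineOpen_opensRange f) le_top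
  let Q := CSec.Partition.choice (c := d') (isAffineOpen_opensRange f) le_top
  have h : Submodule.span B (Set.range fun q : ChartSec f d × ChartSec f d' =>
      ChartSec.mk f (q.1.sec.mul q.2.sec)) = ⊤ :=
    ChartSec.span_eq_top (P.mul Q) fun l => Submodule.subset_span ⟨(_, _), rfl⟩
  have h' := congrArg (Submodule.map (ChartSec.map (H.secEquiv le_top) :
    ChartSec f (d.mul d') ≃ₗ[B] ChartSec f d'').toLinearMap) h
  rw [Submodule.map_span, Submodule.map_top, LinearEquiv.range, ← Set.range_comp] at h'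
  exact h'

end mulChart

variable (R : Type u) [CommRing R] [Algebra k R]

/-- The morphism of bases given by an algebra. -/
noncomputable def baseHom (S : Type u) [CommRing S] [Algebra k S] [Algebra R S]
    [IsScalarTower k R S] : SchemeHomOver (baseMap k S) (baseMap k R) :=
  ⟨Spec.map (CommRingCat.ofHom (algebraMap R S)), by
    rw [baseMap, baseMap, ← Spec.map_comp, IsScalarTower.algebraMap_eq k R S]; rfl⟩

variable (cc : CurveCover c ε)

/-- The triple of a line bundle class on the curve over `R`. -/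
noncomputable def tripleOf (a : Pic (pullback c (baseMap k R)) ⊤) : Triple cc.E R :=
  tripleOfCocycle cc a.rep

variable {R}

/-- The triple of a class may be computed from any representing cocycle. -/
theorem nonempty_tripleOfCocycle_iso {ι : Type u} (d : Cocycle (pullback c (baseMap k R)) ⊤ ι)
    {a : Pic (pullback c (baseMap k R)) ⊤} (h : d.cls = a) :
    Nonempty (Triple.Iso (tripleOfCocycle cc d) (tripleOf R cc a)) :=
  ⟨tripleIsoOfCocycleIso cc (cls_eq_iff.mp (h.trans (Pic.rep_cls a).symm)).some⟩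

variable (R)

theorem tripleOf_iso_iff (a b : Pic (pullback c (baseMap k R)) ⊤) :
    Nonempty (Triple.Iso (tripleOf R cc a) (tripleOf R cc b)) ↔ a = b := by
  refine ⟨fun ⟨e⟩ => ?_, ?_⟩
  · rw [← Pic.rep_cls a, ← Pic.rep_cls b]
    exact cls_eq_of_tripleIso cc e
  · rintro rfl
    exact ⟨Triple.Iso.refl _⟩

theorem exists_tripleOf (T : Triple cc.E R) :
    ∃ a, Nonempty (Triple.Iso (tripleOf R cc a) T) := by
  obtain ⟨ι, d, ⟨e⟩⟩ := exists_tripleOfCocycle cc T
  obtain ⟨e'⟩ := nonempty_tripleOfCocycle_iso cc d (a := d.cls) rfl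
  exact ⟨d.cls, ⟨e'.symm.trans e⟩⟩

theorem tripleOf_pull (S : Type u) [CommRing S] [Algebra k S] [Algebra R S]
    [IsScalarTower k R S] (a : Pic (pullback c (baseMap k R)) ⊤) :
    Nonempty (Triple.BaseChange (tripleOf R cc a)
      (tripleOf S cc (Pic.pullTop (baseChangeSnd c (baseHom R S)) a))) := by
  let F := baseChangeSnd c (baseHom (k := k) R S)
  let d' := a.rep.pull F ⊤ le_top
  have h : d'.cls = Pic.pullTop F a :=
    (cls_pull a.rep ⊤ le_top).trans (by rw [Pic.rep_cls]; rfl)
  obtain ⟨e⟩ := nonempty_tripleOfCocycle_iso cc d' h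
  have wA := liftChart_baseChange (c := c) R cc.j cc.j_over S (baseHom R S) rfl
  have wA' := liftChart_baseChange (c := c) R cc.j' cc.j'_over S (baseHom R S) rfl
  have w01 := liftChart_baseChange (c := c) R cc.j01 cc.j01_over S (baseHom R S) rfl
  exact ⟨Triple.BaseChange.congrRight
    { fM := chartPull (cc.chA R) (cc.chA S) F (cc.E.bcA R S).toRingHom wA
      fM' := chartPull (cc.chA' R) (cc.chA' S) F (cc.E.bcA' R S).toRingHom wA'
      fN := chartPull (cc.ch01 R) (cc.ch01 S) F (cc.E.bc01 R S).toRingHom w01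
      comm := fun m => pull_restrict F (subChart_le _ _ _ (cc.SpecMap_ιR_chA R))
        (subChart_le _ _ _ (cc.SpecMap_ιR_chA S)) (chartRange_le _ _ _ _ wA)
        (chartRange_le _ _ _ _ w01) m.sec
      comm' := fun m => pull_restrict F (subChart_le _ _ _ (cc.SpecMap_ιR'_chA' R))
        (subChart_le _ _ _ (cc.SpecMap_ιR'_chA' S)) (chartRange_le _ _ _ _ wA')
        (chartRange_le _ _ _ _ w01) m.sec
      gen := span_range_chartPull (cc.chA R) (cc.chA S) F _ wA le_top le_top
      gen' := span_range_chartPull (cc.chA' R) (cc.chA' S) F _ wA' le_top le_top } e⟩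

theorem tripleOf_mul (a b : Pic (pullback c (baseMap k R)) ⊤) :
    Nonempty (Triple.Pairing (tripleOf R cc a) (tripleOf R cc b) (tripleOf R cc (a * b))) := by
  have h : (a.rep.mul b.rep).cls = (a * b).rep.cls := by
    rw [cls_mul, Pic.rep_cls, Pic.rep_cls, Pic.rep_cls]
  obtain ⟨H⟩ := cls_eq_iff.mp h
  exact ⟨{
    μM := mulChart (cc.chA R) H
    μM' := mulChart (cc.chA' R) H
    μN := mulChart (cc.ch01 R) H
    comm := fun x y => (H.mapSec_restrict le_top
      (subChart_le _ _ _ (cc.SpecMap_ιR_chA R)) (x.sec.mul y.sec)).symm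
    comm' := fun x y => (H.mapSec_restrict le_top
      (subChart_le _ _ _ (cc.SpecMap_ιR'_chA' R)) (x.sec.mul y.sec)).symm
    gen := span_range_mulChart (cc.chA R) H
    gen' := span_range_mulChart (cc.chA' R) H }⟩

/-- Triviality along the section, algebraically. -/
theorem pull_rigSection_eq_one_iff (a : Pic (pullback c (baseMap k R)) ⊤) :
    Pic.pullTop (rigSection c (baseMap k R) ε) a = 1 ↔
      ∃ μ : (tripleOf R cc a).M', (tripleOf R cc a).GeneratesAtε μ := by
  have h := pullTop_eq_one_iff (d := a.rep) (cc.chA' R) (cc.E.εR R).toRingHom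
    (rigSection c (baseMap k R) ε) ((cc.rigSection_eq R).symm.trans (Category.id_comp _).symm)
    fun r => ⟨algebraMap R _ r, (cc.E.εR R).commutes r⟩
  rw [Pic.rep_cls] at h
  exact h

include cc in
/-- Functions on the curve over `R` come from `R`. -/
theorem bijective_appTop_snd [IsAlgClosed k] :
    Function.Bijective (pullback.snd c (baseMap k R)).appTop :=
  bijective_snd_appTop R cc

end FLTA.Jacobian
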