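import Fermat.Agent.Jacobian.PicRigid

/-!
# Classes on an open subscheme (S25, part A).
-/

set_option autoImplicit false
set_option linter.unusedVariables false
set_option backward.isDefEq.respectTransparency false

universe u

open CategoryTheory AlgebraicGeometry Opposite TopologicalSpace

namespace FLTA.Jacobian

variable {X Z : Scheme.{u}} (J : Z ⟶ X) [IsOpenImmersion J]

/-- Transport of a function from an open subscheme. -/
noncomputable def pushFun (W : X.Opens) (hW : W ≤ J.opensRange) :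
    Γ(Z, J ⁻¹ᵁ W) →+* Γ(X, W) :=
  (rs (show W ≤ J ''ᵁ (J ⁻¹ᵁ W) by rw [J.image_preimage_eq_opensRange_inf]; exact le_inf hW le_rfl)).comp
    (J.appIso (J ⁻¹ᵁ W)).inv.hom

lemma pushFun_pb {W : X.Opens} (hW : W ≤ J.opensRange) (a : Γ(X, W)) :
    pushFun J W hW (pb J le_rfl a) = a := by
  have h : (J.appIso (J ⁻¹ᵁ W)).inv (pb J le_rfl a) =
      rs (show J ''ᵁ (J ⁻¹ᵁ W) ≤ W from J.image_preimage_le W) a := by
    change ((J.appLE W (J ⁻¹ᵁ W) le_rfl) ≫ (J.appIso (J ⁻¹ᵁ W)).inv).hom a = _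
    rw [Scheme.Hom.appLE, Category.assoc]
    simp [rs]
    rfl
  simp only [pushFun, RingHom.comp_apply]
  exact (congrArg (rs _) h).trans (by rw [rs_rs, rs_self])

lemma pb_pushFun {W : X.Opens} (hW : W ≤ J.opensRange) (a : Γ(Z, J ⁻¹ᵁ W)) :
    pb J le_rfl (pushFun J W hW a) = a := by
  have hi : W = J ''ᵁ (J ⁻¹ᵁ W) := by
    rw [J.image_preimage_eq_opensRange_inf, inf_eq_right.mpr hW]
  simp only [pushFun, RingHom.comp_apply]
  rw [pb_rs]
  change ((J.appIso (J ⁻¹ᵁ W)).inv ≫ J.appLE (J ''ᵁ (J ⁻¹ᵁ W)) (J ⁻¹ᵁ W) _).hom a = _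
  simp

lemma rs_pushFun {W W' : X.Opens} (hW : W ≤ J.opensRange) (h : W' ≤ W)
    (a : Γ(Z, J ⁻¹ᵁ W)) :
    rs h (pushFun J W hW a) = pushFun J W' (h.trans hW) (rs (J.preimage_mono h) a) := by
  conv_rhs => rw [← pb_pushFun J hW a, rs_pb, ← pb_rs J le_rfl h]
  rw [pushFun_pb]

variable {ι ι' : Type u}

/-- A cocycle on an open subscheme, seen on the ambient scheme. -/
noncomputable def Cocycle.push (c : Cocycle Z (⊤ : Z.Opens) ι) : Cocycle X J.opensRange ι where
  U i := J ''ᵁ c.U i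
  le i := J.image_le_opensRange _
  cover x hx := by
    obtain ⟨z, rfl⟩ := hx
    obtain ⟨i, hi⟩ := c.cover z trivial
    exact ⟨i, z, hi, rfl⟩
  g i j W hi hj := pushFun J W (hi.trans (J.image_le_opensRange _)) (c.g i j (J ⁻¹ᵁ W)
    ((J.preimage_mono hi).trans_eq (J.preimage_image_eq _))
    ((J.preimage_mono hj).trans_eq (J.preimage_image_eq _)))
  g_res i j W W' hi hj h := by rw [rs_pushFun, Cocycle.g_res]
  g_self i W hi := by rw [c.g_self, map_one]
  g_mul i j l W hi hj hl := by rw [← map_mul, c.g_mul]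

lemma push_pull_cls (c : Cocycle Z (⊤ : Z.Opens) ι) (h : (⊤ : Z.Opens) ≤ J ⁻¹ᵁ J.opensRange) :
    ((c.push J).pull J ⊤ h).cls = c.cls := by
  refine (cls_eq (CocycleIso.ofEq c ((c.push J).pull J ⊤ h)
    (fun i => inf_le_right.trans_eq (J.preimage_image_eq _)) fun i j W hi hj => ?_)).symm
  have hWi : J ''ᵁ W ≤ (c.push J).U i :=
    J.image_mono ((hi.trans inf_le_right).trans_eq (J.preimage_image_eq _))
  have hWj : J ''ᵁ W ≤ (c.push J).U j :=
    J.image_mono ((hj.trans inf_le_right).trans_eq (J.preimage_image_eq _))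
  rw [Cocycle.pull_g _ J ⊤ h i j W hi hj (J ''ᵁ W) (J.preimage_image_eq W).ge hWi hWj,
    ← rs_pb J le_rfl (J.preimage_image_eq W).ge]
  change rs _ (pb J le_rfl (pushFun J _ _ _)) = _
  rw [pb_pushFun, Cocycle.g_res]

/-- Classes on the open subscheme are classes on the range. -/
theorem bijective_pull_openImmersion (h : (⊤ : Z.Opens) ≤ J ⁻¹ᵁ J.opensRange) :
    Function.Bijective (Pic.pull J (⊤ : Z.Opens) h) := by
  refine ⟨(injective_iff_map_eq_one _).mpr ?_, ?_⟩
  · intro a ha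
    induction a using Pic.cls_ind with
    | _ c =>
      rw [← cls_pull, ← cls_one, cls_eq_iff] at ha
      obtain ⟨H⟩ := ha
      rw [← cls_one, cls_eq_iff]
      have hj : ∀ (i : J.opensRange) (W : X.Opens), W ≤ c.U i → J ⁻¹ᵁ W ≤ (c.pull J ⊤ h).U i :=
        fun i W hi => le_inf le_top (J.preimage_mono hi)
      refine ⟨{
        h := fun i j W hi _ => pushFun J W (hi.trans (c.le i))
          (H.h i j (J ⁻¹ᵁ W) (hj i W hi) le_top)
        h_res := fun i j W W' hi _ hW => by rw [rs_pushFun, CocycleIso.h_res]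
        h_unit := fun i j W hi _ => (H.h_unit ..).map _
        h_left := ?_
        h_right := fun i j j' W hi _ _ => by simp [Cocycle.one] }⟩
      intro i i' j W hi hi' _
      rw [← pushFun_pb J (hi.trans (c.le i)) (c.g i i' W hi hi'), ← map_mul,
        ← Cocycle.pull_g c J ⊤ h i i' (J ⁻¹ᵁ W) (hj i W hi) (hj i' W hi') W le_rfl hi hi',
        H.h_left]
  · intro a
    induction a using Pic.cls_ind with
    | _ c => exact ⟨(c.push J).cls, by rw [← cls_pull, push_pull_cls]⟩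

end FLTA.Jacobian
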