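import Fermat.Agent.Jacobian.PicGlue
import Fermat.Agent.Jacobian.PicImmersion
import Fermat.Agent.Jacobian.PicDictionary

/-!
# The rigidified Picard functor of the curve as a subgroup of classes (S25, assembly).
-/

set_option autoImplicit false

universe u

open CategoryTheory CategoryTheory.Limits AlgebraicGeometry NeronModelInfra
  AlgebraicGeometry.RelPicard TopologicalSpace

namespace FLTA.Jacobian

variable {k : Type u} [Field k] {C : Scheme.{u}} {c : C ⟶ Spec (CommRingCat.of k)}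
  {ε : SchemeHomOver (𝟙 (Spec (CommRingCat.of k))) c}

section geometry

variable {T T' : Scheme.{u}} {t : T ⟶ Spec (CommRingCat.of k)} {t' : T' ⟶ Spec (CommRingCat.of k)}

/-- The morphism over `k` underlying any morphism to `T`. -/
def overHom (f : T' ⟶ T) : SchemeHomOver (f ≫ t) t := ⟨f, rfl⟩

lemma isPullback_baseChangeSnd (ψ : SchemeHomOver t' t) :
    IsPullback (baseChangeSnd c ψ) (pullback.snd c t') (pullback.snd c t) ψ.1 := by
  refine IsPullback.of_right (h₁₂ := pullback.fst c t) (v₁₃ := c) (h₂₂ := t) ?_ ?_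
    (IsPullback.of_hasPullback c t)
  · have := IsPullback.of_hasPullback c t'
    rwa [show baseChangeSnd c ψ ≫ pullback.fst c t = pullback.fst c t' by
      simp only [baseChangeSnd, pullback.lift_fst, Category.comp_id], ψ.2]
  · simp only [baseChangeSnd, pullback.lift_snd]

lemma baseChangeSnd_snd (ψ : SchemeHomOver t' t) :
    baseChangeSnd c ψ ≫ pullback.snd c t = pullback.snd c t' ≫ ψ.1 :=
  (isPullback_baseChangeSnd ψ).w

instance isOpenImmersion_baseChangeSnd (ψ : SchemeHomOver t' t) [h : IsOpenImmersion ψ.1] :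
    IsOpenImmersion (baseChangeSnd c ψ) :=
  MorphismProperty.of_isPullback (isPullback_baseChangeSnd ψ).flip h

lemma opensRange_baseChangeSnd (ψ : SchemeHomOver t' t) [IsOpenImmersion ψ.1] :
    (baseChangeSnd c ψ).opensRange = pullback.snd c t ⁻¹ᵁ ψ.1.opensRange := by
  rw [← Scheme.Hom.image_top_eq_opensRange, ← Scheme.Hom.image_top_eq_opensRange]
  exact IsOpenImmersion.image_preimage_eq_preimage_image_of_isPullback
    (isPullback_baseChangeSnd ψ).flip ⊤

lemma rigSection_snd (t : T ⟶ Spec (CommRingCat.of k))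
    (ε : SchemeHomOver (𝟙 (Spec (CommRingCat.of k))) c) :
    rigSection c t ε ≫ pullback.snd c t = 𝟙 T :=
  pullback.lift_snd _ _ _

end geometry

section descend

variable [IsAlgClosed k] (cc : CurveCover c ε) {T : Scheme.{u}} (t : T ⟶ Spec (CommRingCat.of k))

include cc in
lemma bijective_pb_snd_affine {O : T.Opens} (hO : IsAffineOpen O) :
    Function.Bijective (pb (pullback.snd c t) (le_refl (pullback.snd c t ⁻¹ᵁ O))) := by
  algebraize_only [(Spec.preimage (hO.fromSpec ≫ t)).hom]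
  have ht : hO.fromSpec ≫ t = baseMap k Γ(T, O) := by
    rw [baseMap, RingHom.algebraMap_toAlgebra, CommRingCat.ofHom_hom, Spec.map_preimage]
  let ψ : SchemeHomOver (baseMap k Γ(T, O)) t := ⟨hO.fromSpec, ht⟩
  have : IsOpenImmersion ψ.1 := inferInstanceAs (IsOpenImmersion hO.fromSpec)
  let J := baseChangeSnd c ψ
  have hr : J.opensRange = pullback.snd c t ⁻¹ᵁ O := by
    rw [opensRange_baseChangeSnd ψ]
    exact congrArg _ hO.opensRange_fromSpec
  have hJ : Function.Bijective (pb J (le_refl (J ⁻¹ᵁ (pullback.snd c t ⁻¹ᵁ O)))) :=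
    ⟨Function.LeftInverse.injective (pushFun_pb J hr.ge),
      fun a => ⟨_, pb_pushFun J hr.ge a⟩⟩
  have hj : Function.Bijective (pb hO.fromSpec (le_refl (hO.fromSpec ⁻¹ᵁ O))) :=
    ⟨Function.LeftInverse.injective (pushFun_pb _ hO.opensRange_fromSpec.ge),
      fun a => ⟨_, pb_pushFun _ hO.opensRange_fromSpec.ge a⟩⟩
  have htop : hO.fromSpec ⁻¹ᵁ O = ⊤ := hO.fromSpec_preimage_self
  have htop' : J ⁻¹ᵁ (pullback.snd c t ⁻¹ᵁ O) = ⊤ := by
    rw [← hr, Scheme.Hom.preimage_opensRange]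
  have hp : Function.Bijective
      (pb (pullback.snd c (baseMap k Γ(T, O))) (show J ⁻¹ᵁ (pullback.snd c t ⁻¹ᵁ O) ≤
        pullback.snd c (baseMap k Γ(T, O)) ⁻¹ᵁ (hO.fromSpec ⁻¹ᵁ O) by rw [htop]; exact le_top)) := by
    have key : ∀ (V : (Spec Γ(T, O)).Opens) (W : (pullback c (baseMap k Γ(T, O))).Opens)
        (h : W ≤ pullback.snd c (baseMap k Γ(T, O)) ⁻¹ᵁ V), V = ⊤ → W = ⊤ →
        Function.Bijective (pb (pullback.snd c (baseMap k Γ(T, O))) h) := by
      rintro V W h rfl rfl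
      have e : (pullback.snd c (baseMap k Γ(T, O))).appLE ⊤ ⊤ h =
          (pullback.snd c (baseMap k Γ(T, O))).appTop := Scheme.Hom.appLE_eq_app _
      rw [pb, e]
      exact bijective_appTop_snd Γ(T, O) cc
    exact key _ _ _ htop htop'
  have hcomp : ⇑(pb J (le_refl (J ⁻¹ᵁ (pullback.snd c t ⁻¹ᵁ O)))) ∘
      ⇑(pb (pullback.snd c t) (le_refl (pullback.snd c t ⁻¹ᵁ O))) =
      ⇑(pb (pullback.snd c (baseMap k Γ(T, O))) (show J ⁻¹ᵁ (pullback.snd c t ⁻¹ᵁ O) ≤
        pullback.snd c (baseMap k Γ(T, O)) ⁻¹ᵁ (hO.fromSpec ⁻¹ᵁ O) by rw [htop]; exact le_top)) ∘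
      ⇑(pb hO.fromSpec (le_refl (hO.fromSpec ⁻¹ᵁ O))) := by
    funext a
    simp only [Function.comp_apply, pb_pb]
    have : ∀ (f g : pullback c (baseMap k Γ(T, O)) ⟶ T) (e : f = g) {W}
        (h : W ≤ f ⁻¹ᵁ O) (h' : W ≤ g ⁻¹ᵁ O), pb f h a = pb g h' a := by
      rintro f g rfl W h h'
      rfl
    exact this _ _ (baseChangeSnd_snd ψ) _ _
  rw [← hJ.of_comp_iff', hcomp]
  exact hp.comp hj

include cc in
/-- The curve over any base has only functions from the base. -/
theorem rigidSetting : RigidSetting (pullback.snd c t) (rigSection c t ε) := by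
  refine ⟨rigSection_snd t ε, ?_⟩
  have hinj : ∀ O : T.Opens,
      Function.Injective (pb (pullback.snd c t) (le_refl (pullback.snd c t ⁻¹ᵁ O))) := by
    intro O a b hab
    refine eq_of_locally (ι := {U : T.Opens // IsAffineOpen U ∧ U ≤ O}) (fun U => U.1)
      (fun x hx => ?_) fun U => ?_
    · obtain ⟨U, hU, hxU, hle⟩ := exists_isAffineOpen_mem_and_subset hx
      exact ⟨⟨U, hU, hle⟩, hxU⟩
    · have hW : IsAffineOpen (O ⊓ U.1) := by rw [inf_eq_right.mpr U.2.2]; exact U.2.1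
      apply (bijective_pb_snd_affine cc t hW).1
      rw [pb_rs, pb_rs]
      have := congrArg (rs ((pullback.snd c t).preimage_mono (inf_le_left : O ⊓ U.1 ≤ O))) hab
      rwa [rs_pb, rs_pb] at this
  refine fun O => ⟨hinj O, fun b => ?_⟩
  let ι := {U : T.Opens // IsAffineOpen U ∧ U ≤ O}
  have hW : ∀ U : ι, IsAffineOpen (O ⊓ U.1) := fun U => by
    rw [inf_eq_right.mpr U.2.2]; exact U.2.1
  choose v hv using fun U : ι => (bijective_pb_snd_affine cc t (hW U)).2
    (rs ((pullback.snd c t).preimage_mono (inf_le_left : O ⊓ U.1 ≤ O)) b)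
  have hcov : ∀ x ∈ O, ∃ U : ι, x ∈ U.1 := fun x hx => by
    obtain ⟨U, hU, hxU, hle⟩ := exists_isAffineOpen_mem_and_subset hx
    exact ⟨⟨U, hU, hle⟩, hxU⟩
  refine ⟨glue (fun U : ι => U.1) hcov v fun U U' => hinj _ ?_, ?_⟩
  · have e1 := congrArg (rs ((pullback.snd c t).preimage_mono
      (inf_le_left : O ⊓ U.1 ⊓ U'.1 ≤ O ⊓ U.1))) (hv U)
    have e2 := congrArg (rs ((pullback.snd c t).preimage_mono (show O ⊓ U.1 ⊓ U'.1 ≤ O ⊓ U'.1 from
      le_inf (inf_le_left.trans inf_le_left) inf_le_right))) (hv U')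
    rw [rs_pb, rs_rs] at e1 e2
    rw [pb_rs, pb_rs]
    exact e1.trans e2.symm
  · refine eq_of_locally (fun U : ι => pullback.snd c t ⁻¹ᵁ U.1) (fun x hx => hcov _ hx) fun U => ?_
    rw [rs_pb]
    have e := congrArg (pb (pullback.snd c t)
      (show pullback.snd c t ⁻¹ᵁ O ⊓ pullback.snd c t ⁻¹ᵁ U.1 ≤ _ from le_rfl))
      (glue_spec (fun U : ι => U.1) hcov v (fun U U' => hinj _ (by
        have e1 := congrArg (rs ((pullback.snd c t).preimage_mono
          (inf_le_left : O ⊓ U.1 ⊓ U'.1 ≤ O ⊓ U.1))) (hv U)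
        have e2 := congrArg (rs ((pullback.snd c t).preimage_mono
          (show O ⊓ U.1 ⊓ U'.1 ≤ O ⊓ U'.1 from
            le_inf (inf_le_left.trans inf_le_left) inf_le_right))) (hv U')
        rw [rs_pb, rs_rs] at e1 e2
        rw [pb_rs, pb_rs]
        exact e1.trans e2.symm)) U (W := O ⊓ U.1) inf_le_left inf_le_right)
    rw [pb_rs, rs_self] at e
    exact e.trans (hv U)

end descend

end FLTA.Jacobian
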