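import Fermat.Agent.Jacobian.CurveDegree
import Fermat.Agent.Jacobian.TripleMul
import Fermat.Agent.Jacobian.PicDictionary
import Fermat.Agent.Jacobian.AssembleRPic

/-!
# Classes and triples: products, units, points (S25, assembly).
-/

set_option autoImplicit false

universe u

open CategoryTheory CategoryTheory.Limits AlgebraicGeometry NeronModelInfra
  AlgebraicGeometry.RelPicard TopologicalSpace
open scoped FLTA.Jacobian.TwoCover FLTA.Jacobian.Triple

namespace FLTA.Jacobian

variable {k : Type u} [Field k] {C : Scheme.{u}} {c : C ⟶ Spec (CommRingCat.of k)}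
  {ε : SchemeHomOver (𝟙 (Spec (CommRingCat.of k))) c}

/-- The morphism of affine bases of an algebra map. -/
noncomputable def algOver {R S : Type u} [CommRing R] [Algebra k R] [CommRing S] [Algebra k S]
    (φ : R →ₐ[k] S) : SchemeHomOver (baseMap k S) (baseMap k R) :=
  ⟨Spec.map (CommRingCat.ofHom φ.toRingHom), by
    rw [baseMap, baseMap, ← Spec.map_comp, ← φ.comp_algebraMap]; rfl⟩

lemma baseHom_eq_algOver (R S : Type u) [CommRing R] [Algebra k R] [CommRing S] [Algebra k S]
    [Algebra R S] [IsScalarTower k R S] :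
    baseHom (k := k) R S = algOver (IsScalarTower.toAlgHom k R S) :=
  Subtype.ext rfl

lemma exists_algOver {R S : Type u} [CommRing R] [Algebra k R] [CommRing S] [Algebra k S]
    (f : SchemeHomOver (baseMap k S) (baseMap k R)) :
    ∃ φ : R →ₐ[k] S, algOver φ = f := by
  let φ := Spec.preimage f.1
  have h : CommRingCat.ofHom (algebraMap k R) ≫ φ = CommRingCat.ofHom (algebraMap k S) :=
    Spec.map_injective (by rw [Spec.map_comp, Spec.map_preimage]; exact f.2)
  exact ⟨{ φ.hom with commutes' := fun x => congr($h x) }, Subtype.ext (Spec.map_preimage f.1)⟩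

lemma postComp_algOver {R S U : Type u} [CommRing R] [Algebra k R] [CommRing S] [Algebra k S]
    [CommRing U] [Algebra k U] (φ : R →ₐ[k] S) (ψ : S →ₐ[k] U) :
    postComp (algOver φ) (algOver ψ) = algOver (ψ.comp φ) :=
  Subtype.ext (Spec.map_comp _ _).symm

lemma baseMap_self : baseMap k k = 𝟙 (Spec (CommRingCat.of k)) := by
  rw [baseMap, Algebra.algebraMap_self]
  exact Spec.map_id _

/-- The structure morphism as a point of `Spec k`. -/
def toBasePt {T : Scheme.{u}} (t : T ⟶ Spec (CommRingCat.of k)) :
    SchemeHomOver t (baseMap k k) :=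
  ⟨t, by rw [baseMap_self]; exact Category.comp_id t⟩

variable (cc : CurveCover c ε) {R : Type u} [CommRing R] [Algebra k R]

/-- The triple of the product of two classes. -/
theorem tripleOf_mul_iso (a b : Pic (pullback c (baseMap k R)) ⊤) :
    Nonempty (Triple.Iso ((tripleOf R cc a).tensor (tripleOf R cc b)) (tripleOf R cc (a * b))) :=
  (tripleOf_mul R cc a b).some.tensorIso

/-- The triple of the trivial class. -/
theorem tripleOf_one : Nonempty (Triple.Iso (tripleOf R cc 1) (Triple.one cc.E R)) := by
  obtain ⟨a, ⟨e⟩⟩ := exists_tripleOf R cc (Triple.one cc.E R)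
  obtain ⟨e1⟩ := tripleOf_mul_iso cc a a
  let e2 := e.tensor e
  let e3 := Triple.oneTensor (Triple.one cc.E R)
  have h : a * a = a :=
    (tripleOf_iso_iff R cc _ _).mp ⟨e1.symm.trans ((e2.trans e3).trans e.symm)⟩
  rw [mul_eq_left.mp h] at e
  exact ⟨e⟩

variable {T T' : Scheme.{u}} {t : T ⟶ Spec (CommRingCat.of k)} {t' : T' ⟶ Spec (CommRingCat.of k)}

/-- The triple of a rigidified class at a point with values in an algebra. -/
noncomputable abbrev triAt (s : SchemeHomOver (baseMap k R) t) (a : RPic ε t) : Triple cc.E R :=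
  tripleOf R cc (rmap s a).1

lemma triAt_rmap (ψ : SchemeHomOver t' t) (s : SchemeHomOver (baseMap k R) t') (a : RPic ε t) :
    triAt cc s (rmap ψ a) = triAt cc (postComp ψ s) a := by
  rw [triAt, rmap_rmap]

theorem triAt_baseChange {S : Type u} [CommRing S] [Algebra k S] [Algebra R S]
    [IsScalarTower k R S] (s : SchemeHomOver (baseMap k R) t) (a : RPic ε t) :
    Nonempty (Triple.BaseChange (triAt cc s a) (triAt cc (postComp s (baseHom R S)) a)) := by
  rw [← triAt_rmap]
  simp only [triAt, coe_rmap]
  exact tripleOf_pull R cc S _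

lemma exists_generatesAtε (s : SchemeHomOver (baseMap k R) t) (a : RPic ε t) :
    ∃ μ : (triAt cc s a).M', (triAt cc s a).GeneratesAtε μ :=
  (pull_rigSection_eq_one_iff R cc _).mp (mem_rPic.mp (rmap s a).2)

theorem triAt_mul (s : SchemeHomOver (baseMap k R) t) (a b : RPic ε t) :
    Nonempty (Triple.Iso ((triAt cc s a).tensor (triAt cc s b)) (triAt cc s (a * b))) := by
  simp only [triAt, map_mul]
  exact tripleOf_mul_iso cc _ _

end FLTA.Jacobian
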