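import Mathlib

/-!
# Algebra used for two-chart line bundles
-/

set_option autoImplicit false

universe u

open TensorProduct

namespace FLTA.Jacobian

section Pushout

variable (k : Type u) [CommRing k] (B : Type u) [CommRing B] [Algebra k B]
  (R S : Type u) [CommRing R] [CommRing S] [Algebra k R] [Algebra k S] [Algebra R S]
  [IsScalarTower k R S]

/-- The base change map `R ⊗ B → S ⊗ B`. -/
noncomputable abbrev bcMap : R ⊗[k] B →ₐ[k] S ⊗[k] B :=
  Algebra.TensorProduct.map (IsScalarTower.toAlgHom k R S) (AlgHom.id k B)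

/-- The algebra structure given by `bcMap`. -/
@[reducible] noncomputable def bcAlg : Algebra (R ⊗[k] B) (S ⊗[k] B) :=
  (bcMap k B R S).toRingHom.toAlgebra

lemma bcMap_tmul (r : R) (b : B) : bcMap k B R S (r ⊗ₜ b) = algebraMap R S r ⊗ₜ b := rfl

lemma bcMap_algebraMap (r : R) :
    bcMap k B R S (algebraMap R (R ⊗[k] B) r) = algebraMap R (S ⊗[k] B) r := by
  rw [Algebra.TensorProduct.algebraMap_apply, Algebra.TensorProduct.algebraMap_apply]
  simp

lemma bc_tower : letI := bcAlg k B R S; IsScalarTower R (R ⊗[k] B) (S ⊗[k] B) := by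
  let := bcAlg k B R S
  exact IsScalarTower.of_algebraMap_eq fun r => (bcMap_algebraMap k B R S r).symm

lemma bc_isPushout :
    letI := bcAlg k B R S
    haveI := bc_tower k B R S
    Algebra.IsPushout R S (R ⊗[k] B) (S ⊗[k] B) := by
  let := bcAlg k B R S
  have := bc_tower k B R S
  constructor
  refine IsBaseChange.of_equiv (TensorProduct.AlgebraTensorModule.cancelBaseChange k R S S B) ?_
  intro x
  induction x with
  | zero => simp
  | add x y hx hy => rw [tmul_add, map_add, map_add, hx, hy]
  | tmul r b =>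
    rw [TensorProduct.AlgebraTensorModule.cancelBaseChange_tmul]
    change (r • (1 : S)) ⊗ₜ b = bcMap k B R S (r ⊗ₜ b)
    rw [bcMap_tmul, Algebra.smul_def, mul_one]

lemma bcMap_self (a : R ⊗[k] B) : bcMap k B R R a = a := by
  induction a using TensorProduct.induction_on with
  | zero => simp
  | add x y hx hy => rw [map_add, hx, hy]
  | tmul r b => rfl

lemma bcMap_comp (U : Type u) [CommRing U] [Algebra k U] [Algebra R U] [Algebra S U]
    [IsScalarTower k R U] [IsScalarTower k S U] [IsScalarTower R S U] (a : R ⊗[k] B) :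
    bcMap k B S U (bcMap k B R S a) = bcMap k B R U a := by
  induction a using TensorProduct.induction_on with
  | zero => simp
  | add x y hx hy => rw [map_add, map_add, map_add, hx, hy]
  | tmul r b => rw [bcMap_tmul, bcMap_tmul, bcMap_tmul, ← IsScalarTower.algebraMap_apply]

variable {M M' : Type u} [AddCommGroup M] [AddCommGroup M'] [Module (R ⊗[k] B) M]
  [Module (S ⊗[k] B) M'] [Module R M] [IsScalarTower R (R ⊗[k] B) M]
  [Module S M'] [IsScalarTower S (S ⊗[k] B) M']
  [Module R M'] [IsScalarTower R S M']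

/-- A semilinear map over `bcMap`, as an `R`-linear map. -/
noncomputable def bcLin (f : M →ₛₗ[(bcMap k B R S).toRingHom] M') : M →ₗ[R] M' where
  toFun := f
  map_add' := map_add _
  map_smul' r m := by
    rw [← algebraMap_smul (R ⊗[k] B) r m, f.map_smulₛₗ, RingHom.id_apply]
    change bcMap k B R S (algebraMap R (R ⊗[k] B) r) • f m = r • f m
    rw [bcMap_algebraMap, IsScalarTower.algebraMap_apply R S (S ⊗[k] B), algebraMap_smul,
      algebraMap_smul]

@[simp] lemma bcLin_apply (f : M →ₛₗ[(bcMap k B R S).toRingHom] M') (m : M) :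
    bcLin k B R S f m = f m := rfl

/-- A semilinear map over `bcMap` with spanning range between invertible modules is a base
change along `R → S`. -/
theorem isBaseChange_bcLin [Module.Invertible (R ⊗[k] B) M] [Module.Invertible (S ⊗[k] B) M']
    (f : M →ₛₗ[(bcMap k B R S).toRingHom] M')
    (hf : Submodule.span (S ⊗[k] B) (Set.range f) = ⊤) :
    IsBaseChange S (bcLin k B R S f) := by
  let := bcAlg k B R S
  have := bc_tower k B R S
  have := bc_isPushout k B R S
  let : Module (R ⊗[k] B) M' := Module.compHom M' (bcMap k B R S).toRingHom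
  have t1 : IsScalarTower (R ⊗[k] B) (S ⊗[k] B) M' := IsScalarTower.of_algebraMap_smul fun _ _ => rfl
  let f₀ : M →ₗ[R ⊗[k] B] M' :=
    { toFun := f, map_add' := map_add _, map_smul' := fun a m => f.map_smulₛₗ a m }
  let φ : (S ⊗[k] B) ⊗[R ⊗[k] B] M →ₗ[S ⊗[k] B] M' := f₀.liftBaseChange (S ⊗[k] B)
  have hsurj : Function.Surjective φ := by
    rw [← LinearMap.range_eq_top, eq_top_iff, ← hf, Submodule.span_le]
    rintro _ ⟨m, rfl⟩
    exact ⟨1 ⊗ₜ m, by simp [φ, f₀]⟩
  let e : (S ⊗[k] B) ⊗[R ⊗[k] B] M ≃ₗ[S ⊗[k] B] M' :=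
    LinearEquiv.ofBijective φ (Module.Invertible.bijective_of_surjective hsurj)
  refine IsBaseChange.of_equiv
    ((Algebra.IsPushout.cancelBaseChange R S (R ⊗[k] B) (S ⊗[k] B) M).symm ≪≫ₗ e.restrictScalars S) ?_
  intro m
  simp [e, φ, f₀, ← Algebra.TensorProduct.one_def]

end Pushout

section Localization

variable {A L : Type u} [CommRing A] [CommRing L] [Algebra A L] (a : A) [IsLocalization.Away a L]
  {M N : Type u} [AddCommGroup M] [AddCommGroup N] [Module A M] [Module A N] [Module L N]
  [IsScalarTower A L N]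

/-- Recognition of the localization away from `a`. -/
theorem isLocalizedModule_away (f : M →ₗ[A] N)
    (hs : ∀ n : N, ∃ (m : M) (i : ℕ), (algebraMap A L a) ^ i • n = f m)
    (hk : ∀ m : M, f m = 0 → ∃ i : ℕ, a ^ i • m = 0) :
    IsLocalizedModule (Submonoid.powers a) f := by
  refine ⟨?_, ?_, ?_⟩
  · rintro ⟨_, i, rfl⟩
    rw [Module.End.isUnit_iff]
    have hu : IsUnit ((algebraMap A L a) ^ i) :=
      (IsLocalization.Away.algebraMap_isUnit a).pow i
    have : ⇑(algebraMap A (Module.End A N) (a ^ i)) =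
        fun n : N => (algebraMap A L a) ^ i • n := by
      ext n
      rw [Module.algebraMap_end_apply, ← map_pow, algebraMap_smul]
    rw [this]
    exact hu.smul_bijective
  · intro n
    obtain ⟨m, i, h⟩ := hs n
    refine ⟨(m, ⟨a ^ i, i, rfl⟩), ?_⟩
    rw [← h, Submonoid.smul_def, ← map_pow, algebraMap_smul]
  · intro x y h
    obtain ⟨i, hi⟩ := hk (x - y) (by rw [map_sub, h, sub_self])
    refine ⟨⟨a ^ i, i, rfl⟩, ?_⟩
    rw [smul_sub, sub_eq_zero] at hi
    exact hi

theorem invertible_away [Module.Invertible A M] (f : M →ₗ[A] N)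
    [IsLocalizedModule (Submonoid.powers a) f] : Module.Invertible L N :=
  Module.Invertible.of_isLocalization (Submonoid.powers a) f

end Localization

section Semilinear

variable {A B : Type u} [CommRing A] [CommRing B] {σ : A →+* B}
  {M M₁ M₂ : Type u} [AddCommGroup M] [AddCommGroup M₁] [AddCommGroup M₂]
  [Module A M] [Module B M₁] [Module B M₂] [Module.Invertible A M]

theorem exists_equiv_of_span [Module.Invertible B M₁]
    (f : M →ₛₗ[σ] M₁) (hf : Submodule.span B (Set.range f) = ⊤) :
    letI := σ.toAlgebra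
    ∃ e : B ⊗[A] M ≃ₗ[B] M₁, ∀ m, e (1 ⊗ₜ m) = f m := by
  let := σ.toAlgebra
  let : Module A M₁ := Module.compHom M₁ σ
  have : IsScalarTower A B M₁ := IsScalarTower.of_algebraMap_smul fun _ _ => rfl
  let f₀ : M →ₗ[A] M₁ :=
    { toFun := f, map_add' := map_add _, map_smul' := fun a m => f.map_smulₛₗ a m }
  have hsurj : Function.Surjective (f₀.liftBaseChange B) := by
    rw [← LinearMap.range_eq_top, eq_top_iff, ← hf, Submodule.span_le]
    rintro _ ⟨m, rfl⟩
    exact ⟨1 ⊗ₜ m, by simp [f₀]⟩
  exact ⟨LinearEquiv.ofBijective _ (Module.Invertible.bijective_of_surjective hsurj),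
    fun m => by simp [f₀]⟩

theorem span_range_comp {C : Type u} [CommRing C] {τ : B →+* C} {ρ : A →+* C}
    {M₃ : Type u} [AddCommGroup M₃] [Module C M₃]
    (f : M →ₛₗ[σ] M₁) (hf : Submodule.span B (Set.range f) = ⊤)
    (f' : M₁ →ₛₗ[τ] M₃) (hf' : Submodule.span C (Set.range f') = ⊤)
    {g : M →ₛₗ[ρ] M₃} (hg : ∀ m, g m = f' (f m) := by intro _; rfl) :
    Submodule.span C (Set.range g) = ⊤ := by
  rw [eq_top_iff, ← hf', Submodule.span_le]
  rintro _ ⟨y, rfl⟩
  have hy : y ∈ Submodule.span B (Set.range f) := hf ▸ Submodule.mem_top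
  induction hy using Submodule.span_induction with
  | mem y hy =>
    obtain ⟨m, rfl⟩ := hy
    exact Submodule.subset_span ⟨m, hg m⟩
  | zero => simp
  | add x y _ _ hx hy => rw [map_add]; exact Submodule.add_mem _ hx hy
  | smul a x _ hx => rw [LinearMap.map_smulₛₗ]; exact Submodule.smul_mem _ _ hx

/-- The comparison of two base changes of an invertible module. -/
noncomputable def spanEquiv [Module.Invertible B M₁] [Module.Invertible B M₂]
    (f₁ : M →ₛₗ[σ] M₁) (h₁ : Submodule.span B (Set.range f₁) = ⊤)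
    (f₂ : M →ₛₗ[σ] M₂) (h₂ : Submodule.span B (Set.range f₂) = ⊤) : M₁ ≃ₗ[B] M₂ :=
  letI := σ.toAlgebra
  (exists_equiv_of_span f₁ h₁).choose.symm.trans (exists_equiv_of_span f₂ h₂).choose

theorem spanEquiv_apply [Module.Invertible B M₁] [Module.Invertible B M₂]
    (f₁ : M →ₛₗ[σ] M₁) (h₁ : Submodule.span B (Set.range f₁) = ⊤)
    (f₂ : M →ₛₗ[σ] M₂) (h₂ : Submodule.span B (Set.range f₂) = ⊤) (m : M) :
    spanEquiv f₁ h₁ f₂ h₂ (f₁ m) = f₂ m := by
  let := σ.toAlgebra
  rw [spanEquiv, LinearEquiv.trans_apply]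
  conv_lhs => rw [← (exists_equiv_of_span f₁ h₁).choose_spec m, LinearEquiv.symm_apply_apply]
  exact (exists_equiv_of_span f₂ h₂).choose_spec m

end Semilinear

section Localization

variable {A L : Type u} [CommRing A] [CommRing L] [Algebra A L] (a : A) [IsLocalization.Away a L]
  {M N : Type u} [AddCommGroup M] [AddCommGroup N] [Module A M] [Module A N] [Module L N]
  [IsScalarTower A L N]

theorem injective_of_away [Module.Invertible A M] [Module.Invertible L N]
    (hinj : Function.Injective (algebraMap A L)) (f : M →ₗ[A] N)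
    (hs : ∀ n : N, ∃ (m : M) (i : ℕ), (algebraMap A L a) ^ i • n = f m) :
    Function.Injective f := by
  have hsurj : Function.Surjective (f.liftBaseChange L) := by
    intro n
    obtain ⟨m, i, h⟩ := hs n
    obtain ⟨c, hc⟩ := (IsLocalization.Away.algebraMap_isUnit (S := L) a).pow i
    refine ⟨(↑c⁻¹ : L) ⊗ₜ m, ?_⟩
    rw [LinearMap.liftBaseChange_tmul, ← h, ← hc, smul_smul, Units.inv_mul, one_smul]
  have hb := Module.Invertible.bijective_of_surjective (M := L ⊗[A] M) hsurj
  have h1 : Function.Injective (fun m : M => (1 : L) ⊗ₜ[A] m) := by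
    have h2 : Function.Injective ((Algebra.linearMap A L).rTensor M) :=
      Module.Flat.rTensor_preserves_injective_linearMap _ hinj
    have h3 := h2.comp (TensorProduct.lid A M).symm.injective
    intro x y h
    apply h3
    simpa using h
  intro x y h
  apply h1
  apply hb.injective
  simpa using h

end Localization

end FLTA.Jacobian
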