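import Fermat.Agent.Jacobian.CechCover

/-!
# Two-chart line bundles: isomorphisms and base change
-/

set_option autoImplicit false

universe u

open TensorProduct
open scoped FLTA.Jacobian.TwoCover

namespace FLTA.Jacobian

variable {k : Type u} [Field k] {E : TwoCover k}

namespace Triple

variable {R : Type u} [CommRing R] [Algebra k R]

/-- Identity. -/
@[refl] noncomputable def Iso.refl (T : Triple E R) : Iso T T where
  eM := LinearEquiv.refl _ _
  eM' := LinearEquiv.refl _ _
  eN := LinearEquiv.refl _ _
  comm _ := rfl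
  comm' _ := rfl

/-- Inverse. -/
noncomputable def Iso.symm {T T' : Triple E R} (e : Iso T T') : Iso T' T where
  eM := e.eM.symm
  eM' := e.eM'.symm
  eN := e.eN.symm
  comm m := by
    apply e.eN.injective
    rw [LinearEquiv.apply_symm_apply, e.comm, LinearEquiv.apply_symm_apply]
  comm' m := by
    apply e.eN.injective
    rw [LinearEquiv.apply_symm_apply, e.comm', LinearEquiv.apply_symm_apply]

/-- Composition. -/
noncomputable def Iso.trans {T T' T'' : Triple E R} (e : Iso T T') (e' : Iso T' T'') :
    Iso T T'' where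
  eM := e.eM.trans e'.eM
  eM' := e.eM'.trans e'.eM'
  eN := e.eN.trans e'.eN
  comm m := (congrArg e'.eN (e.comm m)).trans (e'.comm _)
  comm' m := (congrArg e'.eN (e.comm' m)).trans (e'.comm' _)

/-- An isomorphism stays one after a twist. -/
noncomputable def Iso.twist {T T' : Triple E R} (e : Iso T T') (m : ℕ) :
    Iso (T.twist m) (T'.twist m) where
  eM := e.eM
  eM' := e.eM'
  eN := e.eN
  comm := e.comm
  comm' x := by
    change e.eN ((E.ιR R (E.tR R)) ^ m • T.res' x) = (E.ιR R (E.tR R)) ^ m • T'.res' (e.eM' x)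
    rw [map_smul, e.comm']

/-- `N` as a module over `AR`. -/
noncomputable scoped instance modNA (T : Triple E R) : Module (E.AR R) T.N :=
  Module.compHom T.N (E.ιR R).toRingHom

/-- `N` as a module over `AR'`. -/
noncomputable scoped instance modNA' (T : Triple E R) : Module (E.AR' R) T.N :=
  Module.compHom T.N (E.ιR' R).toRingHom

scoped instance towNA (T : Triple E R) : IsScalarTower (E.AR R) (E.AR01 R) T.N :=
  IsScalarTower.of_algebraMap_smul fun _ _ => rfl

scoped instance towNA' (T : Triple E R) : IsScalarTower (E.AR' R) (E.AR01 R) T.N :=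
  IsScalarTower.of_algebraMap_smul fun _ _ => rfl

scoped instance towRNA (T : Triple E R) : IsScalarTower R (E.AR R) T.N :=
  IsScalarTower.of_algebraMap_smul fun r x => by
    change E.ιR R (algebraMap R (E.AR R) r) • x = r • x
    rw [AlgHom.commutes, algebraMap_smul]

scoped instance towRNA' (T : Triple E R) : IsScalarTower R (E.AR' R) T.N :=
  IsScalarTower.of_algebraMap_smul fun r x => by
    change E.ιR' R (algebraMap R (E.AR' R) r) • x = r • x
    rw [AlgHom.commutes, algebraMap_smul]

variable (T : Triple E R)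

/-- `res` as a linear map. -/
noncomputable def resA : T.M →ₗ[E.AR R] T.N where
  toFun := T.res
  map_add' := map_add _
  map_smul' a m := T.res.map_smulₛₗ a m

/-- `res'` as a linear map. -/
noncomputable def resA' : T.M' →ₗ[E.AR' R] T.N where
  toFun := T.res'
  map_add' := map_add _
  map_smul' a m := T.res'.map_smulₛₗ a m

@[simp] lemma resA_apply (m : T.M) : T.resA m = T.res m := rfl

@[simp] lemma resA'_apply (m : T.M') : T.resA' m = T.res' m := rfl

@[simp] lemma resLin_apply (m : T.M) : T.resLin m = T.res m := rfl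

@[simp] lemma resLin'_apply (m : T.M') : T.resLin' m = T.res' m := rfl

lemma diff_apply (x : T.M × T.M') : T.diff x = T.res x.1 - T.res' x.2 := rfl

lemma mem_h0_iff (x : T.M × T.M') : x ∈ T.H0 ↔ T.res x.1 = T.res' x.2 := by
  rw [LinearMap.mem_ker, T.diff_apply, sub_eq_zero]

scoped instance isLocalizedModule_resA :
    IsLocalizedModule (Submonoid.powers (E.tR R)) T.resA :=
  isLocalizedModule_away (L := E.AR01 R) (E.tR R) T.resA T.res_surj T.res_ker

scoped instance isLocalizedModule_resA' :
    IsLocalizedModule (Submonoid.powers (E.sR R)) T.resA' :=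
  isLocalizedModule_away (L := E.AR01 R) (E.sR R) T.resA' T.res'_surj T.res'_ker

instance invN : Module.Invertible (E.AR01 R) T.N :=
  invertible_away (L := E.AR01 R) (E.tR R) T.resA

theorem res_injective : Function.Injective T.res :=
  injective_of_away (L := E.AR01 R) (E.tR R) (E.ιR_injective R) T.resA T.res_surj

theorem res'_injective : Function.Injective T.res' :=
  injective_of_away (L := E.AR01 R) (E.sR R) (E.ιR'_injective R) T.resA' T.res'_surj

theorem span_range_res : Submodule.span (E.AR01 R) (Set.range T.res) = ⊤ := by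
  rw [eq_top_iff]
  intro n _
  obtain ⟨m, i, h⟩ := T.res_surj n
  rw [← Submodule.smul_mem_iff_of_isUnit _ ((E.isUnit_ιR_tR R).pow i), h]
  exact Submodule.subset_span ⟨m, rfl⟩

theorem span_range_res' : Submodule.span (E.AR01 R) (Set.range T.res') = ⊤ := by
  rw [eq_top_iff]
  intro n _
  obtain ⟨m, i, h⟩ := T.res'_surj n
  rw [← Submodule.smul_mem_iff_of_isUnit _ ((E.isUnit_ιR'_sR R).pow i), h]
  exact Submodule.subset_span ⟨m, rfl⟩

variable (S : Type u) [CommRing S] [Algebra k S] [Algebra R S] [IsScalarTower k R S]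

section bc

attribute [local instance] TensorProduct.leftModule

/-- The `M` component of the base change. -/
noncomputable abbrev bcM : Type u :=
  letI := bcAlg k E.A R S
  E.AR S ⊗[E.AR R] T.M

/-- The `M'` component of the base change. -/
noncomputable abbrev bcM' : Type u :=
  letI := bcAlg k E.A' R S
  E.AR' S ⊗[E.AR' R] T.M'

/-- The `N` component of the base change. -/
noncomputable abbrev bcN : Type u :=
  letI := bcAlg k E.A01 R S
  E.AR01 S ⊗[E.AR01 R] T.N

/-- `m ↦ 1 ⊗ m`. -/
noncomputable def bcfM : T.M →ₛₗ[(E.bcA R S).toRingHom] T.bcM S :=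
  letI := bcAlg k E.A R S
  { toFun := fun m => (1 : E.AR S) ⊗ₜ[E.AR R] m
    map_add' := fun x y => TensorProduct.tmul_add _ x y
    map_smul' := fun a m => by
      rw [← TensorProduct.smul_tmul, TensorProduct.smul_tmul', smul_eq_mul, mul_one,
        Algebra.smul_def, mul_one]
      rfl }

/-- `m ↦ 1 ⊗ m`. -/
noncomputable def bcfM' : T.M' →ₛₗ[(E.bcA' R S).toRingHom] T.bcM' S :=
  letI := bcAlg k E.A' R S
  { toFun := fun m => (1 : E.AR' S) ⊗ₜ[E.AR' R] m
    map_add' := fun x y => TensorProduct.tmul_add _ x y
    map_smul' := fun a m => by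
      rw [← TensorProduct.smul_tmul, TensorProduct.smul_tmul', smul_eq_mul, mul_one,
        Algebra.smul_def, mul_one]
      rfl }

/-- `m ↦ 1 ⊗ m`. -/
noncomputable def bcfN : T.N →ₛₗ[(E.bc01 R S).toRingHom] T.bcN S :=
  letI := bcAlg k E.A01 R S
  { toFun := fun m => (1 : E.AR01 S) ⊗ₜ[E.AR01 R] m
    map_add' := fun x y => TensorProduct.tmul_add _ x y
    map_smul' := fun a m => by
      rw [← TensorProduct.smul_tmul, TensorProduct.smul_tmul', smul_eq_mul, mul_one,
        Algebra.smul_def, mul_one]
      rfl }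

/-- The restriction of the base change, additive version. -/
noncomputable def bcResAdd : T.bcM S →+ T.bcN S :=
  letI := bcAlg k E.A R S
  TensorProduct.liftAddHom
    (AddMonoidHom.mk' (fun a => AddMonoidHom.mk' (fun m => E.ιR S a • T.bcfN S (T.res m))
      fun x y => by rw [map_add, map_add, smul_add])
      fun x y => by ext m; simp [add_smul])
    fun r a m => by
      change E.ιR S (E.bcA R S r * a) • T.bcfN S (T.res m) =
        E.ιR S a • T.bcfN S (T.res (r • m))
      rw [T.res.map_smulₛₗ, LinearMap.map_smulₛₗ, map_mul, smul_smul,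
        mul_comm (E.ιR S (E.bcA R S r))]
      congr 2
      exact (E.bc01_ιR R S r).symm

/-- The restriction of the base change. -/
noncomputable def bcRes : T.bcM S →ₛₗ[(E.ιR S).toRingHom] T.bcN S where
  toFun := T.bcResAdd S
  map_add' := map_add _
  map_smul' a x := by
    letI := bcAlg k E.A R S
    induction x using TensorProduct.induction_on with
    | zero => simp
    | add x y hx hy => simp [smul_add, hx, hy]
    | tmul c m =>
      change E.ιR S (a * c) • T.bcfN S (T.res m) =
        E.ιR S a • E.ιR S c • T.bcfN S (T.res m)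
      rw [map_mul, smul_smul]

/-- The restriction of the base change, additive version. -/
noncomputable def bcResAdd' : T.bcM' S →+ T.bcN S :=
  letI := bcAlg k E.A' R S
  TensorProduct.liftAddHom
    (AddMonoidHom.mk' (fun a => AddMonoidHom.mk' (fun m => E.ιR' S a • T.bcfN S (T.res' m))
      fun x y => by rw [map_add, map_add, smul_add])
      fun x y => by ext m; simp [add_smul])
    fun r a m => by
      change E.ιR' S (E.bcA' R S r * a) • T.bcfN S (T.res' m) =
        E.ιR' S a • T.bcfN S (T.res' (r • m))
      rw [T.res'.map_smulₛₗ, LinearMap.map_smulₛₗ, map_mul, smul_smul,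
        mul_comm (E.ιR' S (E.bcA' R S r))]
      congr 2
      exact (E.bc01_ιR' R S r).symm

/-- The restriction of the base change. -/
noncomputable def bcRes' : T.bcM' S →ₛₗ[(E.ιR' S).toRingHom] T.bcN S where
  toFun := T.bcResAdd' S
  map_add' := map_add _
  map_smul' a x := by
    letI := bcAlg k E.A' R S
    induction x using TensorProduct.induction_on with
    | zero => simp
    | add x y hx hy => simp [smul_add, hx, hy]
    | tmul c m =>
      change E.ιR' S (a * c) • T.bcfN S (T.res' m) =
        E.ιR' S a • E.ιR' S c • T.bcfN S (T.res' m)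
      rw [map_mul, smul_smul]

lemma bcRes_bcfM (m : T.M) : T.bcRes S (T.bcfM S m) = T.bcfN S (T.res m) := by
  change E.ιR S 1 • T.bcfN S (T.res m) = _
  rw [map_one, one_smul]

lemma bcRes'_bcfM' (m : T.M') : T.bcRes' S (T.bcfM' S m) = T.bcfN S (T.res' m) := by
  change E.ιR' S 1 • T.bcfN S (T.res' m) = _
  rw [map_one, one_smul]

lemma span_bcfM : Submodule.span (E.AR S) (Set.range (T.bcfM S)) = ⊤ := by
  letI := bcAlg k E.A R S
  rw [eq_top_iff]
  intro x _
  induction x using TensorProduct.induction_on with
  | zero => exact zero_mem _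
  | add x y hx hy => exact add_mem (hx trivial) (hy trivial)
  | tmul a m =>
    rw [← mul_one a, ← smul_eq_mul, ← TensorProduct.smul_tmul']
    exact Submodule.smul_mem _ _ (Submodule.subset_span ⟨m, rfl⟩)

lemma span_bcfM' : Submodule.span (E.AR' S) (Set.range (T.bcfM' S)) = ⊤ := by
  letI := bcAlg k E.A' R S
  rw [eq_top_iff]
  intro x _
  induction x using TensorProduct.induction_on with
  | zero => exact zero_mem _
  | add x y hx hy => exact add_mem (hx trivial) (hy trivial)
  | tmul a m =>
    rw [← mul_one a, ← smul_eq_mul, ← TensorProduct.smul_tmul']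
    exact Submodule.smul_mem _ _ (Submodule.subset_span ⟨m, rfl⟩)

lemma bcRes_surj (n : T.bcN S) :
    ∃ (m : T.bcM S) (i : ℕ), (E.ιR S (E.tR S)) ^ i • n = T.bcRes S m := by
  letI := bcAlg k E.A R S
  letI := bcAlg k E.A01 R S
  induction n using TensorProduct.induction_on with
  | zero => exact ⟨0, 0, by simp⟩
  | tmul c n =>
    obtain ⟨i, a, ha⟩ := E.exists_ιR_pow S c
    obtain ⟨m, j, hm⟩ := T.res_surj n
    refine ⟨a • T.bcfM S m, i + j, ?_⟩
    rw [LinearMap.map_smulₛₗ, bcRes_bcfM, ← hm, LinearMap.map_smulₛₗ]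
    change _ = E.ιR S a • E.bc01 R S ((E.ιR R (E.tR R)) ^ j) • T.bcfN S n
    rw [E.bc01_tR_pow, ← ha, smul_smul]
    change _ • c ⊗ₜ[E.AR01 R] n = _ • (1 : E.AR01 S) ⊗ₜ[E.AR01 R] n
    rw [TensorProduct.smul_tmul', TensorProduct.smul_tmul', smul_eq_mul, smul_eq_mul, mul_one]
    congr 1
    ring
  | add x y hx hy =>
    obtain ⟨m, i, hm⟩ := hx
    obtain ⟨m', j, hm'⟩ := hy
    refine ⟨(E.tR S) ^ j • m + (E.tR S) ^ i • m', i + j, ?_⟩
    rw [map_add, LinearMap.map_smulₛₗ, LinearMap.map_smulₛₗ, ← hm, ← hm', map_pow, map_pow,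
      smul_add, smul_smul, smul_smul, pow_add]
    simp only [AlgHom.toRingHom_eq_coe, RingHom.coe_coe, mul_comm]

lemma bcRes'_surj (n : T.bcN S) :
    ∃ (m : T.bcM' S) (i : ℕ), (E.ιR' S (E.sR S)) ^ i • n = T.bcRes' S m := by
  letI := bcAlg k E.A' R S
  letI := bcAlg k E.A01 R S
  induction n using TensorProduct.induction_on with
  | zero => exact ⟨0, 0, by simp⟩
  | tmul c n =>
    obtain ⟨i, a, ha⟩ := E.exists_ιR'_pow S c
    obtain ⟨m, j, hm⟩ := T.res'_surj n
    refine ⟨a • T.bcfM' S m, i + j, ?_⟩
    rw [LinearMap.map_smulₛₗ, bcRes'_bcfM', ← hm, LinearMap.map_smulₛₗ]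
    change _ = E.ιR' S a • E.bc01 R S ((E.ιR' R (E.sR R)) ^ j) • T.bcfN S n
    rw [map_pow, E.bc01_ιR', E.bcA'_sR, ← ha, smul_smul]
    change _ • c ⊗ₜ[E.AR01 R] n = _ • (1 : E.AR01 S) ⊗ₜ[E.AR01 R] n
    rw [TensorProduct.smul_tmul', TensorProduct.smul_tmul', smul_eq_mul, smul_eq_mul, mul_one]
    congr 1
    ring
  | add x y hx hy =>
    obtain ⟨m, i, hm⟩ := hx
    obtain ⟨m', j, hm'⟩ := hy
    refine ⟨(E.sR S) ^ j • m + (E.sR S) ^ i • m', i + j, ?_⟩
    rw [map_add, LinearMap.map_smulₛₗ, LinearMap.map_smulₛₗ, ← hm, ← hm', map_pow, map_pow,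
      smul_add, smul_smul, smul_smul, pow_add]
    simp only [AlgHom.toRingHom_eq_coe, RingHom.coe_coe, mul_comm]

instance : Module.Invertible (E.AR S) (T.bcM S) :=
  letI := bcAlg k E.A R S
  inferInstanceAs (Module.Invertible (E.AR S) (E.AR S ⊗[E.AR R] T.M))

instance : Module.Invertible (E.AR' S) (T.bcM' S) :=
  letI := bcAlg k E.A' R S
  inferInstanceAs (Module.Invertible (E.AR' S) (E.AR' S ⊗[E.AR' R] T.M'))

instance : Module.Invertible (E.AR01 S) (T.bcN S) :=
  letI := bcAlg k E.A01 R S
  inferInstanceAs (Module.Invertible (E.AR01 S) (E.AR01 S ⊗[E.AR01 R] T.N))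

lemma bcRes_injective : Function.Injective (T.bcRes S) :=
  injective_of_away (L := E.AR01 S) (E.tR S) (E.ιR_injective S)
    ({ toFun := T.bcRes S, map_add' := map_add _,
       map_smul' := fun a m => ((T.bcRes S).map_smulₛₗ a m).trans
        (algebraMap_smul (E.AR01 S) a _) } : T.bcM S →ₗ[E.AR S] T.bcN S)
    (T.bcRes_surj S)

lemma bcRes'_injective : Function.Injective (T.bcRes' S) :=
  injective_of_away (L := E.AR01 S) (E.sR S) (E.ιR'_injective S)
    ({ toFun := T.bcRes' S, map_add' := map_add _,
       map_smul' := fun a m => ((T.bcRes' S).map_smulₛₗ a m).trans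
        (algebraMap_smul (E.AR01 S) a _) } : T.bcM' S →ₗ[E.AR' S] T.bcN S)
    (T.bcRes'_surj S)

/-- The base change of a line bundle. -/
noncomputable def bc : Triple E S where
  M := T.bcM S
  M' := T.bcM' S
  N := T.bcN S
  modM := inferInstance
  modM' := inferInstance
  modN := inferInstance
  rM := inferInstance
  rM' := inferInstance
  rN := inferInstance
  towM := inferInstance
  towM' := inferInstance
  towN := inferInstance
  res := T.bcRes S
  res' := T.bcRes' S
  res_surj := T.bcRes_surj S
  res_ker m h := ⟨0, by rw [pow_zero, one_smul]; exact T.bcRes_injective S (h.trans (map_zero _).symm)⟩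
  res'_surj := T.bcRes'_surj S
  res'_ker m h := ⟨0, by rw [pow_zero, one_smul]; exact T.bcRes'_injective S (h.trans (map_zero _).symm)⟩

/-- `Triple.bc` is a base change. -/
noncomputable def bcBaseChange : BaseChange T (T.bc S) where
  fM := T.bcfM S
  fM' := T.bcfM' S
  fN := T.bcfN S
  comm m := (T.bcRes_bcfM S m).symm
  comm' m := (T.bcRes'_bcfM' S m).symm
  gen := T.span_bcfM S
  gen' := T.span_bcfM' S

end bc

variable {T S}

namespace BaseChange

variable {T₁ T₂ : Triple E S}

theorem genN (b : BaseChange T T₁) :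
    Submodule.span (E.AR01 S) (Set.range b.fN) = ⊤ := by
  have h : ∀ x : T₁.M, T₁.res x ∈ Submodule.span (E.AR01 S) (Set.range b.fN) := by
    intro x
    have hx : x ∈ Submodule.span (E.AR S) (Set.range b.fM) := b.gen ▸ Submodule.mem_top
    induction hx using Submodule.span_induction with
    | mem y hy =>
      obtain ⟨m, rfl⟩ := hy
      exact Submodule.subset_span ⟨T.res m, b.comm m⟩
    | zero => rw [map_zero]; exact zero_mem _
    | add x y _ _ hx hy => rw [map_add]; exact add_mem hx hy
    | smul a x _ hx => rw [LinearMap.map_smulₛₗ]; exact Submodule.smul_mem _ _ hx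
  rw [eq_top_iff, ← T₁.span_range_res, Submodule.span_le]
  rintro _ ⟨x, rfl⟩
  exact h x

/-- Two base changes are isomorphic. -/
noncomputable def iso (b₁ : BaseChange T T₁) (b₂ : BaseChange T T₂) : Iso T₁ T₂ where
  eM := spanEquiv b₁.fM b₁.gen b₂.fM b₂.gen
  eM' := spanEquiv b₁.fM' b₁.gen' b₂.fM' b₂.gen'
  eN := spanEquiv b₁.fN b₁.genN b₂.fN b₂.genN
  comm m := by
    have hm : m ∈ Submodule.span (E.AR S) (Set.range b₁.fM) := b₁.gen ▸ Submodule.mem_top
    induction hm using Submodule.span_induction with
    | mem y hy =>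
      obtain ⟨x, rfl⟩ := hy
      rw [spanEquiv_apply, ← b₁.comm, spanEquiv_apply, b₂.comm]
    | zero => simp
    | add x y _ _ hx hy => rw [map_add, map_add, map_add, map_add, hx, hy]
    | smul a x _ hx =>
      rw [LinearMap.map_smulₛₗ, LinearEquiv.map_smul, LinearEquiv.map_smul, LinearMap.map_smulₛₗ,
        hx]
  comm' m := by
    have hm : m ∈ Submodule.span (E.AR' S) (Set.range b₁.fM') := b₁.gen' ▸ Submodule.mem_top
    induction hm using Submodule.span_induction with
    | mem y hy =>
      obtain ⟨x, rfl⟩ := hy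
      rw [spanEquiv_apply, ← b₁.comm', spanEquiv_apply, b₂.comm']
    | zero => simp
    | add x y _ _ hx hy => rw [map_add, map_add, map_add, map_add, hx, hy]
    | smul a x _ hx =>
      rw [LinearMap.map_smulₛₗ, LinearEquiv.map_smul, LinearEquiv.map_smul, LinearMap.map_smulₛₗ,
        hx]

/-- Composition with an isomorphism of the target. -/
noncomputable def congrRight (b : BaseChange T T₁) (e : Iso T₁ T₂) : BaseChange T T₂ where
  fM :=
    { toFun := fun x => e.eM (b.fM x)
      map_add' := fun x y => by simp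
      map_smul' := fun a x =>
        (congrArg e.eM (b.fM.map_smulₛₗ a x)).trans (e.eM.map_smul _ _) }
  fM' :=
    { toFun := fun x => e.eM' (b.fM' x)
      map_add' := fun x y => by simp
      map_smul' := fun a x =>
        (congrArg e.eM' (b.fM'.map_smulₛₗ a x)).trans (e.eM'.map_smul _ _) }
  fN :=
    { toFun := fun x => e.eN (b.fN x)
      map_add' := fun x y => by simp
      map_smul' := fun a x =>
        (congrArg e.eN (b.fN.map_smulₛₗ a x)).trans (e.eN.map_smul _ _) }
  comm m := by
    change e.eN (b.fN (T.res m)) = T₂.res (e.eM (b.fM m))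
    rw [b.comm, e.comm]
  comm' m := by
    change e.eN (b.fN (T.res' m)) = T₂.res' (e.eM' (b.fM' m))
    rw [b.comm', e.comm']
  gen := by
    change Submodule.span _ (Set.range (e.eM.toLinearMap ∘ b.fM)) = ⊤
    rw [Set.range_comp, Submodule.span_image, b.gen, Submodule.map_top]
    exact LinearEquiv.range _
  gen' := by
    change Submodule.span _ (Set.range (e.eM'.toLinearMap ∘ b.fM')) = ⊤
    rw [Set.range_comp, Submodule.span_image, b.gen', Submodule.map_top]
    exact LinearEquiv.range _

/-- Composition with an isomorphism of the source. -/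
noncomputable def congrLeft {T' : Triple E R} (e : Iso T' T) (b : BaseChange T T₁) :
    BaseChange T' T₁ where
  fM :=
    { toFun := fun x => b.fM (e.eM x)
      map_add' := fun x y => by simp
      map_smul' := fun a x =>
        (congrArg b.fM (e.eM.map_smul a x)).trans (b.fM.map_smulₛₗ _ _) }
  fM' :=
    { toFun := fun x => b.fM' (e.eM' x)
      map_add' := fun x y => by simp
      map_smul' := fun a x =>
        (congrArg b.fM' (e.eM'.map_smul a x)).trans (b.fM'.map_smulₛₗ _ _) }
  fN :=
    { toFun := fun x => b.fN (e.eN x)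
      map_add' := fun x y => by simp
      map_smul' := fun a x =>
        (congrArg b.fN (e.eN.map_smul a x)).trans (b.fN.map_smulₛₗ _ _) }
  comm m := by
    change b.fN (e.eN (T'.res m)) = T₁.res (b.fM (e.eM m))
    rw [e.comm, b.comm]
  comm' m := by
    change b.fN (e.eN (T'.res' m)) = T₁.res' (b.fM' (e.eM' m))
    rw [e.comm', b.comm']
  gen := by
    change Submodule.span _ (Set.range (b.fM ∘ e.eM)) = ⊤
    rw [Set.range_comp, e.eM.surjective.range_eq, Set.image_univ, b.gen]
  gen' := by
    change Submodule.span _ (Set.range (b.fM' ∘ e.eM')) = ⊤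
    rw [Set.range_comp, e.eM'.surjective.range_eq, Set.image_univ, b.gen']

/-- Transitivity. -/
noncomputable def trans {U : Type u} [CommRing U] [Algebra k U] [Algebra R U] [Algebra S U]
    [IsScalarTower k R U] [IsScalarTower k S U] [IsScalarTower R S U] {T₃ : Triple E U}
    (b : BaseChange T T₁) (b' : BaseChange T₁ T₃) : BaseChange T T₃ where
  fM :=
    { toFun := fun x => b'.fM (b.fM x)
      map_add' := fun x y => by simp
      map_smul' := fun a x => by
        rw [LinearMap.map_smulₛₗ, LinearMap.map_smulₛₗ]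
        congr 1
        exact bcMap_comp k E.A R S U a }
  fM' :=
    { toFun := fun x => b'.fM' (b.fM' x)
      map_add' := fun x y => by simp
      map_smul' := fun a x => by
        rw [LinearMap.map_smulₛₗ, LinearMap.map_smulₛₗ]
        congr 1
        exact bcMap_comp k E.A' R S U a }
  fN :=
    { toFun := fun x => b'.fN (b.fN x)
      map_add' := fun x y => by simp
      map_smul' := fun a x => by
        rw [LinearMap.map_smulₛₗ, LinearMap.map_smulₛₗ]
        congr 1
        exact bcMap_comp k E.A01 R S U a }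
  comm m := by
    change b'.fN (b.fN (T.res m)) = T₃.res (b'.fM (b.fM m))
    rw [b.comm, b'.comm]
  comm' m := by
    change b'.fN (b.fN (T.res' m)) = T₃.res' (b'.fM' (b.fM' m))
    rw [b.comm', b'.comm']
  gen := span_range_comp b.fM b.gen b'.fM b'.gen
  gen' := span_range_comp b.fM' b.gen' b'.fM' b'.gen'

/-- Base change commutes with twists. -/
noncomputable def twist (b : BaseChange T T₁) (m : ℕ) :
    BaseChange (T.twist m) (T₁.twist m) where
  fM := b.fM
  fM' := b.fM'
  fN := b.fN
  comm := b.comm
  comm' x := by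
    change b.fN ((E.ιR R (E.tR R)) ^ m • T.res' x) =
      (E.ιR S (E.tR S)) ^ m • T₁.res' (b.fM' x)
    rw [LinearMap.map_smulₛₗ, b.comm']
    congr 1
    exact E.bc01_tR_pow R S m
  gen := b.gen
  gen' := b.gen'

end BaseChange

/-- Identity base change. -/
noncomputable def BaseChange.refl (T : Triple E R) : BaseChange T T where
  fM :=
    { toFun := id
      map_add' := fun _ _ => rfl
      map_smul' := fun a x => congrArg (fun c : E.AR R => c • x) (bcMap_self k E.A R a).symm }
  fM' :=
    { toFun := id
      map_add' := fun _ _ => rfl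
      map_smul' := fun a x => congrArg (fun c : E.AR' R => c • x) (bcMap_self k E.A' R a).symm }
  fN :=
    { toFun := id
      map_add' := fun _ _ => rfl
      map_smul' := fun a x => congrArg (fun c : E.AR01 R => c • x) (bcMap_self k E.A01 R a).symm }
  comm _ := rfl
  comm' _ := rfl
  gen := by
    change Submodule.span _ (Set.range (id : T.M → T.M)) = ⊤
    rw [Set.range_id, Submodule.span_univ]
  gen' := by
    change Submodule.span _ (Set.range (id : T.M' → T.M')) = ⊤
    rw [Set.range_id, Submodule.span_univ]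

end Triple

end FLTA.Jacobian
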