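import Mathlib

/-!
# Linear algebra for two-term complexes
-/

set_option autoImplicit false

universe u

open TensorProduct Polynomial

namespace FLTA.Jacobian

section Index

variable {K : Type u} [Field K] {V₁ V₀ W : Type u} [AddCommGroup V₁] [AddCommGroup V₀]
  [AddCommGroup W] [Module K V₁] [Module K V₀] [Module K W]

/-- Additivity of the index for a composite with an injective map. -/
theorem index_comp_injective (j : V₁ →ₗ[K] V₀) (d : V₀ →ₗ[K] W) (hj : Function.Injective j)
    [FiniteDimensional K (V₀ ⧸ LinearMap.range j)] [FiniteDimensional K (LinearMap.ker d)]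
    [FiniteDimensional K (W ⧸ LinearMap.range (d ∘ₗ j))] :
    (Module.finrank K (LinearMap.ker d) : ℤ) - Module.finrank K (W ⧸ LinearMap.range d) =
      Module.finrank K (LinearMap.ker (d ∘ₗ j))
        - Module.finrank K (W ⧸ LinearMap.range (d ∘ₗ j))
        + Module.finrank K (V₀ ⧸ LinearMap.range j) := by
  let q : LinearMap.ker d →ₗ[K] V₀ ⧸ LinearMap.range j :=
    (LinearMap.range j).mkQ ∘ₗ (LinearMap.ker d).subtype
  have hle : LinearMap.range j ≤
      LinearMap.ker ((LinearMap.range (d ∘ₗ j)).mkQ ∘ₗ d) := by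
    rintro _ ⟨x, rfl⟩
    rw [LinearMap.mem_ker, LinearMap.comp_apply, Submodule.mkQ_apply,
      Submodule.Quotient.mk_eq_zero]
    exact ⟨x, rfl⟩
  let δ : (V₀ ⧸ LinearMap.range j) →ₗ[K] W ⧸ LinearMap.range (d ∘ₗ j) :=
    (LinearMap.range j).liftQ _ hle
  have hle2 : LinearMap.range (d ∘ₗ j) ≤ LinearMap.ker (LinearMap.range d).mkQ := by
    rw [Submodule.ker_mkQ]
    exact LinearMap.range_comp_le_range j d
  let π : (W ⧸ LinearMap.range (d ∘ₗ j)) →ₗ[K] W ⧸ LinearMap.range d :=
    (LinearMap.range (d ∘ₗ j)).liftQ _ hle2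
  -- the kernel of `q`
  let i₀ : LinearMap.ker (d ∘ₗ j) →ₗ[K] LinearMap.ker d :=
    (j ∘ₗ (LinearMap.ker (d ∘ₗ j)).subtype).codRestrict (LinearMap.ker d) fun x => x.2
  have hi₀ : Function.Injective i₀ := fun x y h =>
    Subtype.ext (hj (congrArg Subtype.val h))
  have hr₀ : LinearMap.range i₀ = LinearMap.ker q := by
    ext x
    constructor
    · rintro ⟨y, rfl⟩
      rw [LinearMap.mem_ker]
      exact (Submodule.Quotient.mk_eq_zero _).mpr ⟨y.1, rfl⟩
    · intro hx
      obtain ⟨y, hy⟩ := (Submodule.Quotient.mk_eq_zero _).mp (LinearMap.mem_ker.mp hx)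
      exact ⟨⟨y, by rw [LinearMap.mem_ker, LinearMap.comp_apply, hy]; exact x.2⟩,
        Subtype.ext hy⟩
  have hq : LinearMap.range q = LinearMap.ker δ := by
    ext z
    constructor
    · rintro ⟨x, rfl⟩
      rw [LinearMap.mem_ker]
      change Submodule.Quotient.mk (d x.1) = 0
      rw [LinearMap.mem_ker.mp x.2, Submodule.Quotient.mk_zero]
    · intro hz
      induction z using Submodule.Quotient.induction_on with
      | H v =>
        change Submodule.Quotient.mk (d v) = 0 at hz
        obtain ⟨y, hy⟩ := (Submodule.Quotient.mk_eq_zero _).mp hz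
        refine ⟨⟨v - j y, by rw [LinearMap.mem_ker, map_sub, ← hy, LinearMap.comp_apply,
          sub_self]⟩, ?_⟩
        change Submodule.Quotient.mk (v - j y) = _
        rw [Submodule.Quotient.mk_sub, (Submodule.Quotient.mk_eq_zero _).mpr (LinearMap.mem_range_self j y), sub_zero]
  have hπ : Function.Surjective π := by
    intro z
    induction z using Submodule.Quotient.induction_on with
    | H v => exact ⟨Submodule.Quotient.mk v, rfl⟩
  have hδ : LinearMap.range δ = LinearMap.ker π := by
    ext z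
    induction z using Submodule.Quotient.induction_on with
    | H w =>
      constructor
      · rintro ⟨x, hx⟩
        induction x using Submodule.Quotient.induction_on with
        | H v =>
          change Submodule.Quotient.mk (d v) = Submodule.Quotient.mk w at hx
          rw [LinearMap.mem_ker, ← hx]
          exact (Submodule.Quotient.mk_eq_zero _).mpr ⟨v, rfl⟩
      · intro hw
        obtain ⟨v, hv⟩ := (Submodule.Quotient.mk_eq_zero _).mp (LinearMap.mem_ker.mp hw)
        exact ⟨Submodule.Quotient.mk v, by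
          change Submodule.Quotient.mk (d v) = _
          rw [hv]⟩
  have e₁ := q.finrank_range_add_finrank_ker
  rw [← hr₀, LinearMap.finrank_range_of_inj hi₀, hq] at e₁
  have e₂ := δ.finrank_range_add_finrank_ker
  rw [hδ] at e₂
  have e₃ := π.finrank_range_add_finrank_ker
  rw [LinearMap.range_eq_top.mpr hπ, finrank_top] at e₃
  omega

end Index

section ProjectiveTrans

theorem projective_of_tower (R S : Type u) [CommRing R] [CommRing S] [Algebra R S]
    [Module.Projective R S] (M : Type u) [AddCommGroup M] [Module R M] [Module S M]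
    [IsScalarTower R S M] [Module.Projective S M] : Module.Projective R M := by
  obtain ⟨s, hs⟩ := (Module.projective_def (R := S) (P := M)).mp inferInstance
  classical
  have : Module.Projective R (M →₀ S) :=
    Module.Projective.of_equiv' (finsuppLequivDFinsupp R).symm
  refine Module.Projective.of_split (s.restrictScalars R)
    ((Finsupp.linearCombination S (id : M → M)).restrictScalars R) ?_
  exact LinearMap.ext hs

end ProjectiveTrans

section Bounded

variable {R : Type u} [CommRing R] {M M' N : Type u} [AddCommGroup M] [AddCommGroup M']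
  [AddCommGroup N] [Module R M] [Module R M'] [Module R N]

/-- Elements of `M` whose image comes from `M'` lie in a finitely generated submodule. -/
theorem exists_fg_of_mem_range {τ : Module.End R M} {σ : Module.End R M'} {v : Module.End R N}
    {res : M →ₗ[R] N} {res' : M' →ₗ[R] N} (hinj : Function.Injective res)
    (hτ : ∀ m, res (τ m) = v (res m)) (hσ : ∀ x, v (res' (σ x)) = res' x)
    {ι : Type u} [Fintype ι] (ψ : ι → M →ₗ[R] R[X]) (g : ι → M)
    (hψ : ∀ i m, ψ i (τ m) = X * ψ i m) (hrec : ∀ m, m = ∑ i, aeval τ (ψ i m) (g i))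
    {G : Finset M'} (hgen : Submodule.span R {x | ∃ (j : ℕ), ∃ y ∈ G, (σ ^ j) y = x} = ⊤)
    (hd : ∀ y ∈ G, ∃ (d : ℕ) (m : M), (v ^ d) (res' y) = res m) :
    ∃ W : Submodule R M, W.FG ∧ ∀ (m : M) (x : M'), res m = res' x → m ∈ W := by
  classical
  choose! d a ha using hd
  obtain ⟨D, hD⟩ : ∃ D : ℕ, ∀ i, ∀ y ∈ G, (ψ i (a y)).natDegree ≤ D :=
    ⟨Finset.univ.sup fun i => G.sup fun y => (ψ i (a y)).natDegree, fun i y hy =>
      le_trans (Finset.le_sup (f := fun y => (ψ i (a y)).natDegree) hy)
        (Finset.le_sup (f := fun i => G.sup fun y => (ψ i (a y)).natDegree) (Finset.mem_univ i))⟩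
  have hτn : ∀ (n : ℕ) (m : M), res ((τ ^ n) m) = (v ^ n) (res m) := by
    intro n
    induction n with
    | zero => intro m; rfl
    | succ n ih =>
      intro m
      rw [pow_succ, pow_succ, Module.End.mul_apply, Module.End.mul_apply, ih, hτ]
  have hσn : ∀ (n : ℕ) (x : M'), (v ^ n) (res' ((σ ^ n) x)) = res' x := by
    intro n
    induction n with
    | zero => intro m; rfl
    | succ n ih =>
      intro x
      rw [pow_succ v n, Module.End.mul_apply, pow_succ' σ n, Module.End.mul_apply, hσ, ih]
  have hψn : ∀ (n : ℕ) (i : ι) (m : M), ψ i ((τ ^ n) m) = X ^ n * ψ i m := by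
    intro n
    induction n with
    | zero => intro i m; simp
    | succ n ih =>
      intro i m
      rw [pow_succ, Module.End.mul_apply, ih, hψ, pow_succ, mul_assoc]
  -- key: high powers of `v` push `range res'` into a bounded part of `range res`
  let B : ℕ → Submodule R M := fun J => Submodule.span R
    {m | ∃ n ≤ J, ∃ y ∈ G, (τ ^ n) (a y) = m}
  have key : ∀ x : M', ∃ J₀, ∀ J, J₀ ≤ J → ∃ m ∈ B J, (v ^ J) (res' x) = res m := by
    intro x
    have hx : x ∈ Submodule.span R {x | ∃ (j : ℕ), ∃ y ∈ G, (σ ^ j) y = x} :=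
      hgen ▸ Submodule.mem_top
    induction hx using Submodule.span_induction with
    | mem x hx =>
      obtain ⟨j, y, hy, rfl⟩ := hx
      refine ⟨j + d y, fun J hJ => ⟨(τ ^ (J - j - d y)) (a y),
        Submodule.subset_span ⟨_, by omega, y, hy, rfl⟩, ?_⟩⟩
      rw [hτn, ← ha y hy, ← Module.End.mul_apply, ← pow_add,
        show J - j - d y + d y = J - j by omega]
      conv_lhs => rw [show J = J - j + j by omega, pow_add, Module.End.mul_apply, hσn]
    | zero => exact ⟨0, fun J _ => ⟨0, zero_mem _, by simp⟩⟩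
    | add x y _ _ hx hy =>
      obtain ⟨J₁, h₁⟩ := hx
      obtain ⟨J₂, h₂⟩ := hy
      refine ⟨max J₁ J₂, fun J hJ => ?_⟩
      obtain ⟨m₁, hm₁, e₁⟩ := h₁ J (le_trans (le_max_left _ _) hJ)
      obtain ⟨m₂, hm₂, e₂⟩ := h₂ J (le_trans (le_max_right _ _) hJ)
      exact ⟨m₁ + m₂, add_mem hm₁ hm₂, by rw [map_add, map_add, map_add, e₁, e₂]⟩
    | smul r x _ hx =>
      obtain ⟨J₁, h₁⟩ := hx
      refine ⟨J₁, fun J hJ => ?_⟩
      obtain ⟨m₁, hm₁, e₁⟩ := h₁ J hJ
      exact ⟨r • m₁, Submodule.smul_mem _ r hm₁, by rw [map_smul, map_smul, map_smul, e₁]⟩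
  let Φ : (ι → degreeLE R (D : WithBot ℕ)) →ₗ[R] M :=
    ∑ i, ((LinearMap.applyₗ (g i)) ∘ₗ (aeval τ).toLinearMap ∘ₗ
      (degreeLE R (D : WithBot ℕ)).subtype) ∘ₗ LinearMap.proj i
  have : Module.Finite R (degreeLE R (D : WithBot ℕ)) := by
    rw [degreeLE_eq_span_X_pow]
    exact Module.Finite.span_of_finite R (Finset.finite_toSet _)
  refine ⟨LinearMap.range Φ, Module.Finite.iff_fg.mp (Module.Finite.range Φ), ?_⟩
  intro m x hmx
  obtain ⟨J, hJ⟩ := key x
  obtain ⟨w, hw, e⟩ := hJ J le_rfl
  have hmw : (τ ^ J) m = w := hinj (by rw [hτn, hmx, e])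
  have hdeg : ∀ i, (ψ i w).natDegree ≤ J + D := by
    intro i
    clear hmw e
    induction hw using Submodule.span_induction with
    | mem z hz =>
      obtain ⟨n, hn, y, hy, rfl⟩ := hz
      rw [hψn]
      refine le_trans natDegree_mul_le ?_
      have := natDegree_X_pow_le (R := R) n
      have := hD i y hy
      omega
    | zero => simp
    | add z z' _ _ hz hz' =>
      rw [map_add]
      exact le_trans (natDegree_add_le _ _) (max_le hz hz')
    | smul r z _ hz =>
      rw [map_smul]
      exact le_trans (natDegree_smul_le r _) hz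
  have hmem : ∀ i, ψ i m ∈ degreeLE R (D : WithBot ℕ) := by
    intro i
    rw [mem_degreeLE, degree_le_iff_coeff_zero]
    intro n hn
    have hn' : D < n := by exact_mod_cast hn
    have h1 : (ψ i w).coeff (n + J) = 0 :=
      coeff_eq_zero_of_natDegree_lt (lt_of_le_of_lt (hdeg i) (by omega))
    rw [← hmw, hψn, coeff_X_pow_mul] at h1
    exact h1
  refine ⟨fun i => ⟨ψ i m, hmem i⟩, ?_⟩
  conv_rhs => rw [hrec m]
  simp [Φ]

end Bounded

end FLTA.Jacobian
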