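import Fermat.Agent.Jacobian.CechBasic
import Fermat.Agent.Jacobian.CechLinAlg

/-!
# Coordinates of invertible modules over the line
-/

set_option autoImplicit false

universe u

open TensorProduct Polynomial

namespace FLTA.Jacobian

section Coord

variable {k : Type u} [Field k] {B : Type u} [CommRing B] [Algebra k B] (t : B)

theorem exists_coord [IsDomain B] (hfin : (aeval (R := k) t).toRingHom.Finite)
    (hinj : Function.Injective (aeval (R := k) t)) :
    ∃ (n : ℕ) (c : Fin n → B →ₗ[k] k[X]) (e : Fin n → B),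
      (∀ i b, c i (t * b) = X * c i b) ∧ ∀ b, ∑ i, aeval t (c i b) * e i = b := by
  let : Algebra k[X] B := (aeval (R := k) t).toRingHom.toAlgebra
  have : Module.Finite k[X] B := hfin
  have : IsScalarTower k k[X] B := IsScalarTower.of_algebraMap_eq fun x => by
    change algebraMap k B x = aeval t (algebraMap k k[X] x)
    rw [AlgHom.commutes]
  have : Module.IsTorsionFree k[X] B := Module.isTorsionFree_iff_algebraMap_injective.mpr hinj
  let bas := Module.finBasis k[X] B
  refine ⟨_, fun i => (bas.coord i).restrictScalars k, bas, fun i b => ?_, fun b => ?_⟩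
  · have : t * b = (X : k[X]) • b := by
      rw [Algebra.smul_def]
      change t * b = aeval t X * b
      rw [aeval_X]
    simp [this]
  · conv_rhs => rw [← bas.sum_repr b]
    simp [Algebra.smul_def, RingHom.algebraMap_toAlgebra]

variable (R : Type u) [CommRing R] [Algebra k R]

/-- Extension of a polynomial coordinate to `R ⊗ B`. -/
noncomputable def coordR (c : B →ₗ[k] k[X]) : R ⊗[k] B →ₗ[R] R[X] :=
  (polyEquivTensor' k R).symm.toLinearMap ∘ₗ c.baseChange R

lemma coordR_tmul (c : B →ₗ[k] k[X]) (r : R) (b : B) :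
    coordR R c (r ⊗ₜ b) = r • (c b).map (algebraMap k R) := by
  simp [coordR]

/-- Multiplication by `1 ⊗ t` on a module. -/
noncomputable abbrev tauEnd (M : Type u) [AddCommGroup M] [Module (R ⊗[k] B) M] [Module R M]
    [IsScalarTower R (R ⊗[k] B) M] : Module.End R M :=
  Algebra.lsmul R R M ((1 : R) ⊗ₜ[k] t)

theorem exists_coord_module [IsDomain B] (hfin : (aeval (R := k) t).toRingHom.Finite)
    (hinj : Function.Injective (aeval (R := k) t))
    (M : Type u) [AddCommGroup M] [Module (R ⊗[k] B) M] [Module R M]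
    [IsScalarTower R (R ⊗[k] B) M] [Module.Finite (R ⊗[k] B) M]
    [Module.Projective (R ⊗[k] B) M] :
    ∃ (ι : Type u) (_ : Fintype ι) (ψ : ι → M →ₗ[R] R[X]) (g : ι → M),
      (∀ i m, ψ i (tauEnd (k := k) t R M m) = X * ψ i m) ∧
      ∀ m, m = ∑ i, aeval (tauEnd (k := k) t R M) (ψ i m) (g i) := by
  obtain ⟨n, c, e, hc, he⟩ := exists_coord t hfin hinj
  obtain ⟨l, f, p, -, -, hfp⟩ := Module.Finite.exists_comp_eq_id_of_projective (R ⊗[k] B) M
  have hmul : ∀ (j : Fin n) (a : R ⊗[k] B),
      coordR R (c j) ((1 : R) ⊗ₜ t * a) = X * coordR R (c j) a := by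
    intro j a
    induction a using TensorProduct.induction_on with
    | zero => simp
    | add x y hx hy => simp only [mul_add, map_add, hx, hy]
    | tmul r b =>
      rw [Algebra.TensorProduct.tmul_mul_tmul, one_mul, coordR_tmul, coordR_tmul, hc,
        Polynomial.map_mul, map_X, mul_smul_comm]
  have hsum : ∀ a : R ⊗[k] B,
      ∑ j, aeval ((1 : R) ⊗ₜ[k] t) (coordR R (c j) a) * ((1 : R) ⊗ₜ[k] e j) = a := by
    intro a
    induction a using TensorProduct.induction_on with
    | zero => simp
    | add x y hx hy =>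
      conv_rhs => rw [← hx, ← hy]
      simp only [map_add, add_mul, Finset.sum_add_distrib]
    | tmul r b =>
      have h : ∀ j, aeval ((1 : R) ⊗ₜ[k] t) (coordR R (c j) (r ⊗ₜ b)) * ((1 : R) ⊗ₜ[k] e j) =
          r ⊗ₜ[k] (aeval t (c j b) * e j) := by
        intro j
        rw [coordR_tmul, map_smul, aeval_map_algebraMap]
        have : aeval ((1 : R) ⊗ₜ[k] t) (c j b) = (1 : R) ⊗ₜ[k] aeval t (c j b) :=
          aeval_algHom_apply (Algebra.TensorProduct.includeRight (R := k) (A := R)) t (c j b)
        rw [this, smul_mul_assoc, Algebra.TensorProduct.tmul_mul_tmul, mul_one,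
          TensorProduct.smul_tmul', smul_eq_mul, mul_one]
      simp only [h]
      rw [← TensorProduct.tmul_sum, he]
  let ε : Fin l → M := fun i => f (Pi.single i 1)
  refine ⟨ULift.{u} (Fin l × Fin n), inferInstance,
    fun x => coordR R (c x.down.2) ∘ₗ ((LinearMap.proj (R := R ⊗[k] B) (φ := fun _ : Fin l => R ⊗[k] B) x.down.1).restrictScalars R) ∘ₗ
      p.restrictScalars R,
    fun x => ((1 : R) ⊗ₜ[k] e x.down.2) • ε x.down.1, fun x m => ?_, fun m => ?_⟩
  · simp [tauEnd, hmul]
  · have hm : m = ∑ i, p m i • ε i := by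
      conv_lhs => rw [show m = f (p m) from (LinearMap.congr_fun hfp m).symm,
        pi_eq_sum_univ' (p m), map_sum]
      refine Finset.sum_congr rfl fun i _ => ?_
      rw [map_smul]
    conv_lhs => rw [hm]
    rw [← (Equiv.ulift.symm : Fin l × Fin n ≃ ULift.{u} (Fin l × Fin n)).sum_comp,
      Fintype.sum_prod_type]
    refine Finset.sum_congr rfl fun i _ => ?_
    conv_lhs => rw [← hsum (p m i), Finset.sum_smul]
    refine Finset.sum_congr rfl fun j _ => ?_
    simp only [Equiv.ulift_symm_apply, LinearMap.coe_comp, Function.comp_apply,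
      LinearMap.coe_restrictScalars, LinearMap.proj_apply, tauEnd]
    rw [aeval_algHom_apply, Algebra.lsmul_coe]
    simp only [mul_smul, ε]

theorem span_tau_eq_top {M : Type u} [AddCommGroup M] [Module R M] (τ : Module.End R M)
    {ι : Type u} [Fintype ι] (ψ : ι → M →ₗ[R] R[X]) (g : ι → M)
    (hrec : ∀ m, m = ∑ i, aeval τ (ψ i m) (g i)) :
    ∃ G : Finset M, Submodule.span R {x | ∃ (j : ℕ), ∃ y ∈ G, (τ ^ j) y = x} = ⊤ := by
  classical
  refine ⟨Finset.univ.image g, ?_⟩
  rw [eq_top_iff]
  intro m _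
  rw [hrec m]
  refine Submodule.sum_mem _ fun i _ => ?_
  rw [aeval_eq_sum_range, LinearMap.sum_apply]
  refine Submodule.sum_mem _ fun j _ => ?_
  rw [LinearMap.smul_apply]
  exact Submodule.smul_mem _ _
    (Submodule.subset_span ⟨j, g i, Finset.mem_image_of_mem _ (Finset.mem_univ i), rfl⟩)

end Coord

end FLTA.Jacobian
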