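import Fermat.Agent.Jacobian.Cover
import Fermat.Agent.Jacobian.CechAlg

/-!
# Basic facts about two-chart covers
-/

set_option autoImplicit false

universe u

open TensorProduct

namespace FLTA.Jacobian

namespace TwoCover

variable {k : Type u} [Field k] (E : TwoCover k)

theorem isDomain_A : IsDomain E.A :=
  haveI := E.domain k
  MulEquiv.isDomain (k ⊗[k] E.A) (Algebra.TensorProduct.lid k E.A).symm.toMulEquiv

theorem isDomain_A' : IsDomain E.A' :=
  haveI := E.domain' k
  MulEquiv.isDomain (k ⊗[k] E.A') (Algebra.TensorProduct.lid k E.A').symm.toMulEquiv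

theorem ι'_injective : Function.Injective E.ι' := by
  let := E.ι'.toRingHom.toAlgebra
  have := E.isLoc'
  have := E.isDomain_A'
  exact IsLocalization.injective E.A01
    (powers_le_nonZeroDivisors_of_noZeroDivisors E.s_ne : Submonoid.powers E.s ≤ _)

theorem nontrivial_A01 : Nontrivial E.A01 :=
  haveI := E.isDomain_A'
  E.ι'_injective.nontrivial

theorem t_ne : E.t ≠ 0 := by
  intro h
  have := E.nontrivial_A01
  have h1 := E.ts
  rw [h, map_zero, zero_mul] at h1
  exact zero_ne_one h1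

theorem ι_injective : Function.Injective E.ι := by
  let := E.ι.toRingHom.toAlgebra
  have := E.isLoc
  have := E.isDomain_A
  exact IsLocalization.injective E.A01
    (powers_le_nonZeroDivisors_of_noZeroDivisors E.t_ne : Submonoid.powers E.t ≤ _)

theorem not_isIntegral_s : ¬ IsIntegral k E.s := by
  intro h
  have := E.isDomain_A'
  have : FiniteDimensional k (Algebra.adjoin k {E.s}) :=
    Module.Finite.iff_fg.mpr h.fg_adjoin_singleton
  have hF : IsField (Algebra.adjoin k {E.s}) :=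
    isField_of_isIntegral_of_isField' (R := k) (Field.toIsField k)
  have hs : (⟨E.s, Algebra.self_mem_adjoin_singleton k E.s⟩ : Algebra.adjoin k {E.s}) ≠ 0 :=
    fun e => E.s_ne (congrArg Subtype.val e)
  obtain ⟨y, hy⟩ := hF.mul_inv_cancel hs
  have := congrArg (fun z : Algebra.adjoin k {E.s} => E.ε z.1) hy
  simp [E.ε_s] at this

theorem not_isIntegral_t : ¬ IsIntegral k E.t := by
  intro h
  have := E.isDomain_A
  have : FiniteDimensional k (Algebra.adjoin k {E.t}) :=
    Module.Finite.iff_fg.mpr h.fg_adjoin_singleton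
  have hF : IsField (Algebra.adjoin k {E.t}) :=
    isField_of_isIntegral_of_isField' (R := k) (Field.toIsField k)
  have ht : (⟨E.t, Algebra.self_mem_adjoin_singleton k E.t⟩ : Algebra.adjoin k {E.t}) ≠ 0 :=
    fun e => E.t_ne (congrArg Subtype.val e)
  obtain ⟨y, hy⟩ := hF.mul_inv_cancel ht
  have hy' : E.ι E.t * E.ι y.1 = 1 := by
    rw [← map_mul, ← map_one E.ι]
    exact congrArg E.ι (congrArg Subtype.val hy)
  have hs : E.ι' E.s = E.ι y.1 :=
    calc E.ι' E.s = E.ι' E.s * (E.ι E.t * E.ι y.1) := by rw [hy', mul_one]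
      _ = E.ι E.t * E.ι' E.s * E.ι y.1 := by ring
      _ = E.ι y.1 := by rw [E.ts, one_mul]
  apply E.not_isIntegral_s
  rw [← isIntegral_algHom_iff E.ι' E.ι'_injective, hs]
  exact ((Algebra.IsIntegral.isIntegral (R := k) y).map (Algebra.adjoin k {E.t}).val).map E.ι

theorem aeval_t_injective : Function.Injective (Polynomial.aeval (R := k) E.t) :=
  transcendental_iff_injective.mp fun h => E.not_isIntegral_t h.isIntegral

theorem aeval_s_injective : Function.Injective (Polynomial.aeval (R := k) E.s) :=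
  transcendental_iff_injective.mp fun h => E.not_isIntegral_s h.isIntegral

section Rel

variable (R : Type u) [CommRing R] [Algebra k R]

theorem ιR_injective : Function.Injective (E.ιR R) :=
  Module.Flat.lTensor_preserves_injective_linearMap (M := R) E.ι.toLinearMap E.ι_injective

theorem ιR'_injective : Function.Injective (E.ιR' R) :=
  Module.Flat.lTensor_preserves_injective_linearMap (M := R) E.ι'.toLinearMap E.ι'_injective

/-- `AR → AR01`. -/
noncomputable scoped instance algι : Algebra (E.AR R) (E.AR01 R) :=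
  (E.ιR R).toRingHom.toAlgebra

/-- `AR' → AR01`. -/
noncomputable scoped instance algι' : Algebra (E.AR' R) (E.AR01 R) :=
  (E.ιR' R).toRingHom.toAlgebra

scoped instance tower_ι : IsScalarTower R (E.AR R) (E.AR01 R) :=
  IsScalarTower.of_algebraMap_eq fun r => ((E.ιR R).commutes r).symm

scoped instance tower_ι' : IsScalarTower R (E.AR' R) (E.AR01 R) :=
  IsScalarTower.of_algebraMap_eq fun r => ((E.ιR' R).commutes r).symm

lemma algebraMap_ι_apply (a : E.AR R) : algebraMap (E.AR R) (E.AR01 R) a = E.ιR R a := rfl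

lemma algebraMap_ι'_apply (a : E.AR' R) : algebraMap (E.AR' R) (E.AR01 R) a = E.ιR' R a := rfl

lemma isUnit_ιR_tR : IsUnit (E.ιR R (E.tR R)) :=
  .of_mul_eq_one _ (E.ιR_tR_mul_sR R)

lemma isUnit_ιR'_sR : IsUnit (E.ιR' R (E.sR R)) :=
  .of_mul_eq_one _ ((mul_comm _ _).trans (E.ιR_tR_mul_sR R))

lemma tR_pow_mul_ιR' (i : ℕ) :
    (E.ιR R (E.tR R)) ^ i * (E.ιR' R (E.sR R)) ^ i = 1 := by
  rw [← mul_pow, E.ιR_tR_mul_sR, one_pow]

theorem exists_ιR_pow (x : E.AR01 R) :
    ∃ (i : ℕ) (a : E.AR R), (E.ιR R (E.tR R)) ^ i * x = E.ιR R a := by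
  let := E.ι.toRingHom.toAlgebra
  have := E.isLoc
  induction x using TensorProduct.induction_on with
  | zero => exact ⟨0, 0, by simp⟩
  | tmul r a =>
    obtain ⟨n, b, hb⟩ := IsLocalization.Away.surj E.t a
    refine ⟨n, r ⊗ₜ b, ?_⟩
    change a * E.ι E.t ^ n = E.ι b at hb
    simp [ιR, tR, Algebra.TensorProduct.tmul_pow, Algebra.TensorProduct.tmul_mul_tmul,
      mul_comm _ a, hb]
  | add x y hx hy =>
    obtain ⟨i, a, ha⟩ := hx
    obtain ⟨j, b, hb⟩ := hy
    refine ⟨i + j, E.tR R ^ j * a + E.tR R ^ i * b, ?_⟩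
    rw [map_add, map_mul, map_mul, map_pow, map_pow, ← ha, ← hb]
    ring

theorem exists_ιR'_pow (x : E.AR01 R) :
    ∃ (i : ℕ) (a : E.AR' R), (E.ιR' R (E.sR R)) ^ i * x = E.ιR' R a := by
  let := E.ι'.toRingHom.toAlgebra
  have := E.isLoc'
  induction x using TensorProduct.induction_on with
  | zero => exact ⟨0, 0, by simp⟩
  | tmul r a =>
    obtain ⟨n, b, hb⟩ := IsLocalization.Away.surj E.s a
    refine ⟨n, r ⊗ₜ b, ?_⟩
    change a * E.ι' E.s ^ n = E.ι' b at hb
    simp [ιR', sR, Algebra.TensorProduct.tmul_pow, Algebra.TensorProduct.tmul_mul_tmul,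
      mul_comm _ a, hb]
  | add x y hx hy =>
    obtain ⟨i, a, ha⟩ := hx
    obtain ⟨j, b, hb⟩ := hy
    refine ⟨i + j, E.sR R ^ j * a + E.sR R ^ i * b, ?_⟩
    rw [map_add, map_mul, map_mul, map_pow, map_pow, ← ha, ← hb]
    ring

scoped instance isLocalization_tR : IsLocalization.Away (E.tR R) (E.AR01 R) := by
  refine (isLocalization_iff _ _).mpr ⟨?_, ?_, ?_⟩
  · rintro ⟨_, i, rfl⟩
    rw [E.algebraMap_ι_apply, map_pow]
    exact (E.isUnit_ιR_tR R).pow i
  · intro z
    obtain ⟨i, a, h⟩ := E.exists_ιR_pow R z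
    refine ⟨(a, ⟨_, i, rfl⟩), ?_⟩
    rw [E.algebraMap_ι_apply, E.algebraMap_ι_apply, map_pow, mul_comm, h]
  · intro x y h
    exact ⟨1, by rw [E.ιR_injective R h]⟩

scoped instance isLocalization_sR : IsLocalization.Away (E.sR R) (E.AR01 R) := by
  refine (isLocalization_iff _ _).mpr ⟨?_, ?_, ?_⟩
  · rintro ⟨_, i, rfl⟩
    rw [E.algebraMap_ι'_apply, map_pow]
    exact (E.isUnit_ιR'_sR R).pow i
  · intro z
    obtain ⟨i, a, h⟩ := E.exists_ιR'_pow R z
    refine ⟨(a, ⟨_, i, rfl⟩), ?_⟩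
    rw [E.algebraMap_ι'_apply, E.algebraMap_ι'_apply, map_pow, mul_comm, h]
  · intro x y h
    exact ⟨1, by rw [E.ιR'_injective R h]⟩

variable (S : Type u) [CommRing S] [Algebra k S] [Algebra R S] [IsScalarTower k R S]

lemma bc01_ιR (a : E.AR R) : E.bc01 R S (E.ιR R a) = E.ιR S (E.bcA R S a) := by
  induction a using TensorProduct.induction_on with
  | zero => simp
  | add x y hx hy => simp [hx, hy]
  | tmul r a => rfl

lemma bc01_ιR' (a : E.AR' R) : E.bc01 R S (E.ιR' R a) = E.ιR' S (E.bcA' R S a) := by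
  induction a using TensorProduct.induction_on with
  | zero => simp
  | add x y hx hy => simp [hx, hy]
  | tmul r a => rfl

lemma bcA_tR : E.bcA R S (E.tR R) = E.tR S := by simp [bcA, tR]

lemma bcA'_sR : E.bcA' R S (E.sR R) = E.sR S := by simp [bcA', sR]

lemma bc01_tR_pow (m : ℕ) :
    E.bc01 R S ((E.ιR R (E.tR R)) ^ m) = (E.ιR S (E.tR S)) ^ m := by
  rw [map_pow, bc01_ιR, bcA_tR]

end Rel

end TwoCover

end FLTA.Jacobian
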