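import Mathlib

/-!
# Algebra for the chart: invertible modules, sections and their divisors
-/

set_option autoImplicit false

universe u

open TensorProduct

namespace FLTA.Jacobian

section Invertible

variable {P : Type u} [CommRing P] {M : Type u} [AddCommGroup M] [Module P M]

theorem dual_apply_smul_comm [Module.Invertible P M] (φ : Module.Dual P M) (x y : M) :
    φ x • y = φ y • x := by
  have h : (y ⊗ₜ[P] x : M ⊗[P] M) = x ⊗ₜ y :=
    LinearMap.congr_fun (congrArg LinearEquiv.toLinearMap
      (Module.Invertible.tensorProductComm_eq_refl P M)) (x ⊗ₜ y)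
  have h2 := congrArg (fun z => TensorProduct.lid P M (φ.rTensor M z)) h
  simpa using h2.symm

theorem exists_dual_partition (P M : Type u) [CommRing P] [AddCommGroup M] [Module P M]
    [Module.Invertible P M] :
    ∃ (ι : Type u) (_ : Fintype ι) (φ : ι → Module.Dual P M) (m : ι → M),
      ∑ i, φ i (m i) = 1 := by
  obtain ⟨S, hS⟩ := TensorProduct.exists_finset ((Module.Invertible.linearEquiv P M).symm 1)
  refine ⟨S, inferInstance, fun i => i.1.1, fun i => i.1.2, ?_⟩
  have h := congrArg (Module.Invertible.linearEquiv P M) hS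
  rw [LinearEquiv.apply_symm_apply, map_sum] at h
  rw [h]
  exact Finset.sum_coe_sort S fun i => i.1 i.2

theorem invertible_of_partition (hc : ∀ (φ : Module.Dual P M) (x y : M), φ x • y = φ y • x)
    {ι : Type u} [Fintype ι] (φ : ι → Module.Dual P M) (m : ι → M)
    (h : ∑ i, φ i (m i) = 1) : Module.Invertible P M := by
  let s : P →ₗ[P] Module.Dual P M ⊗[P] M :=
    LinearMap.toSpanSingleton P _ (∑ i, φ i ⊗ₜ m i)
  have hr : ∀ r, contractLeft P M (s r) = r := by
    intro r
    simp [s, h]
  have hl : ∀ z, s (contractLeft P M z) = z := by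
    intro z
    induction z using TensorProduct.induction_on with
    | zero => simp
    | add x y hx hy => rw [map_add, map_add, hx, hy]
    | tmul ψ y =>
      rw [contractLeft_apply]
      simp only [s, LinearMap.toSpanSingleton_apply, Finset.smul_sum, TensorProduct.smul_tmul']
      have hkey : ∀ i, ψ y • φ i = φ i y • ψ := by
        intro i
        ext x
        have h1 := congrArg ψ (hc (φ i) y x)
        rw [map_smul, map_smul, smul_eq_mul, smul_eq_mul] at h1
        simp only [LinearMap.smul_apply, smul_eq_mul]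
        rw [mul_comm (ψ y), h1]
      simp only [hkey, TensorProduct.smul_tmul, ← TensorProduct.tmul_sum]
      congr 1
      simp only [hc _ y, ← Finset.sum_smul, h, one_smul]
  exact ⟨⟨fun a b hab => by rw [← hl a, hab, hl], fun r => ⟨s r, hr r⟩⟩⟩

/-- The ideal of values at `x` of all functionals. -/
noncomputable def evalIdeal (P : Type u) [CommRing P] {M : Type u} [AddCommGroup M] [Module P M]
    (x : M) : Ideal P :=
  LinearMap.range (Module.Dual.eval P M x)

theorem mem_evalIdeal {x : M} {a : P} : a ∈ evalIdeal P x ↔ ∃ φ : Module.Dual P M, φ x = a :=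
  Iff.rfl

variable [Module.Invertible P M]

theorem colon_eq_evalIdeal (x : M) :
    (Submodule.span P {x}).colon (⊤ : Submodule P M) = evalIdeal P x := by
  obtain ⟨ι, _, φ, m, h⟩ := exists_dual_partition P M
  ext a
  rw [Submodule.mem_colon, mem_evalIdeal]
  constructor
  · intro ha
    have : ∀ i, ∃ c : P, c • x = a • m i := fun i =>
      Submodule.mem_span_singleton.mp (ha (m i) trivial)
    choose c hc using this
    refine ⟨∑ i, c i • φ i, ?_⟩
    calc (∑ i, c i • φ i) x = ∑ i, φ i (c i • x) := by simp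
      _ = ∑ i, φ i (a • m i) := by simp only [hc]
      _ = a := by simp only [map_smul, smul_eq_mul, ← Finset.mul_sum, h, mul_one]
  · rintro ⟨ψ, rfl⟩ y -
    rw [dual_apply_smul_comm ψ x y]
    exact Submodule.smul_mem _ _ (Submodule.mem_span_singleton_self x)

theorem evalIdeal_map {Q : Type u} [CommRing Q] {σ : P →+* Q} {N : Type u} [AddCommGroup N]
    [Module Q N] [Module.Invertible Q N] (f : M →ₛₗ[σ] N)
    (hf : Submodule.span Q (Set.range f) = ⊤) (x : M) :
    evalIdeal Q (f x) = (evalIdeal P x).map σ := by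
  obtain ⟨ι, _, φ, m, h⟩ := exists_dual_partition P M
  refine le_antisymm ?_ (Ideal.map_le_iff_le_comap.mpr fun a ha => ?_)
  · rintro _ ⟨ψ, rfl⟩
    have h1 : ψ (f x) = ∑ i, σ (φ i x) * ψ (f (m i)) := by
      have h2 : x = ∑ i, φ i x • m i := by
        conv_lhs => rw [← one_smul P x, ← h, Finset.sum_smul]
        exact Finset.sum_congr rfl fun i _ => dual_apply_smul_comm (φ i) (m i) x
      conv_lhs => rw [h2]
      simp [LinearMap.map_smulₛₗ]
    change ψ (f x) ∈ _
    rw [h1]
    exact Ideal.sum_mem _ fun i _ =>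
      Ideal.mul_mem_right _ _ (Ideal.mem_map_of_mem _ ⟨φ i, rfl⟩)
  · rw [← colon_eq_evalIdeal, Submodule.mem_colon] at ha
    rw [Ideal.mem_comap, ← colon_eq_evalIdeal, Submodule.mem_colon]
    intro y hy0
    clear hy0
    have hy : y ∈ Submodule.span Q (Set.range f) := hf ▸ Submodule.mem_top
    induction hy using Submodule.span_induction with
    | mem y hy =>
      obtain ⟨z, rfl⟩ := hy
      obtain ⟨c, hc⟩ := Submodule.mem_span_singleton.mp (ha z trivial)
      rw [← LinearMap.map_smulₛₗ, ← hc, LinearMap.map_smulₛₗ]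
      exact Submodule.smul_mem _ _ (Submodule.mem_span_singleton_self _)
    | zero => simp
    | add u v _ _ hu hv => rw [smul_add]; exact add_mem hu hv
    | smul c u _ hu => rw [smul_comm]; exact Submodule.smul_mem _ _ hu

theorem evalIdeal_fg (x : M) : (evalIdeal P x).FG := by
  obtain ⟨ι, _, φ, m, h⟩ := exists_dual_partition P M
  have : evalIdeal P x = Ideal.span (Set.range fun i => φ i x) := by
    refine le_antisymm ?_ (Ideal.span_le.mpr ?_)
    · rintro _ ⟨ψ, rfl⟩
      have h2 : ψ x = ∑ i, φ i x * ψ (m i) := by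
        conv_lhs => rw [← one_mul (ψ x), ← h, Finset.sum_mul]
        refine Finset.sum_congr rfl fun i _ => ?_
        have h1 := congrArg ψ (dual_apply_smul_comm (φ i) (m i) x)
        simpa using h1
      change ψ x ∈ _
      rw [h2]
      exact Ideal.sum_mem _ fun i _ => Ideal.mul_mem_right _ _ (Ideal.subset_span ⟨i, rfl⟩)
    · rintro _ ⟨i, rfl⟩
      exact ⟨φ i, rfl⟩
  rw [this]
  exact Submodule.fg_span (Set.finite_range _)

theorem eq_zero_of_dual {y : M} (h : ∀ φ : Module.Dual P M, φ y = 0) : y = 0 := by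
  obtain ⟨ι, _, φ, m, hs⟩ := exists_dual_partition P M
  rw [← one_smul P y, ← hs, Finset.sum_smul]
  exact Finset.sum_eq_zero fun i _ => by rw [dual_apply_smul_comm, h, zero_smul]

end Invertible

section Away

variable {P L : Type u} [CommRing P] [CommRing L] [Algebra P L] (a : P)
  [IsLocalization.Away a L]

include a

theorem mem_map_away_iff {J : Ideal P} {z : L} :
    z ∈ J.map (algebraMap P L) ↔
      ∃ (n : ℕ) (x : P), x ∈ J ∧ algebraMap P L a ^ n * z = algebraMap P L x := by
  rw [IsLocalization.mem_map_algebraMap_iff (Submonoid.powers a) L]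
  constructor
  · rintro ⟨⟨⟨x, hx⟩, ⟨_, n, rfl⟩⟩, h⟩
    exact ⟨n, x, hx, by rw [← map_pow, mul_comm]; exact h⟩
  · rintro ⟨n, x, hx, h⟩
    exact ⟨⟨⟨x, hx⟩, ⟨_, n, rfl⟩⟩, by rw [mul_comm, map_pow]; exact h⟩

theorem map_colon_away (x : P) {J : Ideal P} (hJ : J.FG) :
    ((Ideal.span {x}).colon (J : Set P)).map (algebraMap P L) =
      (Ideal.span {algebraMap P L x}).colon (J.map (algebraMap P L) : Set L) := by
  classical
  refine le_antisymm (Ideal.map_le_iff_le_comap.mpr fun y hy => ?_) fun z hz => ?_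
  · rw [Ideal.mem_comap, Submodule.mem_colon]
    rw [Submodule.mem_colon] at hy
    intro w hw
    obtain ⟨n, i, hi, h⟩ := (mem_map_away_iff a).mp hw
    obtain ⟨c, hc⟩ := Ideal.mem_span_singleton.mp (hy i hi)
    obtain ⟨v, hv⟩ := (IsLocalization.Away.algebraMap_isUnit (S := L) a).pow n
    refine Ideal.mem_span_singleton.mpr ⟨(↑v⁻¹ : L) * algebraMap P L c, ?_⟩
    rw [smul_eq_mul, mul_left_comm, ← map_mul, ← hc, smul_eq_mul, map_mul, ← h, ← hv,
      mul_left_comm (algebraMap P L y), Units.inv_mul_cancel_left]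
  · rw [Submodule.mem_colon] at hz
    obtain ⟨G, hG⟩ := hJ
    obtain ⟨n, y, hy⟩ := IsLocalization.Away.surj a z
    have key : ∀ g ∈ G, ∃ m : ℕ, a ^ m * (y * g) ∈ Ideal.span {x} := by
      intro g hg
      have h1 : algebraMap P L (y * g) ∈ (Ideal.span {x}).map (algebraMap P L) := by
        rw [Ideal.map_span, Set.image_singleton, map_mul, ← hy,
          mul_comm z, mul_assoc]
        exact Ideal.mul_mem_left _ _
          (hz _ (Ideal.mem_map_of_mem _ (hG ▸ Submodule.subset_span hg)))
      obtain ⟨m, w, hw, h⟩ := (mem_map_away_iff a).mp h1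
      rw [← map_pow, ← map_mul] at h
      obtain ⟨⟨_, c, rfl⟩, hc⟩ := (IsLocalization.eq_iff_exists (Submonoid.powers a) L).mp h
      refine ⟨c + m, ?_⟩
      rw [pow_add, mul_assoc, hc]
      exact Ideal.mul_mem_left _ _ hw
    choose! m hm using key
    rw [mem_map_away_iff a]
    refine ⟨n + G.sup m, a ^ G.sup m * y, ?_, ?_⟩
    · rw [Submodule.mem_colon]
      intro i hi
      rw [SetLike.mem_coe, ← hG] at hi
      induction hi using Submodule.span_induction with
      | mem g hg =>
        obtain ⟨e, he⟩ := pow_dvd_pow a (Finset.le_sup (f := m) hg)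
        rw [smul_eq_mul, he, mul_right_comm (a ^ m g) e, mul_right_comm, mul_assoc (a ^ m g)]
        exact Ideal.mul_mem_right _ _ (hm g hg)
      | zero => simp
      | add u v _ _ hu hv => rw [smul_add]; exact add_mem hu hv
      | smul c u _ hu => rw [smul_comm]; exact Submodule.smul_mem _ _ hu
    · rw [map_mul, map_pow, ← hy, pow_add]
      ring

theorem ideal_le_of_away {J₁ J₂ : Ideal P}
    (h : J₁.map (algebraMap P L) ≤ J₂.map (algebraMap P L)) {q : P} (hq : q ∈ J₂)
    (hq' : q - 1 ∈ Ideal.span {a}) : J₁ ≤ J₂ := by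
  intro x hx
  obtain ⟨n, y, hy, he⟩ := (mem_map_away_iff a).mp (h (Ideal.mem_map_of_mem _ hx))
  rw [← map_pow, ← map_mul] at he
  obtain ⟨⟨_, c, rfl⟩, hc⟩ := (IsLocalization.eq_iff_exists (Submonoid.powers a) L).mp he
  obtain ⟨w, hw⟩ := Ideal.mem_span_singleton.mp hq'
  have hco : IsCoprime (a ^ (c + n)) q :=
    IsCoprime.pow_left ⟨-w, 1, by rw [one_mul, eq_add_of_sub_eq hw]; ring⟩
  obtain ⟨u, v, huv⟩ := hco
  rw [← mul_one x, ← huv, mul_add]
  refine J₂.add_mem ?_ ?_
  · have hc' : a ^ (c + n) * x = a ^ c * y := by rw [pow_add, mul_assoc]; exact hc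
    have : x * (u * a ^ (c + n)) = u * a ^ c * y := by
      rw [mul_assoc, ← hc']; ring
    rw [this]
    exact J₂.mul_mem_left _ hy
  · exact J₂.mul_mem_left _ (J₂.mul_mem_left _ hq)

end Away

section Fibre

variable {R : Type u} [CommRing R] (p : PrimeSpectrum R) {K : Type u} [Field K] [Algebra R K]

theorem exists_ann_of_fibre {C : Type u} [AddCommGroup C] [Module R C] [Module.Finite R C]
    (hK : RingHom.ker (algebraMap R K) = p.asIdeal) (h : Subsingleton (K ⊗[R] C)) :
    ∃ f : R, f ∉ p.asIdeal ∧ ∀ c : C, f • c = 0 := by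
  let φ : p.asIdeal.ResidueField →+* K :=
    Ideal.ResidueField.lift p.asIdeal (algebraMap R K) hK.ge (by
      intro x (hx : x ∉ p.asIdeal)
      exact IsUnit.mk0 _ fun h0 => hx (hK ▸ h0))
  let := φ.toAlgebra
  have : IsScalarTower R p.asIdeal.ResidueField K :=
    IsScalarTower.of_algebraMap_eq fun x =>
      (Ideal.ResidueField.lift_algebraMap p.asIdeal (algebraMap R K) _ _ x).symm
  let e := TensorProduct.AlgebraTensorModule.cancelBaseChange R p.asIdeal.ResidueField K K C
  have hres : Subsingleton (p.asIdeal.ResidueField ⊗[R] C) :=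
    (Module.FaithfullyFlat.subsingleton_tensorProduct_iff_right p.asIdeal.ResidueField K).mp
      e.injective.subsingleton
  have hp : p ∉ Module.support R C := fun hp => not_nontrivial_iff_subsingleton.mpr hres
    ((Module.mem_support_iff_nontrivial_residueField_tensorProduct p).mp hp)
  rw [Module.mem_support_iff_of_finite, SetLike.not_le_iff_exists] at hp
  obtain ⟨f, hf, hfp⟩ := hp
  exact ⟨f, hfp, Module.mem_annihilator.mp hf⟩

theorem eq_zero_of_forall_maximal {C : Type u} [AddCommGroup C] [Module R C] {c : C}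
    (h : ∀ m : Ideal R, m.IsMaximal → ∃ f ∉ m, f • c = 0) : c = 0 := by
  have htop : LinearMap.ker (LinearMap.toSpanSingleton R C c) = ⊤ := by
    by_contra hne
    obtain ⟨m, hm, hle⟩ := Ideal.exists_le_maximal _ hne
    obtain ⟨f, hf, hfc⟩ := h m hm
    exact hf (hle (by rwa [LinearMap.mem_ker, LinearMap.toSpanSingleton_apply]))
  simpa using htop.ge (Submodule.mem_top (x := (1 : R)))

end Fibre

section BasisMod

variable {R : Type u} [CommRing R] {P : Type u} [CommRing P] [Algebra R P] {g : ℕ}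
  (b : Fin g → P) (I : Ideal P)

/-- `b` is a basis of `P ⧸ I` over `R`. -/
def IsBasisMod : Prop :=
  Function.Bijective (fun r : Fin g → R => Ideal.Quotient.mk I (∑ i, r i • b i))

variable {b I}

theorem IsBasisMod.exists_proj (h : IsBasisMod (R := R) b I) :
    ∃ π : P →ₗ[R] (Fin g → R), LinearMap.ker π = I.restrictScalars R ∧
      ∀ i, π (b i) = Pi.single i 1 := by
  let β : (Fin g → R) →ₗ[R] P ⧸ I :=
    (Ideal.Quotient.mkₐ R I).toLinearMap ∘ₗ Fintype.linearCombination R b
  have hβ : Function.Bijective β := h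
  let e := LinearEquiv.ofBijective β hβ
  refine ⟨e.symm.toLinearMap ∘ₗ (Ideal.Quotient.mkₐ R I).toLinearMap, ?_, fun i => ?_⟩
  · rw [LinearEquiv.ker_comp]
    ext x
    simp [Ideal.Quotient.eq_zero_iff_mem]
  · rw [LinearMap.comp_apply, LinearEquiv.coe_coe, LinearEquiv.symm_apply_eq]
    simp [e, β, Fintype.linearCombination_apply_single]

theorem IsBasisMod.proj_sum {π : P →ₗ[R] (Fin g → R)} (hπ : ∀ i, π (b i) = Pi.single i 1)
    (r : Fin g → R) : π (∑ i, r i • b i) = r := by
  rw [map_sum]
  simp only [map_smul, hπ]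
  ext j
  simp [Finset.sum_apply, Pi.single_apply]

theorem isBasisMod_of_proj {π : P →ₗ[R] (Fin g → R)} (hI : ∀ x ∈ I, π x = 0)
    (hπ : ∀ i, π (b i) = Pi.single i 1)
    (hs : ∀ x : P, ∃ r : Fin g → R, x - ∑ i, r i • b i ∈ I) :
    IsBasisMod (R := R) b I := by
  refine ⟨fun r r' h => ?_, fun z => ?_⟩
  · have h' := hI _ (Ideal.Quotient.eq.mp h)
    rwa [map_sub, IsBasisMod.proj_sum hπ, IsBasisMod.proj_sum hπ, sub_eq_zero] at h'
  · obtain ⟨x, rfl⟩ := Ideal.Quotient.mk_surjective z
    obtain ⟨r, hr⟩ := hs x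
    exact ⟨r, (Ideal.Quotient.eq.mpr hr).symm⟩

theorem isBasisMod_of_ker {π : P →ₗ[R] (Fin g → R)}
    (hker : LinearMap.ker π = I.restrictScalars R) (hπ : ∀ i, π (b i) = Pi.single i 1) :
    IsBasisMod (R := R) b I := by
  refine isBasisMod_of_proj (π := π) (fun x hx => LinearMap.mem_ker.mp (hker.ge hx)) hπ
    fun x => ⟨π x, ?_⟩
  refine hker.le (LinearMap.mem_ker.mpr ?_)
  rw [map_sub, IsBasisMod.proj_sum hπ, sub_self]

end BasisMod

end FLTA.Jacobian
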