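import Fermat.Agent.Jacobian.CechAlg
import Fermat.Agent.Jacobian.ChartAlg

/-!
# Lifting invertible modules along nilpotent thickenings
-/

set_option autoImplicit false
set_option maxHeartbeats 400000

universe u

open TensorProduct

namespace FLTA.Jacobian

theorem eq_top_of_sup_nilpotent {P : Type u} [CommRing P] {M : Type u} [AddCommGroup M]
    [Module P M] {J : Ideal P} (hJ : IsNilpotent J) {L : Submodule P M}
    (h : L ⊔ J • (⊤ : Submodule P M) = ⊤) : L = ⊤ := by
  obtain ⟨n, hn⟩ := hJ
  have key : ∀ m : ℕ, L ⊔ J ^ m • (⊤ : Submodule P M) = ⊤ := by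
    intro m
    induction m with
    | zero => simp
    | succ m ih =>
      refine eq_top_iff.mpr (ih.ge.trans (sup_le le_sup_left ?_))
      conv_lhs => rw [← h]
      rw [Submodule.smul_sup, ← Submodule.mul_smul, ← pow_succ]
      exact sup_le (Submodule.smul_le_right.trans le_sup_left) le_sup_right
  have := key n
  rw [hn] at this
  simpa using this

theorem mem_ker_smul_top {P Q : Type u} [CommRing P] [CommRing Q] {σ : P →+* Q} {M N : Type u}
    [AddCommGroup M] [Module P M] [Module.Invertible P M] [AddCommGroup N] [Module Q N]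
    [Module.Invertible Q N] (f : M →ₛₗ[σ] N) (hf : Submodule.span Q (Set.range f) = ⊤) {y : M}
    (hy : f y = 0) : y ∈ RingHom.ker σ • (⊤ : Submodule P M) := by
  obtain ⟨ι, _, φ, m, h⟩ := exists_dual_partition P M
  have h0 : (evalIdeal P y).map σ = ⊥ := by
    rw [← evalIdeal_map f hf, hy, eq_bot_iff]
    rintro _ ⟨ψ, rfl⟩
    simp
  have hy' : y = ∑ i, φ i y • m i := by
    conv_lhs => rw [← one_smul P y, ← h, Finset.sum_smul]
    exact Finset.sum_congr rfl fun i _ => dual_apply_smul_comm (φ i) (m i) y
  rw [hy']
  refine Submodule.sum_mem _ fun i _ => Submodule.smul_mem_smul ?_ Submodule.mem_top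
  exact RingHom.mem_ker.mpr ((Submodule.mem_bot Q).mp (h0.le (Ideal.mem_map_of_mem σ ⟨φ i, rfl⟩)))

theorem isNilpotent_ker_bcMap {k : Type u} [Field k] (B : Type u) [CommRing B] [Algebra k B]
    (R S : Type u) [CommRing R] [CommRing S] [Algebra k R] [Algebra k S] [Algebra R S]
    [IsScalarTower k R S] (hs : Function.Surjective (algebraMap R S))
    (hn : IsNilpotent (RingHom.ker (algebraMap R S))) :
    IsNilpotent (RingHom.ker (bcMap k B R S).toRingHom) := by
  obtain ⟨n, hn⟩ := hn
  refine ⟨n, ?_⟩
  have h : RingHom.ker (bcMap k B R S).toRingHom =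
      (RingHom.ker (IsScalarTower.toAlgHom k R S)).map
        (Algebra.TensorProduct.includeLeft : R →ₐ[k] R ⊗[k] B) :=
    Algebra.TensorProduct.rTensor_ker (C := B) (IsScalarTower.toAlgHom k R S) hs
  have h' : (RingHom.ker (IsScalarTower.toAlgHom k R S)) ^ n = ⊥ := hn
  rw [h, ← Ideal.map_pow, h', Ideal.map_bot]
  rfl

theorem bcMap_surjective {k : Type u} [Field k] (B : Type u) [CommRing B] [Algebra k B]
    (R S : Type u) [CommRing R] [CommRing S] [Algebra k R] [Algebra k S] [Algebra R S]
    [IsScalarTower k R S] (hs : Function.Surjective (algebraMap R S)) :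
    Function.Surjective (bcMap k B R S) :=
  TensorProduct.map_surjective (g := (IsScalarTower.toAlgHom k R S).toLinearMap) hs
    (g' := (LinearMap.id : B →ₗ[k] B)) Function.surjective_id

theorem exists_invertible_lift {P Q : Type u} [CommRing P] [CommRing Q] (σ : P →+* Q)
    (hσ : Function.Surjective σ) (hn : IsNilpotent (RingHom.ker σ)) (N : Type u) [AddCommGroup N]
    [Module Q N] [Module.Invertible Q N] :
    ∃ (ι : Type u) (L : Submodule P (ι → P)) (f : L →ₛₗ[σ] N),
      Module.Invertible P L ∧ Function.Surjective f := by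
  classical
  obtain ⟨n, hn⟩ := hn
  obtain ⟨ι, _, φ, m, hφm⟩ := exists_dual_partition Q N
  have hexp : ∀ v : N, ∑ i, φ i v • m i = v := fun v => by
    conv_rhs => rw [← one_smul Q v, ← hφm, Finset.sum_smul]
    exact Finset.sum_congr rfl fun i _ => dual_apply_smul_comm (φ i) v (m i)
  let e : Matrix ι ι Q := Matrix.of fun i j => φ i (m j)
  have he : IsIdempotentElem e := by
    ext i l
    rw [Matrix.mul_apply]
    conv_rhs => rw [show e i l = φ i (m l) from rfl, ← hexp (m l), map_sum]
    refine Finset.sum_congr rfl fun j _ => ?_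
    rw [map_smul, smul_eq_mul, mul_comm]
    rfl
  let F : Matrix ι ι P →+* Matrix ι ι Q := σ.mapMatrix
  have hFker : ∀ x ∈ RingHom.ker F, IsNilpotent x := by
    intro x hx
    have hx0 : ∀ i j, x i j ∈ RingHom.ker σ := fun i j =>
      RingHom.mem_ker.mpr (congrFun (congrFun (show F x = 0 from hx) i) j)
    have hpow : ∀ (l : ℕ) i j, (x ^ l) i j ∈ RingHom.ker σ ^ l := by
      intro l
      induction l with
      | zero => intro i j; simp
      | succ l ih =>
        intro i j
        rw [pow_succ x, Matrix.mul_apply, pow_succ]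
        exact Ideal.sum_mem _ fun a _ => Ideal.mul_mem_mul (ih i a) (hx0 a j)
    refine ⟨n, Matrix.ext fun i j => ?_⟩
    have := hpow n i j
    rw [hn] at this
    exact (Submodule.mem_bot P).mp this
  obtain ⟨ε, hε, hεe⟩ := exists_isIdempotentElem_eq_of_ker_isNilpotent F hFker e
    (by
      choose a ha using fun i j => hσ (e i j)
      exact ⟨Matrix.of a, by ext i j; exact ha i j⟩) he
  let L : Submodule P (ι → P) := LinearMap.range ε.mulVecLin
  have hfix : ∀ y : L, ε.mulVec y.1 = y.1 := by
    rintro ⟨y, a, rfl⟩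
    change ε.mulVec (ε.mulVec a) = ε.mulVec a
    rw [Matrix.mulVec_mulVec]
    congr 1
  let f : L →ₛₗ[σ] N :=
    { toFun := fun y => ∑ i, σ (y.1 i) • m i
      map_add' := fun x y => by simp [add_smul, Finset.sum_add_distrib]
      map_smul' := fun a y => by simp [Finset.smul_sum, mul_smul] }
  let col : ι → L := fun l => ⟨ε.mulVec (Pi.single l 1), ⟨_, rfl⟩⟩
  let coord : ι → Module.Dual P L := fun l => (LinearMap.proj l) ∘ₗ L.subtype
  have hbasis : ∀ y : L, y = ∑ l, coord l y • col l := fun y => Subtype.ext <| by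
    conv_lhs => rw [← hfix y]
    rw [Submodule.coe_sum]
    funext i
    simp [coord, col, Matrix.mulVec, dotProduct, Pi.single_apply, mul_comm]
  have hmv : ∀ (a : ι → P) i, σ ((ε.mulVec a) i) = φ i (∑ j, σ (a j) • m j) := by
    intro a i
    simp only [Matrix.mulVec, dotProduct, map_sum, map_mul, map_smul, smul_eq_mul]
    refine Finset.sum_congr rfl fun j _ => ?_
    rw [show σ (ε i j) = φ i (m j) from congrFun (congrFun hεe i) j, mul_comm]
  have hker : ∀ y : L, f y = 0 → ∀ l, coord l y ∈ RingHom.ker σ := by
    intro y hy l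
    have h1 : φ l (f y) = σ ((ε.mulVec y.1) l) := (hmv y.1 l).symm
    rw [hy, map_zero, hfix] at h1
    exact RingHom.mem_ker.mpr h1.symm
  have hsurj : Function.Surjective f := by
    intro v
    choose a ha using fun i => hσ (φ i v)
    refine ⟨⟨ε.mulVec a, ⟨a, rfl⟩⟩, ?_⟩
    change ∑ i, σ ((ε.mulVec a) i) • m i = v
    have h1 : ∀ i, σ ((ε.mulVec a) i) = φ i v := fun i => by
      rw [hmv]; simp only [ha, hexp]
    simp only [h1, hexp]
  refine ⟨ι, L, f, ?_, hsurj⟩
  have hproj : Module.Projective P L :=
    Module.Projective.of_split L.subtype (ε.mulVecLin.codRestrict L fun a => ⟨a, rfl⟩)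
      (LinearMap.ext fun y => Subtype.ext (hfix y))
  have hfin : Module.Finite P L := Module.Finite.range ε.mulVecLin
  -- the scalars exhaust the endomorphisms
  let ρ : P →ₗ[P] Module.End P L := LinearMap.toSpanSingleton P _ LinearMap.id
  have hρtop : LinearMap.range ρ = ⊤ := by
    refine eq_top_of_sup_nilpotent (M := Module.End P L) (J := RingHom.ker σ) ⟨n, hn⟩
      (eq_top_iff.mpr fun θ _ => ?_)
    choose u hu using fun i => hσ (φ i (m i))
    choose y hy using fun i => hsurj (m i)
    obtain ⟨c, hc⟩ := hσ (∑ i, φ i (f (θ (y i))))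
    have hθ : ∀ z, f (θ z) = σ c • f z := by
      intro z
      have h1 : f (θ z) = ∑ i, φ i (f z) • f (θ (y i)) := by
        choose a ha using fun i => hσ (φ i (f z))
        let z' : L := ∑ i, a i • y i
        have hzz : f (z - z') = 0 := by
          simp [z', map_sum, LinearMap.map_smulₛₗ, ha, hy, hexp]
        have hzero : ∀ w : L, f w = 0 → f (θ w) = 0 := fun w hw => by
          rw [hbasis w, map_sum, map_sum]
          refine Finset.sum_eq_zero fun l _ => ?_
          rw [map_smul, LinearMap.map_smulₛₗ, RingHom.mem_ker.mp (hker w hw l), zero_smul]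
        have h2 := hzero _ hzz
        rw [map_sub, map_sub, sub_eq_zero] at h2
        rw [h2]
        simp [z', map_sum, map_smul, LinearMap.map_smulₛₗ, ha]
      rw [h1, hc, Finset.sum_smul]
      exact Finset.sum_congr rfl fun i _ => (dual_apply_smul_comm (φ i) _ _).symm
    refine Submodule.mem_sup.mpr ⟨ρ c, ⟨c, rfl⟩, θ - ρ c, ?_, by abel⟩
    let η := θ - ρ c
    have hη : η = ∑ l, (coord l).smulRight (η (col l)) := by
      refine LinearMap.ext fun z => ?_
      conv_lhs => rw [hbasis z, map_sum]
      simp [map_smul]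
    rw [show θ - ρ c = η from rfl, hη]
    refine Submodule.sum_mem _ fun l _ => ?_
    have hl : η (col l) ∈ RingHom.ker σ • (⊤ : Submodule P L) := by
      have h0 : f (η (col l)) = 0 := by simp [η, ρ, hθ, LinearMap.map_smulₛₗ]
      rw [hbasis (η (col l))]
      exact Submodule.sum_mem _ fun i _ =>
        Submodule.smul_mem_smul (hker _ h0 i) Submodule.mem_top
    generalize η (col l) = w at hl
    induction hl using Submodule.smul_induction_on' with
    | smul a ha v _ =>
      rw [show (coord l).smulRight (a • v) = a • (coord l).smulRight v from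
        LinearMap.ext fun z => smul_comm (coord l z) a v]
      exact Submodule.smul_mem_smul ha Submodule.mem_top
    | add u _ v _ hu hv =>
      rw [show (coord l).smulRight (u + v) = (coord l).smulRight u + (coord l).smulRight v from
        LinearMap.ext fun z => smul_add (coord l z) u v]
      exact add_mem hu hv
  have hρinj : Function.Injective ρ := by
    refine (injective_iff_map_eq_zero ρ).mpr fun a ha => ?_
    choose y hy using fun i => hsurj (m i)
    let z : P := ∑ i, coord i (y i)
    have hz0 : a * z = 0 := by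
      rw [Finset.mul_sum]
      refine Finset.sum_eq_zero fun i _ => ?_
      rw [← smul_eq_mul, ← map_smul, show a • y i = 0 from LinearMap.congr_fun ha (y i), map_zero]
    have hz1 : σ z = 1 := by
      rw [map_sum, ← hφm]
      refine Finset.sum_congr rfl fun i _ => ?_
      have h1 : φ i (f (y i)) = σ ((ε.mulVec (y i).1) i) := (hmv (y i).1 i).symm
      rw [hfix, hy] at h1
      exact h1.symm
    have hzu : IsUnit z := by
      have : IsNilpotent (z - 1) := by
        refine ⟨n, ?_⟩
        have := Ideal.pow_mem_pow (I := RingHom.ker σ) (x := z - 1)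
          (by rw [RingHom.mem_ker, map_sub, hz1, map_one, sub_self]) n
        rwa [hn] at this
      simpa using this.isUnit_add_one
    exact hzu.mul_left_eq_zero.mp hz0
  let E : Module.Dual P L ⊗[P] L ≃ₗ[P] P :=
    (dualTensorHomEquiv (R := P) (M := L) (N := L)).trans
      (LinearEquiv.ofBijective ρ ⟨hρinj, LinearMap.range_eq_top.mp hρtop⟩).symm
  exact Module.Invertible.right E

end FLTA.Jacobian
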