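import Fermat.Agent.Jacobian.CechCoord
import Fermat.Agent.Jacobian.ChartAlg

/-!
# Monic polynomials in `1 ⊗ t`
-/

set_option autoImplicit false

universe u

open TensorProduct Polynomial

namespace FLTA.Jacobian

variable {k : Type u} [Field k] {B : Type u} [CommRing B] [Algebra k B] [IsDomain B] {t : B}
  {R : Type u} [CommRing R] [Algebra k R]

section Coord

variable {n : ℕ} (c : Fin n → B →ₗ[k] k[X]) (e : Fin n → B)

lemma coordR_tR_mul {i : Fin n} (hc : ∀ b, c i (t * b) = X * c i b) (a : R ⊗[k] B) :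
    coordR R (c i) ((1 : R) ⊗ₜ t * a) = X * coordR R (c i) a := by
  induction a using TensorProduct.induction_on with
  | zero => simp
  | add x y hx hy => simp only [mul_add, map_add, hx, hy]
  | tmul r b =>
    rw [Algebra.TensorProduct.tmul_mul_tmul, one_mul, coordR_tmul, coordR_tmul, hc,
      Polynomial.map_mul, map_X, mul_smul_comm]

lemma coordR_aeval_mul {i : Fin n} (hc : ∀ b, c i (t * b) = X * c i b) (P : R[X])
    (a : R ⊗[k] B) :
    coordR R (c i) (aeval ((1 : R) ⊗ₜ[k] t) P * a) = P * coordR R (c i) a := by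
  induction P using Polynomial.induction_on' generalizing a with
  | add p q hp hq => rw [map_add, add_mul, map_add, hp, hq, add_mul]
  | monomial m r =>
    induction m generalizing a with
    | zero =>
      rw [monomial_zero_left, aeval_C, ← Algebra.smul_def, map_smul, C_mul']
    | succ m ih =>
      rw [← monomial_mul_X, map_mul (aeval ((1 : R) ⊗ₜ[k] t)), aeval_X, mul_assoc, ih,
        coordR_tR_mul c hc, mul_assoc]

lemma sum_coordR (he : ∀ b, ∑ i, aeval t (c i b) * e i = b) (a : R ⊗[k] B) :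
    ∑ i, aeval ((1 : R) ⊗ₜ[k] t) (coordR R (c i) a) * ((1 : R) ⊗ₜ[k] e i) = a := by
  induction a using TensorProduct.induction_on with
  | zero => simp
  | add x y hx hy =>
    conv_rhs => rw [← hx, ← hy]
    simp only [map_add, add_mul, Finset.sum_add_distrib]
  | tmul r b =>
    have h : ∀ j, aeval ((1 : R) ⊗ₜ[k] t) (coordR R (c j) (r ⊗ₜ b)) * ((1 : R) ⊗ₜ[k] e j) =
        r ⊗ₜ[k] (aeval t (c j b) * e j) := by
      intro j
      rw [coordR_tmul, map_smul, aeval_map_algebraMap]
      have : aeval ((1 : R) ⊗ₜ[k] t) (c j b) = (1 : R) ⊗ₜ[k] aeval t (c j b) :=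
        aeval_algHom_apply (Algebra.TensorProduct.includeRight (R := k) (A := R)) t (c j b)
      rw [this, smul_mul_assoc, Algebra.TensorProduct.tmul_mul_tmul, mul_one,
        TensorProduct.smul_tmul', smul_eq_mul, mul_one]
    simp only [h]
    rw [← TensorProduct.tmul_sum, he]

lemma coordR_bcMap {S : Type u} [CommRing S] [Algebra k S] [Algebra R S] [IsScalarTower k R S]
    (i : Fin n) (a : R ⊗[k] B) :
    coordR S (c i) (bcMap k B R S a) = (coordR R (c i) a).map (algebraMap R S) := by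
  induction a using TensorProduct.induction_on with
  | zero => simp
  | add x y hx hy => simp only [map_add, Polynomial.map_add, hx, hy]
  | tmul r b =>
    rw [bcMap_tmul, coordR_tmul, coordR_tmul, Polynomial.map_smul, Polynomial.map_map,
      ← IsScalarTower.algebraMap_eq]

lemma mem_map_of_coeff (hc : ∀ i b, c i (t * b) = X * c i b)
    (he : ∀ b, ∑ i, aeval t (c i b) * e i = b) {p : Ideal R} {a : R ⊗[k] B} :
    a ∈ p.map (algebraMap R (R ⊗[k] B)) ↔
      ∀ i m, (coordR R (c i) a).coeff m ∈ p := by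
  constructor
  · intro ha i
    replace ha : a ∈ (p • ⊤ : Submodule R (R ⊗[k] B)) := by
      rw [Ideal.smul_top_eq_map]; exact ha
    induction ha using Submodule.smul_induction_on' with
    | smul r hr x _ =>
      intro m
      rw [map_smul, coeff_smul, smul_eq_mul]
      exact p.mul_mem_right _ hr
    | add x _ y _ hx hy =>
      intro m
      rw [map_add, coeff_add]
      exact p.add_mem (hx m) (hy m)
  · intro h
    rw [← sum_coordR c e he a]
    refine Ideal.sum_mem _ fun i _ => Ideal.mul_mem_right _ _ ?_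
    rw [aeval_eq_sum_range]
    refine Ideal.sum_mem _ fun m _ => ?_
    rw [Algebra.smul_def]
    exact Ideal.mul_mem_right _ _ (Ideal.mem_map_of_mem _ (h i m))

end Coord

variable (hfin : (aeval (R := k) t).toRingHom.Finite)
  (hinj : Function.Injective (aeval (R := k) t))
include hfin hinj

theorem monic_mul_mem_map {P : R[X]} (hP : P.Monic) {p : Ideal R} {a : R ⊗[k] B}
    (h : aeval ((1 : R) ⊗ₜ[k] t) P * a ∈ p.map (algebraMap R (R ⊗[k] B))) :
    a ∈ p.map (algebraMap R (R ⊗[k] B)) := by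
  obtain ⟨n, c, e, hc, he⟩ := exists_coord t hfin hinj
  rw [mem_map_of_coeff c e hc he] at h ⊢
  intro i m
  have h1 : (P * coordR R (c i) a).map (Ideal.Quotient.mk p) = 0 := by
    ext m
    rw [coeff_map, coeff_zero, Ideal.Quotient.eq_zero_iff_mem, ← coordR_aeval_mul c (hc i)]
    exact h i m
  rw [Polynomial.map_mul] at h1
  have h2 := (Monic.mul_right_eq_zero_iff (hP.map (Ideal.Quotient.mk p))).mp h1
  rw [← Ideal.Quotient.eq_zero_iff_mem, ← coeff_map, h2, coeff_zero]

theorem monic_mul_eq_zero {P : R[X]} (hP : P.Monic) {a : R ⊗[k] B}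
    (h : aeval ((1 : R) ⊗ₜ[k] t) P * a = 0) : a = 0 := by
  have h' := monic_mul_mem_map hfin hinj hP (p := (⊥ : Ideal R)) (a := a) (by rw [h]; exact zero_mem _)
  rwa [Ideal.map_bot, Ideal.mem_bot] at h'

theorem mem_map_of_bcMap_eq_zero {S : Type u} [CommRing S] [Algebra k S] [Algebra R S]
    [IsScalarTower k R S] {a : R ⊗[k] B} (h : bcMap k B R S a = 0) :
    a ∈ (RingHom.ker (algebraMap R S)).map (algebraMap R (R ⊗[k] B)) := by
  obtain ⟨n, c, e, hc, he⟩ := exists_coord t hfin hinj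
  rw [mem_map_of_coeff c e hc he]
  intro i m
  rw [RingHom.mem_ker, ← coeff_map, ← coordR_bcMap, h, map_zero, coeff_zero]

theorem exists_rem {P : R[X]} (hP : P.Monic) :
    ∃ ρ : (R ⊗[k] B) →ₗ[R] R ⊗[k] B,
      (∀ a, a - ρ a ∈ Ideal.span {aeval ((1 : R) ⊗ₜ[k] t) P}) ∧
      (∀ a, ρ (aeval ((1 : R) ⊗ₜ[k] t) P * a) = 0) ∧
      ∃ S : Finset (R ⊗[k] B), ∀ a, ρ a ∈ Submodule.span R (S : Set (R ⊗[k] B)) := by
  classical
  obtain ⟨n, c, e, hc, he⟩ := exists_coord t hfin hinj
  let θ : Fin n → (R ⊗[k] B →ₗ[R] R ⊗[k] B) := fun i =>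
    (LinearMap.mulRight R ((1 : R) ⊗ₜ[k] e i)) ∘ₗ (aeval ((1 : R) ⊗ₜ[k] t)).toLinearMap ∘ₗ
      modByMonicHom P ∘ₗ coordR R (c i)
  have hθ : ∀ i a, θ i a =
      aeval ((1 : R) ⊗ₜ[k] t) (coordR R (c i) a %ₘ P) * ((1 : R) ⊗ₜ[k] e i) := fun i a => rfl
  refine ⟨∑ i, θ i, fun a => ?_, fun a => ?_, ?_⟩
  · rw [LinearMap.sum_apply]
    conv => arg 2; arg 1; rw [← sum_coordR c e he a]
    rw [← Finset.sum_sub_distrib]
    refine Ideal.sum_mem _ fun i _ => ?_
    rw [hθ, ← sub_mul, ← map_sub]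
    refine Ideal.mul_mem_right _ _ (Ideal.mem_span_singleton.mpr ?_)
    refine map_dvd _ ?_
    conv => rhs; arg 1; rw [← modByMonic_add_div (coordR R (c i) a) P]
    rw [add_sub_cancel_left]
    exact dvd_mul_right _ _
  · rw [LinearMap.sum_apply]
    refine Finset.sum_eq_zero fun i _ => ?_
    rw [hθ, coordR_aeval_mul c (hc i), (modByMonic_eq_zero_iff_dvd hP).mpr (dvd_mul_right _ _),
      map_zero, zero_mul]
  · let S : Finset (R ⊗[k] B) := (Finset.univ ×ˢ Finset.range (P.natDegree + 1)).image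
      fun x : Fin n × ℕ => ((1 : R) ⊗ₜ[k] t) ^ x.2 * ((1 : R) ⊗ₜ[k] e x.1)
    refine ⟨S, fun a => ?_⟩
    rw [LinearMap.sum_apply]
    refine Submodule.sum_mem _ fun i _ => ?_
    rw [hθ, aeval_eq_sum_range' (n := P.natDegree + 1)
      (Nat.lt_succ_of_le (natDegree_modByMonic_le _ hP)), Finset.sum_mul]
    refine Submodule.sum_mem _ fun m hm => ?_
    rw [smul_mul_assoc]
    exact Submodule.smul_mem _ _ (Submodule.subset_span (Finset.mem_coe.mpr (Finset.mem_image.mpr
      ⟨(i, m), Finset.mem_product.mpr ⟨Finset.mem_univ _, hm⟩, rfl⟩)))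

end FLTA.Jacobian
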