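import Fermat.Agent.Jacobian.CechCohom
import Fermat.Agent.Jacobian.ChartPoly

/-!
# Sections generating at the marked point, and their divisors
-/

set_option autoImplicit false

universe u

open TensorProduct Polynomial
open scoped FLTA.Jacobian.TwoCover FLTA.Jacobian.Triple

namespace FLTA.Jacobian

variable {k : Type u} [Field k] {E : TwoCover k}
variable {R : Type u} [CommRing R] [Algebra k R]
  {S : Type u} [CommRing S] [Algebra k S] [Algebra R S] [IsScalarTower k R S]

namespace TwoCover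

theorem ker_εR_le {J : Ideal (E.AR' R)} (h : ∀ a : E.A', E.ε a = 0 → (1 : R) ⊗ₜ[k] a ∈ J) :
    RingHom.ker (E.εR R) ≤ J := by
  have key : ∀ z : E.AR' R, z - algebraMap R (E.AR' R) (E.εR R z) ∈ J := by
    intro z
    induction z using TensorProduct.induction_on with
    | zero => simp
    | add x y hx hy =>
      rw [map_add, map_add]
      convert J.add_mem hx hy using 1
      ring
    | tmul r a =>
      have : r ⊗ₜ[k] a - algebraMap R (E.AR' R) (E.εR R (r ⊗ₜ a)) =
          algebraMap R (E.AR' R) r * ((1 : R) ⊗ₜ[k] (a - algebraMap k E.A' (E.ε a))) := by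
        simp only [εR, Algebra.TensorProduct.lift_tmul, AlgHom.comp_apply,
          Algebra.TensorProduct.algebraMap_apply, Algebra.TensorProduct.tmul_mul_tmul,
          Algebra.ofId_apply, Algebra.algebraMap_self, RingHom.id_apply, one_mul, mul_one,
          TensorProduct.tmul_sub]
        rw [Algebra.algebraMap_eq_smul_one (R := k) (A := E.A'), TensorProduct.tmul_smul,
          TensorProduct.smul_tmul', Algebra.smul_def, mul_sub, Algebra.TensorProduct.tmul_mul_tmul,
          Algebra.TensorProduct.tmul_mul_tmul, mul_one, one_mul, mul_one, mul_one,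
          mul_comm r (algebraMap k R (E.ε a))]
      rw [this]
      exact J.mul_mem_left _ (h _ (by simp))
  intro z hz
  have := key z
  rwa [show E.εR R z = 0 from hz, map_zero, sub_zero] at this

theorem εR_tmul (r : R) (a : E.A') : E.εR R (r ⊗ₜ a) = r * algebraMap k R (E.ε a) := by
  simp [εR]

theorem εR_sR : E.εR R (E.sR R) = 0 := by
  rw [sR, E.εR_tmul, E.ε_s, map_zero, mul_zero]

theorem εR_bcA' (z : E.AR' R) : E.εR S (E.bcA' R S z) = algebraMap R S (E.εR R z) := by
  induction z using TensorProduct.induction_on with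
  | zero => simp
  | add x y hx hy => simp [hx, hy]
  | tmul r a =>
    change E.εR S (algebraMap R S r ⊗ₜ a) = _
    rw [E.εR_tmul, E.εR_tmul, map_mul, ← IsScalarTower.algebraMap_apply]

theorem exists_pow_ker_εR (E : TwoCover k) (R : Type u) [CommRing R] [Algebra k R] :
    ∃ e : ℕ, RingHom.ker (E.εR R) ^ e ≤ Ideal.span {E.sR R} := by
  have hnoeth : IsNoetherianRing E.A' := by
    let : Algebra k[X] E.A' := (aeval (R := k) E.s).toRingHom.toAlgebra
    have : Module.Finite k[X] E.A' := E.finite'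
    exact IsNoetherianRing.of_finite k[X] E.A'
  have hle : RingHom.ker E.ε ≤ (Ideal.span {E.s}).radical := by
    rw [Ideal.radical_eq_sInf]
    refine le_sInf fun P ⟨hP, hPp⟩ => ?_
    exact (E.ε_only P hPp (hP (Ideal.mem_span_singleton_self _))).ge
  obtain ⟨e, he⟩ := Ideal.exists_pow_le_of_le_radical_of_fg hle (IsNoetherian.noetherian _)
  let i : E.A' →+* E.AR' R :=
    (Algebra.TensorProduct.includeRight (R := k) (A := R) (B := E.A')).toRingHom
  refine ⟨e, le_trans (Ideal.pow_right_mono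
    (E.ker_εR_le (J := (RingHom.ker E.ε).map i) fun a ha => Ideal.mem_map_of_mem i ha) e) ?_⟩
  rw [← Ideal.map_pow]
  refine le_trans (Ideal.map_mono he) ?_
  rw [Ideal.map_span, Set.image_singleton]
  rfl

theorem exists_span_AR' (E : TwoCover k) (R : Type u) [CommRing R] [Algebra k R] :
    letI := (aeval (R := R) (E.sR R)).toRingHom.toAlgebra
    Module.Finite R[X] (E.AR' R) := by
  let := (aeval (R := R) (E.sR R)).toRingHom.toAlgebra
  have := E.isDomain_A'
  obtain ⟨n, c, e, -, he⟩ := exists_coord E.s E.finite' E.aeval_s_injective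
  refine Module.Finite.of_surjective
    (Fintype.linearCombination R[X] fun i => (1 : R) ⊗ₜ[k] e i) fun a => ?_
  refine ⟨fun i => coordR R (c i) a, ?_⟩
  rw [Fintype.linearCombination_apply]
  exact sum_coordR (t := E.s) c e he a

end TwoCover

namespace Triple

variable {T : Triple E R} {T' : Triple E S}

/-- The image of a global section under base change. -/
noncomputable def BaseChange.sect (b : BaseChange T T') (x : T.H0) : T'.H0 :=
  ⟨(b.fM x.1.1, b.fM' x.1.2), by
    rw [mem_h0_iff]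
    change T'.res (b.fM x.1.1) = T'.res' (b.fM' x.1.2)
    rw [← b.comm, ← b.comm', (T.mem_h0_iff x.1).mp x.2]⟩

theorem GeneratesAtε.exists_functional {μ : T.M'} (h : T.GeneratesAtε μ) :
    ∃ ℓ : T.M' →ₗ[R] R, (∀ a m, ℓ (a • m) = E.εR R a * ℓ m) ∧ ℓ μ = 1 ∧
      ∀ m, m - ℓ m • μ ∈ RingHom.ker (E.εR R) • (⊤ : Submodule (E.AR' R) T.M') := by
  obtain ⟨ι, _, φ, m, hs⟩ := exists_dual_partition (E.AR' R) T.M'
  let P := RingHom.ker (E.εR R) • (⊤ : Submodule (E.AR' R) T.M')
  have hsplit : ∀ y : T.M', ∃ a : E.AR' R, y - a • μ ∈ P := by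
    intro y
    obtain ⟨u, hu, v, hv, rfl⟩ := Submodule.mem_sup.mp (h.ge (Submodule.mem_top (x := y)))
    obtain ⟨a, rfl⟩ := Submodule.mem_span_singleton.mp hu
    exact ⟨a, by rwa [add_sub_cancel_left]⟩
  choose a ha using fun i => hsplit (m i)
  have hker : ∀ (ψ : Module.Dual (E.AR' R) T.M') y, y ∈ P → E.εR R (ψ y) = 0 := by
    intro ψ y hy
    induction hy using Submodule.smul_induction_on' with
    | smul r hr x _ =>
      rw [map_smul, smul_eq_mul, map_mul, show E.εR R r = 0 from hr, zero_mul]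
    | add x _ y _ hx hy => rw [map_add, map_add, hx, hy, add_zero]
  let φ₀ : Module.Dual (E.AR' R) T.M' := ∑ i, a i • φ i
  let ℓ : T.M' →ₗ[R] R := (E.εR R).toLinearMap ∘ₗ φ₀.restrictScalars R
  have hℓ : ∀ c y, ℓ (c • y) = E.εR R c * ℓ y := fun c y => by
    simp [ℓ, map_smul, map_mul]
  have hμ : ℓ μ = 1 := by
    have h1 : ∀ i, E.εR R (φ i (m i)) = E.εR R (a i • φ i μ) := by
      intro i
      have := hker (φ i) _ (ha i)
      rwa [map_sub, map_sub, map_smul, sub_eq_zero] at this
    have h2 := congrArg (E.εR R) hs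
    rw [map_sum, map_one] at h2
    simp only [h1] at h2
    simpa [ℓ, φ₀] using h2
  refine ⟨ℓ, hℓ, hμ, fun y => ?_⟩
  obtain ⟨c, hc⟩ := hsplit y
  have hy : ℓ y = E.εR R c := by
    have h1 : ℓ (y - c • μ) = 0 := hker φ₀ _ hc
    rw [map_sub, hℓ, hμ, mul_one, sub_eq_zero] at h1
    exact h1
  have h3 : (c - algebraMap R (E.AR' R) (E.εR R c)) • μ ∈ P :=
    Submodule.smul_mem_smul (by rw [RingHom.mem_ker, map_sub, AlgHom.commutes]; simp)
      Submodule.mem_top
  rw [sub_smul, algebraMap_smul] at h3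
  rw [hy]
  convert P.add_mem hc h3 using 1
  abel

theorem generatesAtε_of_functional {μ x : T.M'} {ℓ : T.M' →ₗ[R] R}
    (hμ : ∀ m, m - ℓ m • μ ∈ RingHom.ker (E.εR R) • (⊤ : Submodule (E.AR' R) T.M'))
    (hx : IsUnit (ℓ x)) : T.GeneratesAtε x := by
  rw [GeneratesAtε, eq_top_iff]
  intro y _
  let P := RingHom.ker (E.εR R) • (⊤ : Submodule (E.AR' R) T.M')
  obtain ⟨u, hu⟩ := hx.exists_left_inv
  refine Submodule.mem_sup.mpr
    ⟨algebraMap R (E.AR' R) (ℓ y * u) • x, Submodule.mem_span_singleton.mpr ⟨_, rfl⟩,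
      y - algebraMap R (E.AR' R) (ℓ y * u) • x, ?_, add_sub_cancel _ _⟩
  rw [algebraMap_smul]
  have h2 : (ℓ y * u) • (x - ℓ x • μ) ∈ P := Submodule.smul_of_tower_mem P _ (hμ x)
  rw [smul_sub, smul_smul, mul_assoc, hu, mul_one] at h2
  convert P.sub_mem (hμ y) h2 using 1
  abel

theorem GeneratesAtε.baseChange (b : BaseChange T T') {μ : T.M'} (h : T.GeneratesAtε μ) :
    T'.GeneratesAtε (b.fM' μ) := by
  rw [GeneratesAtε, eq_top_iff]
  refine le_trans b.gen'.ge (Submodule.span_le.mpr ?_)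
  rintro _ ⟨y, rfl⟩
  obtain ⟨u, hu, v, hv, rfl⟩ := Submodule.mem_sup.mp (h.ge (Submodule.mem_top (x := y)))
  obtain ⟨a, rfl⟩ := Submodule.mem_span_singleton.mp hu
  rw [map_add, LinearMap.map_smulₛₗ]
  refine add_mem (Submodule.mem_sup_left (Submodule.mem_span_singleton.mpr ⟨_, rfl⟩))
    (Submodule.mem_sup_right ?_)
  induction hv using Submodule.smul_induction_on' with
  | smul r hr x _ =>
    rw [LinearMap.map_smulₛₗ]
    refine Submodule.smul_mem_smul ?_ Submodule.mem_top
    change E.εR S (E.bcA' R S r) = 0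
    rw [E.εR_bcA', show E.εR R r = 0 from hr, map_zero]
  | add x _ y _ hx hy => rw [map_add]; exact add_mem hx hy

theorem GeneratesAtε.sup_sR {μ : T.M'} (h : T.GeneratesAtε μ) :
    Submodule.span (E.AR' R) {μ} ⊔ Ideal.span {E.sR R} • (⊤ : Submodule (E.AR' R) T.M') = ⊤ := by
  obtain ⟨e, he⟩ := E.exists_pow_ker_εR R
  have key : ∀ n : ℕ, Submodule.span (E.AR' R) {μ} ⊔
      RingHom.ker (E.εR R) ^ n • (⊤ : Submodule (E.AR' R) T.M') = ⊤ := by
    intro n
    induction n with
    | zero => simp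
    | succ n ih =>
      rw [eq_top_iff]
      conv_lhs => rw [← ih]
      refine sup_le le_sup_left ?_
      conv_lhs => rw [← show _ = (⊤ : Submodule (E.AR' R) T.M') from h]
      rw [Submodule.smul_sup, pow_succ, Submodule.mul_smul]
      exact sup_le (Submodule.smul_le_right.trans le_sup_left) le_sup_right
  rw [eq_top_iff]
  refine le_trans (key e).ge ?_
  exact sup_le_sup_left (Submodule.smul_mono_left he) _

/-- The divisor of a section generating at `ε` has a monic equation on the first chart. -/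
theorem GeneratesAtε.exists_monic {σ : T.H0} (h : T.GeneratesAtε σ.1.2) :
    (∃ q ∈ evalIdeal (E.AR' R) σ.1.2, q - 1 ∈ Ideal.span {E.sR R}) ∧
      ∃ P : R[X], P.Monic ∧ aeval (E.tR R) P ∈ evalIdeal (E.AR R) σ.1.1 := by
  let := (aeval (R := R) (E.sR R)).toRingHom.toAlgebra
  have := E.exists_span_AR' R
  let : Module R[X] T.M' := Module.compHom T.M' (aeval (R := R) (E.sR R)).toRingHom
  have : IsScalarTower R[X] (E.AR' R) T.M' := IsScalarTower.of_algebraMap_smul fun _ _ => rfl
  have : Module.Finite R[X] T.M' := Module.Finite.trans (E.AR' R) T.M'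
  let L : Submodule R[X] T.M' := (Submodule.span (E.AR' R) {σ.1.2}).restrictScalars R[X]
  have hle : (⊤ : Submodule R[X] (T.M' ⧸ L)) ≤ Ideal.span {(X : R[X])} • ⊤ := by
    intro z _
    induction z using Submodule.Quotient.induction_on with
    | H y =>
      obtain ⟨u, hu, v, hv, rfl⟩ := Submodule.mem_sup.mp (h.sup_sR.ge (Submodule.mem_top (x := y)))
      rw [Submodule.Quotient.mk_add, (Submodule.Quotient.mk_eq_zero L).mpr hu, zero_add]
      rw [Submodule.ideal_span_singleton_smul, Submodule.mem_smul_pointwise_iff_exists] at hv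
      obtain ⟨w, -, rfl⟩ := hv
      have : E.sR R • w = (X : R[X]) • w := by
        change E.sR R • w = aeval (R := R) (E.sR R) X • w
        rw [aeval_X]
      rw [this, Submodule.Quotient.mk_smul]
      exact Submodule.smul_mem_smul (Ideal.mem_span_singleton_self _) Submodule.mem_top
  obtain ⟨q, hq1, hq⟩ :=
    Submodule.exists_sub_one_mem_and_smul_eq_zero_of_fg_of_le_smul _ _ Module.Finite.fg_top hle
  have hqm : ∀ y : T.M', ∃ c : E.AR' R, c • σ.1.2 = aeval (E.sR R) q • y := by
    intro y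
    have := hq (Submodule.Quotient.mk y) trivial
    rw [← Submodule.Quotient.mk_smul, Submodule.Quotient.mk_eq_zero] at this
    exact Submodule.mem_span_singleton.mp this
  refine ⟨⟨aeval (E.sR R) q, ?_, ?_⟩, ?_⟩
  · rw [← colon_eq_evalIdeal, Submodule.mem_colon]
    exact fun y _ => Submodule.mem_span_singleton.mpr (hqm y)
  · obtain ⟨w, hw⟩ := Ideal.mem_span_singleton.mp hq1
    refine Ideal.mem_span_singleton.mpr ⟨aeval (E.sR R) w, ?_⟩
    have := congrArg (aeval (E.sR R)) hw
    simpa using this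
  -- on the first chart
  have hq0 : q.coeff 0 = 1 := by
    obtain ⟨w, hw⟩ := Ideal.mem_span_singleton.mp hq1
    have := congrArg (fun p => p.coeff 0) hw
    simpa [sub_eq_zero] using this
  let D := q.natDegree
  have hu : ∀ x : T.M, ∃ (i : ℕ) (c : E.AR R),
      c • σ.1.1 = (E.tR R) ^ i • aeval (E.tR R) (q.reflect D) • x := by
    intro x
    obtain ⟨y, j, hy⟩ := T.res'_surj (T.res x)
    obtain ⟨c, hc⟩ := hqm y
    -- relation between the two evaluations
    have hrel : E.ιR R (aeval (E.tR R) (q.reflect D)) =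
        (E.ιR R (E.tR R)) ^ D * E.ιR' R (aeval (E.sR R) q) := by
      rw [← Polynomial.aeval_algHom_apply, ← Polynomial.aeval_algHom_apply]
      let : Invertible (E.ιR' R (E.sR R)) :=
        ⟨E.ιR R (E.tR R), E.ιR_tR_mul_sR R, (mul_comm _ _).trans (E.ιR_tR_mul_sR R)⟩
      have h2 := eval₂_reflect_mul_pow (algebraMap R (E.AR01 R)) (E.ιR' R (E.sR R)) D q le_rfl
      have hinv2 : ⅟(E.ιR' R (E.sR R)) = E.ιR R (E.tR R) := rfl
      rw [hinv2] at h2
      rw [mul_comm]
      calc aeval (E.ιR R (E.tR R)) (q.reflect D)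
          = aeval (E.ιR R (E.tR R)) (q.reflect D) *
            ((E.ιR R (E.tR R)) ^ D * (E.ιR' R (E.sR R)) ^ D) := by
            rw [E.tR_pow_mul_ιR', mul_one]
        _ = (eval₂ (algebraMap R (E.AR01 R)) (E.ιR R (E.tR R)) (q.reflect D) *
            (E.ιR' R (E.sR R)) ^ D) * (E.ιR R (E.tR R)) ^ D := by
            rw [aeval_def]; ring
        _ = _ := by rw [h2, aeval_def]
    obtain ⟨i, a, ha⟩ := E.exists_ιR_pow R
      ((E.ιR R (E.tR R)) ^ (D + j) * E.ιR' R c)
    refine ⟨i, a, T.res_injective ?_⟩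
    rw [LinearMap.map_smulₛₗ, LinearMap.map_smulₛₗ, LinearMap.map_smulₛₗ, map_pow]
    change E.ιR R a • _ = (E.ιR R (E.tR R)) ^ i • E.ιR R (aeval (E.tR R) (q.reflect D)) • _
    have hcy := congrArg T.res' hc
    rw [LinearMap.map_smulₛₗ, LinearMap.map_smulₛₗ, ← hy] at hcy
    rw [(T.mem_h0_iff σ.1).mp σ.2, hrel, ← ha]
    have hx : T.res x = (E.ιR R (E.tR R)) ^ j • ((E.ιR' R (E.sR R)) ^ j • T.res x) := by
      rw [smul_smul, E.tR_pow_mul_ιR', one_smul]
    calc ((E.ιR R (E.tR R)) ^ i * ((E.ιR R (E.tR R)) ^ (D + j) * E.ιR' R c)) • T.res' σ.1.2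
        = ((E.ιR R (E.tR R)) ^ i * (E.ιR R (E.tR R)) ^ (D + j)) •
            (E.ιR' R c • T.res' σ.1.2) := by
          rw [smul_smul, mul_assoc]
      _ = ((E.ιR R (E.tR R)) ^ i * (E.ιR R (E.tR R)) ^ (D + j)) •
            (E.ιR' R (aeval (E.sR R) q) • ((E.ιR' R (E.sR R)) ^ j • T.res x)) := by
          exact congrArg _ hcy
      _ = _ := by
          conv_rhs => rw [hx]
          simp only [smul_smul]
          congr 1
          rw [pow_add]
          ring
  choose i c hc using hu
  obtain ⟨ι, _, φ, m, hs⟩ := exists_dual_partition (E.AR R) T.M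
  let e := Finset.univ.sup fun l => i (m l)
  refine ⟨X ^ e * q.reflect D, ?_, ?_⟩
  · refine (monic_X_pow e).mul ?_
    refine monic_of_natDegree_le_of_coeff_eq_one D ?_ ?_
    · exact (natDegree_reflect_le).trans (max_le le_rfl le_rfl)
    · rw [coeff_reflect, revAt_le le_rfl, Nat.sub_self, hq0]
  · rw [← colon_eq_evalIdeal, Submodule.mem_colon]
    intro y _
    have hy : y = ∑ l, φ l y • m l := by
      conv_lhs => rw [← one_smul (E.AR R) y, ← hs, Finset.sum_smul]
      exact Finset.sum_congr rfl fun l _ => dual_apply_smul_comm (φ l) (m l) y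
    rw [hy, Finset.smul_sum]
    refine Submodule.sum_mem _ fun l _ => ?_
    rw [smul_comm]
    refine Submodule.smul_mem _ _ (Submodule.mem_span_singleton.mpr
      ⟨(E.tR R) ^ (e - i (m l)) * c (m l), ?_⟩)
    rw [mul_smul, hc, map_mul, aeval_X_pow, mul_smul, smul_smul ((E.tR R) ^ (e - i (m l))),
      ← pow_add, Nat.sub_add_cancel (Finset.le_sup (f := fun l => i (m l)) (Finset.mem_univ l))]

theorem GeneratesAtε.eval_injective {σ : T.H0} (h : T.GeneratesAtε σ.1.2)
    {φ : Module.Dual (E.AR R) T.M} (hφ : φ σ.1.1 = 0) : φ = 0 := by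
  obtain ⟨-, P, hP, φ₀, hφ₀⟩ := h.exists_monic
  have := E.isDomain_A
  ext m
  refine monic_mul_eq_zero E.finite E.aeval_t_injective hP ?_
  have h1 := congrArg φ₀ (dual_apply_smul_comm φ m σ.1.1)
  rw [map_smul, map_smul, hφ, zero_smul] at h1
  change φ₀ σ.1.1 = aeval (E.tR R) P at hφ₀
  change aeval (E.tR R) P * φ m = 0
  rw [← hφ₀, mul_comm]
  exact h1

/-- The standard basis candidate in `AR`. -/
noncomputable abbrev bR (R : Type u) [CommRing R] [Algebra k R] {g : ℕ} (b : Fin g → E.A) :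
    Fin g → E.AR R :=
  fun i => (1 : R) ⊗ₜ[k] b i

/-- `σ` generates at `ε` and `b` is a basis of the functions on its divisor. -/
def HasDivisor {g : ℕ} (b : Fin g → E.A) (T : Triple E R) (σ : T.H0) : Prop :=
  T.GeneratesAtε σ.1.2 ∧ IsBasisMod (R := R) (bR R b) (evalIdeal (E.AR R) σ.1.1)

theorem isBasisMod_map_of {g : ℕ} {b : Fin g → E.A} {I : Ideal (E.AR R)}
    (π : E.AR R →ₗ[R] Fin g → S) (hI : ∀ a ∈ I, π a = 0)
    (hb : ∀ i, π (bR R b i) = Pi.single i 1)
    (hs : ∀ a : E.AR R, ∃ r : Fin g → R, a - ∑ i, r i • bR R b i ∈ I) :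
    IsBasisMod (R := S) (bR S b) (I.map (E.bcA R S).toRingHom) := by
  let := bcAlg k E.A R S
  have := bc_tower k E.A R S
  have hbc := (bc_isPushout k E.A R S).out
  let π' : E.AR S →ₗ[S] Fin g → S := hbc.lift π
  have hπ' : ∀ a, π' (E.bcA R S a) = π a := fun a => hbc.lift_eq _ a
  refine isBasisMod_of_proj (π := π') ?_ ?_ ?_
  · intro x hx
    suffices h0 : ∀ c : E.AR S, π' (c * x) = 0 by simpa using h0 1
    induction hx using Submodule.span_induction with
    | mem y hy =>
      obtain ⟨a, ha, rfl⟩ := hy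
      intro c
      induction c using hbc.inductionOn with
      | zero => rw [zero_mul, map_zero]
      | tmul a' =>
        change π' (E.bcA R S a' * E.bcA R S a) = 0
        rw [← map_mul, hπ', hI _ (I.mul_mem_left a' ha)]
      | smul s c hc => rw [smul_mul_assoc, map_smul, hc, smul_zero]
      | add c c' hc hc' => rw [add_mul, map_add, hc, hc', add_zero]
    | zero => intro c; rw [mul_zero, map_zero]
    | add u v _ _ hu hv => intro c; rw [mul_add, map_add, hu c, hv c, add_zero]
    | smul d y _ hd => intro c; rw [smul_eq_mul, ← mul_assoc]; exact hd _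
  · intro i
    have : (bR S b i : E.AR S) = E.bcA R S (bR R b i) := by simp [bR, TwoCover.bcA]
    rw [this, hπ', hb]
  · intro x
    induction x using hbc.inductionOn with
    | zero => exact ⟨0, by simp⟩
    | tmul a =>
      obtain ⟨r, hr⟩ := hs a
      refine ⟨fun i => algebraMap R S (r i), ?_⟩
      have h2 := Ideal.mem_map_of_mem (E.bcA R S).toRingHom hr
      simpa [map_sub, map_sum, Algebra.smul_def, bR, TwoCover.bcA, RingHom.algebraMap_toAlgebra]
        using h2
    | smul s x hx =>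
      obtain ⟨r, hr⟩ := hx
      refine ⟨s • r, ?_⟩
      have := Submodule.smul_of_tower_mem _ s hr
      simpa [smul_sub, Finset.smul_sum, smul_smul] using this
    | add x y hx hy =>
      obtain ⟨r, hr⟩ := hx
      obtain ⟨r', hr'⟩ := hy
      refine ⟨r + r', ?_⟩
      convert Ideal.add_mem _ hr hr' using 1
      simp only [Pi.add_apply, add_smul, Finset.sum_add_distrib]
      abel

theorem isBasisMod_map {g : ℕ} {b : Fin g → E.A} {I : Ideal (E.AR R)}
    (h : IsBasisMod (R := R) (bR R b) I) :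
    IsBasisMod (R := S) (bR S b) (I.map (E.bcA R S).toRingHom) := by
  obtain ⟨π, hker, hπ⟩ := h.exists_proj
  refine isBasisMod_map_of (S := S) (((Algebra.linearMap R S).compLeft (Fin g)) ∘ₗ π)
    (fun a ha => by rw [LinearMap.comp_apply, LinearMap.mem_ker.mp (hker.ge ha), map_zero])
    (fun i => by ext j; simp [hπ, Pi.single_apply, apply_ite (algebraMap R S)])
    fun a => ⟨π a, hker.le (LinearMap.mem_ker.mpr (by rw [map_sub, IsBasisMod.proj_sum hπ, sub_self]))⟩

theorem HasDivisor.baseChange {g : ℕ} {b : Fin g → E.A} {σ : T.H0} (h : T.HasDivisor b σ)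
    (bc : BaseChange T T') : T'.HasDivisor b (bc.sect σ) := by
  refine ⟨h.1.baseChange bc, ?_⟩
  change IsBasisMod (R := S) (bR S b) (evalIdeal (E.AR S) (bc.fM σ.1.1))
  rw [evalIdeal_map bc.fM bc.gen]
  exact isBasisMod_map h.2

theorem isGood_iff {g : ℕ} {b : Fin g → E.A} :
    T.IsGood b ↔ Subsingleton T.H1 ∧
      ∃ σ : T.H0, Submodule.span R {σ} = ⊤ ∧ T.HasDivisor b σ := by
  have hfun : ∀ σ : T.H0, (fun r : Fin g → R => Ideal.Quotient.mk
        ((Submodule.span (E.AR R) {σ.1.1}).colon (⊤ : Submodule (E.AR R) T.M))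
        (∑ i, r i • bR R b i)) =
      fun r => Ideal.Quotient.mk _ (∑ i, r i • ((1 : R) ⊗ₜ[k] b i)) := fun _ => rfl
  constructor
  · rintro ⟨h1, σ, hspan, -, hgen, hbij⟩
    refine ⟨h1, σ, hspan, hgen, ?_⟩
    rw [IsBasisMod, ← colon_eq_evalIdeal]
    exact hbij
  · rintro ⟨h1, σ, hspan, hgen, hbij⟩
    refine ⟨h1, σ, hspan, fun r hr => ?_, hgen, ?_⟩
    · obtain ⟨ℓ, -, hℓ, -⟩ := hgen.exists_functional
      have := congrArg (fun z : T.H0 => ℓ z.1.2) hr
      simpa [hℓ] using this
    · rw [IsBasisMod, ← colon_eq_evalIdeal] at hbij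
      exact hbij

end Triple

end FLTA.Jacobian
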