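import Fermat.Agent.Jacobian.CechBasic
import Fermat.Agent.Jacobian.CechLiftAlg
import Fermat.Agent.Jacobian.ChartSection

/-!
# Lifting line bundles along nilpotent thickenings
-/

set_option autoImplicit false
set_option maxHeartbeats 400000

universe u

open TensorProduct
open scoped FLTA.Jacobian.TwoCover FLTA.Jacobian.Triple

namespace FLTA.Jacobian

variable {k : Type u} [Field k] {E : TwoCover k}

/-- A lift of a line bundle on the second chart, glued to a lift on the first chart. -/
theorem exists_semilinear_lift {A B : Type u} [CommRing A] [CommRing B] {ι : A →+* B}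
    {M : Type u} [AddCommGroup M] [Module A M] [Module.Projective A M] {N N₀ : Type u}
    [AddCommGroup N] [Module B N] [AddCommGroup N₀] [Module A N₀]
    (p : N →+ N₀) (hp : ∀ (a : A) n, p (ι a • n) = a • p n) (hs : Function.Surjective p)
    (F : M →ₗ[A] N₀) : ∃ h : M →ₛₗ[ι] N, ∀ m, p (h m) = F m := by
  let := Module.compHom N ι
  let p' : N →ₗ[A] N₀ := { toFun := p, map_add' := map_add p, map_smul' := hp }
  obtain ⟨h, hh⟩ := Module.projective_lifting_property p' F hs
  exact ⟨{ toFun := h, map_add' := map_add h, map_smul' := fun a m => h.map_smul a m },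
    fun m => LinearMap.congr_fun hh m⟩

theorem exists_tensor_semilinear {A B C : Type u} [CommRing A] [CommRing B] [Algebra A B]
    [CommRing C] {τ : B →+* C} {M : Type u} [AddCommGroup M] [Module A M] {N : Type u}
    [AddCommGroup N] [Module C N] (G : M →+ N)
    (hG : ∀ (a : A) m, G (a • m) = τ (algebraMap A B a) • G m) :
    ∃ g : B ⊗[A] M →ₛₗ[τ] N, ∀ b m, g (b ⊗ₜ m) = τ b • G m := by
  let := Module.compHom N (τ.comp (algebraMap A B))
  let := Module.compHom N τ
  have : IsScalarTower A B N := IsScalarTower.of_algebraMap_smul fun a n => rfl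
  let G' : M →ₗ[A] N := { toFun := G, map_add' := map_add G, map_smul' := hG }
  refine ⟨{ toFun := G'.liftBaseChange B, map_add' := map_add _,
            map_smul' := fun b x => (G'.liftBaseChange B).map_smul b x }, fun b m => ?_⟩
  exact LinearMap.liftBaseChange_tmul _ G' b m

namespace Triple

theorem exists_lift {R : Type u} [CommRing R] [Algebra k R] {S : Type u} [CommRing S]
    [Algebra k S] [Algebra R S] [IsScalarTower k R S]
    (hs : Function.Surjective (algebraMap R S))
    (hn : IsNilpotent (RingHom.ker (algebraMap R S))) (T : Triple E S) :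
    ∃ T' : Triple E R, Nonempty (Triple.BaseChange T' T) := by
  obtain ⟨ι, L, f, hL, hf⟩ := exists_invertible_lift (E.bcA R S).toRingHom
    (bcMap_surjective E.A R S hs) (isNilpotent_ker_bcMap E.A R S hs hn) T.M
  obtain ⟨ι', L', f', hL', hf'⟩ := exists_invertible_lift (E.bcA' R S).toRingHom
    (bcMap_surjective E.A' R S hs) (isNilpotent_ker_bcMap E.A' R S hs hn) T.M'
  have hsurj01 : Function.Surjective (E.bc01 R S) := bcMap_surjective E.A01 R S hs
  let G : L →+ T.N :=
    { toFun := fun m => T.res (f m)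
      map_zero' := by simp
      map_add' := fun x y => by simp }
  obtain ⟨g, hg⟩ := exists_tensor_semilinear (B := E.AR01 R) (τ := (E.bc01 R S).toRingHom) G
    (fun a m => by
      change T.res (f (a • m)) = E.bc01 R S (E.ιR R a) • T.res (f m)
      rw [LinearMap.map_smulₛₗ, LinearMap.map_smulₛₗ, E.bc01_ιR]
      rfl)
  have hg1 : ∀ m, g (1 ⊗ₜ m) = T.res (f m) := fun m => by
    rw [hg, map_one, one_smul]
    rfl
  have hgsurj : Function.Surjective g := by
    intro n
    obtain ⟨x, i, hx⟩ := T.res_surj n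
    obtain ⟨m, rfl⟩ := hf x
    refine ⟨((E.ιR' R (E.sR R)) ^ i) ⊗ₜ m, ?_⟩
    rw [hg]
    change E.bc01 R S ((E.ιR' R (E.sR R)) ^ i) • T.res (f m) = n
    rw [← hx, map_pow, E.bc01_ιR', E.bcA'_sR, smul_smul, mul_comm, E.tR_pow_mul_ιR', one_smul]
  let := Module.compHom T.N ((E.ιR' S).toRingHom.comp (E.bcA' R S).toRingHom)
  let F : L' →ₗ[E.AR' R] T.N :=
    { toFun := fun m => T.res' (f' m)
      map_add' := fun x y => by simp
      map_smul' := fun a m => by
        rw [LinearMap.map_smulₛₗ, LinearMap.map_smulₛₗ]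
        rfl }
  obtain ⟨h, hh⟩ := exists_semilinear_lift (ι := (E.ιR' R).toRingHom)
    (N := E.AR01 R ⊗[E.AR R] L) g.toAddMonoidHom (fun a n => by
      refine (g.map_smulₛₗ (E.ιR' R a) n).trans ?_
      change E.bc01 R S (E.ιR' R a) • g n = E.ιR' S (E.bcA' R S a) • g n
      rw [E.bc01_ιR']) hgsurj F
  have hgh : ∀ m, g (h m) = T.res' (f' m) := hh
  let h₀ : L' →ₗ[E.AR' R] E.AR01 R ⊗[E.AR R] L :=
    { toFun := h, map_add' := map_add h, map_smul' := fun a m =>
        (h.map_smulₛₗ a m).trans (algebraMap_smul (E.AR01 R) a (h m)) }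
  let H : E.AR01 R ⊗[E.AR' R] L' →ₗ[E.AR01 R] E.AR01 R ⊗[E.AR R] L :=
    h₀.liftBaseChange (E.AR01 R)
  have hHtop : LinearMap.range H = ⊤ := by
    refine eq_top_of_sup_nilpotent (M := E.AR01 R ⊗[E.AR R] L)
      (J := RingHom.ker (E.bc01 R S).toRingHom)
      (isNilpotent_ker_bcMap E.A01 R S hs hn) (eq_top_iff.mpr fun z _ => ?_)
    have hz : g z ∈ Submodule.span (E.AR01 S) (Set.range T.res') :=
      T.span_range_res' ▸ Submodule.mem_top
    obtain ⟨w, hw, hgw⟩ : ∃ w ∈ LinearMap.range H, g w = g z := by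
      generalize g z = v at hz
      induction hz using Submodule.span_induction with
      | mem y hy =>
        obtain ⟨x, rfl⟩ := hy
        obtain ⟨m, rfl⟩ := hf' x
        exact ⟨H (1 ⊗ₜ m), ⟨_, rfl⟩, by
          rw [LinearMap.liftBaseChange_tmul, one_smul]; exact hgh m⟩
      | zero => exact ⟨0, zero_mem _, map_zero g⟩
      | add u v _ _ hu hv =>
        obtain ⟨a, ha, ha'⟩ := hu
        obtain ⟨b, hb, hb'⟩ := hv
        exact ⟨a + b, add_mem ha hb, by rw [map_add, ha', hb']⟩
      | smul c u _ hu =>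
        obtain ⟨a, ha, ha'⟩ := hu
        obtain ⟨d, rfl⟩ := hsurj01 c
        exact ⟨d • a, Submodule.smul_mem _ d ha, by
          rw [LinearMap.map_smulₛₗ, ha']; rfl⟩
    refine Submodule.mem_sup.mpr ⟨w, hw, z - w, ?_, add_sub_cancel _ _⟩
    refine mem_ker_smul_top g ?_ (by rw [map_sub, hgw, sub_self])
    rw [hgsurj.range_eq, Submodule.span_univ]
  have hHbij : Function.Bijective H :=
    Module.Invertible.bijective_of_surjective (LinearMap.range_eq_top.mp hHtop)
  have hloc' := (isLocalizedModule_iff_isBaseChange (Submonoid.powers (E.sR R)) (E.AR01 R)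
    (TensorProduct.mk (E.AR' R) (E.AR01 R) L' 1)).mpr (TensorProduct.isBaseChange _ _ _)
  have hloc := (isLocalizedModule_iff_isBaseChange (Submonoid.powers (E.tR R)) (E.AR01 R)
    (TensorProduct.mk (E.AR R) (E.AR01 R) L 1)).mpr (TensorProduct.isBaseChange _ _ _)
  let T' : Triple E R :=
    { M := L
      M' := L'
      N := E.AR01 R ⊗[E.AR R] L
      res :=
        { toFun := fun m => (1 : E.AR01 R) ⊗ₜ[E.AR R] m
          map_add' := fun x y => TensorProduct.tmul_add _ x y
          map_smul' := fun a m => by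
            rw [TensorProduct.smul_tmul', smul_eq_mul, mul_one, ← TensorProduct.smul_tmul,
              Algebra.smul_def, mul_one]
            rfl }
      res' := h
      res_surj := fun n => by
        obtain ⟨⟨m, ⟨_, i, rfl⟩⟩, hm⟩ := IsLocalizedModule.surj (Submonoid.powers (E.tR R))
          (TensorProduct.mk (E.AR R) (E.AR01 R) L 1) n
        refine ⟨m, i, ?_⟩
        rw [← map_pow]
        exact (algebraMap_smul (E.AR01 R) ((E.tR R) ^ i) n).trans hm
      res_ker := fun m hm => by
        obtain ⟨⟨_, i, rfl⟩, hc⟩ := (IsLocalizedModule.eq_zero_iff (Submonoid.powers (E.tR R))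
          (TensorProduct.mk (E.AR R) (E.AR01 R) L 1)).mp hm
        exact ⟨i, hc⟩
      res'_surj := fun n => by
        obtain ⟨z, rfl⟩ := hHbij.2 n
        obtain ⟨⟨m, ⟨_, i, rfl⟩⟩, hm⟩ := IsLocalizedModule.surj (Submonoid.powers (E.sR R))
          (TensorProduct.mk (E.AR' R) (E.AR01 R) L' 1) z
        refine ⟨m, i, ?_⟩
        rw [← map_pow, ← H.map_smul, show E.ιR' R ((E.sR R) ^ i) • z = (1 : E.AR01 R) ⊗ₜ m from
          (algebraMap_smul (E.AR01 R) ((E.sR R) ^ i) z).trans hm,
          LinearMap.liftBaseChange_tmul, one_smul]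
        rfl
      res'_ker := fun m hm => by
        have h1 : H (1 ⊗ₜ m) = H 0 := by
          rw [map_zero, LinearMap.liftBaseChange_tmul, one_smul]
          exact hm
        obtain ⟨⟨_, i, rfl⟩, hc⟩ := (IsLocalizedModule.eq_zero_iff (Submonoid.powers (E.sR R))
          (TensorProduct.mk (E.AR' R) (E.AR01 R) L' 1)).mp (hHbij.1 h1)
        exact ⟨i, hc⟩ }
  exact ⟨T', ⟨
    { fM := f
      fM' := f'
      fN := g
      comm := hg1
      comm' := hgh
      gen := by rw [hf.range_eq, Submodule.span_univ]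
      gen' := by rw [hf'.range_eq, Submodule.span_univ] }⟩⟩

theorem exists_generatesAtε_lift {R : Type u} [CommRing R] [Algebra k R] {S : Type u}
    [CommRing S] [Algebra k S] [Algebra R S] [IsScalarTower k R S]
    (hs : Function.Surjective (algebraMap R S))
    (hn : IsNilpotent (RingHom.ker (algebraMap R S))) {T : Triple E S} {T' : Triple E R}
    (b : Triple.BaseChange T' T) (hμ : ∃ μ : T.M', T.GeneratesAtε μ) :
    ∃ μ : T'.M', T'.GeneratesAtε μ := by
  obtain ⟨μ, hμ⟩ := hμ
  have hsurj' : Function.Surjective (E.bcA' R S) := bcMap_surjective E.A' R S hs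
  have hf : Function.Surjective b.fM' := by
    intro x
    have hx : x ∈ Submodule.span (E.AR' S) (Set.range b.fM') := b.gen' ▸ Submodule.mem_top
    induction hx using Submodule.span_induction with
    | mem y hy => exact hy
    | zero => exact ⟨0, map_zero _⟩
    | add u v _ _ hu hv =>
      obtain ⟨a, rfl⟩ := hu
      obtain ⟨c, rfl⟩ := hv
      exact ⟨a + c, map_add _ _ _⟩
    | smul c u _ hu =>
      obtain ⟨a, rfl⟩ := hu
      obtain ⟨d, rfl⟩ := hsurj' c
      exact ⟨d • a, b.fM'.map_smulₛₗ d a⟩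
  obtain ⟨μ', rfl⟩ := hf μ
  refine ⟨μ', eq_top_of_sup_nilpotent (J := RingHom.ker (E.bcA' R S).toRingHom)
    (isNilpotent_ker_bcMap E.A' R S hs hn) (eq_top_iff.mpr fun y _ => ?_)⟩
  obtain ⟨u, hu, v, hv, huv⟩ :=
    Submodule.mem_sup.mp (hμ.ge (Submodule.mem_top (x := b.fM' y)))
  obtain ⟨a, rfl⟩ := Submodule.mem_span_singleton.mp hu
  obtain ⟨a', rfl⟩ := hsurj' a
  have hlift : ∀ v ∈ RingHom.ker (E.εR S) • (⊤ : Submodule (E.AR' S) T.M'),
      ∃ v' ∈ RingHom.ker (E.εR R) • (⊤ : Submodule (E.AR' R) T'.M'), b.fM' v' = v := by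
    intro v hv
    induction hv using Submodule.smul_induction_on' with
    | smul c hc x _ =>
      obtain ⟨x', rfl⟩ := hf x
      obtain ⟨c', rfl⟩ := hsurj' c
      refine ⟨(c' - algebraMap R (E.AR' R) (E.εR R c')) • x',
        Submodule.smul_mem_smul
          (by rw [RingHom.mem_ker, map_sub, AlgHom.commutes]; simp) Submodule.mem_top, ?_⟩
      rw [LinearMap.map_smulₛₗ]
      congr 1
      have h0 : algebraMap R S (E.εR R c') = 0 := by
        rw [← E.εR_bcA' c']
        exact hc
      change E.bcA' R S (c' - algebraMap R (E.AR' R) (E.εR R c')) = E.bcA' R S c'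
      rw [map_sub, TwoCover.bcA', bcMap_algebraMap, IsScalarTower.algebraMap_apply R S (E.AR' S),
        h0, map_zero, sub_zero]
    | add x _ z _ hx hz =>
      obtain ⟨x', hx', rfl⟩ := hx
      obtain ⟨z', hz', rfl⟩ := hz
      exact ⟨x' + z', add_mem hx' hz', map_add _ _ _⟩
  obtain ⟨v', hv', rfl⟩ := hlift v hv
  refine Submodule.mem_sup.mpr ⟨a' • μ' + v', add_mem
    (Submodule.mem_sup_left (Submodule.mem_span_singleton.mpr ⟨a', rfl⟩))
    (Submodule.mem_sup_right hv'), y - (a' • μ' + v'), ?_, add_sub_cancel _ _⟩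
  refine mem_ker_smul_top b.fM' b.gen' ?_
  rw [map_sub, map_add, LinearMap.map_smulₛₗ, sub_eq_zero]
  exact huv.symm

end Triple

end FLTA.Jacobian
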