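import Fermat.Agent.Jacobian.ChartGoodAux

/-!
# The chart condition
-/

set_option autoImplicit false

universe u

open TensorProduct
open scoped FLTA.Jacobian.TwoCover FLTA.Jacobian.Triple

namespace FLTA.Jacobian

variable {k : Type u} [Field k] {E : TwoCover k}

namespace Triple

variable {R : Type u} [CommRing R] [Algebra k R]
  {S : Type u} [CommRing S] [Algebra k S] [Algebra R S] [IsScalarTower k R S]
  {g : ℕ} {b : Fin g → E.A} {T : Triple E R}

attribute [local instance] modRM modRM' modRN towRSM towRSM' towRSN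

theorem IsGood.baseChange {T' : Triple E S} (h : IsGood b T) (bcT : BaseChange T T') :
    IsGood b T' := by
  obtain ⟨h1, σ, hσ, hd⟩ := isGood_iff.mp h
  exact isGood_iff.mpr
    ⟨bcT.h1_subsingleton h1, bcT.sect σ, bcT.sect_span h1 hσ, hd.baseChange bcT⟩

theorem IsGood.of_iso {T' : Triple E R} (h : IsGood b T) (e : Iso T T') : IsGood b T' :=
  h.baseChange ((BaseChange.refl T).congrRight e)

/-- `Φ` holds on a neighbourhood of `p`. -/
def Near (T : Triple E R) (p : PrimeSpectrum R)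
    (Φ : ∀ (U : Type u) [CommRing U] [Algebra k U], Triple E U → Prop) : Prop :=
  ∃ f : R, f ∉ p.asIdeal ∧ ∀ (U : Type u) [CommRing U] [Algebra k U] [Algebra R U]
    [IsScalarTower k R U], IsUnit (algebraMap R U f) → ∀ TU : Triple E U,
      BaseChange T TU → Φ U TU

theorem Near.step {p : PrimeSpectrum R} {K : Type u} [Field K] [Algebra k K] [Algebra R K]
    [IsScalarTower k R K] (hK : RingHom.ker (algebraMap R K) = p.asIdeal) {TK : Triple E K}
    (bK : BaseChange T TK) {f : R} (hf : f ∉ p.asIdeal)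
    {Φ : ∀ (U : Type u) [CommRing U] [Algebra k U], Triple E U → Prop}
    (h : ∀ (R₁ : Type u) [CommRing R₁] [Algebra k R₁] [Algebra R R₁] [IsScalarTower k R R₁],
      IsUnit (algebraMap R R₁ f) → ∀ (T₁ : Triple E R₁), BaseChange T T₁ →
      ∀ [Algebra R₁ K] [IsScalarTower k R₁ K] [IsScalarTower R R₁ K]
        (q : PrimeSpectrum R₁), RingHom.ker (algebraMap R₁ K) = q.asIdeal →
        BaseChange T₁ TK → Near T₁ q Φ) : Near T p Φ := by
  have hfK : IsUnit (algebraMap R K f) :=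
    IsUnit.mk0 _ fun h0 => hf (hK ▸ (RingHom.mem_ker.mpr h0))
  let R₁ := Localization.Away f
  let φK : R₁ →+* K := IsLocalization.Away.lift f hfK
  let := φK.toAlgebra
  have t1 : IsScalarTower R R₁ K :=
    IsScalarTower.of_algebraMap_eq fun x => (IsLocalization.Away.lift_eq f hfK x).symm
  have t2 : IsScalarTower k R₁ K := IsScalarTower.of_algebraMap_eq fun x => by
    rw [IsScalarTower.algebraMap_apply k R K, IsScalarTower.algebraMap_apply k R R₁,
      ← IsScalarTower.algebraMap_apply R R₁ K]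
  let T₁ := T.bc R₁
  let b₁ : BaseChange T T₁ := T.bcBaseChange R₁
  let q : PrimeSpectrum R₁ := ⟨RingHom.ker (algebraMap R₁ K), RingHom.ker_isPrime _⟩
  obtain ⟨f₂, hf₂, hΦ⟩ := h R₁ (IsLocalization.Away.algebraMap_isUnit f) T₁ b₁ q rfl
    (b₁.descend bK)
  obtain ⟨n, a, ha⟩ := IsLocalization.Away.surj f f₂
  have hap : a ∉ p.asIdeal := by
    intro hap
    have h0 : algebraMap R₁ K (algebraMap R R₁ a) = 0 := by
      rw [← IsScalarTower.algebraMap_apply]
      exact RingHom.mem_ker.mp (hK ▸ hap)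
    rw [← ha, map_mul, map_pow, ← IsScalarTower.algebraMap_apply] at h0
    exact hf₂ ((mul_eq_zero.mp h0).resolve_right (hfK.pow n).ne_zero)
  refine ⟨f * a, p.isPrime.mul_notMem hf hap, fun U _ _ _ _ hu TU bU => ?_⟩
  rw [map_mul, IsUnit.mul_iff] at hu
  let φU : R₁ →+* U := IsLocalization.Away.lift f hu.1
  let := φU.toAlgebra
  have u1 : IsScalarTower R R₁ U :=
    IsScalarTower.of_algebraMap_eq fun x => (IsLocalization.Away.lift_eq f hu.1 x).symm
  have u2 : IsScalarTower k R₁ U := IsScalarTower.of_algebraMap_eq fun x => by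
    rw [IsScalarTower.algebraMap_apply k R U, IsScalarTower.algebraMap_apply k R R₁,
      ← IsScalarTower.algebraMap_apply R R₁ U]
  refine hΦ U ?_ TU (b₁.descend bU)
  have h2 : algebraMap R₁ U f₂ * algebraMap R U f ^ n = algebraMap R U a := by
    rw [IsScalarTower.algebraMap_apply R R₁ U f, IsScalarTower.algebraMap_apply R R₁ U a,
      ← map_pow, ← map_mul, ha]
  exact (IsUnit.mul_iff.mp (h2 ▸ hu.2)).1

theorem IsGood.exists_away (p : PrimeSpectrum R) {K : Type u} [Field K] [Algebra k K]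
    [Algebra R K] [IsScalarTower k R K] (hK : RingHom.ker (algebraMap R K) = p.asIdeal)
    {TK : Triple E K} (bcT : BaseChange T TK) (h : IsGood b TK) :
    ∃ f : R, f ∉ p.asIdeal ∧ ∀ (U : Type u) [CommRing U] [Algebra k U] [Algebra R U]
      [IsScalarTower k R U], IsUnit (algebraMap R U f) → ∀ TU : Triple E U,
        BaseChange T TU → IsGood b TU := by
  obtain ⟨h1K, σ, hσ, hdσ⟩ := isGood_iff.mp h
  have hσ0 : σ ≠ 0 := by
    intro h0
    obtain ⟨ℓ, -, hℓ, -⟩ := hdσ.1.exists_functional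
    rw [h0] at hℓ
    exact zero_ne_one ((map_zero ℓ).symm.trans hℓ)
  obtain ⟨f₁, hf₁, hU₁⟩ := T.h1_open p hK bcT h1K
  -- kill the first cohomology
  refine Near.step (Φ := fun U _ _ TU => IsGood b TU) hK bcT hf₁
    fun R₁ _ _ _ _ hu₁ T₁ b₁ _ _ _ q hq bK₁ => ?_
  have hR₁ : Subsingleton T₁.H1 := hU₁ R₁ hu₁ T₁ b₁
  obtain ⟨x, hx⟩ := exists_sect_span bK₁ hR₁ hσ0 hσ
  have hdx : TK.HasDivisor b (bK₁.sect x) := hasDivisor_of_span h hx
  obtain ⟨f₂, hf₂, hx₂⟩ := exists_ann_h0 q hq bK₁ hR₁ hx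
  obtain ⟨f₃, hf₃, hx₃⟩ := exists_ann_generates q hq bK₁ (μ := x.1.2) hdx.1
  -- make `x` a generator
  refine Near.step (Φ := fun U _ _ TU => IsGood b TU) hq bK₁ (q.isPrime.mul_notMem hf₂ hf₃)
    fun R₂ _ _ _ _ hu₂ T₂ b₂ _ _ _ r hr bK₂ => ?_
  rw [map_mul, IsUnit.mul_iff] at hu₂
  have hR₂ : Subsingleton T₂.H1 := b₂.h1_subsingleton hR₁
  let y := b₂.sect x
  have hy : Submodule.span R₂ {y} = ⊤ := by
    obtain ⟨e, he⟩ := b₂.h0_base_change hR₁
    rw [eq_top_iff]
    intro z _
    obtain ⟨w, rfl⟩ := e.surjective z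
    induction w using TensorProduct.induction_on with
    | zero => rw [map_zero]; exact zero_mem _
    | add u v hu hv => rw [map_add]; exact add_mem (hu trivial) (hv trivial)
    | tmul c m =>
      obtain ⟨a, ha⟩ := Submodule.mem_span_singleton.mp (hx₂ m)
      obtain ⟨v, hv⟩ := hu₂.1.exists_left_inv
      have hc : c ⊗ₜ[R₁] m = (c * v * algebraMap R₁ R₂ a) • ((1 : R₂) ⊗ₜ[R₁] x) := by
        rw [TensorProduct.smul_tmul', smul_eq_mul, mul_one, mul_comm _ (algebraMap R₁ R₂ a),
          ← Algebra.smul_def, TensorProduct.smul_tmul, ha, ← TensorProduct.smul_tmul,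
          Algebra.smul_def, mul_comm, mul_assoc, hv, mul_one]
      rw [hc, map_smul, show e (1 ⊗ₜ x) = y from Subtype.ext (he x)]
      exact Submodule.smul_mem _ _ (Submodule.mem_span_singleton_self _)
  have hgen : T₂.GeneratesAtε y.1.2 := by
    rw [GeneratesAtε, eq_top_iff]
    refine le_trans b₂.gen'.ge (Submodule.span_le.mpr ?_)
    rintro _ ⟨z, rfl⟩
    obtain ⟨v, hv⟩ := hu₂.2.exists_left_inv
    have hz : b₂.fM' z = v • b₂.fM' (f₃ • z) := by
      rw [show b₂.fM' (f₃ • z) = f₃ • b₂.fM' z from b₂.linM'.map_smul f₃ z,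
        ← algebraMap_smul R₂ f₃ (b₂.fM' z), smul_smul, hv, one_smul]
    rw [SetLike.mem_coe, hz]
    refine Submodule.smul_of_tower_mem _ v ?_
    obtain ⟨u, hu, w, hw, huw⟩ := Submodule.mem_sup.mp (hx₃ z)
    obtain ⟨a, rfl⟩ := Submodule.mem_span_singleton.mp hu
    rw [← huw, map_add, LinearMap.map_smulₛₗ]
    refine Submodule.add_mem _ (Submodule.mem_sup_left
      (Submodule.mem_span_singleton.mpr ⟨_, rfl⟩)) (Submodule.mem_sup_right ?_)
    clear huw
    induction hw using Submodule.smul_induction_on' with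
    | smul c hc m _ =>
      rw [LinearMap.map_smulₛₗ]
      refine Submodule.smul_mem_smul ?_ Submodule.mem_top
      change E.εR R₂ (E.bcA' R₁ R₂ c) = 0
      rw [E.εR_bcA', show E.εR R₁ c = 0 from hc, map_zero]
    | add u _ v _ hu hv => rw [map_add]; exact add_mem hu hv
  have hxK₂ : TK.HasDivisor b (bK₂.sect y) :=
    hasDivisor_of_span h (bK₂.sect_span hR₂ hy)
  obtain ⟨f₄, hf₄, hy₄⟩ := exists_ann_span_b r hr bK₂ hgen hxK₂
  -- make `b` span
  refine Near.step (Φ := fun U _ _ TU => IsGood b TU) hr bK₂ hf₄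
    fun R₃ _ _ _ _ hu₃ T₃ b₃ _ _ _ s hs bK₃ => ?_
  have hR₃ : Subsingleton T₃.H1 := b₃.h1_subsingleton hR₂
  let z := b₃.sect y
  have hz : Submodule.span R₃ {z} = ⊤ := b₃.sect_span hR₂ hy
  have hgen₃ : T₃.GeneratesAtε z.1.2 := hgen.baseChange b₃
  have hI₃ : evalIdeal (E.AR R₃) z.1.1 =
      (evalIdeal (E.AR R₂) y.1.1).map (E.bcA R₂ R₃).toRingHom := evalIdeal_map b₃.fM b₃.gen _
  have hsurj : ∀ a : E.AR R₃, ∃ c : Fin g → R₃,
      a - ∑ i, c i • bR R₃ b i ∈ evalIdeal (E.AR R₃) z.1.1 := by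
    let L := (evalIdeal (E.AR R₃) z.1.1).restrictScalars R₃ ⊔
      Submodule.span R₃ (Set.range (bR R₃ b))
    suffices hL : ∀ a, a ∈ L by
      intro a
      obtain ⟨u, hu, v, hv, rfl⟩ := Submodule.mem_sup.mp (hL a)
      obtain ⟨c, rfl⟩ := (Submodule.mem_span_range_iff_exists_fun _).mp hv
      exact ⟨c, by rwa [add_sub_cancel_right]⟩
    let := bcAlg k E.A R₂ R₃
    have := bc_tower k E.A R₂ R₃
    have hbc := (bc_isPushout k E.A R₂ R₃).out
    intro a
    induction a using hbc.inductionOn with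
    | zero => exact zero_mem _
    | smul c u hu => exact L.smul_mem c hu
    | add u v hu hv => exact add_mem hu hv
    | tmul a =>
      change E.bcA R₂ R₃ a ∈ L
      have key : ∀ w ∈ (evalIdeal (E.AR R₂) y.1.1).restrictScalars R₂ ⊔
          Submodule.span R₂ (Set.range (bR R₂ b)), E.bcA R₂ R₃ w ∈ L := by
        intro w hw
        obtain ⟨u, hu, v, hv, rfl⟩ := Submodule.mem_sup.mp hw
        rw [map_add]
        refine add_mem (Submodule.mem_sup_left ?_) (Submodule.mem_sup_right ?_)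
        · rw [Submodule.restrictScalars_mem, hI₃]
          exact Ideal.mem_map_of_mem _ hu
        · obtain ⟨c, rfl⟩ := (Submodule.mem_span_range_iff_exists_fun _).mp hv
          rw [map_sum]
          refine Submodule.sum_mem _ fun i _ => ?_
          have : E.bcA R₂ R₃ (c i • bR R₂ b i) = algebraMap R₂ R₃ (c i) • bR R₃ b i := by
            simp [TwoCover.bcA, bR, TensorProduct.smul_tmul', Algebra.smul_def]
          rw [this]
          exact Submodule.smul_mem _ _ (Submodule.subset_span ⟨i, rfl⟩)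
      obtain ⟨v, hv⟩ := hu₃.exists_left_inv
      have h4 := L.smul_mem v (key _ (hy₄ a))
      have : E.bcA R₂ R₃ (f₄ • a) = algebraMap R₂ R₃ f₄ • E.bcA R₂ R₃ a := by
        rw [algebraMap_smul]
        exact (IsScalarTower.toAlgHom R₂ (E.AR R₂) (E.AR R₃)).toLinearMap.map_smul f₄ a
      rwa [this, smul_smul, hv, one_smul] at h4
  have hxK₃ : TK.HasDivisor b (bK₃.sect z) :=
    hasDivisor_of_span h (bK₃.sect_span hR₃ hz)
  obtain ⟨f₅, lam, hf₅, hlam, hkill⟩ := exists_proj_ann s hs bK₃ hgen₃ hsurj hxK₃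
  -- make `b` independent
  refine ⟨f₅, hf₅, fun U _ _ _ _ hu₅ TU bU => ?_⟩
  refine isGood_iff.mpr ⟨bU.h1_subsingleton hR₃, bU.sect z, bU.sect_span hR₃ hz,
    hgen₃.baseChange bU, ?_⟩
  change IsBasisMod (R := U) (bR U b) (evalIdeal (E.AR U) (bU.fM z.1.1))
  rw [evalIdeal_map bU.fM bU.gen]
  obtain ⟨v, hv⟩ := hu₅.exists_left_inv
  have hzero : ∀ c : Fin g → R₃, f₅ • c = 0 →
      ((Algebra.linearMap R₃ U).compLeft (Fin g)) c = 0 := by
    intro c hc
    ext i
    have h0 : algebraMap R₃ U (f₅ * c i) = 0 := by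
      rw [← smul_eq_mul, show f₅ • c i = 0 from congrFun hc i, map_zero]
    rw [map_mul] at h0
    change algebraMap R₃ U (c i) = 0
    calc algebraMap R₃ U (c i) = v * (algebraMap R₃ U f₅ * algebraMap R₃ U (c i)) := by
          rw [← mul_assoc, hv, one_mul]
      _ = 0 := by rw [h0, mul_zero]
  refine isBasisMod_map_of (((Algebra.linearMap R₃ U).compLeft (Fin g)) ∘ₗ lam)
    (fun a ha => hzero _ (hkill _ ?_)) (fun i => ?_) (fun a => ⟨lam a, hlam a⟩)
  · convert Ideal.sub_mem _ ha (hlam a) using 1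
    abel
  · have h0 := hzero _ (hkill (Pi.single i (1 : R₃) - lam (bR R₃ b i)) ?_)
    · rw [map_sub, sub_eq_zero] at h0
      rw [LinearMap.comp_apply, ← h0]
      ext j
      simp [Pi.single_apply, apply_ite (algebraMap R₃ U)]
    · have : (∑ j, ((Pi.single i (1 : R₃) : Fin g → R₃) - lam (bR R₃ b i)) j • bR R₃ b j) =
          bR R₃ b i - ∑ j, lam (bR R₃ b i) j • bR R₃ b j := by
        simp [sub_smul, Finset.sum_sub_distrib, Pi.single_apply]
      rw [this]
      exact hlam _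

theorem IsGood.of_fibres (hμ : ∃ μ : T.M', T.GeneratesAtε μ)
    (h : ∀ (K : Type u) [Field K] [Algebra k K] [Algebra R K] [IsScalarTower k R K],
      ∀ TK : Triple E K, BaseChange T TK → IsGood b TK) :
    IsGood b T := by
  obtain ⟨μ, hμ⟩ := hμ
  obtain ⟨ℓ, hℓsmul, hℓμ, hℓ⟩ := hμ.exists_functional
  have hfib : ∀ m : Ideal R, m.IsMaximal → ∃ (K : Type u) (_ : Field K) (_ : Algebra k K)
      (_ : Algebra R K) (_ : IsScalarTower k R K) (p : PrimeSpectrum R) (TK : Triple E K)
      (_ : BaseChange T TK), p.asIdeal = m ∧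
        RingHom.ker (algebraMap R K) = p.asIdeal ∧ IsGood b TK := fun m hm => by
    let := Ideal.Quotient.field m
    exact ⟨R ⧸ m, inferInstance, inferInstance, inferInstance, inferInstance, ⟨m, hm.isPrime⟩,
      T.bc (R ⧸ m), T.bcBaseChange (R ⧸ m), rfl, Ideal.mk_ker,
      h (R ⧸ m) _ (T.bcBaseChange (R ⧸ m))⟩
  have hone : Subsingleton T.H1 := subsingleton_of_forall_eq 0 fun n =>
    eq_zero_of_forall_maximal fun m hm => by
      obtain ⟨K, _, _, _, _, p, TK, bK, rfl, hK, hgood⟩ := hfib m hm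
      have := (isGood_iff.mp hgood).1
      obtain ⟨f, hf, hf0⟩ := exists_ann_of_fibre p hK (C := T.H1) bK.h1Equiv.injective.subsingleton
      exact ⟨f, hf, hf0 n⟩
  -- a section with functional one
  obtain ⟨x, hx⟩ : ∃ x : T.H0, ℓ x.1.2 = 1 := by
    let φ : T.H0 →ₗ[R] R := ℓ ∘ₗ (LinearMap.snd R T.M T.M') ∘ₗ T.H0.subtype
    suffices htop : LinearMap.range φ = ⊤ by
      obtain ⟨x, hx⟩ := htop.ge (Submodule.mem_top (x := (1 : R)))
      exact ⟨x, hx⟩
    by_contra hne
    obtain ⟨m, hm, hle⟩ := Ideal.exists_le_maximal _ hne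
    obtain ⟨K, _, _, _, _, p, TK, bK, rfl, hK, hgood⟩ := hfib m hm
    obtain ⟨-, σ, -, hgen, -⟩ := isGood_iff.mp hgood
    obtain ⟨ℓK, hℓKs, hℓK, -⟩ := hgen.exists_functional
    obtain ⟨e, he⟩ := bK.h0_base_change hone
    have hzero : ∀ w : K ⊗[R] T.H0, ℓK (e w).1.2 = 0 := by
      intro w
      induction w using TensorProduct.induction_on with
      | zero => simp
      | add u v hu hv => simp [hu, hv]
      | tmul c z =>
        rw [show c ⊗ₜ[R] z = c • ((1 : K) ⊗ₜ[R] z) by
          rw [TensorProduct.smul_tmul', smul_eq_mul, mul_one], map_smul, Submodule.coe_smul,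
          Prod.smul_snd, map_smul, he]
        have h1 : bK.fM' z.1.2 = algebraMap R K (ℓ z.1.2) • bK.fM' μ +
            bK.fM' (z.1.2 - ℓ z.1.2 • μ) := by
          rw [algebraMap_smul, ← show bK.fM' (ℓ z.1.2 • μ) = ℓ z.1.2 • bK.fM' μ from
            bK.linM'.map_smul _ _, ← map_add, add_sub_cancel]
        have h2 : algebraMap R K (ℓ z.1.2) = 0 := by
          rw [← RingHom.mem_ker, hK]
          exact hle ⟨z, rfl⟩
        have h3 : ℓK (bK.fM' (z.1.2 - ℓ z.1.2 • μ)) = 0 := by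
          have hmem := hℓ z.1.2
          generalize z.1.2 - ℓ z.1.2 • μ = w' at hmem ⊢
          induction hmem using Submodule.smul_induction_on' with
          | smul a ha v _ =>
            rw [LinearMap.map_smulₛₗ, hℓKs]
            change E.εR K (E.bcA' R K a) * _ = 0
            rw [E.εR_bcA', show E.εR R a = 0 from ha, map_zero, zero_mul]
          | add u _ v _ hu hv => rw [map_add, map_add, hu, hv, add_zero]
        change c • ℓK (bK.fM' z.1.2) = 0
        rw [h1, h2, zero_smul, zero_add, h3, smul_zero]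
    obtain ⟨w, hw⟩ := e.surjective σ
    have := hzero w
    rw [hw, hℓK] at this
    exact one_ne_zero this
  have hgen : T.GeneratesAtε x.1.2 :=
    generatesAtε_of_functional hℓ (by rw [hx]; exact isUnit_one)
  have hsect : ∀ {K : Type u} [Field K] [Algebra k K] [Algebra R K] [IsScalarTower k R K]
      {TK : Triple E K} (bK : BaseChange T TK), IsGood b TK →
      Submodule.span K {bK.sect x} = ⊤ := by
    intro K _ _ _ _ TK bK hgood
    obtain ⟨-, σ, hσ, -⟩ := isGood_iff.mp hgood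
    obtain ⟨c, hc⟩ := Submodule.mem_span_singleton.mp
      (hσ.ge (Submodule.mem_top (x := bK.sect x)))
    obtain ⟨ℓK, -, hℓK, -⟩ := (hgen.baseChange bK).exists_functional
    rw [← hc, Submodule.span_singleton_smul_eq (IsUnit.mk0 c fun h0 => ?_)]
    · exact hσ
    · rw [h0, zero_smul] at hc
      have : bK.fM' x.1.2 = 0 := (congrArg (fun w : TK.H0 => w.1.2) hc).symm
      rw [this, map_zero] at hℓK
      exact zero_ne_one hℓK
  refine isGood_iff.mpr ⟨hone, x, ?_, hgen, ?_⟩
  · rw [eq_top_iff]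
    intro y _
    rw [← Submodule.Quotient.mk_eq_zero]
    refine eq_zero_of_forall_maximal (R := R) fun m hm => ?_
    obtain ⟨K, _, _, _, _, p, TK, bK, rfl, hK, hgood⟩ := hfib m hm
    obtain ⟨f, hf, hf0⟩ := exists_ann_h0 p hK bK hone (hsect bK hgood)
    exact ⟨f, hf, by rw [← Submodule.Quotient.mk_smul]; exact (Submodule.Quotient.mk_eq_zero _).mpr (hf0 y)⟩
  · have hs : ∀ a : E.AR R, ∃ r : Fin g → R,
        a - ∑ i, r i • bR R b i ∈ evalIdeal (E.AR R) x.1.1 := by
      intro a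
      have ha : a ∈ (evalIdeal (E.AR R) x.1.1).restrictScalars R ⊔
          Submodule.span R (Set.range (bR R b)) := by
        rw [← Submodule.Quotient.mk_eq_zero]
        refine eq_zero_of_forall_maximal (R := R) fun m hm => ?_
        obtain ⟨K, _, _, _, _, p, TK, bK, rfl, hK, hgood⟩ := hfib m hm
        obtain ⟨f, hf, hf0⟩ := exists_ann_span_b p hK bK hgen
          (hasDivisor_of_span hgood (hsect bK hgood))
        exact ⟨f, hf, by
          rw [← Submodule.Quotient.mk_smul]; exact (Submodule.Quotient.mk_eq_zero _).mpr (hf0 a)⟩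
      obtain ⟨u, hu, v, hv, rfl⟩ := Submodule.mem_sup.mp ha
      obtain ⟨r, rfl⟩ := (Submodule.mem_span_range_iff_exists_fun _).mp hv
      exact ⟨r, by rwa [add_sub_cancel_right]⟩
    refine ⟨fun r r' hrr => ?_, fun z => ?_⟩
    · rw [← sub_eq_zero]
      refine eq_zero_of_forall_maximal (R := R) fun m hm => ?_
      obtain ⟨K, _, _, _, _, p, TK, bK, rfl, hK, hgood⟩ := hfib m hm
      obtain ⟨f, lam, hf, -, hkill⟩ := exists_proj_ann p hK bK hgen hs
        (hasDivisor_of_span hgood (hsect bK hgood))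
      refine ⟨f, hf, hkill _ ?_⟩
      simpa [sub_smul, Finset.sum_sub_distrib] using Ideal.Quotient.eq.mp hrr
    · obtain ⟨a, rfl⟩ := Ideal.Quotient.mk_surjective z
      obtain ⟨r, hr⟩ := hs a
      exact ⟨r, (Ideal.Quotient.eq.mpr hr).symm⟩

end Triple

end FLTA.Jacobian
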