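import Fermat.Agent.Jacobian.ChartSection

/-!
# The chart condition: fibrewise criteria
-/

set_option autoImplicit false

universe u

open TensorProduct Polynomial
open scoped FLTA.Jacobian.TwoCover FLTA.Jacobian.Triple

namespace FLTA.Jacobian

variable {k : Type u} [Field k] {E : TwoCover k}

namespace Triple

variable {R : Type u} [CommRing R] [Algebra k R]
  {S : Type u} [CommRing S] [Algebra k S] [Algebra R S] [IsScalarTower k R S]
  {T : Triple E R} {T' : Triple E S} {g : ℕ} {b : Fin g → E.A}

attribute [local instance] modRM modRM' modRN towRSM towRSM' towRSN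

/-- A base change factors through an intermediate one. -/
noncomputable def BaseChange.descend {U : Type u} [CommRing U] [Algebra k U] [Algebra R U]
    [Algebra S U] [IsScalarTower k R U] [IsScalarTower k S U] [IsScalarTower R S U]
    {TU : Triple E U} (b₁ : BaseChange T T') (bU : BaseChange T TU) : BaseChange T' TU :=
  (T'.bcBaseChange U).congrRight ((b₁.trans (T'.bcBaseChange U)).iso bU)

theorem BaseChange.sect_span (bc : BaseChange T T') (h : Subsingleton T.H1) {x : T.H0}
    (hx : Submodule.span R {x} = ⊤) : Submodule.span S {bc.sect x} = ⊤ := by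
  obtain ⟨e, he⟩ := bc.h0_base_change h
  have hex : e (1 ⊗ₜ x) = bc.sect x := Subtype.ext (he x)
  rw [eq_top_iff]
  intro z _
  obtain ⟨w, rfl⟩ := e.surjective z
  induction w using TensorProduct.induction_on with
  | zero => rw [map_zero]; exact zero_mem _
  | add u v hu hv => rw [map_add]; exact add_mem (hu trivial) (hv trivial)
  | tmul s y =>
    obtain ⟨r, rfl⟩ := Submodule.mem_span_singleton.mp (hx.ge (Submodule.mem_top (x := y)))
    rw [TensorProduct.tmul_smul, TensorProduct.smul_tmul',
      show (r • s) ⊗ₜ[R] x = (r • s) • ((1 : S) ⊗ₜ[R] x) by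
        rw [TensorProduct.smul_tmul', smul_eq_mul, mul_one],
      map_smul, hex]
    exact Submodule.smul_mem _ _ (Submodule.mem_span_singleton_self _)

theorem exists_sect_span {K : Type u} [Field K] [Algebra k K] [Algebra R K]
    [IsScalarTower k R K] {TK : Triple E K} (bc : BaseChange T TK) (h : Subsingleton T.H1)
    {σ : TK.H0} (hσ : σ ≠ 0) (hs : Submodule.span K {σ} = ⊤) :
    ∃ x : T.H0, Submodule.span K {bc.sect x} = ⊤ := by
  obtain ⟨e, he⟩ := bc.h0_base_change h
  by_cases hall : ∀ x : T.H0, bc.sect x = 0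
  · exfalso
    obtain ⟨w, hw⟩ := e.surjective σ
    apply hσ
    rw [← hw]
    clear hw
    induction w using TensorProduct.induction_on with
    | zero => exact map_zero _
    | add u v hu hv => rw [map_add, hu, hv, add_zero]
    | tmul s y =>
      rw [show s ⊗ₜ[R] y = s • ((1 : K) ⊗ₜ[R] y) by
        rw [TensorProduct.smul_tmul', smul_eq_mul, mul_one], map_smul,
        show e (1 ⊗ₜ y) = bc.sect y from Subtype.ext (he y), hall, smul_zero]
  · push Not at hall
    obtain ⟨x, hx⟩ := hall
    refine ⟨x, ?_⟩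
    obtain ⟨c, hc⟩ := Submodule.mem_span_singleton.mp (hs.ge (Submodule.mem_top (x := bc.sect x)))
    rw [← hc, Submodule.span_singleton_smul_eq (IsUnit.mk0 c fun h0 => hx (by rw [← hc, h0, zero_smul]))]
    exact hs

theorem hasDivisor_of_span {K : Type u} [Field K] [Algebra k K] {TK : Triple E K}
    (h : TK.IsGood b) {x : TK.H0} (hx : Submodule.span K {x} = ⊤) : TK.HasDivisor b x := by
  obtain ⟨-, σ, hspan, hfree, -⟩ := id h
  obtain ⟨-, τ, hτ, hgen, hbas⟩ := isGood_iff.mp h
  obtain ⟨c, hc⟩ := Submodule.mem_span_singleton.mp (hτ.ge (Submodule.mem_top (x := x)))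
  have hc0 : c ≠ 0 := by
    intro h0
    rw [h0, zero_smul] at hc
    rw [← hc, Submodule.span_singleton_eq_bot.mpr rfl] at hx
    have : σ = 0 := (Submodule.mem_bot K).mp (hx.ge Submodule.mem_top)
    exact one_ne_zero (hfree 1 (by rw [this, smul_zero]))
  obtain ⟨ℓ, -, hℓ, hμ⟩ := hgen.exists_functional
  subst hc
  refine ⟨generatesAtε_of_functional hμ ?_, ?_⟩
  · change IsUnit (ℓ (c • τ.1.2))
    rw [map_smul, hℓ, smul_eq_mul, mul_one]
    exact IsUnit.mk0 c hc0
  · have : evalIdeal (E.AR K) ((c • τ : TK.H0).1.1) = evalIdeal (E.AR K) τ.1.1 := by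
      refine le_antisymm ?_ ?_
      · rintro _ ⟨φ, rfl⟩
        refine ⟨algebraMap K (E.AR K) c • φ, ?_⟩
        change algebraMap K (E.AR K) c * φ τ.1.1 = φ (c • τ.1.1)
        rw [← algebraMap_smul (E.AR K) c τ.1.1, map_smul, smul_eq_mul]
      · rintro _ ⟨φ, rfl⟩
        refine ⟨algebraMap K (E.AR K) c⁻¹ • φ, ?_⟩
        change algebraMap K (E.AR K) c⁻¹ * φ (c • τ.1.1) = φ τ.1.1
        rw [← algebraMap_smul (E.AR K) c τ.1.1, map_smul, smul_eq_mul, ← mul_assoc, ← map_mul,
          inv_mul_cancel₀ hc0, map_one, one_mul]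
    rw [this]
    exact hbas

section Fibre

variable {K : Type u} [Field K] [Algebra k K] [Algebra R K] [IsScalarTower k R K]
  {TK : Triple E K} (p : PrimeSpectrum R) (hK : RingHom.ker (algebraMap R K) = p.asIdeal)
  (bc : BaseChange T TK)
include hK

theorem exists_ann_h0 (h : Subsingleton T.H1) {x : T.H0}
    (hx : Submodule.span K {bc.sect x} = ⊤) :
    ∃ f : R, f ∉ p.asIdeal ∧ ∀ y : T.H0, f • y ∈ Submodule.span R {x} := by
  have := T.finite_h0_of_h1 h
  obtain ⟨e, he⟩ := bc.h0_base_change h
  have hsub : Subsingleton (K ⊗[R] (T.H0 ⧸ Submodule.span R {x})) := by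
    refine subsingleton_of_forall_eq 0 fun z => ?_
    induction z using TensorProduct.induction_on with
    | zero => rfl
    | add u v hu hv => rw [hu, hv, add_zero]
    | tmul c w =>
      induction w using Submodule.Quotient.induction_on with
      | H y =>
        obtain ⟨d, hd⟩ := Submodule.mem_span_singleton.mp (hx.ge (Submodule.mem_top (x := bc.sect y)))
        have h1 : (1 : K) ⊗ₜ[R] y = d • ((1 : K) ⊗ₜ[R] x) := by
          apply e.injective
          rw [map_smul, show e (1 ⊗ₜ x) = bc.sect x from Subtype.ext (he x),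
            show e (1 ⊗ₜ y) = bc.sect y from Subtype.ext (he y), hd]
        have h2 := congrArg ((Submodule.span R {x}).mkQ.baseChange K) h1
        rw [map_smul, LinearMap.baseChange_tmul, LinearMap.baseChange_tmul, Submodule.mkQ_apply,
          Submodule.mkQ_apply,
          (Submodule.Quotient.mk_eq_zero _).mpr (Submodule.mem_span_singleton_self x),
          TensorProduct.tmul_zero, smul_zero] at h2
        rw [show c ⊗ₜ[R] (Submodule.Quotient.mk y : T.H0 ⧸ Submodule.span R {x}) =
          c • ((1 : K) ⊗ₜ[R] Submodule.Quotient.mk y) by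
            rw [TensorProduct.smul_tmul', smul_eq_mul, mul_one], h2, smul_zero]
  obtain ⟨f, hf, h0⟩ := exists_ann_of_fibre p hK hsub
  exact ⟨f, hf, fun y => (Submodule.Quotient.mk_eq_zero _).mp (h0 (Submodule.Quotient.mk y))⟩

theorem exists_ann_generates {μ : T.M'} (hμ : TK.GeneratesAtε (bc.fM' μ)) :
    ∃ f : R, f ∉ p.asIdeal ∧ ∀ y : T.M', f • y ∈ Submodule.span (E.AR' R) {μ} ⊔
      RingHom.ker (E.εR R) • (⊤ : Submodule (E.AR' R) T.M') := by
  classical
  let L := Submodule.span (E.AR' R) {μ} ⊔
    RingHom.ker (E.εR R) • (⊤ : Submodule (E.AR' R) T.M')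
  obtain ⟨n, m, hm⟩ := Module.Finite.exists_fin (R := E.AR' R) (M := T.M')
  have : Module.Finite R (T.M' ⧸ L) := by
    refine Module.Finite.of_surjective (Fintype.linearCombination R
      fun i => (Submodule.Quotient.mk (m i) : T.M' ⧸ L)) fun z => ?_
    induction z using Submodule.Quotient.induction_on with
    | H y =>
      obtain ⟨a, rfl⟩ := (Submodule.mem_span_range_iff_exists_fun _).mp
        (hm.ge (Submodule.mem_top (x := y)))
      refine ⟨fun i => E.εR R (a i), ?_⟩
      rw [Fintype.linearCombination_apply]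
      change ∑ i, E.εR R (a i) • L.mkQ (m i) = L.mkQ (∑ i, a i • m i)
      rw [map_sum, ← sub_eq_zero, ← Finset.sum_sub_distrib]
      refine Finset.sum_eq_zero fun i _ => ?_
      rw [← algebraMap_smul (E.AR' R) (E.εR R (a i)), ← map_smul, ← map_sub, Submodule.mkQ_apply,
        Submodule.Quotient.mk_eq_zero, ← sub_smul]
      exact Submodule.mem_sup_right (Submodule.smul_mem_smul
        (by rw [RingHom.mem_ker, map_sub, AlgHom.commutes]; simp) Submodule.mem_top)
  let ψ : TK.M' →ₗ[K] K ⊗[R] (T.M' ⧸ L) := bc.isBaseChange_M'.lift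
    ((TensorProduct.mk R K (T.M' ⧸ L) 1) ∘ₗ L.mkQ.restrictScalars R)
  have hψ : ∀ y, ψ (bc.fM' y) = 1 ⊗ₜ Submodule.Quotient.mk y := fun y =>
    bc.isBaseChange_M'.lift_eq _ y
  have hL : ∀ (y : T.M'), y ∈ L → ψ (bc.fM' y) = 0 := fun y hy => by
    rw [hψ, (Submodule.Quotient.mk_eq_zero L).mpr hy, TensorProduct.tmul_zero]
  let := bcAlg k E.A' R K
  have := bc_tower k E.A' R K
  have hbc := (bc_isPushout k E.A' R K).out
  let J : Ideal (E.AR' K) :=
    { carrier := {r | ∀ z, ψ (r • z) = 0}
      add_mem' := fun {r r'} hr hr' z => by rw [add_smul, map_add, hr z, hr' z, add_zero]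
      zero_mem' := fun z => by rw [zero_smul, map_zero]
      smul_mem' := fun c r hr z => by
        rw [smul_eq_mul, mul_comm, mul_smul]
        exact hr _ }
  have hJ : RingHom.ker (E.εR K) ≤ J := E.ker_εR_le fun a ha z => by
    induction z using bc.isBaseChange_M'.inductionOn with
    | zero => rw [smul_zero, map_zero]
    | smul c z hz => rw [smul_comm, map_smul, hz, smul_zero]
    | add u v hu hv => rw [smul_add, map_add, hu, hv, add_zero]
    | tmul y =>
      have h1 : ((1 : K) ⊗ₜ[k] a : E.AR' K) = E.bcA' R K ((1 : R) ⊗ₜ[k] a) := by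
        simp [TwoCover.bcA']
      change ψ (((1 : K) ⊗ₜ[k] a : E.AR' K) • bc.fM' y) = 0
      rw [h1]
      change ψ ((E.bcA' R K).toRingHom ((1 : R) ⊗ₜ[k] a) • bc.fM' y) = 0
      rw [← LinearMap.map_smulₛₗ]
      refine hL _ (Submodule.mem_sup_right (Submodule.smul_mem_smul ?_ Submodule.mem_top))
      rw [RingHom.mem_ker, E.εR_tmul, ha, map_zero, mul_zero]
  have hgen : ∀ a : E.AR' K, ψ (a • bc.fM' μ) = 0 := by
    intro a
    induction a using hbc.inductionOn with
    | zero => rw [zero_smul, map_zero]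
    | smul c a ha => rw [smul_assoc, map_smul, ha, smul_zero]
    | add u v hu hv => rw [add_smul, map_add, hu, hv, add_zero]
    | tmul a' =>
      change ψ ((E.bcA' R K).toRingHom a' • bc.fM' μ) = 0
      rw [← LinearMap.map_smulₛₗ]
      exact hL _ (Submodule.mem_sup_left (Submodule.smul_mem _ _
        (Submodule.mem_span_singleton_self μ)))
  have hzero : ∀ z, ψ z = 0 := by
    intro z
    obtain ⟨u, hu, v, hv, rfl⟩ := Submodule.mem_sup.mp (hμ.ge (Submodule.mem_top (x := z)))
    obtain ⟨a, rfl⟩ := Submodule.mem_span_singleton.mp hu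
    rw [map_add, hgen, zero_add]
    induction hv using Submodule.smul_induction_on' with
    | smul r hr w _ => exact hJ hr w
    | add v _ w _ hv hw => rw [map_add, hv, hw, add_zero]
  have hsub : Subsingleton (K ⊗[R] (T.M' ⧸ L)) := by
    refine subsingleton_of_forall_eq 0 fun z => ?_
    induction z using TensorProduct.induction_on with
    | zero => rfl
    | add u v hu hv => rw [hu, hv, add_zero]
    | tmul c w =>
      induction w using Submodule.Quotient.induction_on with
      | H y =>
        rw [show c ⊗ₜ[R] (Submodule.Quotient.mk y : T.M' ⧸ L) =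
          c • ((1 : K) ⊗ₜ[R] Submodule.Quotient.mk y) by
            rw [TensorProduct.smul_tmul', smul_eq_mul, mul_one], ← hψ, hzero, smul_zero]
  obtain ⟨f, hf, h0⟩ := exists_ann_of_fibre p hK hsub
  refine ⟨f, hf, fun y => ?_⟩
  exact (Submodule.Quotient.mk_eq_zero L).mp
    ((Submodule.Quotient.mk_smul L f y).trans (h0 (Submodule.Quotient.mk y)))

theorem exists_ann_span_b {x : T.H0} (hx : T.GeneratesAtε x.1.2)
    (hd : TK.HasDivisor b (bc.sect x)) :
    ∃ f : R, f ∉ p.asIdeal ∧ ∀ a : E.AR R, f • a ∈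
      (evalIdeal (E.AR R) x.1.1).restrictScalars R ⊔ Submodule.span R (Set.range (bR R b)) := by
  classical
  obtain ⟨-, P, hP, hPI⟩ := hx.exists_monic
  have := E.isDomain_A
  obtain ⟨ρ, hρ, -, G, hG⟩ := exists_rem (R := R) E.finite E.aeval_t_injective hP
  let L := (evalIdeal (E.AR R) x.1.1).restrictScalars R ⊔ Submodule.span R (Set.range (bR R b))
  have : Module.Finite R (E.AR R ⧸ L) := by
    constructor
    refine ⟨G.image L.mkQ, ?_⟩
    rw [Finset.coe_image, Submodule.span_image, eq_top_iff]
    intro z _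
    induction z using Submodule.Quotient.induction_on with
    | H a =>
      refine ⟨ρ a, hG a, ?_⟩
      rw [Submodule.mkQ_apply, Submodule.Quotient.eq, ← neg_sub a (ρ a)]
      exact L.neg_mem (Submodule.mem_sup_left
        ((Ideal.span_singleton_le_iff_mem _).mpr hPI (hρ a)))
  let := bcAlg k E.A R K
  have := bc_tower k E.A R K
  have hbc := (bc_isPushout k E.A R K).out
  let ψ : E.AR K →ₗ[K] K ⊗[R] (E.AR R ⧸ L) :=
    hbc.lift ((TensorProduct.mk R K (E.AR R ⧸ L) 1) ∘ₗ L.mkQ)
  have hψ : ∀ a, ψ (E.bcA R K a) = 1 ⊗ₜ Submodule.Quotient.mk a := fun a => hbc.lift_eq _ a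
  have hL : ∀ a, a ∈ L → ψ (E.bcA R K a) = 0 := fun a ha => by
    rw [hψ, (Submodule.Quotient.mk_eq_zero L).mpr ha, TensorProduct.tmul_zero]
  have hI : ∀ z ∈ evalIdeal (E.AR K) (bc.fM x.1.1), ∀ c, ψ (c * z) = 0 := by
    rw [evalIdeal_map bc.fM bc.gen]
    intro z hz
    induction hz using Submodule.span_induction with
    | mem y hy =>
      obtain ⟨a, ha, rfl⟩ := hy
      intro c
      induction c using hbc.inductionOn with
      | zero => rw [zero_mul, map_zero]
      | tmul a' =>
        change ψ (E.bcA R K a' * E.bcA R K a) = 0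
        rw [← map_mul]
        exact hL _ (Submodule.mem_sup_left (Ideal.mul_mem_left _ a' ha))
      | smul s c hc => rw [smul_mul_assoc, map_smul, hc, smul_zero]
      | add c c' hc hc' => rw [add_mul, map_add, hc, hc', add_zero]
    | zero => intro c; rw [mul_zero, map_zero]
    | add u v _ _ hu hv => intro c; rw [mul_add, map_add, hu c, hv c, add_zero]
    | smul d y _ hy => intro c; rw [smul_eq_mul, ← mul_assoc]; exact hy _
  have hzero : ∀ z, ψ z = 0 := by
    intro z
    obtain ⟨r, hr⟩ := hd.2.2 (Ideal.Quotient.mk _ z)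
    have h1 := hI _ (Ideal.Quotient.eq.mp hr) 1
    rw [one_mul, map_sub, sub_eq_zero] at h1
    rw [← h1, map_sum]
    refine Finset.sum_eq_zero fun i _ => ?_
    have : (bR K b i : E.AR K) = E.bcA R K (bR R b i) := by simp [bR, TwoCover.bcA]
    rw [map_smul, this, hL _ (Submodule.mem_sup_right (Submodule.subset_span ⟨i, rfl⟩)), smul_zero]
  have hsub : Subsingleton (K ⊗[R] (E.AR R ⧸ L)) := by
    refine subsingleton_of_forall_eq 0 fun z => ?_
    induction z using TensorProduct.induction_on with
    | zero => rfl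
    | add u v hu hv => rw [hu, hv, add_zero]
    | tmul c w =>
      induction w using Submodule.Quotient.induction_on with
      | H y =>
        rw [show c ⊗ₜ[R] (Submodule.Quotient.mk y : E.AR R ⧸ L) =
          c • ((1 : K) ⊗ₜ[R] Submodule.Quotient.mk y) by
            rw [TensorProduct.smul_tmul', smul_eq_mul, mul_one], ← hψ, hzero, smul_zero]
  obtain ⟨f, hf, h0⟩ := exists_ann_of_fibre p hK hsub
  refine ⟨f, hf, fun a => ?_⟩
  exact (Submodule.Quotient.mk_eq_zero L).mp
    ((Submodule.Quotient.mk_smul L f a).trans (h0 (Submodule.Quotient.mk a)))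

theorem exists_proj_ann {x : T.H0} (hx : T.GeneratesAtε x.1.2)
    (hs : ∀ a : E.AR R, ∃ r : Fin g → R,
      a - ∑ i, r i • bR R b i ∈ evalIdeal (E.AR R) x.1.1)
    (hd : TK.HasDivisor b (bc.sect x)) :
    ∃ (f : R) (lam : E.AR R →ₗ[R] Fin g → R), f ∉ p.asIdeal ∧
      (∀ a, a - ∑ i, lam a i • bR R b i ∈ evalIdeal (E.AR R) x.1.1) ∧
      ∀ r : Fin g → R, (∑ i, r i • bR R b i) ∈ evalIdeal (E.AR R) x.1.1 → f • r = 0 := by
  classical
  obtain ⟨-, P, hP, φ₀, hφ₀⟩ := hx.exists_monic
  have := E.isDomain_A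
  obtain ⟨ρ, hρ, hρP, G, hG⟩ := exists_rem (R := R) E.finite E.aeval_t_injective hP
  let I := evalIdeal (E.AR R) x.1.1
  have hPI : aeval (E.tR R) P ∈ I := ⟨φ₀, hφ₀⟩
  let lc := Fintype.linearCombination R (bR R b)
  let β : (Fin g → R) →ₗ[R] E.AR R ⧸ I := (Ideal.Quotient.mkₐ R I).toLinearMap ∘ₗ lc
  have hβ : Function.Surjective β := by
    intro z
    obtain ⟨a, rfl⟩ := Ideal.Quotient.mk_surjective z
    obtain ⟨r, hr⟩ := hs a
    exact ⟨r, (Ideal.Quotient.eq.mpr hr).symm⟩
  obtain ⟨lam₀, hlam₀⟩ := Module.projective_lifting_property β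
    (Ideal.Quotient.mkₐ R I).toLinearMap hβ
  let lam := lam₀ ∘ₗ ρ
  have hPle : Ideal.span {aeval (E.tR R) P} ≤ I := (Ideal.span_singleton_le_iff_mem _).mpr hPI
  have hlam : ∀ a, a - ∑ i, lam a i • bR R b i ∈ I := by
    intro a
    have h1 : β (lam₀ (ρ a)) = Ideal.Quotient.mk I (ρ a) := LinearMap.congr_fun hlam₀ (ρ a)
    have h2 : ρ a - ∑ i, lam a i • bR R b i ∈ I := Ideal.Quotient.eq.mp h1.symm
    convert I.add_mem (hPle (hρ a)) h2 using 1
    abel
  let J : Submodule R (Fin g → R) := (I.restrictScalars R).comap lc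
  have hmemJ : ∀ r : Fin g → R, r ∈ J ↔ ∑ i, r i • bR R b i ∈ I := fun r => Iff.rfl
  have hlamI : ∀ y ∈ I, lam y ∈ J := fun y hy => by
    rw [hmemJ]
    convert I.sub_mem hy (hlam y) using 1
    abel
  have hd' : ∀ i, (Pi.single i (1 : R) : Fin g → R) - lam (bR R b i) ∈ J := fun i => by
    have hsingle : lc (Pi.single i 1) = bR R b i := by
      simp [lc, Fintype.linearCombination_apply_single]
    change lc _ ∈ I.restrictScalars R
    rw [map_sub, hsingle]
    exact hlam (bR R b i)
  have hdec : ∀ r : Fin g → R,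
      r = (∑ i, r i • ((Pi.single i (1 : R) : Fin g → R) - lam (bR R b i))) +
        lam (∑ i, r i • bR R b i) := by
    intro r
    simp only [smul_sub, Finset.sum_sub_distrib, map_sum, map_smul, sub_add_cancel]
    exact pi_eq_sum_univ' r
  -- finite generation
  obtain ⟨gI, hgI⟩ := evalIdeal_fg (P := E.AR R) x.1.1
  have hJfg : J.FG := by
    let s : Finset (Fin g → R) := Finset.univ.image (fun i => Pi.single i (1 : R) - lam (bR R b i)) ∪
      (gI ×ˢ G).image fun z => lam (z.1 * z.2)
    refine ⟨s, le_antisymm (Submodule.span_le.mpr ?_) fun r hr => ?_⟩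
    · intro z hz
      rcases Finset.mem_union.mp (Finset.mem_coe.mp hz) with h | h
      · obtain ⟨i, -, rfl⟩ := Finset.mem_image.mp h
        exact hd' i
      · obtain ⟨w, hw, rfl⟩ := Finset.mem_image.mp h
        exact hlamI _ (I.mul_mem_right _ (hgI.le (Submodule.subset_span
          (Finset.mem_product.mp hw).1)))
    · rw [hdec r]
      refine Submodule.add_mem _ (Submodule.sum_mem _ fun i _ => Submodule.smul_mem _ _
        (Submodule.subset_span (Finset.mem_coe.mpr (Finset.mem_union_left _
          (Finset.mem_image_of_mem _ (Finset.mem_univ i)))))) ?_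
      have hy : (∑ i, r i • bR R b i) ∈ Submodule.span (E.AR R) (gI : Set (E.AR R)) :=
        hgI.ge ((hmemJ r).mp hr)
      suffices h0 : ∀ c : E.AR R, lam (c * ∑ i, r i • bR R b i) ∈ Submodule.span R (s : Set _) by
        simpa using h0 1
      generalize ∑ i, r i • bR R b i = y at hy ⊢
      induction hy using Submodule.span_induction with
      | mem y hy =>
        intro c
        have h1 : lam (c * y) = lam (y * ρ c) := by
          rw [← sub_eq_zero, ← map_sub, show c * y - y * ρ c = y * (c - ρ c) by ring]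
          obtain ⟨w, hw⟩ := Ideal.mem_span_singleton.mp (hρ c)
          rw [hw, show y * (aeval ((1 : R) ⊗ₜ[k] E.t) P * w) =
            aeval ((1 : R) ⊗ₜ[k] E.t) P * (y * w) by ring, LinearMap.comp_apply, hρP, map_zero]
        rw [h1]
        have h2 : ρ c ∈ Submodule.span R (G : Set (E.AR R)) := hG c
        generalize ρ c = z at h2 ⊢
        induction h2 using Submodule.span_induction with
        | mem z hz =>
          exact Submodule.subset_span (Finset.mem_coe.mpr (Finset.mem_union_right _
            (Finset.mem_image.mpr ⟨(y, z), Finset.mem_product.mpr ⟨hy, hz⟩, rfl⟩)))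
        | zero => simp
        | add u v _ _ hu hv => rw [mul_add, map_add]; exact add_mem hu hv
        | smul a u _ hu => rw [mul_smul_comm, map_smul]; exact Submodule.smul_mem _ _ hu
      | zero => intro c; simp
      | add u v _ _ hu hv => intro c; rw [mul_add, map_add]; exact add_mem (hu c) (hv c)
      | smul a u _ hu => intro c; rw [smul_eq_mul, ← mul_assoc]; exact hu _
  -- Nakayama
  have hle : J ≤ p.asIdeal • J := by
    intro r hr
    have hrp : ∀ i, r i ∈ p.asIdeal := by
      intro i
      have h1 : (∑ j, algebraMap R K (r j) • bR K b j) ∈ evalIdeal (E.AR K) (bc.fM x.1.1) := by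
        rw [evalIdeal_map bc.fM bc.gen]
        have h2 := Ideal.mem_map_of_mem (E.bcA R K).toRingHom ((hmemJ r).mp hr)
        convert h2 using 1
        rw [map_sum]
        refine Finset.sum_congr rfl fun j _ => ?_
        simp [TwoCover.bcA, bR, TensorProduct.smul_tmul', Algebra.smul_def]
      have h3 : (fun j => algebraMap R K (r j)) = 0 := by
        apply hd.2.1
        refine Ideal.Quotient.eq.mpr ?_
        simp only [Pi.zero_apply, zero_smul, Finset.sum_const_zero, sub_zero]
        exact h1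
      rw [← hK]
      exact congrFun h3 i
    rw [hdec r]
    refine Submodule.add_mem _
      (Submodule.sum_mem _ fun i _ => Submodule.smul_mem_smul (hrp i) (hd' i)) ?_
    obtain ⟨ι, _, φ, m, hpart⟩ := exists_dual_partition (E.AR R) T.M
    obtain ⟨ψ, hψ⟩ := (hmemJ r).mp hr
    rw [← hψ]
    change lam (ψ x.1.1) ∈ _
    have hexp : ψ x.1.1 = ∑ l, φ l x.1.1 * ψ (m l) := by
      conv_lhs => rw [← one_mul (ψ x.1.1), ← hpart, Finset.sum_mul]
      refine Finset.sum_congr rfl fun l _ => ?_
      have h1 := congrArg ψ (dual_apply_smul_comm (φ l) (m l) x.1.1)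
      simpa using h1
    rw [hexp, map_sum]
    refine Submodule.sum_mem _ fun l _ => ?_
    have hmem : ψ (m l) ∈ p.asIdeal.map (algebraMap R (E.AR R)) := by
      refine monic_mul_mem_map E.finite E.aeval_t_injective hP ?_
      have h1 : ψ x.1.1 ∈ p.asIdeal.map (algebraMap R (E.AR R)) := by
        change (Module.Dual.eval (E.AR R) T.M x.1.1) ψ ∈ _
        rw [hψ]
        refine Ideal.sum_mem _ fun i _ => ?_
        rw [Algebra.smul_def]
        exact Ideal.mul_mem_right _ _ (Ideal.mem_map_of_mem _ (hrp i))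
      have h2 := congrArg ψ (dual_apply_smul_comm φ₀ x.1.1 (m l))
      rw [map_smul, map_smul, smul_eq_mul, smul_eq_mul] at h2
      change φ₀ x.1.1 = aeval (E.tR R) P at hφ₀
      change aeval (E.tR R) P * ψ (m l) ∈ _
      rw [← hφ₀, h2]
      exact Ideal.mul_mem_left _ _ h1
    have hmem' : ψ (m l) ∈ (p.asIdeal • ⊤ : Submodule R (E.AR R)) := by
      rw [Ideal.smul_top_eq_map]; exact hmem
    generalize ψ (m l) = z at hmem' ⊢
    induction hmem' using Submodule.smul_induction_on' with
    | smul a ha z _ =>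
      rw [mul_smul_comm, map_smul]
      exact Submodule.smul_mem_smul ha (hlamI _ (I.mul_mem_right _ ⟨φ l, rfl⟩))
    | add u _ v _ hu hv => rw [mul_add, map_add]; exact add_mem hu hv
  obtain ⟨f, hf1, hf⟩ :=
    Submodule.exists_sub_one_mem_and_smul_eq_zero_of_fg_of_le_smul _ _ hJfg hle
  refine ⟨f, lam, fun hfp => p.isPrime.ne_top ?_, hlam, fun r hr => hf r hr⟩
  rw [Ideal.eq_top_iff_one]
  simpa using p.asIdeal.sub_mem hfp hf1

end Fibre

end Triple

end FLTA.Jacobian
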