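import Fermat.Agent.Jacobian.CechBasic
import Fermat.Agent.Jacobian.TripleMul

/-!
# Constructions on triples: trivial bundle, ideals, tensor products
-/

set_option autoImplicit false

universe u

open TensorProduct
open scoped FLTA.Jacobian.TwoCover FLTA.Jacobian.Triple

namespace FLTA.Jacobian

namespace Triple

variable {k : Type u} [Field k] (E : TwoCover k) (R : Type u) [CommRing R] [Algebra k R]

/-- The trivial line bundle. -/
noncomputable def one : Triple E R where
  M := E.AR R
  M' := E.AR' R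
  N := E.AR01 R
  res :=
    { toFun := E.ιR R
      map_add' := map_add _
      map_smul' := fun a x => map_mul (E.ιR R) a x }
  res' :=
    { toFun := E.ιR' R
      map_add' := map_add _
      map_smul' := fun a x => map_mul (E.ιR' R) a x }
  res_surj n := by
    obtain ⟨i, a, ha⟩ := E.exists_ιR_pow R n
    exact ⟨a, i, ha⟩
  res_ker m h := ⟨0, by
    rw [pow_zero, one_smul]; exact E.ιR_injective R (h.trans (map_zero _).symm)⟩
  res'_surj n := by
    obtain ⟨i, a, ha⟩ := E.exists_ιR'_pow R n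
    exact ⟨a, i, ha⟩
  res'_ker m h := ⟨0, by
    rw [pow_zero, one_smul]; exact E.ιR'_injective R (h.trans (map_zero _).symm)⟩

variable {E R}

/-- The line bundle given by a pair of invertible ideals with the same extension to the
overlap. -/
noncomputable def ofIdeals (I : Ideal (E.AR R)) (I' : Ideal (E.AR' R))
    [Module.Invertible (E.AR R) I] [Module.Invertible (E.AR' R) I']
    (h : I.map (E.ιR R) = I'.map (E.ιR' R)) : Triple E R where
  M := I
  M' := I'
  N := I.map (E.ιR R)
  res :=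
    { toFun := fun x => ⟨E.ιR R x.1, Ideal.mem_map_of_mem _ x.2⟩
      map_add' := fun x y => Subtype.ext (map_add (E.ιR R) x.1 y.1)
      map_smul' := fun a x => Subtype.ext (map_mul (E.ιR R) a x.1) }
  res' :=
    { toFun := fun x => ⟨E.ιR' R x.1, h.ge (Ideal.mem_map_of_mem _ x.2)⟩
      map_add' := fun x y => Subtype.ext (map_add (E.ιR' R) x.1 y.1)
      map_smul' := fun a x => Subtype.ext (map_mul (E.ιR' R) a x.1) }
  res_surj n := by
    obtain ⟨x, hx⟩ := (IsLocalization.mem_map_algebraMap_iff (Submonoid.powers (E.tR R))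
      (E.AR01 R)).mp n.2
    obtain ⟨⟨a, ha⟩, _, i, rfl⟩ := x
    refine ⟨⟨a, ha⟩, i, Subtype.ext ?_⟩
    change (E.ιR R (E.tR R)) ^ i * n.1 = E.ιR R a
    rw [← map_pow, mul_comm]
    exact hx
  res_ker m hm := ⟨0, by
    rw [pow_zero, one_smul]
    exact Subtype.ext (E.ιR_injective R ((congr_arg Subtype.val hm).trans (map_zero _).symm))⟩
  res'_surj n := by
    obtain ⟨x, hx⟩ := (IsLocalization.mem_map_algebraMap_iff (Submonoid.powers (E.sR R))
      (E.AR01 R)).mp (h.le n.2)
    obtain ⟨⟨a, ha⟩, _, i, rfl⟩ := x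
    refine ⟨⟨a, ha⟩, i, Subtype.ext ?_⟩
    change (E.ιR' R (E.sR R)) ^ i * n.1 = E.ιR' R a
    rw [← map_pow, mul_comm]
    exact hx
  res'_ker m hm := ⟨0, by
    rw [pow_zero, one_smul]
    exact Subtype.ext (E.ιR'_injective R ((congr_arg Subtype.val hm).trans (map_zero _).symm))⟩

section Tensor

variable (T P : Triple E R)

/-- The restriction of a tensor product, additive version. -/
noncomputable def tensorResAdd : T.M ⊗[E.AR R] P.M →+ T.N ⊗[E.AR01 R] P.N :=
  TensorProduct.liftAddHom
    (AddMonoidHom.mk' (fun m => AddMonoidHom.mk' (fun p => T.res m ⊗ₜ P.res p)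
      fun x y => by rw [map_add, TensorProduct.tmul_add])
      fun x y => AddMonoidHom.ext fun p =>
        (congrArg (· ⊗ₜ _) (map_add _ x y)).trans (TensorProduct.add_tmul _ _ _))
    fun r m p => by
      change T.res (r • m) ⊗ₜ P.res p = T.res m ⊗ₜ P.res (r • p)
      rw [LinearMap.map_smulₛₗ, LinearMap.map_smulₛₗ, TensorProduct.smul_tmul]

/-- The restriction of a tensor product, additive version. -/
noncomputable def tensorResAdd' : T.M' ⊗[E.AR' R] P.M' →+ T.N ⊗[E.AR01 R] P.N :=
  TensorProduct.liftAddHom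
    (AddMonoidHom.mk' (fun m => AddMonoidHom.mk' (fun p => T.res' m ⊗ₜ P.res' p)
      fun x y => by rw [map_add, TensorProduct.tmul_add])
      fun x y => AddMonoidHom.ext fun p =>
        (congrArg (· ⊗ₜ _) (map_add _ x y)).trans (TensorProduct.add_tmul _ _ _))
    fun r m p => by
      change T.res' (r • m) ⊗ₜ P.res' p = T.res' m ⊗ₜ P.res' (r • p)
      rw [LinearMap.map_smulₛₗ, LinearMap.map_smulₛₗ, TensorProduct.smul_tmul]

/-- The restriction of a tensor product. -/
noncomputable def tensorRes : T.M ⊗[E.AR R] P.M →ₛₗ[(E.ιR R).toRingHom] T.N ⊗[E.AR01 R] P.N where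
  toFun := T.tensorResAdd P
  map_add' := map_add _
  map_smul' a x := by
    induction x using TensorProduct.induction_on with
    | zero => simp
    | add x y hx hy => simp [smul_add, hx, hy]
    | tmul m p =>
      change T.res (a • m) ⊗ₜ P.res p = E.ιR R a • (T.res m ⊗ₜ P.res p)
      rw [LinearMap.map_smulₛₗ, TensorProduct.smul_tmul']
      rfl

/-- The restriction of a tensor product. -/
noncomputable def tensorRes' :
    T.M' ⊗[E.AR' R] P.M' →ₛₗ[(E.ιR' R).toRingHom] T.N ⊗[E.AR01 R] P.N where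
  toFun := T.tensorResAdd' P
  map_add' := map_add _
  map_smul' a x := by
    induction x using TensorProduct.induction_on with
    | zero => simp
    | add x y hx hy => simp [smul_add, hx, hy]
    | tmul m p =>
      change T.res' (a • m) ⊗ₜ P.res' p = E.ιR' R a • (T.res' m ⊗ₜ P.res' p)
      rw [LinearMap.map_smulₛₗ, TensorProduct.smul_tmul']
      rfl

@[simp] lemma tensorRes_tmul (m : T.M) (p : P.M) :
    T.tensorRes P (m ⊗ₜ p) = T.res m ⊗ₜ P.res p := rfl

@[simp] lemma tensorRes'_tmul (m : T.M') (p : P.M') :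
    T.tensorRes' P (m ⊗ₜ p) = T.res' m ⊗ₜ P.res' p := rfl

lemma tensorRes_surj (n : T.N ⊗[E.AR01 R] P.N) :
    ∃ (m : T.M ⊗[E.AR R] P.M) (i : ℕ), (E.ιR R (E.tR R)) ^ i • n = T.tensorRes P m := by
  induction n using TensorProduct.induction_on with
  | zero => exact ⟨0, 0, (smul_zero _).trans (map_zero _).symm⟩
  | tmul a b =>
    obtain ⟨m, i, hm⟩ := T.res_surj a
    obtain ⟨p, j, hp⟩ := P.res_surj b
    refine ⟨m ⊗ₜ p, i + j, ?_⟩
    rw [tensorRes_tmul, ← hm, ← hp, TensorProduct.smul_tmul', TensorProduct.smul_tmul, pow_add,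
      mul_smul, TensorProduct.smul_tmul]
  | add x y hx hy =>
    obtain ⟨m, i, hm⟩ := hx
    obtain ⟨m', j, hm'⟩ := hy
    refine ⟨(E.tR R) ^ j • m + (E.tR R) ^ i • m', i + j, ?_⟩
    rw [map_add, LinearMap.map_smulₛₗ, LinearMap.map_smulₛₗ, ← hm, ← hm', map_pow, map_pow,
      smul_add, smul_smul, smul_smul, pow_add]
    simp only [AlgHom.toRingHom_eq_coe, RingHom.coe_coe, mul_comm]

lemma tensorRes'_surj (n : T.N ⊗[E.AR01 R] P.N) :
    ∃ (m : T.M' ⊗[E.AR' R] P.M') (i : ℕ),
      (E.ιR' R (E.sR R)) ^ i • n = T.tensorRes' P m := by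
  induction n using TensorProduct.induction_on with
  | zero => exact ⟨0, 0, (smul_zero _).trans (map_zero _).symm⟩
  | tmul a b =>
    obtain ⟨m, i, hm⟩ := T.res'_surj a
    obtain ⟨p, j, hp⟩ := P.res'_surj b
    refine ⟨m ⊗ₜ p, i + j, ?_⟩
    rw [tensorRes'_tmul, ← hm, ← hp, TensorProduct.smul_tmul', TensorProduct.smul_tmul, pow_add,
      mul_smul, TensorProduct.smul_tmul]
  | add x y hx hy =>
    obtain ⟨m, i, hm⟩ := hx
    obtain ⟨m', j, hm'⟩ := hy
    refine ⟨(E.sR R) ^ j • m + (E.sR R) ^ i • m', i + j, ?_⟩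
    rw [map_add, LinearMap.map_smulₛₗ, LinearMap.map_smulₛₗ, ← hm, ← hm', map_pow, map_pow,
      smul_add, smul_smul, smul_smul, pow_add]
    simp only [AlgHom.toRingHom_eq_coe, RingHom.coe_coe, mul_comm]

lemma tensorRes_injective : Function.Injective (T.tensorRes P) :=
  injective_of_away (L := E.AR01 R) (E.tR R) (E.ιR_injective R)
    ({ toFun := T.tensorRes P, map_add' := map_add _,
       map_smul' := fun a m => ((T.tensorRes P).map_smulₛₗ a m).trans
        (algebraMap_smul (E.AR01 R) a _) } : T.M ⊗[E.AR R] P.M →ₗ[E.AR R] T.N ⊗[E.AR01 R] P.N)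
    (T.tensorRes_surj P)

lemma tensorRes'_injective : Function.Injective (T.tensorRes' P) :=
  injective_of_away (L := E.AR01 R) (E.sR R) (E.ιR'_injective R)
    ({ toFun := T.tensorRes' P, map_add' := map_add _,
       map_smul' := fun a m => ((T.tensorRes' P).map_smulₛₗ a m).trans
        (algebraMap_smul (E.AR01 R) a _) } : T.M' ⊗[E.AR' R] P.M' →ₗ[E.AR' R] T.N ⊗[E.AR01 R] P.N)
    (T.tensorRes'_surj P)

/-- The tensor product of line bundles. -/
noncomputable def tensor : Triple E R where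
  M := T.M ⊗[E.AR R] P.M
  M' := T.M' ⊗[E.AR' R] P.M'
  N := T.N ⊗[E.AR01 R] P.N
  res := T.tensorRes P
  res' := T.tensorRes' P
  res_surj := T.tensorRes_surj P
  res_ker m h := ⟨0, by
    rw [pow_zero, one_smul]; exact T.tensorRes_injective P (h.trans (map_zero _).symm)⟩
  res'_surj := T.tensorRes'_surj P
  res'_ker m h := ⟨0, by
    rw [pow_zero, one_smul]; exact T.tensorRes'_injective P (h.trans (map_zero _).symm)⟩

/-- `T.tensor P` is the product of `T` and `P`. -/
noncomputable def tensorPairing : Pairing T P (T.tensor P) where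
  μM := TensorProduct.mk (E.AR R) T.M P.M
  μM' := TensorProduct.mk (E.AR' R) T.M' P.M'
  μN := TensorProduct.mk (E.AR01 R) T.N P.N
  comm _ _ := rfl
  comm' _ _ := rfl
  gen := by
    refine top_unique (le_trans (TensorProduct.span_tmul_eq_top _ _ _).ge (Submodule.span_mono ?_))
    rintro _ ⟨x, y, rfl⟩
    exact ⟨(x, y), rfl⟩
  gen' := by
    refine top_unique (le_trans (TensorProduct.span_tmul_eq_top _ _ _).ge (Submodule.span_mono ?_))
    rintro _ ⟨x, y, rfl⟩
    exact ⟨(x, y), rfl⟩

end Tensor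

end Triple

end FLTA.Jacobian
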