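import Fermat.Agent.Jacobian.ChartInvertible
import Fermat.Agent.Jacobian.CurveTriple

/-!
# The two ideals of a point of the chart
-/

set_option autoImplicit false
set_option maxHeartbeats 400000

universe u

open TensorProduct Polynomial
open scoped FLTA.Jacobian.TwoCover FLTA.Jacobian.Triple

namespace FLTA.Jacobian

theorem IsBasisMod.eq_of_le {R : Type u} [CommRing R] {P : Type u} [CommRing P] [Algebra R P]
    {g : ℕ} {b : Fin g → P} {I J : Ideal P} (hI : IsBasisMod (R := R) b I)
    (hJ : IsBasisMod (R := R) b J) (hle : I ≤ J) : I = J := by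
  refine le_antisymm hle fun x hx => ?_
  obtain ⟨r, hr⟩ := hI.2 (Ideal.Quotient.mk I x)
  have h1 : ∑ i, r i • b i - x ∈ I := Ideal.Quotient.eq.mp hr
  have h2 : ∑ i, r i • b i ∈ J := by
    have := J.add_mem (hle h1) hx
    rwa [sub_add_cancel] at this
  have h3 : r = 0 := hJ.1 (by
    change Ideal.Quotient.mk J _ = Ideal.Quotient.mk J _
    rw [Ideal.Quotient.eq]
    simpa using h2)
  subst h3
  simpa using h1

section Colon

variable {P : Type u} [CommRing P] {I : Ideal P} [Module.Invertible P I] {a : P} (ha : a ∈ I)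
  (hreg : ∀ z, a * z = 0 → z = 0)

theorem ideal_dual_mul_comm (φ : Module.Dual P I) (i j : I) : φ i * j.1 = φ j * i.1 := by
  simpa using congrArg Subtype.val (dual_apply_smul_comm φ i j)

include ha hreg

theorem invertible_colon : Module.Invertible P ((Ideal.span {a}).colon (I : Set P)) := by
  have hmem : ∀ φ : Module.Dual P I, φ ⟨a, ha⟩ ∈ (Ideal.span {a}).colon (I : Set P) := by
    intro φ
    rw [Submodule.mem_colon]
    intro i hi
    refine Ideal.mem_span_singleton.mpr ⟨φ ⟨i, hi⟩, ?_⟩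
    rw [smul_eq_mul, ideal_dual_mul_comm φ ⟨a, ha⟩ ⟨i, hi⟩, mul_comm]
  let f : Module.Dual P I →ₗ[P] (Ideal.span {a}).colon (I : Set P) :=
    { toFun := fun φ => ⟨φ ⟨a, ha⟩, hmem φ⟩
      map_add' := fun _ _ => rfl
      map_smul' := fun _ _ => rfl }
  refine Module.Invertible.congr (LinearEquiv.ofBijective f ⟨fun φ ψ h => ?_, fun y => ?_⟩)
  · ext i
    have h' : φ ⟨a, ha⟩ = ψ ⟨a, ha⟩ := congrArg Subtype.val h
    refine sub_eq_zero.mp (hreg _ ?_)
    rw [mul_sub, mul_comm a, mul_comm a, ideal_dual_mul_comm φ i ⟨a, ha⟩, ideal_dual_mul_comm ψ i ⟨a, ha⟩,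
      h', sub_self]
  · obtain ⟨φ, hφ, -⟩ := exists_dual_of_colon ha hreg y.2
    exact ⟨φ, Subtype.ext hφ⟩

theorem evalIdeal_colon (haC : a ∈ (Ideal.span {a}).colon (I : Set P)) :
    evalIdeal P (⟨a, haC⟩ : ((Ideal.span {a}).colon (I : Set P))) = I := by
  refine le_antisymm ?_ fun i hi => ?_
  · rintro y ⟨ψ, rfl⟩
    obtain ⟨ι, _, φ, m, h⟩ := exists_dual_partition P I
    have hmem : ∀ l, φ l ⟨a, ha⟩ ∈ (Ideal.span {a}).colon (I : Set P) := by
      intro l
      rw [Submodule.mem_colon]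
      intro i hi
      refine Ideal.mem_span_singleton.mpr ⟨φ l ⟨i, hi⟩, ?_⟩
      rw [smul_eq_mul, ideal_dual_mul_comm (φ l) ⟨a, ha⟩ ⟨i, hi⟩, mul_comm]
    have hψ : ∀ l, a * ψ ⟨φ l ⟨a, ha⟩, hmem l⟩ = φ l ⟨a, ha⟩ * ψ ⟨a, haC⟩ := by
      intro l
      rw [← smul_eq_mul, ← smul_eq_mul, ← map_smul, ← map_smul]
      congr 1
      exact Subtype.ext (mul_comm _ _)
    have key : ψ ⟨a, haC⟩ = ∑ l, ψ ⟨φ l ⟨a, ha⟩, hmem l⟩ * (m l).1 := by
      refine sub_eq_zero.mp (hreg _ ?_)
      rw [mul_sub, Finset.mul_sum, sub_eq_zero]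
      symm
      calc ∑ l, a * (ψ ⟨φ l ⟨a, ha⟩, hmem l⟩ * (m l).1)
          = ∑ l, φ l (m l) * (a * ψ ⟨a, haC⟩) := by
            refine Finset.sum_congr rfl fun l _ => ?_
            rw [← mul_assoc, hψ, mul_right_comm, ideal_dual_mul_comm (φ l) ⟨a, ha⟩ (m l), mul_assoc]
        _ = a * ψ ⟨a, haC⟩ := by rw [← Finset.sum_mul, h, one_mul]
    change ψ ⟨a, haC⟩ ∈ I
    rw [key]
    exact I.sum_mem fun l _ => I.mul_mem_left _ (m l).2
  · obtain ⟨φ, hφ, -⟩ := exists_dual_of_colon (I := (Ideal.span {a}).colon (I : Set P)) haC hreg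
      (y := i) (by
        rw [Submodule.mem_colon]
        intro c hc
        rw [SetLike.mem_coe, Submodule.mem_colon] at hc
        rw [smul_eq_mul, mul_comm]
        exact hc i hi)
    exact ⟨φ, hφ⟩

end Colon

namespace TwoCover

variable {k : Type u} [Field k] (E : TwoCover k) {R : Type u} [CommRing R] [Algebra k R]

theorem ιR_aeval_reflect (p : R[X]) (d : ℕ) (hd : p.natDegree ≤ d) :
    E.ιR R (aeval (E.tR R) (p.reflect d)) =
      (E.ιR R (E.tR R)) ^ d * E.ιR' R (aeval (E.sR R) p) := by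
  rw [← aeval_algHom_apply, ← aeval_algHom_apply]
  let : Invertible (E.ιR' R (E.sR R)) :=
    ⟨E.ιR R (E.tR R), E.ιR_tR_mul_sR R, (mul_comm _ _).trans (E.ιR_tR_mul_sR R)⟩
  have h2 := eval₂_reflect_mul_pow (algebraMap R (E.AR01 R)) (E.ιR' R (E.sR R)) d p hd
  have hinv2 : ⅟(E.ιR' R (E.sR R)) = E.ιR R (E.tR R) := rfl
  rw [hinv2] at h2
  rw [aeval_def, aeval_def, ← h2, mul_comm, mul_assoc, mul_comm ((E.ιR' R (E.sR R)) ^ d),
    E.tR_pow_mul_ιR', mul_one]

end TwoCover

variable {k : Type u} [Field k] {E : TwoCover k} {R : Type u} [CommRing R] [Algebra k R]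
  {g : ℕ} {b : Fin g → E.A}

/-- The equations of the chart: `π` is the coordinate map of a quotient algebra in which `b` is a
basis. -/
structure IsChartData (b : Fin g → E.A) (π : E.A →ₗ[k] (Fin g → R)) : Prop where
  basis : ∀ i, π (b i) = Pi.single i 1
  mul : ∀ a c, π (a * c) = ∑ j, π c j • π (a * b j)

variable {π : E.A →ₗ[k] (Fin g → R)} (h : IsChartData b π)

/-- The coordinate map over `R`. -/
noncomputable abbrev chartProj (π : E.A →ₗ[k] (Fin g → R)) : E.AR R →ₗ[R] (Fin g → R) :=
  π.liftBaseChange R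

include h

theorem IsChartData.proj_bR (i : Fin g) : chartProj π (Triple.bR R b i) = Pi.single i 1 := by
  simp [h.basis]

theorem IsChartData.proj_mul (a c : E.AR R) :
    chartProj π (a * c) = ∑ j, chartProj π c j • chartProj π (a * Triple.bR R b j) := by
  induction a using TensorProduct.induction_on with
  | zero => simp
  | add x y hx hy => simp only [add_mul, map_add, hx, hy, smul_add, Finset.sum_add_distrib]
  | tmul r a =>
    induction c using TensorProduct.induction_on with
    | zero => simp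
    | add x y hx hy =>
      simp only [mul_add, map_add, hx, hy, Pi.add_apply, add_smul, Finset.sum_add_distrib]
    | tmul r' c =>
      simp only [Algebra.TensorProduct.tmul_mul_tmul, LinearMap.liftBaseChange_tmul, h.mul a c,
        Finset.smul_sum, mul_one, Pi.smul_apply, smul_eq_mul, smul_smul]
      exact Finset.sum_congr rfl fun j _ => by congr 1; ring

/-- The ideal of a point of the chart. -/
noncomputable def IsChartData.ideal : Ideal (E.AR R) where
  carrier := {x | chartProj π x = 0}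
  add_mem' := fun {x y} (hx : chartProj π x = 0) (hy : chartProj π y = 0) => by
    change chartProj π (x + y) = 0
    rw [map_add, hx, hy, add_zero]
  zero_mem' := map_zero _
  smul_mem' := fun c x (hx : chartProj π x = 0) => by
    change chartProj π (c * x) = 0
    rw [h.proj_mul]
    simp [hx]

theorem IsChartData.mem_ideal {x : E.AR R} : x ∈ h.ideal ↔ chartProj π x = 0 := Iff.rfl

theorem IsChartData.isBasisMod : IsBasisMod (R := R) (Triple.bR R b) h.ideal :=
  isBasisMod_of_ker (π := chartProj π) rfl h.proj_bR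

/-- Multiplication by `t` in coordinates. -/
noncomputable def IsChartData.mulT (_h : IsChartData b π) : (Fin g → R) →ₗ[R] (Fin g → R) :=
  chartProj π ∘ₗ LinearMap.mulLeft R (E.tR R) ∘ₗ Fintype.linearCombination R (Triple.bR R b)

theorem IsChartData.proj_tR_mul (a : E.AR R) :
    chartProj π (E.tR R * a) = h.mulT (chartProj π a) := by
  rw [h.proj_mul (E.tR R) a]
  simp [IsChartData.mulT, Fintype.linearCombination_apply]

/-- An equation of the point in `t`. -/
noncomputable def IsChartData.poly (_h : IsChartData b π) : R[X] := _h.mulT.charpoly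

theorem IsChartData.poly_monic : h.poly.Monic := LinearMap.charpoly_monic _

theorem IsChartData.aeval_poly_mem : aeval (E.tR R) h.poly ∈ h.ideal := by
  have key : ∀ (p : R[X]) (a : E.AR R),
      chartProj π (aeval (E.tR R) p * a) = aeval h.mulT p (chartProj π a) := by
    intro p
    induction p using Polynomial.induction_on' with
    | add p q hp hq =>
      intro a
      rw [map_add, map_add, add_mul, map_add, hp, hq, LinearMap.add_apply]
    | monomial m r =>
      induction m with
      | zero =>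
        intro a
        rw [monomial_zero_left, aeval_C, aeval_C, ← Algebra.smul_def, map_smul,
          Module.algebraMap_end_apply]
      | succ m ih =>
        intro a
        rw [← monomial_mul_X, map_mul (aeval (E.tR R)), map_mul (aeval h.mulT), aeval_X, aeval_X,
          mul_assoc, ih, h.proj_tR_mul,
          Module.End.mul_apply]
  have := key h.poly 1
  rw [IsChartData.poly, LinearMap.aeval_self_charpoly, mul_one] at this
  exact this

/-- The equation on the first chart. -/
noncomputable def IsChartData.eqn (_h : IsChartData b π) : E.AR R := aeval (E.tR R) _h.poly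

/-- The degree of the twist. -/
noncomputable def IsChartData.deg (_h : IsChartData b π) : ℕ := _h.poly.natDegree

/-- The equation on the second chart. -/
noncomputable def IsChartData.eqn' (_h : IsChartData b π) : E.AR' R := aeval (E.sR R) (_h.poly.reflect _h.deg)

theorem IsChartData.ι_eqn :
    E.ιR R h.eqn = (E.ιR R (E.tR R)) ^ h.deg * E.ιR' R h.eqn' := by
  have h1 := E.ιR_aeval_reflect (h.poly.reflect h.deg) h.deg
    (natDegree_reflect_le.trans (max_le le_rfl le_rfl))
  rwa [reflect_reflect] at h1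

theorem IsChartData.ι'_eqn' :
    E.ιR' R h.eqn' = (E.ιR' R (E.sR R)) ^ h.deg * E.ιR R h.eqn := by
  rw [h.ι_eqn, ← mul_assoc, mul_comm ((E.ιR' R (E.sR R)) ^ _), E.tR_pow_mul_ιR', one_mul]

theorem IsChartData.eqn'_sub_one : h.eqn' - 1 ∈ Ideal.span {E.sR R} := by
  have h0 : (h.poly.reflect h.deg - 1).coeff 0 = 0 := by
    rw [coeff_sub, coeff_one_zero, coeff_reflect, revAt_le (Nat.zero_le _), Nat.sub_zero,
      IsChartData.deg, h.poly_monic.coeff_natDegree, sub_self]
  obtain ⟨w, hw⟩ := X_dvd_iff.mpr h0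
  refine Ideal.mem_span_singleton.mpr ⟨aeval (E.sR R) w, ?_⟩
  have := congrArg (aeval (E.sR R)) hw
  simpa [IsChartData.eqn'] using this

theorem IsChartData.eqn_regular (z : E.AR R) (hz : h.eqn * z = 0) : z = 0 :=
  haveI := E.isDomain_A
  monic_mul_eq_zero E.finite E.aeval_t_injective h.poly_monic hz

theorem IsChartData.ι_eqn_regular (z : E.AR01 R) (hz : E.ιR R h.eqn * z = 0) : z = 0 := by
  obtain ⟨i, a, ha⟩ := E.exists_ιR_pow R z
  have h1 : E.ιR R (h.eqn * a) = E.ιR R 0 := by
    rw [map_mul, ← ha, mul_left_comm, hz, mul_zero, map_zero]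
  rw [h.eqn_regular a (E.ιR_injective R h1), map_zero] at ha
  exact ((E.isUnit_ιR_tR R).pow i).mul_right_eq_zero.mp ha

theorem IsChartData.eqn'_regular (z : E.AR' R) (hz : h.eqn' * z = 0) : z = 0 := by
  refine E.ιR'_injective R ((h.ι_eqn_regular _ ?_).trans (map_zero _).symm)
  rw [h.ι_eqn, mul_assoc, ← map_mul, hz, map_zero, mul_zero]

/-- The ideal on the second chart. -/
noncomputable def IsChartData.ideal' : Ideal (E.AR' R) :=
  (h.ideal.map (E.ιR R)).comap (E.ιR' R)

theorem IsChartData.map_ideal' : h.ideal'.map (E.ιR' R) = h.ideal.map (E.ιR R) :=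
  IsLocalization.map_comap (Submonoid.powers (E.sR R)) (E.AR01 R) _

theorem IsChartData.eqn'_mem : h.eqn' ∈ h.ideal' := by
  rw [IsChartData.ideal', Ideal.mem_comap, h.ι'_eqn']
  exact Ideal.mul_mem_left _ _ (Ideal.mem_map_of_mem _ h.aeval_poly_mem)

theorem IsChartData.ideal_fg : h.ideal.FG :=
  Triple.fg_of_isBasisMod h.isBasisMod h.poly_monic h.aeval_poly_mem

theorem IsChartData.ideal'_fg : h.ideal'.FG := by
  classical
  obtain ⟨G, hG⟩ := h.ideal_fg
  choose n a ha using fun x : E.AR R => E.exists_ιR'_pow R (E.ιR R x)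
  let J : Ideal (E.AR' R) := Ideal.span ↑(insert h.eqn' (G.image a))
  refine ⟨insert h.eqn' (G.image a), le_antisymm (Submodule.span_le.mpr ?_) ?_⟩
  · intro z hz
    rcases Finset.mem_insert.mp (Finset.mem_coe.mp hz) with rfl | hz
    · exact h.eqn'_mem
    · obtain ⟨x, hx, rfl⟩ := Finset.mem_image.mp hz
      rw [SetLike.mem_coe, IsChartData.ideal', Ideal.mem_comap, ← ha]
      exact Ideal.mul_mem_left _ _ (Ideal.mem_map_of_mem _ (hG ▸ Submodule.subset_span hx))
  · change h.ideal' ≤ J
    refine ideal_le_of_away (L := E.AR01 R) (E.sR R) ?_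
      (Ideal.subset_span (Finset.mem_insert_self _ _)) h.eqn'_sub_one
    change h.ideal'.map (E.ιR' R) ≤ J.map (E.ιR' R)
    rw [h.map_ideal', Ideal.map_le_iff_le_comap, ← hG, Submodule.span_le]
    intro x hx
    rw [SetLike.mem_coe, Ideal.mem_comap,
      ← Ideal.unit_mul_mem_iff_mem _ ((E.isUnit_ιR'_sR R).pow (n x)), ha]
    refine Ideal.mem_map_of_mem _ (Ideal.subset_span ?_)
    exact Finset.mem_insert_of_mem (Finset.mem_image_of_mem a hx)

theorem IsChartData.invertible : Module.Invertible (E.AR R) h.ideal :=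
  Triple.invertible_of_isBasisMod h.isBasisMod h.poly_monic h.aeval_poly_mem

theorem IsChartData.invertible' : Module.Invertible (E.AR' R) h.ideal' := by
  classical
  refine invertible_ideal_of_locally _ fun M hM => ?_
  by_cases hq : h.eqn' ∈ M
  swap
  · exact ⟨h.ideal'.subtype, ⟨_, h.eqn'_mem⟩, hq⟩
  have hs : E.sR R ∉ M := fun hs => hM.ne_top ((Ideal.eq_top_iff_one _).mpr (by
    simpa using M.sub_mem hq ((Ideal.span_singleton_le_iff_mem _).mpr hs h.eqn'_sub_one)))
  have := h.invertible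
  obtain ⟨ι, _, φ, m, hsum⟩ := exists_dual_partition (E.AR R) h.ideal
  let σ : E.AR01 R := E.ιR' R (E.sR R)
  have huniq : ∀ {w w' : E.AR' R}, E.ιR' R w * E.ιR R h.eqn = E.ιR' R w' * E.ιR R h.eqn →
      w = w' := fun {w w'} e => E.ιR'_injective R (sub_eq_zero.mp (h.ι_eqn_regular _ (by
    rw [mul_sub, mul_comm, e, mul_comm, sub_self])))
  let c : ι → E.AR01 R := fun l => E.ιR R (φ l ⟨_, h.aeval_poly_mem⟩)
  have hstep : ∀ l, ∀ x ∈ h.ideal', ∃ (N : ℕ) (w : E.AR' R),
      E.ιR' R w * E.ιR R h.eqn = σ ^ N * c l * E.ιR' R x := by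
    intro l x hx
    obtain ⟨j, i, hi, hij⟩ := (mem_map_away_iff (L := E.AR01 R) (E.tR R)).mp
      (show E.ιR' R x ∈ h.ideal.map (algebraMap (E.AR R) (E.AR01 R)) from Ideal.mem_comap.mp hx)
    obtain ⟨N, w, hw⟩ := E.exists_ιR'_pow R (σ ^ j * E.ιR R (φ l ⟨i, hi⟩))
    refine ⟨N, w, ?_⟩
    have h1 : E.ιR R (φ l ⟨i, hi⟩) * E.ιR R h.eqn = c l * E.ιR R i := by
      rw [← map_mul, ← map_mul]
      exact congrArg _ (ideal_dual_mul_comm (φ l) ⟨i, hi⟩ ⟨_, h.aeval_poly_mem⟩)
    calc E.ιR' R w * E.ιR R h.eqn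
        = σ ^ N * σ ^ j * (E.ιR R (φ l ⟨i, hi⟩) * E.ιR R h.eqn) := by rw [← hw]; ring
      _ = σ ^ N * c l * (E.ιR R i * σ ^ j) := by rw [h1]; ring
      _ = _ := by
        rw [← E.algebraMap_ι_apply R i, ← hij, E.algebraMap_ι_apply]
        rw [mul_comm ((E.ιR R (E.tR R)) ^ j), mul_assoc (E.ιR' R x), E.tR_pow_mul_ιR', mul_one]
  obtain ⟨G, hG⟩ := h.ideal'_fg
  choose! N w hw using hstep
  let N₀ : ℕ := Finset.univ.sup fun l => G.sup (N l)
  have hex : ∀ l, ∀ x ∈ h.ideal', ∃ w : E.AR' R,
      E.ιR' R w * E.ιR R h.eqn = σ ^ N₀ * c l * E.ιR' R x := by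
    intro l x hx
    rw [← hG] at hx
    induction hx using Submodule.span_induction with
    | mem y hy =>
      refine ⟨(E.sR R) ^ (N₀ - N l y) * w l y, ?_⟩
      have hle : N l y ≤ N₀ := (Finset.le_sup (f := N l) hy).trans
        (Finset.le_sup (f := fun l => G.sup (N l)) (Finset.mem_univ l))
      rw [map_mul, map_pow, mul_assoc, hw l y (hG ▸ Submodule.subset_span hy), ← mul_assoc,
        ← mul_assoc, ← pow_add, Nat.sub_add_cancel hle]
    | zero => exact ⟨0, by simp⟩
    | add y z _ _ hy hz =>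
      obtain ⟨u, hu⟩ := hy
      obtain ⟨v, hv⟩ := hz
      exact ⟨u + v, by rw [map_add, add_mul, hu, hv, map_add, mul_add]⟩
    | smul a y _ hy =>
      obtain ⟨u, hu⟩ := hy
      exact ⟨a * u, by rw [map_mul, mul_assoc, hu, smul_eq_mul, map_mul]; ring⟩
  choose W hW using fun l (x : h.ideal') => hex l x.1 x.2
  let ψ : ι → Module.Dual (E.AR' R) h.ideal' := fun l =>
    { toFun := W l
      map_add' := fun x y => huniq (by
        rw [map_add, add_mul, hW, hW, hW, Submodule.coe_add, map_add, mul_add])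
      map_smul' := fun a x => huniq (by
        rw [RingHom.id_apply, smul_eq_mul, map_mul, mul_assoc, hW, hW, Submodule.coe_smul,
          smul_eq_mul, map_mul]
        ring) }
  choose e a ha using fun l => E.exists_ιR'_pow R (E.ιR R (m l).1)
  let e₀ : ℕ := Finset.univ.sup e
  have hmem : ∀ l, (E.sR R) ^ (e₀ - e l) * a l ∈ h.ideal' := fun l => by
    rw [IsChartData.ideal', Ideal.mem_comap, map_mul, ← ha]
    exact Ideal.mul_mem_left _ _ (Ideal.mul_mem_left _ _ (Ideal.mem_map_of_mem _ (m l).2))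
  have htot : ∑ l, ψ l ⟨_, hmem l⟩ = (E.sR R) ^ (N₀ + e₀) := by
    refine huniq ?_
    rw [map_sum, Finset.sum_mul]
    calc ∑ l, E.ιR' R (W l ⟨_, hmem l⟩) * E.ιR R h.eqn
        = ∑ l, σ ^ (N₀ + e₀) * E.ιR R (φ l (m l) * h.eqn) := by
          refine Finset.sum_congr rfl fun l _ => ?_
          have hd : φ l (m l) * h.eqn = φ l ⟨_, h.aeval_poly_mem⟩ * (m l).1 :=
            ideal_dual_mul_comm (φ l) (m l) ⟨_, h.aeval_poly_mem⟩
          rw [hW, hd, map_mul, map_mul, map_pow, ← ha, pow_add,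
            ← mul_assoc ((E.ιR' R (E.sR R)) ^ (e₀ - e l)), ← pow_add,
            Nat.sub_add_cancel (Finset.le_sup (f := e) (Finset.mem_univ l))]
          ring
      _ = _ := by
          rw [← Finset.mul_sum, ← map_sum, ← Finset.sum_mul, hsum, one_mul, map_pow]
  by_contra! hall
  exact hs (hM.isPrime.mem_of_pow_mem _ (htot ▸ M.sum_mem fun l _ => hall (ψ l) _))

/-- Dual of the ideal, on the first chart. -/
noncomputable def IsChartData.colon : Ideal (E.AR R) :=
  (Ideal.span {h.eqn}).colon (h.ideal : Set (E.AR R))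

/-- Dual of the ideal, on the second chart. -/
noncomputable def IsChartData.colon' : Ideal (E.AR' R) :=
  (Ideal.span {h.eqn'}).colon (h.ideal' : Set (E.AR' R))

theorem IsChartData.invertible_colon : Module.Invertible (E.AR R) h.colon :=
  haveI := h.invertible
  FLTA.Jacobian.invertible_colon (I := h.ideal) h.aeval_poly_mem h.eqn_regular

theorem IsChartData.invertible_colon' : Module.Invertible (E.AR' R) h.colon' :=
  haveI := h.invertible'
  FLTA.Jacobian.invertible_colon (I := h.ideal') h.eqn'_mem h.eqn'_regular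

theorem IsChartData.map_colon : h.colon.map (E.ιR R) = h.colon'.map (E.ιR' R) := by
  have h1 := map_colon_away (L := E.AR01 R) (E.tR R) h.eqn h.ideal_fg
  have h2 := map_colon_away (L := E.AR01 R) (E.sR R) h.eqn' h.ideal'_fg
  refine Eq.trans h1 (Eq.trans ?_ h2.symm)
  have e : h.ideal'.map (algebraMap (E.AR' R) (E.AR01 R)) =
      h.ideal.map (algebraMap (E.AR R) (E.AR01 R)) := h.map_ideal'
  rw [e, E.algebraMap_ι_apply, E.algebraMap_ι'_apply, h.ι_eqn]
  congr 1
  exact Ideal.span_singleton_mul_left_unit ((E.isUnit_ιR_tR R).pow _) _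

theorem IsChartData.eqn_mem_colon : h.eqn ∈ h.colon := by
  rw [IsChartData.colon, Submodule.mem_colon]
  exact fun x _ => Ideal.mul_mem_right _ _ (Ideal.mem_span_singleton_self _)

theorem IsChartData.eqn'_mem_colon' : h.eqn' ∈ h.colon' := by
  rw [IsChartData.colon', Submodule.mem_colon]
  exact fun x _ => Ideal.mul_mem_right _ _ (Ideal.mem_span_singleton_self _)

/-- The line bundle of a point of the chart. -/
noncomputable def IsChartData.triple : Triple E R :=
  haveI := h.invertible_colon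
  haveI := h.invertible_colon'
  (Triple.ofIdeals h.colon h.colon' h.map_colon).twist h.deg

/-- Its canonical section. -/
noncomputable def IsChartData.sect : h.triple.H0 :=
  haveI := h.invertible_colon
  haveI := h.invertible_colon'
  ⟨(⟨h.eqn, h.eqn_mem_colon⟩, ⟨h.eqn', h.eqn'_mem_colon'⟩),
    (Triple.mem_h0_iff _ _).mpr (Subtype.ext h.ι_eqn)⟩

theorem IsChartData.sect_generates : h.triple.GeneratesAtε h.sect.1.2 := by
  have := h.invertible_colon
  have := h.invertible_colon'
  rw [Triple.GeneratesAtε, eq_top_iff]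
  rintro (x : h.colon') -
  have h2 : (1 - h.eqn') ∈ RingHom.ker (E.εR R) := by
    obtain ⟨w, hw⟩ := Ideal.mem_span_singleton.mp h.eqn'_sub_one
    rw [RingHom.mem_ker, ← neg_sub, map_neg, hw, map_mul, E.εR_sR, zero_mul, neg_zero]
  refine Submodule.mem_sup.mpr ⟨_, Submodule.mem_span_singleton.mpr ⟨x.1, rfl⟩, _,
    Submodule.smul_mem_smul h2 (Submodule.mem_top (x := x)), Subtype.ext ?_⟩
  change x.1 * h.eqn' + (1 - h.eqn') * x.1 = x.1
  ring

theorem IsChartData.evalIdeal_sect : evalIdeal (E.AR R) h.sect.1.1 = h.ideal := by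
  have := h.invertible
  exact FLTA.Jacobian.evalIdeal_colon (I := h.ideal) h.aeval_poly_mem h.eqn_regular
    h.eqn_mem_colon

theorem IsChartData.hasDivisor : h.triple.HasDivisor b h.sect :=
  ⟨h.sect_generates, h.evalIdeal_sect.symm ▸ h.isBasisMod⟩

end FLTA.Jacobian
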