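import Fermat.Agent.Jacobian.ChartSection

/-!
# The ideal of a chart point is invertible
-/

set_option autoImplicit false

universe u

open TensorProduct Polynomial
open scoped FLTA.Jacobian.TwoCover FLTA.Jacobian.Triple

namespace FLTA.Jacobian

theorem invertible_ideal_of_locally {P : Type u} [CommRing P] (I : Ideal P)
    (h : ∀ M : Ideal P, M.IsMaximal → ∃ (φ : Module.Dual P I) (x : I), φ x ∉ M) :
    Module.Invertible P I := by
  classical
  let V : Set P := {a | ∃ (φ : Module.Dual P I) (x : I), φ x = a}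
  have htop : Ideal.span V = ⊤ := by
    by_contra hne
    obtain ⟨M, hM, hle⟩ := Ideal.exists_le_maximal _ hne
    obtain ⟨φ, x, hx⟩ := h M hM
    exact hx (hle (Ideal.subset_span ⟨φ, x, rfl⟩))
  obtain ⟨G, hGV, h1⟩ := Submodule.mem_span_finite_of_mem_span
    (htop.ge (Submodule.mem_top (x := (1 : P))) : (1 : P) ∈ Submodule.span P V)
  obtain ⟨c, hc⟩ := Submodule.mem_span_finset'.mp h1
  choose φ x hφ using fun a : G => hGV a.2
  refine invertible_of_partition (fun ψ a b => Subtype.ext ?_) (ι := G) (fun a => c a • φ a) x ?_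
  · change ψ a * b.1 = ψ b * a.1
    rw [mul_comm (ψ a), mul_comm (ψ b), ← smul_eq_mul, ← smul_eq_mul, ← map_smul, ← map_smul]
    congr 1
    exact Subtype.ext (mul_comm _ _)
  · rw [← hc]
    refine Finset.sum_congr rfl fun a _ => ?_
    rw [LinearMap.smul_apply, hφ a]

/-- The functional `i ↦ y i / P` on an ideal. -/
theorem exists_dual_of_colon {P : Type u} [CommRing P] {I : Ideal P} {a : P} (ha : a ∈ I)
    (hreg : ∀ z, a * z = 0 → z = 0) {y : P}
    (hy : y ∈ (Ideal.span {a}).colon (I : Set P)) :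
    ∃ φ : Module.Dual P I, φ ⟨a, ha⟩ = y ∧ ∀ i : I, a * φ i = y * i := by
  rw [Submodule.mem_colon] at hy
  choose φ hφ using fun i : I => Ideal.mem_span_singleton.mp (hy i.1 i.2)
  have huniq : ∀ {u v : P}, a * u = a * v → u = v := fun {u v} h =>
    sub_eq_zero.mp (hreg _ (by rw [mul_sub, h, sub_self]))
  let Φ : Module.Dual P I :=
    { toFun := φ
      map_add' := fun i j => huniq (by
        rw [mul_add, ← hφ, ← hφ, ← hφ, smul_eq_mul, smul_eq_mul, smul_eq_mul]
        exact mul_add _ _ _)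
      map_smul' := fun c i => huniq (by
        simp only [RingHom.id_apply, smul_eq_mul]
        rw [← hφ, mul_left_comm a c, ← hφ, smul_eq_mul, smul_eq_mul]
        exact mul_left_comm _ _ _) }
  refine ⟨Φ, huniq ?_, fun i => (hφ i).symm⟩
  change a * φ ⟨a, ha⟩ = a * y
  rw [← hφ, smul_eq_mul]
  exact mul_comm y a

variable {k : Type u} [Field k] {E : TwoCover k}
variable {R : Type u} [CommRing R] [Algebra k R] {g : ℕ} {b : Fin g → E.A}
  {I : Ideal (E.AR R)}

theorem Triple.fg_of_isBasisMod (hI : IsBasisMod (R := R) (Triple.bR R b) I) {P : R[X]}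
    (hP : P.Monic) (hPI : aeval (E.tR R) P ∈ I) : I.FG := by
  classical
  have := E.isDomain_A
  obtain ⟨π, hker, hπ⟩ := hI.exists_proj
  obtain ⟨ρ, hρ, -, G, hG⟩ := exists_rem (R := R) E.finite E.aeval_t_injective hP
  let θ : E.AR R →ₗ[R] E.AR R :=
    LinearMap.id - Fintype.linearCombination R (Triple.bR R b) ∘ₗ π
  have hθ : ∀ a, θ a = a - ∑ i, π a i • Triple.bR R b i := fun a => rfl
  have hθI : ∀ a, θ a ∈ I := fun a => hker.le (LinearMap.mem_ker.mpr (by
    rw [hθ, map_sub, IsBasisMod.proj_sum hπ, sub_self]))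
  have hθfix : ∀ a ∈ I, θ a = a := fun a ha => by
    rw [hθ, LinearMap.mem_ker.mp (hker.ge ha)]
    simp
  refine ⟨insert (aeval (E.tR R) P) (G.image θ), le_antisymm ?_ ?_⟩
  · refine Submodule.span_le.mpr fun z hz => ?_
    rcases Finset.mem_insert.mp (Finset.mem_coe.mp hz) with rfl | h
    · exact hPI
    · obtain ⟨s, -, rfl⟩ := Finset.mem_image.mp h
      exact hθI s
  · intro x hx
    have hsub : x - ρ x ∈ Ideal.span {aeval (E.tR R) P} := hρ x
    have h1 : ρ x ∈ I := by
      have := I.sub_mem hx ((Ideal.span_singleton_le_iff_mem _).mpr hPI hsub)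
      rwa [sub_sub_cancel] at this
    rw [← sub_add_cancel x (ρ x)]
    refine Submodule.add_mem _ ?_ ?_
    · refine Submodule.span_mono ?_ hsub
      simp
    · rw [← hθfix _ h1]
      have h2 : θ (ρ x) ∈ (Submodule.span R (G : Set (E.AR R))).map θ :=
        ⟨ρ x, hG x, rfl⟩
      rw [Submodule.map_span] at h2
      refine Submodule.span_le_restrictScalars R (E.AR R) _ (Submodule.span_mono ?_ h2)
      intro z hz
      simp only [Finset.coe_insert, Finset.coe_image]
      exact Set.mem_insert_of_mem _ hz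

theorem Triple.exists_local_generator (hI : IsBasisMod (R := R) (Triple.bR R b) I) {P : R[X]}
    (hP : P.Monic) (hPI : aeval (E.tR R) P ∈ I) (M : Ideal (E.AR R)) [M.IsMaximal] :
    ∃ h ∉ M, ∃ f ∈ I, ∀ i ∈ I, h * i ∈ Ideal.span {f} := by
  classical
  have hdom := E.isDomain_A
  obtain ⟨π, hker, hπ⟩ := hI.exists_proj
  let p : Ideal R := M.comap (algebraMap R (E.AR R))
  have : p.IsPrime := inferInstance
  let K := p.ResidueField
  let := E.domain K
  let := E.dedekind K
  have hpK : ∀ {r : R}, algebraMap R K r = 0 ↔ r ∈ p :=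
    fun {r} => Ideal.algebraMap_residueField_eq_zero
  have hker0 : ∀ a : E.AR R, E.bcA R K a = 0 → a ∈ p.map (algebraMap R (E.AR R)) := by
    intro a ha
    have h1 := mem_map_of_bcMap_eq_zero E.finite E.aeval_t_injective ha
    rwa [Ideal.ker_algebraMap_residueField] at h1
  have hpM : p.map (algebraMap R (E.AR R)) ≤ M := Ideal.map_comap_le
  have hnum : ∀ z : E.AR K, ∃ r ∉ p, ∃ a : E.AR R, algebraMap R K r • z = E.bcA R K a := by
    intro z
    induction z using TensorProduct.induction_on with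
    | zero => exact ⟨1, fun h => ‹p.IsPrime›.ne_top ((Ideal.eq_top_iff_one _).mpr h), 0, by simp⟩
    | tmul c a =>
      obtain ⟨x, y, hy, hxy⟩ := IsFractionRing.div_surjective (R ⧸ p) c
      obtain ⟨r₁, rfl⟩ := Ideal.Quotient.mk_surjective x
      obtain ⟨r₂, rfl⟩ := Ideal.Quotient.mk_surjective y
      have hr₂ : r₂ ∉ p := fun h => nonZeroDivisors.ne_zero hy
        (Ideal.Quotient.eq_zero_iff_mem.mpr h)
      refine ⟨r₂, hr₂, r₁ ⊗ₜ a, ?_⟩
      rw [TensorProduct.smul_tmul']
      congr 1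
      have e1 : ∀ r : R, algebraMap (R ⧸ p) K (Ideal.Quotient.mk p r) = algebraMap R K r :=
        fun r => (IsScalarTower.algebraMap_apply R (R ⧸ p) K r).symm
      rw [e1, e1] at hxy
      rw [← hxy, smul_eq_mul]
      change algebraMap R K r₂ * _ = algebraMap R K r₁
      rw [mul_div_cancel₀ _ fun h => hr₂ (hpK.mp h)]
    | add u v hu hv =>
      obtain ⟨r, hr, a, ha⟩ := hu
      obtain ⟨r', hr', a', ha'⟩ := hv
      refine ⟨r * r', ‹p.IsPrime›.mul_notMem hr hr', r' • a + r • a', ?_⟩
      have e : ∀ (s : R) (w : E.AR R), E.bcA R K (s • w) = algebraMap R K s • E.bcA R K w := by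
        intro s w
        rw [Algebra.smul_def, map_mul, Algebra.smul_def]
        congr 1
      rw [map_add, e, e, ← ha, ← ha', smul_smul, smul_smul, smul_add, map_mul,
        mul_comm (algebraMap R K r') (algebraMap R K r)]
  have hsmul : ∀ (s : R) (w : E.AR R), E.bcA R K (s • w) = algebraMap R K s • E.bcA R K w := by
    intro s w
    rw [Algebra.smul_def, map_mul, Algebra.smul_def]
    congr 1
  have hunit : ∀ {r : R}, r ∉ p → IsUnit (algebraMap R K r) := fun hr =>
    IsUnit.mk0 _ fun h => hr (hpK.mp h)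
  -- the prime of the fibre over `M`
  have hne : M.map (E.bcA R K).toRingHom ≠ ⊤ := by
    intro htop
    have hkey : ∀ z ∈ M.map (E.bcA R K).toRingHom,
        ∃ r ∉ p, ∃ a ∈ M, algebraMap R K r • z = E.bcA R K a := by
      intro z hz
      induction hz using Submodule.span_induction with
      | mem y hy =>
        obtain ⟨a, ha, rfl⟩ := hy
        exact ⟨1, fun h => ‹p.IsPrime›.ne_top ((Ideal.eq_top_iff_one _).mpr h), a, ha, by simp⟩
      | zero =>
        exact ⟨1, fun h => ‹p.IsPrime›.ne_top ((Ideal.eq_top_iff_one _).mpr h), 0, zero_mem _,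
          by simp⟩
      | add u v _ _ hu hv =>
        obtain ⟨r, hr, a, ha, e1⟩ := hu
        obtain ⟨r', hr', a', ha', e2⟩ := hv
        refine ⟨r * r', ‹p.IsPrime›.mul_notMem hr hr', r' • a + r • a',
          add_mem (Submodule.smul_of_tower_mem M r' ha) (Submodule.smul_of_tower_mem M r ha'), ?_⟩
        rw [map_add, hsmul, hsmul, ← e1, ← e2, smul_smul, smul_smul, smul_add, map_mul,
          mul_comm (algebraMap R K r') (algebraMap R K r)]
      | smul c u _ hu =>
        obtain ⟨r, hr, a, ha, e1⟩ := hu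
        obtain ⟨r', hr', a', e2⟩ := hnum c
        refine ⟨r' * r, ‹p.IsPrime›.mul_notMem hr' hr, a' * a, M.mul_mem_left _ ha, ?_⟩
        rw [map_mul (E.bcA R K), ← e1, ← e2, smul_eq_mul, smul_mul_smul_comm, map_mul]
    obtain ⟨r, hr, a, ha, e⟩ := hkey 1 (htop ▸ Submodule.mem_top)
    have h0 : E.bcA R K (r • (1 : E.AR R) - a) = 0 := by
      rw [map_sub, hsmul, map_one, e, sub_self]
    have h1 := M.add_mem (hpM (hker0 _ h0)) ha
    rw [sub_add_cancel, Algebra.smul_def, mul_one] at h1
    exact hr h1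
  obtain ⟨𝔮, h𝔮, hle⟩ := Ideal.exists_le_maximal _ hne
  have hcomap : ∀ a, E.bcA R K a ∈ 𝔮 → a ∈ M := by
    intro a ha
    have hle' : M ≤ 𝔮.comap (E.bcA R K).toRingHom := Ideal.map_le_iff_le_comap.mp hle
    have heq : M = 𝔮.comap (E.bcA R K).toRingHom :=
      ‹M.IsMaximal›.eq_of_le (Ideal.comap_ne_top _ h𝔮.ne_top) hle'
    rw [heq]
    exact ha
  let IK : Ideal (E.AR K) := I.map (E.bcA R K).toRingHom
  have hIK : IK ≠ ⊥ := by
    intro hbot
    have h1 : E.bcA R K (aeval (E.tR R) P) = 0 := by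
      have := Ideal.mem_map_of_mem (E.bcA R K).toRingHom hPI
      rw [show I.map (E.bcA R K).toRingHom = ⊥ from hbot, Ideal.mem_bot] at this
      exact this
    have h2 := hker0 _ h1
    have h3 : (1 : E.AR R) ∈ p.map (algebraMap R (E.AR R)) :=
      monic_mul_mem_map E.finite E.aeval_t_injective hP (by rw [mul_one]; exact h2)
    exact ‹M.IsMaximal›.ne_top ((Ideal.eq_top_iff_one _).mpr (hpM h3))
  obtain ⟨f, hf, hfq⟩ : ∃ f ∈ I, E.bcA R K f ∉ 𝔮 * IK := by
    by_contra! hall
    have hle2 : IK ≤ 𝔮 * IK := Ideal.map_le_iff_le_comap.mpr hall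
    have heq : 𝔮 * IK = IK := le_antisymm Ideal.mul_le_right hle2
    exact h𝔮.ne_top ((mul_eq_right₀ hIK).mp heq |>.trans Ideal.one_eq_top)
  obtain ⟨C, hC⟩ : IK ∣ Ideal.span {E.bcA R K f} := Ideal.dvd_iff_le.mpr
    ((Ideal.span_singleton_le_iff_mem _).mpr (Ideal.mem_map_of_mem _ hf))
  have hCq : ¬ C ≤ 𝔮 := fun h => hfq (by
    have h1 : E.bcA R K f ∈ IK * C := hC ▸ Ideal.mem_span_singleton_self _
    rw [mul_comm]
    exact Ideal.mul_mono_right h h1)
  obtain ⟨c, hcC, hcq⟩ := SetLike.not_le_iff_exists.mp hCq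
  obtain ⟨r, hr, a, ha⟩ := hnum c
  have haM : a ∉ M := by
    intro haM
    have h1 : algebraMap R K r • c ∈ 𝔮 := by
      rw [ha]
      exact hle (Ideal.mem_map_of_mem _ haM)
    obtain ⟨u, hu⟩ := (hunit hr).exists_left_inv
    have h2 := Submodule.smul_of_tower_mem 𝔮 u h1
    rw [smul_smul, hu, one_smul] at h2
    exact hcq h2
  let N : Ideal (E.AR R) := Ideal.span {f} ⊔ M * I
  have hIN : I ≤ N := by
    intro i hi
    have h1 : c * E.bcA R K i ∈ Ideal.span {E.bcA R K f} := by
      rw [hC, mul_comm c]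
      exact Ideal.mul_mem_mul (Ideal.mem_map_of_mem _ hi) hcC
    obtain ⟨z, hz⟩ := Ideal.mem_span_singleton.mp h1
    obtain ⟨r', hr', a', ha'⟩ := hnum z
    let d : E.AR R := r' • (a * i) - r • (f * a')
    have hd0 : E.bcA R K d = 0 := by
      simp only [d, map_sub, hsmul, map_mul]
      rw [← ha, ← ha', smul_mul_assoc, hz, mul_smul_comm, smul_comm, sub_self]
    have hdI : d ∈ I := I.sub_mem (Submodule.smul_of_tower_mem I r' (I.mul_mem_left _ hi))
      (Submodule.smul_of_tower_mem I r (I.mul_mem_right _ hf))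
    have hdMI : d ∈ M * I := by
      have hd1 : d ∈ (p • ⊤ : Submodule R (E.AR R)) := by
        rw [Ideal.smul_top_eq_map]; exact hker0 d hd0
      have hd2 : d = d - ∑ j, π d j • Triple.bR R b j := by
        rw [LinearMap.mem_ker.mp (hker.ge hdI)]; simp
      rw [hd2]
      clear hd2 hd0 hdI
      generalize d = w at hd1 ⊢
      induction hd1 using Submodule.smul_induction_on' with
      | smul s hs v _ =>
        have hv : v - ∑ j, π v j • Triple.bR R b j ∈ I := hker.le (LinearMap.mem_ker.mpr (by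
          rw [map_sub, IsBasisMod.proj_sum hπ, sub_self]))
        have : s • v - ∑ j, π (s • v) j • Triple.bR R b j =
            algebraMap R (E.AR R) s * (v - ∑ j, π v j • Triple.bR R b j) := by
          rw [mul_sub, Finset.mul_sum, map_smul, ← Algebra.smul_def]
          congr 1
          refine Finset.sum_congr rfl fun j _ => ?_
          rw [Pi.smul_apply, smul_eq_mul, mul_smul, Algebra.smul_def]
        rw [this]
        exact Ideal.mul_mem_mul hs hv
      | add u _ v _ hu hv =>
        convert (M * I).add_mem hu hv using 1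
        simp [add_smul, Finset.sum_add_distrib]
        abel
    have hN : algebraMap R (E.AR R) r' * a * i ∈ N := by
      have : algebraMap R (E.AR R) r' * a * i = d + f * (r • a') := by
        simp only [d, Algebra.smul_def]; ring
      rw [this]
      exact N.add_mem (Submodule.mem_sup_right hdMI)
        (Submodule.mem_sup_left (Ideal.mem_span_singleton.mpr (dvd_mul_right _ _)))
    have hnot : algebraMap R (E.AR R) r' * a ∉ M :=
      ‹M.IsMaximal›.isPrime.mul_notMem (fun h => hr' h) haM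
    obtain ⟨u, v, hv, huv⟩ := ‹M.IsMaximal›.exists_inv hnot
    rw [← one_mul i, ← huv, add_mul, mul_assoc u]
    exact N.add_mem (N.mul_mem_left _ hN) (Submodule.mem_sup_right (Ideal.mul_mem_mul hv hi))
  let Q : Submodule (E.AR R) (E.AR R ⧸ (Ideal.span {f} : Submodule (E.AR R) (E.AR R))) :=
    Submodule.map (Submodule.mkQ _) (I : Submodule (E.AR R) (E.AR R))
  have hQfg : Q.FG := Submodule.FG.map _ (Triple.fg_of_isBasisMod hI hP hPI)
  have hQ : Q ≤ M • Q := by
    rintro _ ⟨i, hi, rfl⟩
    obtain ⟨u, hu, v, hv, rfl⟩ := Submodule.mem_sup.mp (hIN hi)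
    rw [map_add, show Submodule.mkQ _ u = 0 from (Submodule.Quotient.mk_eq_zero _).mpr hu, zero_add,
      ← Submodule.map_smul'']
    exact ⟨v, by rwa [smul_eq_mul], rfl⟩
  obtain ⟨h, h1, hh⟩ :=
    Submodule.exists_sub_one_mem_and_smul_eq_zero_of_fg_of_le_smul M Q hQfg hQ
  refine ⟨h, fun hM => ‹M.IsMaximal›.ne_top ((Ideal.eq_top_iff_one _).mpr ?_), f, hf, fun i hi => ?_⟩
  · simpa using M.sub_mem hM h1
  · exact (Submodule.Quotient.mk_eq_zero _).mp (hh _ ⟨i, hi, rfl⟩)

theorem Triple.invertible_of_isBasisMod (hI : IsBasisMod (R := R) (Triple.bR R b) I) {P : R[X]}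
    (hP : P.Monic) (hPI : aeval (E.tR R) P ∈ I) : Module.Invertible (E.AR R) I := by
  refine invertible_ideal_of_locally I fun M hM => ?_
  have := E.isDomain_A
  obtain ⟨h, hh, f, hf, hspan⟩ := Triple.exists_local_generator hI hP hPI M
  have hreg : ∀ {w}, f * w = 0 → h * w = 0 := by
    intro w hw
    obtain ⟨y, hy⟩ := Ideal.mem_span_singleton.mp (hspan _ hPI)
    refine monic_mul_eq_zero E.finite E.aeval_t_injective hP ?_
    change aeval (E.tR R) P * (h * w) = 0
    rw [← mul_assoc, mul_comm _ h, hy, mul_right_comm, hw, zero_mul]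
  choose y hy using fun i : I => Ideal.mem_span_singleton.mp (hspan i.1 i.2)
  have hu : ∀ {u v}, f * u = f * v → h * u = h * v := fun {u v} e =>
    sub_eq_zero.mp (by rw [← mul_sub]; exact hreg (by rw [mul_sub, e, sub_self]))
  let φ : Module.Dual (E.AR R) I :=
    { toFun := fun i => h * y i
      map_add' := fun i j => by
        rw [← mul_add]
        exact hu (by rw [mul_add, ← hy, ← hy, ← hy, Submodule.coe_add, mul_add])
      map_smul' := fun c i => by
        simp only [RingHom.id_apply, smul_eq_mul]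
        rw [mul_left_comm c h]
        exact hu (by rw [mul_left_comm f c, ← hy, ← hy, Submodule.coe_smul, smul_eq_mul,
          mul_left_comm]) }
  refine ⟨φ, ⟨f, hf⟩, ?_⟩
  change h * y ⟨f, hf⟩ ∉ M
  rw [hu (u := y ⟨f, hf⟩) (v := h) (by rw [← hy, mul_comm h])]
  exact hM.isPrime.mul_notMem hh hh

end FLTA.Jacobian
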