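import Fermat.Agent.Jacobian.ChartIdeal

/-!
# A line bundle is determined by the divisor of a section
-/

set_option autoImplicit false
set_option maxHeartbeats 400000

universe u

open TensorProduct Polynomial
open scoped FLTA.Jacobian.TwoCover FLTA.Jacobian.Triple

namespace FLTA.Jacobian

section Equiv

variable {P : Type u} [CommRing P]

theorem dual_injective_of_regular {M : Type u} [AddCommGroup M] [Module P M]
    [Module.Invertible P M] {x : M} {a : P} (hreg : ∀ z, a * z = 0 → z = 0)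
    {φ : Module.Dual P M} (hφ : φ x = a) : Function.Injective φ := by
  refine (injective_iff_map_eq_zero φ).mpr fun y hy => eq_zero_of_dual fun ψ => hreg _ ?_
  rw [← hφ, ← smul_eq_mul, ← map_smul, dual_apply_smul_comm, hy, zero_smul, map_zero]

theorem dual_range_eq_colon {M : Type u} [AddCommGroup M] [Module P M]
    [Module.Invertible P M] {x : M} {a : P} (hreg : ∀ z, a * z = 0 → z = 0)
    {φ : Module.Dual P M} (hφ : φ x = a) :
    LinearMap.range φ = (Ideal.span {a}).colon (evalIdeal P x : Set P) := by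
  refine le_antisymm ?_ fun c hc => ?_
  · rintro _ ⟨y, rfl⟩
    rw [Submodule.mem_colon]
    rintro _ ⟨ψ, rfl⟩
    refine Ideal.mem_span_singleton.mpr ⟨ψ y, ?_⟩
    have h1 := congrArg ψ (dual_apply_smul_comm φ x y)
    rw [map_smul, map_smul, hφ] at h1
    exact h1.symm
  · rw [Submodule.mem_colon] at hc
    obtain ⟨ι, _, ψ, m, h⟩ := exists_dual_partition P M
    have : ∀ l, ∃ d, c * ψ l x = a * d := fun l =>
      Ideal.mem_span_singleton.mp (hc _ ⟨ψ l, rfl⟩)
    choose d hd using this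
    refine ⟨∑ l, d l • m l, sub_eq_zero.mp (hreg _ ?_)⟩
    rw [mul_sub, map_sum, Finset.mul_sum, sub_eq_zero]
    calc ∑ l, a * φ (d l • m l) = ∑ l, ψ l (m l) * (c * a) := by
          refine Finset.sum_congr rfl fun l _ => ?_
          have h1 := congrArg φ (dual_apply_smul_comm (ψ l) x (m l))
          rw [map_smul, map_smul, hφ, smul_eq_mul, smul_eq_mul] at h1
          rw [map_smul, smul_eq_mul, ← mul_assoc, ← hd, mul_assoc, h1]
          ring
      _ = a * c := by rw [← Finset.sum_mul, h, one_mul, mul_comm]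

theorem exists_equiv_of_evalIdeal {M₁ M₂ : Type u} [AddCommGroup M₁] [Module P M₁]
    [Module.Invertible P M₁] [AddCommGroup M₂] [Module P M₂] [Module.Invertible P M₂]
    {x₁ : M₁} {x₂ : M₂} (h : evalIdeal P x₁ = evalIdeal P x₂) {a : P}
    (ha : a ∈ evalIdeal P x₁) (hreg : ∀ z, a * z = 0 → z = 0) :
    ∃ e : M₁ ≃ₗ[P] M₂, e x₁ = x₂ := by
  obtain ⟨φ₁, hφ₁⟩ := mem_evalIdeal.mp ha
  obtain ⟨φ₂, hφ₂⟩ := mem_evalIdeal.mp (h ▸ ha)
  have hrange : LinearMap.range φ₁ = LinearMap.range φ₂ := by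
    rw [dual_range_eq_colon hreg hφ₁, dual_range_eq_colon hreg hφ₂, h]
  let e₁ := LinearEquiv.ofInjective φ₁ (dual_injective_of_regular hreg hφ₁)
  let e₂ := LinearEquiv.ofInjective φ₂ (dual_injective_of_regular hreg hφ₂)
  refine ⟨e₁.trans ((LinearEquiv.ofEq _ _ hrange).trans e₂.symm), ?_⟩
  rw [LinearEquiv.trans_apply, LinearEquiv.trans_apply, LinearEquiv.symm_apply_eq]
  exact Subtype.ext (hφ₁.trans hφ₂.symm)

end Equiv

namespace Triple

variable {k : Type u} [Field k] {E : TwoCover k} {R : Type u} [CommRing R] [Algebra k R]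

theorem GeneratesAtε.evalIdeal_snd {T : Triple E R} {σ : T.H0} (h : T.GeneratesAtε σ.1.2) :
    evalIdeal (E.AR' R) σ.1.2 =
      ((evalIdeal (E.AR R) σ.1.1).map (E.ιR R)).comap (E.ιR' R) := by
  obtain ⟨⟨q, hq, hq1⟩, -⟩ := h.exists_monic
  have h1 : evalIdeal (E.AR01 R) (T.res σ.1.1) =
      (evalIdeal (E.AR R) σ.1.1).map (E.ιR R).toRingHom := evalIdeal_map T.res T.span_range_res _
  have h2 : evalIdeal (E.AR01 R) (T.res' σ.1.2) =
      (evalIdeal (E.AR' R) σ.1.2).map (E.ιR' R).toRingHom :=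
    evalIdeal_map T.res' T.span_range_res' _
  rw [(T.mem_h0_iff σ.1).mp σ.2, h2] at h1
  refine le_antisymm ?_ ?_
  · intro x hx
    rw [Ideal.mem_comap]
    exact h1.le (Ideal.mem_map_of_mem _ hx)
  · refine ideal_le_of_away (L := E.AR01 R) (E.sR R) ?_ hq hq1
    refine le_trans Ideal.map_comap_le ?_
    exact h1.ge

theorem GeneratesAtε.nonempty_iso {T₁ T₂ : Triple E R} {σ₁ : T₁.H0} {σ₂ : T₂.H0}
    (h₁ : T₁.GeneratesAtε σ₁.1.2) (h₂ : T₂.GeneratesAtε σ₂.1.2)
    (hI : evalIdeal (E.AR R) σ₁.1.1 = evalIdeal (E.AR R) σ₂.1.1) :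
    Nonempty (Iso T₁ T₂) := by
  obtain ⟨-, P, hP, hPI⟩ := h₁.exists_monic
  have := E.isDomain_A
  have hreg : ∀ z, aeval (E.tR R) P * z = 0 → z = 0 := fun z hz =>
    monic_mul_eq_zero E.finite E.aeval_t_injective hP hz
  obtain ⟨eM, heM⟩ := exists_equiv_of_evalIdeal hI hPI hreg
  have hI' : evalIdeal (E.AR' R) σ₁.1.2 = evalIdeal (E.AR' R) σ₂.1.2 := by
    rw [h₁.evalIdeal_snd, h₂.evalIdeal_snd, hI]
  obtain ⟨n, a', ha'⟩ := E.exists_ιR'_pow R (E.ιR R (aeval (E.tR R) P))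
  have hregι : ∀ z, E.ιR' R a' * z = 0 → z = 0 := by
    intro z hz
    rw [← ha', mul_assoc] at hz
    obtain ⟨i, c, hc⟩ := E.exists_ιR_pow R z
    have h0 := ((E.isUnit_ιR'_sR R).pow n).mul_right_eq_zero.mp hz
    have h1 : E.ιR R (aeval (E.tR R) P * c) = E.ιR R 0 := by
      rw [map_mul, ← hc, mul_left_comm, h0, mul_zero, map_zero]
    rw [hreg c (E.ιR_injective R h1), map_zero] at hc
    exact ((E.isUnit_ιR_tR R).pow i).mul_right_eq_zero.mp hc
  have hreg' : ∀ z, a' * z = 0 → z = 0 := fun z hz => E.ιR'_injective R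
    ((hregι _ (by rw [← map_mul, hz, map_zero])).trans (map_zero _).symm)
  have ha'I : a' ∈ evalIdeal (E.AR' R) σ₁.1.2 := by
    rw [h₁.evalIdeal_snd, Ideal.mem_comap, ← ha']
    exact Ideal.mul_mem_left _ _ (Ideal.mem_map_of_mem _ hPI)
  obtain ⟨eM', heM'⟩ := exists_equiv_of_evalIdeal hI' ha'I hreg'
  let f₂ : T₁.M →ₛₗ[(E.ιR R).toRingHom] T₂.N :=
    { toFun := fun m => T₂.res (eM m)
      map_add' := fun x y => by simp
      map_smul' := fun c x => (congrArg T₂.res (eM.map_smul c x)).trans (T₂.res.map_smulₛₗ _ _) }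
  have hf₂ : Submodule.span (E.AR01 R) (Set.range f₂) = ⊤ := by
    have : Set.range f₂ = Set.range T₂.res := by
      refine Set.ext fun z => ⟨fun ⟨m, hm⟩ => ⟨eM m, hm⟩, fun ⟨m, hm⟩ => ⟨eM.symm m, ?_⟩⟩
      change T₂.res (eM (eM.symm m)) = z
      rw [eM.apply_symm_apply, hm]
    rw [this]
    exact T₂.span_range_res
  let eN := spanEquiv T₁.res T₁.span_range_res f₂ hf₂
  have hcomm : ∀ m, eN (T₁.res m) = T₂.res (eM m) := spanEquiv_apply _ _ _ _
  refine ⟨⟨eM, eM', eN, hcomm, fun y => ?_⟩⟩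
  obtain ⟨φ, hφ⟩ := mem_evalIdeal.mp ha'I
  have hy : a' • y = φ y • σ₁.1.2 := by rw [← hφ, dual_apply_smul_comm]
  have hσ : eN (T₁.res' σ₁.1.2) = T₂.res' (eM' σ₁.1.2) := by
    rw [← (T₁.mem_h0_iff σ₁.1).mp σ₁.2, hcomm, heM, heM']
    exact (T₂.mem_h0_iff σ₂.1).mp σ₂.2
  refine sub_eq_zero.mp (eq_zero_of_dual (P := E.AR01 R) fun ψ => hregι _ ?_)
  have h3 : E.ιR' R a' • (eN (T₁.res' y) - T₂.res' (eM' y)) = 0 := by
    have e1 : E.ιR' R a' • T₁.res' y = T₁.res' (a' • y) := (T₁.res'.map_smulₛₗ a' y).symm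
    have e2 : E.ιR' R a' • T₂.res' (eM' y) = T₂.res' (eM' (a' • y)) := by
      rw [map_smul]
      exact (T₂.res'.map_smulₛₗ a' _).symm
    rw [smul_sub, ← map_smul, e1, e2, hy, LinearMap.map_smulₛₗ, map_smul, map_smul,
      LinearMap.map_smulₛₗ, hσ, sub_self]
  rw [← smul_eq_mul, ← map_smul, h3, map_zero]

end Triple

end FLTA.Jacobian
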