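import Fermat.Agent.Jacobian.ChartGood
import Fermat.Agent.Jacobian.ChartIso

/-!
# The coordinate ring of the universal chart
-/

set_option autoImplicit false
set_option maxHeartbeats 400000

universe u

open TensorProduct
open scoped FLTA.Jacobian.TwoCover FLTA.Jacobian.Triple

namespace FLTA.Jacobian

variable {k : Type u} [Field k]

/-- The defining relations of the chart. -/
noncomputable def chartRel (E : TwoCover k) {g : ℕ} (b : Fin g → E.A) :
    Ideal (MvPolynomial (E.A × Fin g) k) :=
  Ideal.span
    (Set.range (fun x : E.A × E.A × Fin g => MvPolynomial.X (x.1 + x.2.1, x.2.2) -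
        MvPolynomial.X (x.1, x.2.2) - MvPolynomial.X (x.2.1, x.2.2)) ∪
      Set.range (fun x : k × E.A × Fin g => MvPolynomial.X (x.1 • x.2.1, x.2.2) -
        MvPolynomial.C x.1 * MvPolynomial.X (x.2.1, x.2.2)) ∪
      Set.range (fun x : Fin g × Fin g => MvPolynomial.X (b x.1, x.2) -
        MvPolynomial.C (if x.2 = x.1 then 1 else 0)) ∪
      Set.range (fun x : E.A × E.A × Fin g => MvPolynomial.X (x.1 * x.2.1, x.2.2) -
        ∑ j, MvPolynomial.X (x.2.1, j) * MvPolynomial.X (x.1 * b j, x.2.2)))

/-- The coordinate ring of the affine chart of closed subschemes `D` of the affine curve such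
that `b` is a basis of the functions on `D`. -/
def ChartRing (E : TwoCover k) {g : ℕ} (b : Fin g → E.A) : Type u :=
  MvPolynomial (E.A × Fin g) k ⧸ chartRel E b

noncomputable instance ChartRing.commRing (E : TwoCover k) {g : ℕ} (b : Fin g → E.A) :
    CommRing (ChartRing E b) :=
  Ideal.Quotient.commRing (chartRel E b)

noncomputable instance ChartRing.algebra (E : TwoCover k) {g : ℕ} (b : Fin g → E.A) :
    Algebra k (ChartRing E b) :=
  Ideal.Quotient.algebra k

variable {E : TwoCover k} {g : ℕ}

/-- The quotient map. -/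
noncomputable def ChartRing.mk (b : Fin g → E.A) :
    MvPolynomial (E.A × Fin g) k →ₐ[k] ChartRing E b :=
  Ideal.Quotient.mkₐ k (chartRel E b)

theorem ChartRing.mk_surjective (b : Fin g → E.A) : Function.Surjective (ChartRing.mk b) :=
  Ideal.Quotient.mkₐ_surjective k _

theorem ChartRing.mk_eq {b : Fin g → E.A} {x y : MvPolynomial (E.A × Fin g) k}
    (h : x - y ∈ chartRel E b) : ChartRing.mk b x = ChartRing.mk b y :=
  Ideal.Quotient.eq.mpr h

/-- The universal coordinate map. -/
noncomputable def ChartRing.proj (b : Fin g → E.A) : E.A →ₗ[k] (Fin g → ChartRing E b) where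
  toFun a i := ChartRing.mk b (MvPolynomial.X (a, i))
  map_add' a c := funext fun i => by
    rw [Pi.add_apply, ← map_add]
    refine ChartRing.mk_eq ?_
    rw [← sub_sub]
    exact Ideal.subset_span (Or.inl (Or.inl (Or.inl ⟨(a, c, i), rfl⟩)))
  map_smul' r a := funext fun i => by
    rw [RingHom.id_apply, Pi.smul_apply, ← map_smul, MvPolynomial.smul_eq_C_mul]
    exact ChartRing.mk_eq (Ideal.subset_span (Or.inl (Or.inl (Or.inr ⟨(r, a, i), rfl⟩))))

theorem ChartRing.isChartData (b : Fin g → E.A) : IsChartData b (ChartRing.proj b) where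
  basis i := funext fun j => by
    refine (ChartRing.mk_eq (y := MvPolynomial.C (if j = i then 1 else 0))
      (Ideal.subset_span (Or.inl (Or.inr ⟨(i, j), rfl⟩)))).trans ?_
    rw [Pi.single_apply]
    split_ifs <;> simp
  mul a c := funext fun i => by
    rw [Finset.sum_apply]
    refine (ChartRing.mk_eq (Ideal.subset_span (Or.inr ⟨(a, c, i), rfl⟩))).trans ?_
    simp [ChartRing.proj, map_sum, map_mul]

theorem ChartRing.finiteType (E : TwoCover k) {g : ℕ} (b : Fin g → E.A) :
    Algebra.FiniteType k (ChartRing E b) := by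
  classical
  have hA : Algebra.FiniteType k E.A := by
    let : Algebra (Polynomial k) E.A := (Polynomial.aeval (R := k) E.t).toRingHom.toAlgebra
    have : Module.Finite (Polynomial k) E.A := E.finite
    have : IsScalarTower k (Polynomial k) E.A := IsScalarTower.of_algebraMap_eq fun r =>
      (Polynomial.aeval_C E.t r).symm
    exact Algebra.FiniteType.trans (S := Polynomial k) inferInstance inferInstance
  obtain ⟨G, hG⟩ := hA.out
  let h := ChartRing.isChartData b
  let π := ChartRing.proj b
  let F : Finset (ChartRing E b) :=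
    ((G ×ˢ (Finset.univ : Finset (Fin g))) ×ˢ (Finset.univ : Finset (Fin g))).image
        (fun x => π (x.1.1 * b x.1.2) x.2) ∪
      (Finset.univ : Finset (Fin g)).image (fun i => π 1 i)
  let S := Algebra.adjoin k (F : Set (ChartRing E b))
  let Q : Subalgebra k E.A :=
    { carrier := {a | ∀ j i, π (a * b j) i ∈ S}
      mul_mem' := fun {a c} ha hc j i => by
        rw [mul_assoc, h.mul a (c * b j), Finset.sum_apply]
        exact S.sum_mem fun l _ => S.mul_mem (hc j l) (ha l i)
      add_mem' := fun {a c} ha hc j i => by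
        rw [add_mul, map_add, Pi.add_apply]
        exact S.add_mem (ha j i) (hc j i)
      algebraMap_mem' := fun r j i => by
        rw [← Algebra.smul_def, map_smul, h.basis, Pi.smul_apply, Pi.single_apply]
        refine S.smul_mem ?_ r
        split_ifs
        · exact S.one_mem
        · exact S.zero_mem }
  have hQ : ∀ a, a ∈ Q := by
    intro a
    refine Algebra.adjoin_le (S := Q) (fun x hx j i => Algebra.subset_adjoin ?_)
      (hG.ge (Algebra.mem_top (x := a)))
    exact Finset.mem_union_left _ (Finset.mem_image.mpr ⟨((x, j), i), by simpa using hx, rfl⟩)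
  refine ⟨⟨F, eq_top_iff.mpr fun z _ => ?_⟩⟩
  obtain ⟨z, rfl⟩ := ChartRing.mk_surjective b z
  induction z using MvPolynomial.induction_on with
  | C r =>
    rw [← MvPolynomial.algebraMap_eq, AlgHom.commutes]
    exact Subalgebra.algebraMap_mem S r
  | add p q hp hq => rw [map_add]; exact S.add_mem (hp trivial) (hq trivial)
  | mul_X p x hp =>
    rw [map_mul]
    refine S.mul_mem (hp trivial) ?_
    change π x.1 x.2 ∈ S
    rw [← mul_one x.1, h.mul, Finset.sum_apply]
    refine S.sum_mem fun l _ => S.mul_mem (Algebra.subset_adjoin ?_) (hQ _ l x.2)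
    exact Finset.mem_union_right _ (Finset.mem_image_of_mem _ (Finset.mem_univ l))

variable {R : Type u} [CommRing R] [Algebra k R]

/-- The point of the chart given by coordinate data. -/
noncomputable def ChartRing.lift {b : Fin g → E.A} {π : E.A →ₗ[k] (Fin g → R)}
    (h : IsChartData b π) : ChartRing E b →ₐ[k] R :=
  Ideal.Quotient.liftₐ (chartRel E b) (MvPolynomial.aeval fun x : E.A × Fin g => π x.1 x.2) <| by
    intro z hz
    refine RingHom.mem_ker.mp ((Ideal.span_le.mpr ?_ :
      chartRel E b ≤ RingHom.ker (MvPolynomial.aeval fun x : E.A × Fin g => π x.1 x.2)) hz)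
    rintro w (((⟨⟨a, c, i⟩, rfl⟩ | ⟨⟨r, a, i⟩, rfl⟩) | ⟨⟨i, j⟩, rfl⟩) | ⟨⟨a, c, i⟩, rfl⟩)
    · simp
    · simp [map_smul, ← Algebra.smul_def]
    · simp only [SetLike.mem_coe, RingHom.mem_ker, map_sub, MvPolynomial.aeval_X,
        MvPolynomial.aeval_C, h.basis, Pi.single_apply, sub_eq_zero]
      split_ifs <;> simp
    · simp [h.mul a c, Finset.sum_apply]

theorem ChartRing.lift_proj {b : Fin g → E.A} {π : E.A →ₗ[k] (Fin g → R)} (h : IsChartData b π)
    (a : E.A) (i : Fin g) : ChartRing.lift h (ChartRing.proj b a i) = π a i := by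
  change MvPolynomial.aeval (fun x : E.A × Fin g => π x.1 x.2) (MvPolynomial.X (a, i)) = _
  rw [MvPolynomial.aeval_X]

theorem ChartRing.algHom_ext {b : Fin g → E.A} {φ ψ : ChartRing E b →ₐ[k] R}
    (h : ∀ a i, φ (ChartRing.proj b a i) = ψ (ChartRing.proj b a i)) : φ = ψ := by
  refine AlgHom.ext fun z => ?_
  obtain ⟨z, rfl⟩ := ChartRing.mk_surjective b z
  exact AlgHom.congr_fun (MvPolynomial.algHom_ext (f := φ.comp (ChartRing.mk b))
    (g := ψ.comp (ChartRing.mk b)) fun x => h x.1 x.2) z

end FLTA.Jacobian
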