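import Mathlib

/-!
# S25 (Jacobian): shared interface.

`TwoCover k` : the algebra of a curve over `k` covered by two affines `Spec A`, `Spec A'`
coming from a finite map to the projective line with only the marked point over infinity.
`Triple E R` : a line bundle on the curve over `R`, as three modules.
-/

set_option autoImplicit false

universe u

open TensorProduct

namespace FLTA.Jacobian

/-- Algebraic data of a curve with a finite map `t` to the line, totally ramified over infinity
(at the marked point `ε`). -/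
structure TwoCover (k : Type u) [Field k] where
  A : Type u
  A' : Type u
  A01 : Type u
  [crA : CommRing A]
  [crA' : CommRing A']
  [cr01 : CommRing A01]
  [algA : Algebra k A]
  [algA' : Algebra k A']
  [alg01 : Algebra k A01]
  ι : A →ₐ[k] A01
  ι' : A' →ₐ[k] A01
  t : A
  s : A'
  isLoc : letI := ι.toRingHom.toAlgebra; IsLocalization.Away t A01
  isLoc' : letI := ι'.toRingHom.toAlgebra; IsLocalization.Away s A01
  ts : ι t * ι' s = 1
  finite : (Polynomial.aeval (R := k) t).toRingHom.Finite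
  finite' : (Polynomial.aeval (R := k) s).toRingHom.Finite
  domain : ∀ (K : Type u) [Field K] [Algebra k K], IsDomain (K ⊗[k] A)
  domain' : ∀ (K : Type u) [Field K] [Algebra k K], IsDomain (K ⊗[k] A')
  dedekind : ∀ (K : Type u) [Field K] [Algebra k K], IsDedekindDomain (K ⊗[k] A)
  dedekind' : ∀ (K : Type u) [Field K] [Algebra k K], IsDedekindDomain (K ⊗[k] A')
  ε : A' →ₐ[k] k
  ε_s : ε s = 0
  s_ne : s ≠ 0
  ε_only : ∀ P : Ideal A', P.IsPrime → s ∈ P → P = RingHom.ker ε

attribute [instance] TwoCover.crA TwoCover.crA' TwoCover.cr01 TwoCover.algA TwoCover.algA'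
  TwoCover.alg01

namespace TwoCover

variable {k : Type u} [Field k] (E : TwoCover k) (R : Type u) [CommRing R] [Algebra k R]

abbrev AR : Type u := R ⊗[k] E.A

abbrev AR' : Type u := R ⊗[k] E.A'

abbrev AR01 : Type u := R ⊗[k] E.A01

noncomputable def ιR : E.AR R →ₐ[R] E.AR01 R :=
  Algebra.TensorProduct.map (AlgHom.id R R) E.ι

noncomputable def ιR' : E.AR' R →ₐ[R] E.AR01 R :=
  Algebra.TensorProduct.map (AlgHom.id R R) E.ι'

noncomputable def tR : E.AR R := 1 ⊗ₜ E.t

noncomputable def sR : E.AR' R := 1 ⊗ₜ E.s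

noncomputable def εR : E.AR' R →ₐ[R] R :=
  Algebra.TensorProduct.lift (Algebra.ofId R R) ((Algebra.ofId k R).comp E.ε)
    fun _ _ => Commute.all _ _

lemma ιR_tR_mul_sR : E.ιR R (E.tR R) * E.ιR' R (E.sR R) = 1 := by
  simp only [ιR, ιR', tR, sR, Algebra.TensorProduct.map_tmul, map_one,
    Algebra.TensorProduct.tmul_mul_tmul, mul_one, E.ts]
  rfl

variable (S : Type u) [CommRing S] [Algebra k S] [Algebra R S] [IsScalarTower k R S]

noncomputable def bcA : E.AR R →ₐ[k] E.AR S :=
  Algebra.TensorProduct.map (IsScalarTower.toAlgHom k R S) (AlgHom.id k E.A)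

noncomputable def bcA' : E.AR' R →ₐ[k] E.AR' S :=
  Algebra.TensorProduct.map (IsScalarTower.toAlgHom k R S) (AlgHom.id k E.A')

noncomputable def bc01 : E.AR01 R →ₐ[k] E.AR01 S :=
  Algebra.TensorProduct.map (IsScalarTower.toAlgHom k R S) (AlgHom.id k E.A01)

end TwoCover

/-- A line bundle on the curve over `R`. -/
structure Triple {k : Type u} [Field k] (E : TwoCover k) (R : Type u) [CommRing R]
    [Algebra k R] where
  M : Type u
  M' : Type u
  N : Type u
  [acgM : AddCommGroup M]
  [acgM' : AddCommGroup M']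
  [acgN : AddCommGroup N]
  [modM : Module (E.AR R) M]
  [modM' : Module (E.AR' R) M']
  [modN : Module (E.AR01 R) N]
  [rM : Module R M]
  [rM' : Module R M']
  [rN : Module R N]
  [towM : IsScalarTower R (E.AR R) M]
  [towM' : IsScalarTower R (E.AR' R) M']
  [towN : IsScalarTower R (E.AR01 R) N]
  [invM : Module.Invertible (E.AR R) M]
  [invM' : Module.Invertible (E.AR' R) M']
  res : M →ₛₗ[(E.ιR R).toRingHom] N
  res' : M' →ₛₗ[(E.ιR' R).toRingHom] N
  res_surj : ∀ n : N, ∃ (m : M) (i : ℕ), (E.ιR R (E.tR R)) ^ i • n = res m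
  res_ker : ∀ m : M, res m = 0 → ∃ i : ℕ, (E.tR R) ^ i • m = 0
  res'_surj : ∀ n : N, ∃ (m : M') (i : ℕ), (E.ιR' R (E.sR R)) ^ i • n = res' m
  res'_ker : ∀ m : M', res' m = 0 → ∃ i : ℕ, (E.sR R) ^ i • m = 0

attribute [instance] Triple.acgM Triple.acgM' Triple.acgN Triple.modM Triple.modM' Triple.modN
  Triple.rM Triple.rM' Triple.rN Triple.towM Triple.towM' Triple.towN Triple.invM Triple.invM'

namespace Triple

variable {k : Type u} [Field k] {E : TwoCover k} {R : Type u} [CommRing R] [Algebra k R]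
  (T : Triple E R)

noncomputable def resLin : T.M →ₗ[R] T.N where
  toFun := T.res
  map_add' := map_add _
  map_smul' r m := by
    rw [← algebraMap_smul (E.AR R) r m, T.res.map_smulₛₗ, RingHom.id_apply]
    change E.ιR R (algebraMap R (E.AR R) r) • T.res m = r • T.res m
    rw [AlgHom.commutes, algebraMap_smul]

noncomputable def resLin' : T.M' →ₗ[R] T.N where
  toFun := T.res'
  map_add' := map_add _
  map_smul' r m := by
    rw [← algebraMap_smul (E.AR' R) r m, T.res'.map_smulₛₗ, RingHom.id_apply]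
    change E.ιR' R (algebraMap R (E.AR' R) r) • T.res' m = r • T.res' m
    rw [AlgHom.commutes, algebraMap_smul]

/-- The two-term complex. -/
noncomputable def diff : T.M × T.M' →ₗ[R] T.N :=
  T.resLin.comp (LinearMap.fst R T.M T.M') - T.resLin'.comp (LinearMap.snd R T.M T.M')

noncomputable abbrev H0 : Submodule R (T.M × T.M') := LinearMap.ker T.diff

noncomputable abbrev H1 : Type u := T.N ⧸ LinearMap.range T.diff

/-- Euler characteristic (meaningful for `R` a field). -/
noncomputable def chi : ℤ :=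
  (Module.finrank R T.H0 : ℤ) - (Module.finrank R T.H1 : ℤ)

/-- Twist by `m` times the divisor `t = ∞`. -/
noncomputable def twist (m : ℕ) : Triple E R where
  M := T.M
  M' := T.M'
  N := T.N
  res := T.res
  res' :=
    { toFun := fun x => (E.ιR R (E.tR R)) ^ m • T.res' x
      map_add' := fun x y => by rw [map_add, smul_add]
      map_smul' := fun a x => by rw [T.res'.map_smulₛₗ, smul_comm] }
  res_surj := T.res_surj
  res_ker := T.res_ker
  res'_surj n := by
    obtain ⟨x, i, hx⟩ := T.res'_surj ((E.ιR' R (E.sR R)) ^ m • n)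
    refine ⟨x, i, ?_⟩
    change _ = (E.ιR R (E.tR R)) ^ m • T.res' x
    rw [← hx, smul_comm ((E.ιR R (E.tR R)) ^ m), ← mul_smul ((E.ιR R (E.tR R)) ^ m), ← mul_pow,
      E.ιR_tR_mul_sR, one_pow, one_smul]
  res'_ker x hx := by
    apply T.res'_ker
    have h : (E.ιR' R (E.sR R)) ^ m • (E.ιR R (E.tR R)) ^ m • T.res' x =
        (E.ιR' R (E.sR R)) ^ m • (0 : T.N) := congrArg _ hx
    rwa [← mul_smul, ← mul_pow, mul_comm (E.ιR' R (E.sR R)), E.ιR_tR_mul_sR, one_pow, one_smul,
      smul_zero] at h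

/-- Isomorphism of line bundles. -/
structure Iso (T T' : Triple E R) : Type u where
  eM : T.M ≃ₗ[E.AR R] T'.M
  eM' : T.M' ≃ₗ[E.AR' R] T'.M'
  eN : T.N ≃ₗ[E.AR01 R] T'.N
  comm : ∀ m, eN (T.res m) = T'.res (eM m)
  comm' : ∀ m, eN (T.res' m) = T'.res' (eM' m)

/-- `T'` over `S` is a base change of `T` over `R`. -/
structure BaseChange {S : Type u} [CommRing S] [Algebra k S] [Algebra R S] [IsScalarTower k R S]
    (T : Triple E R) (T' : Triple E S) : Type u where
  fM : T.M →ₛₗ[(E.bcA R S).toRingHom] T'.M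
  fM' : T.M' →ₛₗ[(E.bcA' R S).toRingHom] T'.M'
  fN : T.N →ₛₗ[(E.bc01 R S).toRingHom] T'.N
  comm : ∀ m, fN (T.res m) = T'.res (fM m)
  comm' : ∀ m, fN (T.res' m) = T'.res' (fM' m)
  gen : Submodule.span (E.AR S) (Set.range fM) = ⊤
  gen' : Submodule.span (E.AR' S) (Set.range fM') = ⊤

/-- The class of `T` is trivial at the marked point with generator `σ`. -/
def GeneratesAtε (σ : T.M') : Prop :=
  Submodule.span (E.AR' R) {σ} ⊔
    (RingHom.ker (E.εR R)) • (⊤ : Submodule (E.AR' R) T.M') = ⊤

/-- The chart condition. -/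
structure IsGood {g : ℕ} (b : Fin g → E.A) (T : Triple E R) : Prop where
  h1 : Subsingleton T.H1
  section_ : ∃ σ : T.H0, Submodule.span R {σ} = ⊤ ∧ (∀ r : R, r • σ = 0 → r = 0) ∧
    T.GeneratesAtε σ.1.2 ∧
    Function.Bijective (fun r : Fin g → R =>
      Ideal.Quotient.mk ((Submodule.span (E.AR R) {σ.1.1}).colon (⊤ : Submodule (E.AR R) T.M))
        (∑ i, r i • ((1 : R) ⊗ₜ[k] b i)))

end Triple

/-- The genus. -/
noncomputable def TwoCover.genus {k : Type u} [Field k] (E : TwoCover k) : ℕ :=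
  Module.finrank k (E.A01 ⧸
    (LinearMap.range E.ι.toLinearMap ⊔ LinearMap.range E.ι'.toLinearMap))

end FLTA.Jacobian
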