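import Mathlib

/-!
# Dedekind criteria for smooth affine curves
-/

set_option autoImplicit false

universe u

namespace FLTA.Jacobian

/-- A noetherian domain which is essentially of finite type and formally unramified over a PID
is a Dedekind domain. -/
theorem isDedekindDomain_of_formallyUnramified_pid (P S : Type*) [CommRing P] [CommRing S]
    [IsPrincipalIdealRing P] [Algebra P S] [IsDomain S] [IsNoetherianRing S]
    [Algebra.EssFiniteType P S] [Algebra.FormallyUnramified P S] : IsDedekindDomain S := by
  have : IsDedekindDomainDvr S :=
    { __ := (inferInstance : IsNoetherianRing S)
      is_dvr_at_nonzero_prime := by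
        intro q hq hqp
        let p := q.under P
        have : p.IsPrime := hqp.under P
        let := Localization.AtPrime.algebraOfLiesOver p q
        have hmap := ((Algebra.isUnramifiedAt_iff_map_eq P p q).mp inferInstance).2
        have hprin : (IsLocalRing.maximalIdeal (Localization.AtPrime q)).IsPrincipal := by
          rw [← hmap]
          infer_instance
        exact ((IsDiscreteValuationRing.TFAE (Localization.AtPrime q)
          (IsLocalization.AtPrime.not_isField S hq (Localization.AtPrime q))).out 4 0).mp hprin }
  infer_instance

/-- A domain which is standard smooth of relative dimension one over a field is Dedekind. -/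
theorem isDedekindDomain_of_isStandardSmooth {k A : Type u} [Field k] [CommRing A] [IsDomain A]
    (f : k →+* A) (hf : f.IsStandardSmoothOfRelativeDimension 1) : IsDedekindDomain A := by
  obtain ⟨g, -, hg⟩ := hf.exists_etale_mvPolynomial
  algebraize [g]
  let e := (MvPolynomial.uniqueAlgEquiv k (Fin 1)).symm
  have : IsPrincipalIdealRing (MvPolynomial (Fin 1) k) :=
    .of_surjective e.toRingEquiv.toRingHom e.surjective
  have : IsNoetherianRing A := Algebra.FiniteType.isNoetherianRing (MvPolynomial (Fin 1) k) A
  exact isDedekindDomain_of_formallyUnramified_pid (MvPolynomial (Fin 1) k) A

end FLTA.Jacobian
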