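import Mathlib

/-!
# Tensor products of domains over an algebraically closed field
-/

set_option autoImplicit false

open scoped TensorProduct

namespace FLTA.Jacobian

/-- If `k` is algebraically closed, `A` is a domain of finite type over `k` and `B` is a domain,
then `B ⊗[k] A` is a domain. -/
theorem isDomain_tensorProduct {k A B : Type*} [Field k] [IsAlgClosed k] [CommRing A] [IsDomain A]
    [Algebra k A] [Algebra.FiniteType k A] [CommRing B] [IsDomain B] [Algebra k B] :
    IsDomain (B ⊗[k] A) := by
  classical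
  let b := Module.Free.chooseBasis k B
  let bA := b.baseChange A
  -- Work with `A ⊗[k] B`, free over `A` with basis `1 ⊗ bᵢ`.
  suffices h : IsDomain (A ⊗[k] B) from
    MulEquiv.isDomain (A ⊗[k] B) (Algebra.TensorProduct.comm k B A).toRingEquiv.toMulEquiv
  have : Nontrivial (A ⊗[k] B) := bA.repr.toEquiv.nontrivial
  have : NoZeroDivisors (A ⊗[k] B) := by
    constructor
    intro x y hxy
    by_contra hne
    push Not at hne
    obtain ⟨i, hi⟩ : ∃ i, bA.repr x i ≠ 0 := by
      by_contra h; push Not at h
      exact hne.1 (bA.repr.map_eq_zero_iff.mp (Finsupp.ext h))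
    obtain ⟨j, hj⟩ : ∃ j, bA.repr y j ≠ 0 := by
      by_contra h; push Not at h
      exact hne.2 (bA.repr.map_eq_zero_iff.mp (Finsupp.ext h))
    have hJ : IsJacobsonRing A := isJacobsonRing_of_finiteType (A := k)
    have hz : bA.repr x i * bA.repr y j ≠ 0 := mul_ne_zero hi hj
    obtain ⟨m, hm, hzm⟩ : ∃ m : Ideal A, m.IsMaximal ∧ bA.repr x i * bA.repr y j ∉ m := by
      have hbot : (⊥ : Ideal A).jacobson = ⊥ :=
        IsJacobsonRing.out' _ (Ideal.isRadical_bot_iff.mpr inferInstance)
      by_contra h; push Not at h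
      apply hz
      rw [← Ideal.mem_bot, ← hbot]
      exact Ideal.mem_sInf.mpr fun {J} hJ => h J hJ.2
    let := Ideal.Quotient.field m
    have : Module.Finite k (A ⧸ m) := finite_of_finite_type_of_isJacobsonRing k (A ⧸ m)
    let e : k ≃ₐ[k] (A ⧸ m) := AlgEquiv.ofBijective (Algebra.ofId k (A ⧸ m))
      IsAlgClosed.algebraMap_bijective_of_isIntegral
    let φ : A →ₐ[k] k := e.symm.toAlgHom.comp (Ideal.Quotient.mkₐ k m)
    let Φ : A ⊗[k] B →ₐ[k] B :=
      Algebra.TensorProduct.lift ((Algebra.ofId k B).comp φ) (AlgHom.id k B)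
        fun _ _ => .all _ _
    have hΦ : ∀ (w : A ⊗[k] B) (l), b.repr (Φ w) l = φ (bA.repr w l) := by
      intro w l
      induction w using TensorProduct.induction_on with
      | zero => simp
      | tmul a c =>
        simp [Φ, bA, Module.Basis.baseChange_repr_tmul, Algebra.ofId_apply]
        rw [← Algebra.smul_def, map_smul, Finsupp.smul_apply, smul_eq_mul, mul_comm]
      | add w w' hw hw' => simp [hw, hw']
    have hprod : Φ x * Φ y = 0 := by rw [← map_mul, hxy, map_zero]
    have hφ : φ (bA.repr x i * bA.repr y j) = 0 := by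
      rcases mul_eq_zero.mp hprod with h | h
      · have := hΦ x i; rw [h] at this; simp [map_mul, ← this]
      · have := hΦ y j; rw [h] at this; simp [map_mul, ← this]
    apply hzm
    rw [← Ideal.Quotient.eq_zero_iff_mem]
    exact e.symm.map_eq_zero_iff.mp hφ
  exact NoZeroDivisors.to_isDomain _

end FLTA.Jacobian
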