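import Mathlib
import Fermat.Agent.Jacobian.CurveDedekind
import Fermat.Agent.Jacobian.CurveTensor

/-!
# Affine smooth curves stay Dedekind after extending the algebraically closed base field
-/

set_option autoImplicit false

universe u

open scoped TensorProduct

namespace FLTA.Jacobian

/-- A domain which is locally standard smooth of relative dimension one over a field is
Dedekind. -/
theorem isDedekindDomain_of_locally_isStandardSmooth {k A : Type u} [Field k] [CommRing A]
    [IsDomain A] [IsNoetherianRing A] (f : k →+* A)
    (hf : RingHom.Locally (RingHom.IsStandardSmoothOfRelativeDimension 1) f) :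
    IsDedekindDomain A := by
  obtain ⟨s, hs, hloc⟩ := hf
  have : IsDedekindDomainDvr A :=
    { __ := (inferInstance : IsNoetherianRing A)
      is_dvr_at_nonzero_prime := by
        intro P hP hPp
        obtain ⟨g, hgs, hgP⟩ : ∃ g ∈ s, g ∉ P := by
          by_contra h
          push Not at h
          exact hPp.ne_top (eq_top_iff.mpr (hs.ge.trans (Ideal.span_le.mpr h)))
        have hg0 : g ≠ 0 := fun h => hgP (h ▸ P.zero_mem)
        have hM : Submonoid.powers g ≤ nonZeroDivisors A :=
          powers_le_nonZeroDivisors_of_noZeroDivisors hg0
        let D := Localization.Away g
        have : IsDomain D := IsLocalization.isDomain_localization hM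
        have : IsDedekindDomain D := isDedekindDomain_of_isStandardSmooth _ (hloc g hgs)
        let P' := P.map (algebraMap A D)
        have hdisj : Disjoint (Submonoid.powers g : Set A) (P : Set A) := by
          rw [Set.disjoint_left]
          rintro _ ⟨n, rfl⟩ hn
          exact hgP (hPp.mem_of_pow_mem n hn)
        have : P'.IsPrime :=
          IsLocalization.isPrime_of_isPrime_disjoint (Submonoid.powers g) D P hPp hdisj
        have hcomap : P'.comap (algebraMap A D) = P :=
          IsLocalization.under_map_of_isPrime_disjoint (Submonoid.powers g) D hPp hdisj
        have hP' : P' ≠ ⊥ := fun h => hP <| by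
          rw [← hcomap, h]
          exact Ideal.comap_bot_of_injective _ (IsLocalization.injective D hM)
        let T := Localization.AtPrime P'
        have hT : IsLocalization.AtPrime T (P'.comap (algebraMap A D)) :=
          IsLocalization.isLocalization_isLocalization_atPrime_isLocalization (Submonoid.powers g) T P'
        have hdvr : IsDiscreteValuationRing T :=
          IsLocalization.AtPrime.isDiscreteValuationRing_of_dedekind_domain D hP' T
        have : IsLocalization.AtPrime T P := by
          have heq : (P'.comap (algebraMap A D)).primeCompl = P.primeCompl := by
            ext x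
            simp only [Ideal.mem_primeCompl_iff]
            exact not_congr (by rw [← hcomap])
          change IsLocalization P.primeCompl T
          exact heq ▸ hT
        exact IsDiscreteValuationRing.RingEquivClass.isDiscreteValuationRing
          (IsLocalization.algEquiv P.primeCompl T (Localization.AtPrime P)).toRingEquiv }
  infer_instance

/-- Base change of a smooth affine curve over an algebraically closed field to any larger field. -/
theorem isDedekindDomain_baseChange {k A : Type u} [Field k] [IsAlgClosed k] [CommRing A]
    [IsDomain A] [Algebra k A] [Algebra.FiniteType k A]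
    (h : RingHom.Locally (RingHom.IsStandardSmoothOfRelativeDimension 1) (algebraMap k A))
    (K : Type u) [Field K] [Algebra k K] :
    IsDomain (K ⊗[k] A) ∧ IsDedekindDomain (K ⊗[k] A) := by
  have hdom : IsDomain (K ⊗[k] A) := isDomain_tensorProduct
  have : IsNoetherianRing (K ⊗[k] A) := Algebra.FiniteType.isNoetherianRing K _
  refine ⟨hdom, isDedekindDomain_of_locally_isStandardSmooth (algebraMap K (K ⊗[k] A)) ?_⟩
  let := Algebra.TensorProduct.rightAlgebra (R := k) (A := K) (B := A)
  have : Algebra.IsPushout k A K (K ⊗[k] A) := inferInstance
  exact RingHom.locally_isStableUnderBaseChange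
    RingHom.isStandardSmoothOfRelativeDimension_respectsIso
    (RingHom.isStandardSmoothOfRelativeDimension_isStableUnderBaseChange (n := 1))
    k A K (K ⊗[k] A) h

end FLTA.Jacobian
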