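import Fermat.Agent.Jacobian.CurvePoint

/-!
# Isomorphisms between tensor products of triples
-/

set_option autoImplicit false

universe u

open TensorProduct
open scoped FLTA.Jacobian.TwoCover FLTA.Jacobian.Triple

namespace FLTA.Jacobian

/-- Tensor product of two semilinear maps. -/
noncomputable def tensorSemi {A B : Type u} [CommRing A] [CommRing B] {σ : A →+* B}
    {M N M₁ N₁ : Type u} [AddCommGroup M] [AddCommGroup N] [AddCommGroup M₁] [AddCommGroup N₁]
    [Module A M] [Module A N] [Module B M₁] [Module B N₁]
    (f : M →ₛₗ[σ] M₁) (g : N →ₛₗ[σ] N₁) : M ⊗[A] N →ₛₗ[σ] M₁ ⊗[B] N₁ where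
  toFun := TensorProduct.liftAddHom
    (AddMonoidHom.mk' (fun m => AddMonoidHom.mk' (fun n => f m ⊗ₜ[B] g n)
      fun x y => by rw [map_add, TensorProduct.tmul_add])
      fun x y => AddMonoidHom.ext fun n =>
        (congrArg (· ⊗ₜ _) (map_add f x y)).trans (TensorProduct.add_tmul _ _ _))
    fun r m n => by
      change f (r • m) ⊗ₜ[B] g n = f m ⊗ₜ[B] g (r • n)
      rw [LinearMap.map_smulₛₗ, LinearMap.map_smulₛₗ, TensorProduct.smul_tmul]
  map_add' := map_add _
  map_smul' a x := by
    induction x using TensorProduct.induction_on with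
    | zero => simp
    | add x y hx hy => simp [smul_add, hx, hy]
    | tmul m n =>
      change f (a • m) ⊗ₜ[B] g n = σ a • (f m ⊗ₜ[B] g n)
      rw [LinearMap.map_smulₛₗ, TensorProduct.smul_tmul']

lemma span_tensorSemi {A B : Type u} [CommRing A] [CommRing B] {σ : A →+* B}
    {M N M₁ N₁ : Type u} [AddCommGroup M] [AddCommGroup N] [AddCommGroup M₁] [AddCommGroup N₁]
    [Module A M] [Module A N] [Module B M₁] [Module B N₁]
    (f : M →ₛₗ[σ] M₁) (g : N →ₛₗ[σ] N₁) (hf : Submodule.span B (Set.range f) = ⊤)
    (hg : Submodule.span B (Set.range g) = ⊤) :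
    Submodule.span B (Set.range (tensorSemi f g)) = ⊤ := by
  rw [eq_top_iff, ← TensorProduct.map₂_mk_top_top_eq_top (R := B) (M := M₁) (N := N₁), ← hf, ← hg,
    Submodule.map₂_span_span]
  refine Submodule.span_mono ?_
  rintro _ ⟨_, ⟨m, rfl⟩, _, ⟨n, rfl⟩, rfl⟩
  exact ⟨m ⊗ₜ n, rfl⟩

namespace Triple

variable {k : Type u} [Field k] {E : TwoCover k} {R : Type u} [CommRing R] [Algebra k R]

/-- A product in the sense of pairings is isomorphic to the tensor product. -/
theorem Pairing.tensorIso {T P T'' : Triple E R} (μ : Pairing T P T'') :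
    Nonempty (Iso (T.tensor P) T'') := by
  let aM := TensorProduct.lift μ.μM
  let aM' := TensorProduct.lift μ.μM'
  let aN := TensorProduct.lift μ.μN
  have hM : Function.Surjective aM := LinearMap.range_eq_top.mp (top_unique (μ.gen.ge.trans
    (Submodule.span_le.mpr (by rintro _ ⟨q, rfl⟩; exact ⟨q.1 ⊗ₜ q.2, rfl⟩))))
  have hM' : Function.Surjective aM' := LinearMap.range_eq_top.mp (top_unique (μ.gen'.ge.trans
    (Submodule.span_le.mpr (by rintro _ ⟨q, rfl⟩; exact ⟨q.1 ⊗ₜ q.2, rfl⟩))))
  have hcomm : ∀ x, aN (T.tensorRes P x) = T''.res (aM x) := by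
    intro x
    induction x using TensorProduct.induction_on with
    | zero =>
      exact (congrArg aN (map_zero (T.tensorRes P))).trans ((map_zero aN).trans
        ((congrArg T''.res (map_zero aM)).trans (map_zero T''.res)).symm)
    | add x y hx hy =>
      exact (congrArg aN (map_add (T.tensorRes P) x y)).trans
        ((map_add aN _ _).trans ((congrArg₂ (· + ·) hx hy).trans
          ((congrArg T''.res (map_add aM x y)).trans (map_add T''.res _ _)).symm))
    | tmul m p =>
      exact μ.comm m p
  have hcomm' : ∀ x, aN (T.tensorRes' P x) = T''.res' (aM' x) := by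
    intro x
    induction x using TensorProduct.induction_on with
    | zero =>
      exact (congrArg aN (map_zero (T.tensorRes' P))).trans ((map_zero aN).trans
        ((congrArg T''.res' (map_zero aM')).trans (map_zero T''.res')).symm)
    | add x y hx hy =>
      exact (congrArg aN (map_add (T.tensorRes' P) x y)).trans
        ((map_add aN _ _).trans ((congrArg₂ (· + ·) hx hy).trans
          ((congrArg T''.res' (map_add aM' x y)).trans (map_add T''.res' _ _)).symm))
    | tmul m p =>
      exact μ.comm' m p
  have hN : Function.Surjective aN := LinearMap.range_eq_top.mp (top_unique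
    (T''.span_range_res.ge.trans (Submodule.span_le.mpr (by
      rintro _ ⟨m, rfl⟩
      obtain ⟨x, rfl⟩ := hM m
      exact ⟨_, hcomm x⟩))))
  exact ⟨{ eM := LinearEquiv.ofBijective aM (Module.Invertible.bijective_of_surjective hM)
           eM' := LinearEquiv.ofBijective aM' (Module.Invertible.bijective_of_surjective hM')
           eN := LinearEquiv.ofBijective aN (Module.Invertible.bijective_of_surjective hN)
           comm := hcomm
           comm' := hcomm' }⟩

/-- Tensor products of isomorphisms. -/
noncomputable def Iso.tensor {T T₁ P P₁ : Triple E R} (e : Iso T T₁) (f : Iso P P₁) :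
    Iso (T.tensor P) (T₁.tensor P₁) where
  eM := TensorProduct.congr e.eM f.eM
  eM' := TensorProduct.congr e.eM' f.eM'
  eN := TensorProduct.congr e.eN f.eN
  comm x := by
    induction x using TensorProduct.induction_on with
    | zero =>
      exact (congrArg _ (map_zero (T.tensorRes P))).trans ((map_zero _).trans
        ((congrArg (T₁.tensorRes P₁) (map_zero _)).trans (map_zero _)).symm)
    | add x y hx hy =>
      exact (congrArg _ (map_add (T.tensorRes P) x y)).trans
        ((map_add _ _ _).trans ((congrArg₂ (· + ·) hx hy).trans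
          ((congrArg (T₁.tensorRes P₁) (map_add _ x y)).trans (map_add _ _ _)).symm))
    | tmul m p =>
      exact congrArg₂ (· ⊗ₜ ·) (e.comm m) (f.comm p)
  comm' x := by
    induction x using TensorProduct.induction_on with
    | zero =>
      exact (congrArg _ (map_zero (T.tensorRes' P))).trans ((map_zero _).trans
        ((congrArg (T₁.tensorRes' P₁) (map_zero _)).trans (map_zero _)).symm)
    | add x y hx hy =>
      exact (congrArg _ (map_add (T.tensorRes' P) x y)).trans
        ((map_add _ _ _).trans ((congrArg₂ (· + ·) hx hy).trans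
          ((congrArg (T₁.tensorRes' P₁) (map_add _ x y)).trans (map_add _ _ _)).symm))
    | tmul m p =>
      exact congrArg₂ (· ⊗ₜ ·) (e.comm' m) (f.comm' p)

variable (T P Q : Triple E R)

/-- `T ⊗ 𝒪 ≅ T`. -/
noncomputable def tensorOne : Iso (T.tensor (one E R)) T :=
  (Pairing.tensorIso (T := T) (P := one E R) (T'' := T)
    { μM := (LinearMap.lsmul (E.AR R) T.M).flip
      μM' := (LinearMap.lsmul (E.AR' R) T.M').flip
      μN := (LinearMap.lsmul (E.AR01 R) T.N).flip
      comm := fun x a => (T.res.map_smulₛₗ a x).symm
      comm' := fun x a => (T.res'.map_smulₛₗ a x).symm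
      gen := top_unique fun x _ => Submodule.subset_span ⟨(x, (1 : E.AR R)), one_smul _ x⟩
      gen' := top_unique fun x _ => Submodule.subset_span ⟨(x, (1 : E.AR' R)), one_smul _ x⟩ }).some

/-- Commutativity. -/
noncomputable def tensorComm : Iso (T.tensor P) (P.tensor T) :=
  (Pairing.tensorIso (T := T) (P := P) (T'' := P.tensor T)
    { μM := (TensorProduct.mk (E.AR R) P.M T.M).flip
      μM' := (TensorProduct.mk (E.AR' R) P.M' T.M').flip
      μN := (TensorProduct.mk (E.AR01 R) P.N T.N).flip
      comm := fun _ _ => rfl
      comm' := fun _ _ => rfl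
      gen := top_unique ((TensorProduct.span_tmul_eq_top _ _ _).ge.trans (Submodule.span_mono
        (by rintro _ ⟨x, y, rfl⟩; exact ⟨(y, x), rfl⟩)))
      gen' := top_unique ((TensorProduct.span_tmul_eq_top _ _ _).ge.trans (Submodule.span_mono
        (by rintro _ ⟨x, y, rfl⟩; exact ⟨(y, x), rfl⟩))) }).some

/-- `𝒪 ⊗ T ≅ T`. -/
noncomputable def oneTensor : Iso ((one E R).tensor T) T :=
  ((one E R).tensorComm T).trans T.tensorOne

/-- Associativity. -/
noncomputable def tensorAssoc : Iso ((T.tensor P).tensor Q) (T.tensor (P.tensor Q)) where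
  eM := TensorProduct.assoc (E.AR R) T.M P.M Q.M
  eM' := TensorProduct.assoc (E.AR' R) T.M' P.M' Q.M'
  eN := TensorProduct.assoc (E.AR01 R) T.N P.N Q.N
  comm x := by
    induction x using TensorProduct.induction_on with
    | zero =>
      exact (congrArg _ (map_zero ((T.tensor P).tensorRes Q))).trans ((map_zero _).trans
        ((congrArg (T.tensorRes (P.tensor Q)) (map_zero _)).trans (map_zero _)).symm)
    | add x y hx hy =>
      exact (congrArg _ (map_add ((T.tensor P).tensorRes Q) x y)).trans
        ((map_add _ _ _).trans ((congrArg₂ (· + ·) hx hy).trans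
          ((congrArg (T.tensorRes (P.tensor Q)) (map_add _ x y)).trans (map_add _ _ _)).symm))
    | tmul a q =>
      induction a using TensorProduct.induction_on with
      | zero =>
        change TensorProduct.assoc (E.AR01 R) T.N P.N Q.N (T.tensorRes P 0 ⊗ₜ Q.res q) =
          T.tensorRes (P.tensor Q) (TensorProduct.assoc (E.AR R) T.M P.M Q.M (0 ⊗ₜ q))
        rw [TensorProduct.zero_tmul, map_zero, TensorProduct.zero_tmul, map_zero, map_zero]
        exact (map_zero (T.tensorRes (P.tensor Q))).symm
      | add a b ha hb =>
        change TensorProduct.assoc (E.AR01 R) T.N P.N Q.N (T.tensorRes P (a + b) ⊗ₜ Q.res q) =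
          T.tensorRes (P.tensor Q) (TensorProduct.assoc (E.AR R) T.M P.M Q.M ((a + b) ⊗ₜ q))
        simp only [map_add, TensorProduct.add_tmul]
        exact (congrArg₂ (· + ·) ha hb).trans (map_add _ _ _).symm
      | tmul m p => rfl
  comm' x := by
    induction x using TensorProduct.induction_on with
    | zero =>
      exact (congrArg _ (map_zero ((T.tensor P).tensorRes' Q))).trans ((map_zero _).trans
        ((congrArg (T.tensorRes' (P.tensor Q)) (map_zero _)).trans (map_zero _)).symm)
    | add x y hx hy =>
      exact (congrArg _ (map_add ((T.tensor P).tensorRes' Q) x y)).trans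
        ((map_add _ _ _).trans ((congrArg₂ (· + ·) hx hy).trans
          ((congrArg (T.tensorRes' (P.tensor Q)) (map_add _ x y)).trans (map_add _ _ _)).symm))
    | tmul a q =>
      induction a using TensorProduct.induction_on with
      | zero =>
        change TensorProduct.assoc (E.AR01 R) T.N P.N Q.N (T.tensorRes' P 0 ⊗ₜ Q.res' q) =
          T.tensorRes' (P.tensor Q) (TensorProduct.assoc (E.AR' R) T.M' P.M' Q.M' (0 ⊗ₜ q))
        rw [TensorProduct.zero_tmul, map_zero, TensorProduct.zero_tmul, map_zero, map_zero]
        exact (map_zero (T.tensorRes' (P.tensor Q))).symm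
      | add a b ha hb =>
        change TensorProduct.assoc (E.AR01 R) T.N P.N Q.N (T.tensorRes' P (a + b) ⊗ₜ Q.res' q) =
          T.tensorRes' (P.tensor Q) (TensorProduct.assoc (E.AR' R) T.M' P.M' Q.M' ((a + b) ⊗ₜ q))
        simp only [map_add, TensorProduct.add_tmul]
        exact (congrArg₂ (· + ·) ha hb).trans (map_add _ _ _).symm
      | tmul m p => rfl

/-- Twisting the left factor. -/
noncomputable def tensorTwistLeft (m : ℕ) : Iso ((T.twist m).tensor P) ((T.tensor P).twist m) where
  eM := LinearEquiv.refl _ _
  eM' := LinearEquiv.refl _ _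
  eN := LinearEquiv.refl _ _
  comm x := by
    induction x using TensorProduct.induction_on with
    | zero =>
      exact (map_zero ((T.twist m).tensorRes P)).trans (map_zero (T.tensorRes P)).symm
    | add x y hx hy =>
      exact ((map_add ((T.twist m).tensorRes P) x y).trans
        (congrArg₂ (· + ·) hx hy)).trans (map_add (T.tensorRes P) x y).symm
    | tmul a p => rfl
  comm' x := by
    induction x using TensorProduct.induction_on with
    | zero =>
      exact (map_zero ((T.twist m).tensorRes' P)).trans
        (map_zero ((T.tensor P).twist m).res').symm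
    | add x y hx hy =>
      exact ((map_add ((T.twist m).tensorRes' P) x y).trans
        (congrArg₂ (· + ·) hx hy)).trans (map_add ((T.tensor P).twist m).res' x y).symm
    | tmul a p =>
      change ((E.ιR R (E.tR R)) ^ m • T.res' a) ⊗ₜ[E.AR01 R] P.res' p =
        (E.ιR R (E.tR R)) ^ m • (T.res' a ⊗ₜ[E.AR01 R] P.res' p)
      rfl

/-- Twisting the right factor. -/
noncomputable def tensorTwistRight (m : ℕ) : Iso (T.tensor (P.twist m)) ((T.tensor P).twist m) :=
  ((T.tensorComm (P.twist m)).trans (P.tensorTwistLeft T m)).trans ((P.tensorComm T).twist m)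

variable (S : Type u) [CommRing S] [Algebra k S] [Algebra R S] [IsScalarTower k R S]
variable {T P} {T₁ P₁ : Triple E S}

/-- Tensor products of base changes. -/
noncomputable def BaseChange.tensor (b : BaseChange T T₁) (c : BaseChange P P₁) :
    BaseChange (T.tensor P) (T₁.tensor P₁) where
  fM := tensorSemi b.fM c.fM
  fM' := tensorSemi b.fM' c.fM'
  fN := tensorSemi b.fN c.fN
  comm x := by
    induction x using TensorProduct.induction_on with
    | zero =>
      exact (congrArg (tensorSemi b.fN c.fN) (map_zero (T.tensorRes P))).trans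
        ((map_zero _).trans ((congrArg (T₁.tensorRes P₁) (map_zero (tensorSemi b.fM c.fM))).trans
          (map_zero _)).symm)
    | add x y hx hy =>
      exact (congrArg (tensorSemi b.fN c.fN) (map_add (T.tensorRes P) x y)).trans
        ((map_add _ _ _).trans ((congrArg₂ (· + ·) hx hy).trans
          ((congrArg (T₁.tensorRes P₁) (map_add (tensorSemi b.fM c.fM) x y)).trans
            (map_add _ _ _)).symm))
    | tmul m p =>
      exact congrArg₂ (· ⊗ₜ ·) (b.comm m) (c.comm p)
  comm' x := by
    induction x using TensorProduct.induction_on with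
    | zero =>
      exact (congrArg (tensorSemi b.fN c.fN) (map_zero (T.tensorRes' P))).trans
        ((map_zero _).trans ((congrArg (T₁.tensorRes' P₁) (map_zero (tensorSemi b.fM' c.fM'))).trans
          (map_zero _)).symm)
    | add x y hx hy =>
      exact (congrArg (tensorSemi b.fN c.fN) (map_add (T.tensorRes' P) x y)).trans
        ((map_add _ _ _).trans ((congrArg₂ (· + ·) hx hy).trans
          ((congrArg (T₁.tensorRes' P₁) (map_add (tensorSemi b.fM' c.fM') x y)).trans
            (map_add _ _ _)).symm))
    | tmul m p =>
      exact congrArg₂ (· ⊗ₜ ·) (b.comm' m) (c.comm' p)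
  gen := span_tensorSemi b.fM c.fM b.gen c.gen
  gen' := span_tensorSemi b.fM' c.fM' b.gen' c.gen'

end Triple

end FLTA.Jacobian
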