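import Fermat.Agent.Jacobian.CurveHom
import Fermat.Agent.Jacobian.CurveTensorIso

/-!
# The colength of an injective map of line bundles, chart by chart
-/

set_option autoImplicit false

universe u

open TensorProduct
open scoped FLTA.Jacobian.TwoCover FLTA.Jacobian.Triple

namespace FLTA.Jacobian

/-- Quotients of a one-dimensional affine domain by nonzero ideals are Artinian. -/
theorem isArtinianRing_quotient {A : Type u} [CommRing A] [IsDedekindDomain A] {a : A}
    (ha : a ≠ 0) : IsArtinianRing (A ⧸ Ideal.span {a}) := by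
  have : Ring.KrullDimLE 0 (A ⧸ Ideal.span {a}) := by
    refine Ring.KrullDimLE.mk₀ fun P hP => ?_
    have hP' := Ideal.comap_isPrime (Ideal.Quotient.mk (Ideal.span {a})) P
    have hne' : P.comap (Ideal.Quotient.mk (Ideal.span {a})) ≠ ⊥ := fun h => ha <| by
      rw [← Ideal.mem_bot, ← h, Ideal.mem_comap,
        Ideal.Quotient.eq_zero_iff_mem.mpr (Ideal.mem_span_singleton_self a)]
      exact zero_mem _
    have hm := hP'.isMaximal hne'
    rw [← Ideal.map_comap_of_surjective _ Ideal.Quotient.mk_surjective P]
    refine (Ideal.map_eq_top_or_isMaximal_of_surjective _ Ideal.Quotient.mk_surjective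
      hm).resolve_left ?_
    rw [Ideal.map_comap_of_surjective _ Ideal.Quotient.mk_surjective P]
    exact hP.ne_top
  exact isArtinianRing_iff_isNoetherianRing_krullDimLE_zero.mpr ⟨inferInstance, this⟩

/-- A finitely generated module killed by a nonzero element is finite over the base field. -/
theorem finite_of_smul_eq_zero {K A Q : Type u} [Field K] [CommRing A] [IsDedekindDomain A]
    [Algebra K A] [Algebra.FiniteType K A] [AddCommGroup Q] [Module A Q] [Module K Q]
    [IsScalarTower K A Q] [Module.Finite A Q] {a : A} (ha : a ≠ 0) (h : ∀ q : Q, a • q = 0) :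
    Module.Finite K Q := by
  have htor : Module.IsTorsionBySet A Q (Ideal.span {a} : Set A) := fun q ⟨b, hb⟩ => by
    obtain ⟨c, rfl⟩ := Ideal.mem_span_singleton'.mp hb
    change (c * a) • q = 0
    rw [mul_smul, h, smul_zero]
  let := htor.module
  have : IsScalarTower A (A ⧸ Ideal.span {a}) Q := htor.isScalarTower
  have : IsScalarTower K (A ⧸ Ideal.span {a}) Q := IsScalarTower.to₁₃₄ K A _ _
  have := isArtinianRing_quotient ha
  have : Module.Finite K (A ⧸ Ideal.span {a}) := (Module.finite_iff_isArtinianRing K _).mpr this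
  have : Module.Finite (A ⧸ Ideal.span {a}) Q := Module.Finite.of_restrictScalars_finite A _ _
  exact Module.Finite.trans (A ⧸ Ideal.span {a}) Q

/-- Tensoring a torsion module with an invertible module does not change its dimension. -/
theorem finrank_tensor_invertible {K A M Q : Type u} [Field K] [CommRing A] [IsDedekindDomain A]
    [Algebra K A] [AddCommGroup M] [Module A M] [Module.Invertible A M] [Module K M]
    [IsScalarTower K A M] [AddCommGroup Q] [Module A Q] [Module K Q] [IsScalarTower K A Q]
    {a : A} (ha : a ≠ 0) (h : ∀ q : Q, a • q = 0) :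
    Module.finrank K (M ⊗[A] Q) = Module.finrank K Q := by
  have htor : Module.IsTorsionBySet A Q (Ideal.span {a} : Set A) := fun q ⟨b, hb⟩ => by
    obtain ⟨c, rfl⟩ := Ideal.mem_span_singleton'.mp hb
    change (c * a) • q = 0
    rw [mul_smul, h, smul_zero]
  let B := A ⧸ Ideal.span {a}
  let : Module B Q := htor.module
  have : IsScalarTower A B Q := htor.isScalarTower
  have := isArtinianRing_quotient ha
  obtain ⟨e⟩ : Nonempty (B ⊗[A] M ≃ₗ[B] B) := Module.Invertible.free_iff_linearEquiv.mp inferInstance
  let f : Q ⊗[A] M ≃ₗ[B] Q :=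
    (AlgebraTensorModule.cancelBaseChange A B B Q M).symm.trans
      ((TensorProduct.congr (LinearEquiv.refl B Q) e).trans (TensorProduct.rid B Q))
  exact (((TensorProduct.comm A M Q).trans (f.restrictScalars A)).restrictScalars K).finrank_eq

namespace Triple.Hom

variable {k : Type u} [Field k] {E : TwoCover k} {K : Type u} [Field K] [Algebra k K]
  {T₀ T : Triple E K} (f : Hom T₀ T)

/-- Cokernel on the first chart. -/
abbrev cokM : Type u := T.M ⧸ LinearMap.range (f.fM.restrictScalars K)

/-- Cokernel on the second chart. -/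
abbrev cokM' : Type u := T.M' ⧸ LinearMap.range (f.fM'.restrictScalars K)

/-- Cokernel on the overlap. -/
abbrev cokN : Type u := T.N ⧸ LinearMap.range f.fY

lemma exists_ne_zero_smul_mem' (hM' : Function.Injective f.fM') :
    ∃ a : E.AR' K, a ≠ 0 ∧ ∀ m : T.M', a • m ∈ LinearMap.range f.fM' := by
  have := E.domain' K
  have : Nontrivial T₀.M' := by
    by_contra h
    rw [not_nontrivial_iff_subsingleton] at h
    have h1 : ∀ (a : E.AR' K) (x : T₀.M'), a • x = x := fun a x => Subsingleton.elim _ _
    exact zero_ne_one (FaithfulSMul.eq_of_smul_eq_smul (α := T₀.M')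
      (fun x => (h1 (0 : E.AR' K) x).trans (h1 1 x).symm))
  obtain ⟨m₀, hm₀⟩ := exists_ne (0 : T₀.M')
  obtain ⟨I, ⟨e⟩⟩ := Module.Invertible.exists_linearEquiv_ideal (E.AR' K) T.M'
  refine ⟨(e (f.fM' m₀) : E.AR' K), fun h => ?_, fun m => ⟨(e m : E.AR' K) • m₀, ?_⟩⟩
  · exact hm₀ (hM' (e.injective (((Subtype.ext h : e (f.fM' m₀) = 0).trans (map_zero e).symm).trans
      (congrArg e (map_zero f.fM').symm))))
  · apply e.injective
    rw [map_smul, map_smul, map_smul]
    exact Subtype.ext (mul_comm _ _)

lemma finite_cokM (hM : Function.Injective f.fM) : Module.Finite K f.cokM := by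
  obtain ⟨a, ha, h⟩ := f.exists_ne_zero_smul_mem hM
  have := E.dedekind K
  have : Algebra.FiniteType k E.A := RingHom.finiteType_algebraMap.mp
    ((Polynomial.aeval (R := k) E.t).comp_algebraMap ▸
      (RingHom.FiniteType.of_finite E.finite).comp
        (RingHom.finiteType_algebraMap.mpr (inferInstance : Algebra.FiniteType k (Polynomial k))))
  have : Module.Finite K (T.M ⧸ LinearMap.range f.fM) :=
    finite_of_smul_eq_zero (A := E.AR K) ha fun q => by
      induction q using Submodule.Quotient.induction_on with
      | H m => exact (Submodule.Quotient.mk_eq_zero _).mpr (h m)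
  exact Module.Finite.equiv
    (Submodule.Quotient.restrictScalarsEquiv K (LinearMap.range f.fM)).symm

lemma finite_cokM' (hM' : Function.Injective f.fM') : Module.Finite K f.cokM' := by
  obtain ⟨a, ha, h⟩ := f.exists_ne_zero_smul_mem' hM'
  have := E.dedekind' K
  have : Algebra.FiniteType k E.A' := RingHom.finiteType_algebraMap.mp
    ((Polynomial.aeval (R := k) E.s).comp_algebraMap ▸
      (RingHom.FiniteType.of_finite E.finite').comp
        (RingHom.finiteType_algebraMap.mpr (inferInstance : Algebra.FiniteType k (Polynomial k))))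
  have : Module.Finite K (T.M' ⧸ LinearMap.range f.fM') :=
    finite_of_smul_eq_zero (A := E.AR' K) ha fun q => by
      induction q using Submodule.Quotient.induction_on with
      | H m => exact (Submodule.Quotient.mk_eq_zero _).mpr (h m)
  exact Module.Finite.equiv
    (Submodule.Quotient.restrictScalarsEquiv K (LinearMap.range f.fM')).symm

/-- The restriction on the cokernels, first chart. -/
noncomputable def cokRes : f.cokM →ₗ[K] f.cokN :=
  Submodule.mapQ _ _ T.resLin (by rintro _ ⟨x, rfl⟩; exact ⟨T₀.res x, f.comm x⟩)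

/-- The restriction on the cokernels, second chart. -/
noncomputable def cokRes' : f.cokM' →ₗ[K] f.cokN :=
  Submodule.mapQ _ _ T.resLin' (by rintro _ ⟨x, rfl⟩; exact ⟨T₀.res' x, f.comm' x⟩)

lemma cokRes_surjective (hM : Function.Injective f.fM) : Function.Surjective f.cokRes := by
  intro q
  induction q using Submodule.Quotient.induction_on with
  | H n =>
    obtain ⟨_, ⟨m, rfl⟩, y, hy, hmy⟩ :=
      Submodule.mem_sup.mp ((f.sup_range_res hM).ge (Submodule.mem_top (x := n)))
    refine ⟨Submodule.Quotient.mk m, ?_⟩
    rw [cokRes, Submodule.mapQ_apply, Submodule.Quotient.eq, ← hmy, sub_add_cancel_left]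
    exact neg_mem hy

theorem colength_add (hM : Function.Injective f.fM) (hM' : Function.Injective f.fM') :
    f.colength + Module.finrank K f.cokN =
      Module.finrank K f.cokM + Module.finrank K f.cokM' := by
  have := f.finite_cokM hM
  have := f.finite_cokM' hM'
  let W := (LinearMap.range f.fY).comap T.diff
  let Ψ : f.cokM × f.cokM' →ₗ[K] f.cokN :=
    f.cokRes ∘ₗ LinearMap.fst K f.cokM f.cokM' - f.cokRes' ∘ₗ LinearMap.snd K f.cokM f.cokM'
  have hΨ : ∀ x : T.M × T.M', Ψ (Submodule.Quotient.mk x.1, Submodule.Quotient.mk x.2) =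
      Submodule.Quotient.mk (T.diff x) := fun x => rfl
  have hsurj : Function.Surjective Ψ := fun q => by
    obtain ⟨a, ha⟩ := f.cokRes_surjective hM q
    exact ⟨(a, 0), by simp [Ψ, ha]⟩
  let θ : W →ₗ[K] LinearMap.ker Ψ :=
    (((LinearMap.range (f.fM.restrictScalars K)).mkQ.prodMap
      (LinearMap.range (f.fM'.restrictScalars K)).mkQ).comp W.subtype).codRestrict _ fun x => by
        rw [LinearMap.mem_ker]
        exact (hΨ x.1).trans ((Submodule.Quotient.mk_eq_zero _).mpr x.2)
  have hθ : Function.Surjective θ := by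
    rintro ⟨⟨q, q'⟩, hq⟩
    induction q using Submodule.Quotient.induction_on with
    | H m =>
      induction q' using Submodule.Quotient.induction_on with
      | H m' =>
        rw [LinearMap.mem_ker, hΨ (m, m'), Submodule.Quotient.mk_eq_zero] at hq
        exact ⟨⟨(m, m'), hq⟩, rfl⟩
  have hker : LinearMap.ker θ = (LinearMap.range f.fX).comap W.subtype := by
    ext ⟨⟨m, m'⟩, hw⟩
    simp only [θ, LinearMap.mem_ker, Submodule.mem_comap, Submodule.coe_subtype]
    refine Iff.trans Subtype.ext_iff ?_
    change ((Submodule.Quotient.mk m : f.cokM), (Submodule.Quotient.mk m' : f.cokM')) = 0 ↔ _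
    rw [Prod.mk_eq_zero, Submodule.Quotient.mk_eq_zero, Submodule.Quotient.mk_eq_zero]
    exact ⟨fun ⟨⟨a, ha⟩, b, hb⟩ => ⟨(a, b), Prod.ext ha hb⟩,
      fun ⟨x, hx⟩ => ⟨⟨x.1, congrArg Prod.fst hx⟩, x.2, congrArg Prod.snd hx⟩⟩
  have h1 : f.colength = Module.finrank K (LinearMap.ker Ψ) := by
    rw [colength, ← (LinearMap.quotKerEquivOfSurjective θ hθ).finrank_eq, hker]
  have h2 := LinearMap.finrank_range_add_finrank_ker Ψ
  rw [LinearMap.range_eq_top.mpr hsurj, finrank_top, Module.finrank_prod] at h2
  omega

variable (U : Triple E K)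

/-- Tensoring a morphism with a line bundle. -/
noncomputable def lTensor : Hom (U.tensor T₀) (U.tensor T) where
  fM := f.fM.lTensor U.M
  fM' := f.fM'.lTensor U.M'
  fN := f.fN.lTensor U.N
  comm x := by
    induction x using TensorProduct.induction_on with
    | zero =>
      exact (congrArg (f.fN.lTensor U.N) (map_zero (U.tensorRes T₀))).trans ((map_zero _).trans
        ((congrArg (U.tensorRes T) (map_zero (f.fM.lTensor U.M))).trans (map_zero _)).symm)
    | add x y hx hy =>
      exact (congrArg (f.fN.lTensor U.N) (map_add (U.tensorRes T₀) x y)).trans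
        ((map_add _ _ _).trans ((congrArg₂ (· + ·) hx hy).trans
          ((congrArg (U.tensorRes T) (map_add (f.fM.lTensor U.M) x y)).trans (map_add _ _ _)).symm))
    | tmul m p => exact congrArg (U.res m ⊗ₜ[E.AR01 K] ·) (f.comm p)
  comm' x := by
    induction x using TensorProduct.induction_on with
    | zero =>
      exact (congrArg (f.fN.lTensor U.N) (map_zero (U.tensorRes' T₀))).trans ((map_zero _).trans
        ((congrArg (U.tensorRes' T) (map_zero (f.fM'.lTensor U.M'))).trans (map_zero _)).symm)
    | add x y hx hy =>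
      exact (congrArg (f.fN.lTensor U.N) (map_add (U.tensorRes' T₀) x y)).trans
        ((map_add _ _ _).trans ((congrArg₂ (· + ·) hx hy).trans
          ((congrArg (U.tensorRes' T) (map_add (f.fM'.lTensor U.M') x y)).trans
            (map_add _ _ _)).symm))
    | tmul m p => exact congrArg (U.res' m ⊗ₜ[E.AR01 K] ·) (f.comm' p)

lemma lTensor_injective (hM : Function.Injective f.fM) :
    Function.Injective (f.lTensor U).fM :=
  Module.Flat.lTensor_preserves_injective_linearMap f.fM hM

lemma lTensor_injective' (hM' : Function.Injective f.fM') :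
    Function.Injective (f.lTensor U).fM' :=
  Module.Flat.lTensor_preserves_injective_linearMap f.fM' hM'

/-- The cokernel of a tensored injection has the dimension of the cokernel. -/
theorem finrank_cok_lTensor {A M N P : Type u} [CommRing A] [IsDedekindDomain A] [Algebra K A]
    [AddCommGroup M] [Module A M] [Module.Invertible A M] [Module K M] [IsScalarTower K A M]
    [AddCommGroup N] [Module A N] [AddCommGroup P] [Module A P] [Module K N] [Module K P]
    [IsScalarTower K A N] [IsScalarTower K A P] (φ : N →ₗ[A] P)
    {a : A} (ha : a ≠ 0) (h : ∀ p : P, a • p ∈ LinearMap.range φ) :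
    Module.finrank K ((M ⊗[A] P) ⧸ LinearMap.range ((φ.lTensor M).restrictScalars K)) =
      Module.finrank K (P ⧸ LinearMap.range (φ.restrictScalars K)) := by
  have hex : Function.Exact φ (LinearMap.range φ).mkQ := LinearMap.exact_map_mkQ_range φ
  let e := _root_.lTensor.equiv M hex (Submodule.mkQ_surjective _)
  have hq : ∀ q : P ⧸ LinearMap.range φ, a • q = 0 := fun q => by
    induction q using Submodule.Quotient.induction_on with
    | H m => exact (Submodule.Quotient.mk_eq_zero _).mpr (h m)
  rw [show Module.finrank K ((M ⊗[A] P) ⧸ LinearMap.range ((φ.lTensor M).restrictScalars K)) =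
      Module.finrank K (M ⊗[A] (P ⧸ LinearMap.range φ)) from
    ((Submodule.Quotient.restrictScalarsEquiv K (LinearMap.range (φ.lTensor M))).trans
      (e.restrictScalars K)).finrank_eq, finrank_tensor_invertible ha hq]
  exact (Submodule.Quotient.restrictScalarsEquiv K (LinearMap.range φ)).finrank_eq.symm

/-- Tensoring preserves the colength. -/
theorem colength_lTensor (hM : Function.Injective f.fM) (hM' : Function.Injective f.fM') :
    (f.lTensor U).colength = f.colength := by
  have h1 := f.colength_add hM hM'
  have h2 := (f.lTensor U).colength_add (f.lTensor_injective U hM) (f.lTensor_injective' U hM')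
  obtain ⟨a, ha, h⟩ := f.exists_ne_zero_smul_mem hM
  obtain ⟨a', ha', h'⟩ := f.exists_ne_zero_smul_mem' hM'
  have := E.domain K
  have := E.dedekind K
  have := E.dedekind' K
  have hne : (E.tR K) ≠ 0 := fun h0 => by
    have : E.tR K * 1 = 0 := by rw [h0, zero_mul]
    have h3 := congrArg (E.ιR K) this
    rw [map_mul, map_one, mul_one, map_zero] at h3
    have h4 := E.ιR_tR_mul_sR K
    rw [h3, zero_mul] at h4
    exact zero_ne_one (E.ιR'_injective K (by rw [map_zero, map_one]; exact h4))
  have : IsDomain (E.AR01 K) := IsLocalization.isDomain_of_le_nonZeroDivisors (E.AR01 K)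
    (powers_le_nonZeroDivisors_of_noZeroDivisors hne : Submonoid.powers (E.tR K) ≤ _)
  have : IsDedekindDomain (E.AR01 K) := IsLocalization.isDedekindDomain (E.AR K)
    (powers_le_nonZeroDivisors_of_noZeroDivisors hne : Submonoid.powers (E.tR K) ≤ _) _
  have hN : ∀ n : T.N, E.ιR K a • n ∈ LinearMap.range f.fN := fun n => by
    obtain ⟨m, i, hm⟩ := T.res_surj n
    obtain ⟨z, hz⟩ := h m
    refine (Submodule.smul_mem_iff_of_isUnit _ ((E.isUnit_ιR_tR K).pow i)).mp ⟨T₀.res z, ?_⟩
    rw [f.comm, hz, LinearMap.map_smulₛₗ, ← hm, smul_comm]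
    rfl
  have e1 : Module.finrank K (f.lTensor U).cokM = Module.finrank K f.cokM :=
    finrank_cok_lTensor (M := U.M) f.fM ha h
  have e2 : Module.finrank K (f.lTensor U).cokM' = Module.finrank K f.cokM' :=
    finrank_cok_lTensor (M := U.M') f.fM' ha' h'
  have e3 : Module.finrank K (f.lTensor U).cokN = Module.finrank K f.cokN :=
    finrank_cok_lTensor (M := U.N) f.fN
      (fun h0 => ha (E.ιR_injective K (h0.trans (map_zero _).symm))) hN
  omega

end Triple.Hom

end FLTA.Jacobian
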