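import Fermat.Agent.Jacobian.CurveDegreeBasic

/-!
# Constant points and their base change
-/

set_option autoImplicit false

universe u

open TensorProduct
open scoped FLTA.Jacobian.TwoCover FLTA.Jacobian.Triple

namespace FLTA.Jacobian

namespace Triple

variable {k : Type u} [Field k] {E : TwoCover k}

/-- The point over `K` attached to a rational point of the first chart. -/
noncomputable def kPoint (K : Type u) [Field K] [Algebra k K] (φ : E.A →ₐ[k] k) :
    E.AR K →ₐ[K] K :=
  Algebra.TensorProduct.lift (Algebra.ofId K K) ((Algebra.ofId k K).comp φ)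
    fun _ _ => Commute.all _ _

lemma kPoint_tmul (K : Type u) [Field K] [Algebra k K] (φ : E.A →ₐ[k] k) (r : K) (a : E.A) :
    kPoint K φ (r ⊗ₜ a) = r * algebraMap k K (φ a) := by
  simp [kPoint]

lemma ptsTriple_cons (φ : E.A →ₐ[k] k) (l : List (E.A →ₐ[k] k)) :
    ptsTriple E (φ :: l) = (ptTriple E (kPoint k φ)).tensor (ptsTriple E l) := rfl

variable {K : Type u} [Field K] [Algebra k K]

lemma kPoint_bcA (φ : E.A →ₐ[k] k) (x : E.AR k) :
    kPoint K φ (E.bcA k K x) = algebraMap k K (kPoint k φ x) := by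
  induction x using TensorProduct.induction_on with
  | zero => simp
  | add x y hx hy => simp [hx, hy]
  | tmul r a =>
    change kPoint K φ (algebraMap k K r ⊗ₜ a) = _
    rw [kPoint_tmul, kPoint_tmul, map_mul, Algebra.algebraMap_self, RingHom.id_apply]

lemma ker_kPoint_le (φ : E.A →ₐ[k] k) {J : Ideal (E.AR K)}
    (h : ∀ a : E.A, φ a = 0 → (1 : K) ⊗ₜ[k] a ∈ J) : RingHom.ker (kPoint K φ) ≤ J := by
  have key : ∀ z : E.AR K, z - algebraMap K (E.AR K) (kPoint K φ z) ∈ J := by
    intro z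
    induction z using TensorProduct.induction_on with
    | zero => simp
    | add x y hx hy =>
      rw [map_add, map_add, add_sub_add_comm]
      exact add_mem hx hy
    | tmul r a =>
      have h0 := J.mul_mem_left (algebraMap K (E.AR K) r)
        (h (a - algebraMap k E.A (φ a)) (by simp))
      convert h0 using 1
      simp [kPoint_tmul, TensorProduct.tmul_sub, Algebra.algebraMap_eq_smul_one, mul_sub,
        Algebra.TensorProduct.one_def, TensorProduct.smul_tmul', mul_comm]
  intro z hz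
  have := key z
  rwa [show kPoint K φ z = 0 from hz, map_zero, sub_zero] at this

/-- The ideal of a point on the second chart is prime to `s`. -/
lemma one_sub_mem_ptIdeal' (φ : E.AR K →ₐ[K] K) :
    1 - algebraMap K (E.AR' K) (φ (E.tR K)) * E.sR K ∈ ptIdeal' E φ := by
  have h : E.tR K - algebraMap K (E.AR K) (φ (E.tR K)) ∈ RingHom.ker φ := by
    rw [RingHom.mem_ker, map_sub, φ.commutes]
    exact sub_self _
  have h1 := Ideal.mul_mem_right (E.ιR' K (E.sR K)) _ (Ideal.mem_map_of_mem (E.ιR K) h)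
  rw [map_sub, AlgHom.commutes, sub_mul, E.ιR_tR_mul_sR] at h1
  change E.ιR' K (1 - algebraMap K (E.AR' K) (φ (E.tR K)) * E.sR K) ∈
    (RingHom.ker φ).map (E.ιR K)
  rwa [map_sub, map_one, map_mul, AlgHom.commutes]

lemma bcA_mem_ker (φ : E.A →ₐ[k] k) {x : E.AR k} (hx : x ∈ RingHom.ker (kPoint k φ)) :
    E.bcA k K x ∈ RingHom.ker (kPoint K φ) := by
  rw [RingHom.mem_ker, kPoint_bcA, RingHom.mem_ker.mp hx, map_zero]

lemma bc01_mem_map (φ : E.A →ₐ[k] k) {n : E.AR01 k}
    (hn : n ∈ (RingHom.ker (kPoint k φ)).map (E.ιR k)) :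
    E.bc01 k K n ∈ (RingHom.ker (kPoint K φ)).map (E.ιR K) := by
  have hle : (RingHom.ker (kPoint k φ)).map (E.ιR k) ≤
      ((RingHom.ker (kPoint K φ)).map (E.ιR K)).comap (E.bc01 k K) := by
    refine Ideal.map_le_iff_le_comap.mpr fun x hx => ?_
    change E.bc01 k K (E.ιR k x) ∈ (RingHom.ker (kPoint K φ)).map (E.ιR K)
    rw [E.bc01_ιR]
    exact Ideal.mem_map_of_mem _ (bcA_mem_ker φ hx)
  exact hle hn

lemma bcA'_mem_ptIdeal' (φ : E.A →ₐ[k] k) {x : E.AR' k} (hx : x ∈ ptIdeal' E (kPoint k φ)) :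
    E.bcA' k K x ∈ ptIdeal' E (kPoint K φ) := by
  change E.ιR' K (E.bcA' k K x) ∈ (RingHom.ker (kPoint K φ)).map (E.ιR K)
  rw [← E.bc01_ιR']
  exact bc01_mem_map φ hx

/-- Elements in the span of the image of an ideal, as a subtype. -/
lemma span_subtype_eq_top {A B : Type u} [CommRing B] {I : Ideal B} (f : A → I)
    (h : I ≤ Ideal.span (Set.range fun a => (f a : B))) :
    Submodule.span B (Set.range f) = ⊤ := by
  refine Submodule.map_injective_of_injective I.injective_subtype ?_
  rw [Submodule.map_span, Submodule.map_top, Submodule.range_subtype, ← Set.range_comp]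
  refine le_antisymm (Submodule.span_le.mpr ?_) h
  rintro _ ⟨a, rfl⟩
  exact (f a).2

/-- Constant points commute with base change. -/
noncomputable def ptBaseChange (K : Type u) [Field K] [Algebra k K] (φ : E.A →ₐ[k] k) :
    BaseChange (ptTriple E (kPoint k φ)) (ptTriple E (kPoint K φ)) where
  fM :=
    { toFun := fun x => ⟨E.bcA k K x.1, bcA_mem_ker φ x.2⟩
      map_add' := fun x y => Subtype.ext (map_add (E.bcA k K) x.1 y.1)
      map_smul' := fun a x => Subtype.ext (map_mul (E.bcA k K) a x.1) }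
  fM' :=
    { toFun := fun x => ⟨E.bcA' k K x.1, bcA'_mem_ptIdeal' φ x.2⟩
      map_add' := fun x y => Subtype.ext (map_add (E.bcA' k K) x.1 y.1)
      map_smul' := fun a x => Subtype.ext (map_mul (E.bcA' k K) a x.1) }
  fN :=
    { toFun := fun x => ⟨E.bc01 k K x.1, bc01_mem_map φ x.2⟩
      map_add' := fun x y => Subtype.ext (map_add (E.bc01 k K) x.1 y.1)
      map_smul' := fun a x => Subtype.ext (map_mul (E.bc01 k K) a x.1) }
  comm m := Subtype.ext (E.bc01_ιR k K m.1)
  comm' m := Subtype.ext (E.bc01_ιR' k K m.1)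
  gen := by
    refine span_subtype_eq_top
      (fun x : RingHom.ker (kPoint k φ) => (⟨E.bcA k K x.1, bcA_mem_ker φ x.2⟩ :
        RingHom.ker (kPoint K φ))) ?_
    refine ker_kPoint_le φ fun a ha => ?_
    have hmem : (1 : k) ⊗ₜ[k] a ∈ RingHom.ker (kPoint k φ) := by
      rw [RingHom.mem_ker, kPoint_tmul, ha, map_zero, mul_zero]
    exact Ideal.subset_span ⟨⟨_, hmem⟩, by simp [TwoCover.bcA]⟩
  gen' := by
    refine span_subtype_eq_top
      (fun x : ptIdeal' E (kPoint k φ) => (⟨E.bcA' k K x.1, bcA'_mem_ptIdeal' φ x.2⟩ :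
        ptIdeal' E (kPoint K φ))) ?_
    set I : Ideal (E.AR' K) :=
      Ideal.span (Set.range fun x : ptIdeal' E (kPoint k φ) => E.bcA' k K x.1)
    intro x hx
    -- the two ideals agree away from `s`
    have hJ : (RingHom.ker (kPoint K φ)).map (E.ιR K) ≤ I.map (E.ιR' K) := by
      rw [Ideal.map_le_iff_le_comap]
      refine ker_kPoint_le φ fun a ha => ?_
      have hmem : E.ιR k ((1 : k) ⊗ₜ[k] a) ∈ (RingHom.ker (kPoint k φ)).map (E.ιR k) :=
        Ideal.mem_map_of_mem _ (by rw [RingHom.mem_ker, kPoint_tmul, ha, map_zero, mul_zero])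
      rw [← IsLocalization.map_under (Submonoid.powers (E.sR k)) (E.AR01 k)
        ((RingHom.ker (kPoint k φ)).map (E.ιR k))] at hmem
      have hle : (ptIdeal' E (kPoint k φ)).map (E.ιR' k) ≤
          (I.map (E.ιR' K)).comap (E.bc01 k K) := by
        refine Ideal.map_le_iff_le_comap.mpr fun y hy => ?_
        change E.bc01 k K (E.ιR' k y) ∈ I.map (E.ιR' K)
        rw [E.bc01_ιR']
        exact Ideal.mem_map_of_mem _ (Ideal.subset_span ⟨⟨y, hy⟩, rfl⟩)
      have h2 := hle hmem
      rw [Ideal.mem_comap, E.bc01_ιR] at h2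
      have h3 : E.bcA k K ((1 : k) ⊗ₜ[k] a) = (1 : K) ⊗ₜ[k] a := by simp [TwoCover.bcA]
      rwa [h3] at h2
    obtain ⟨_, ⟨n, rfl⟩, hn⟩ := (IsLocalization.algebraMap_mem_map_algebraMap_iff
      (Submonoid.powers (E.sR K)) (E.AR01 K) _ _).mp (hJ hx)
    set c := algebraMap K (E.AR' K) (algebraMap k K (kPoint k φ (E.tR k)))
    have h1 : 1 - c * E.sR K ∈ I := by
      refine Ideal.subset_span ⟨⟨_, one_sub_mem_ptIdeal' (kPoint k φ)⟩, ?_⟩
      change E.bcA' k K (1 - algebraMap k (E.AR' k) (kPoint k φ (E.tR k)) * E.sR k) = _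
      rw [map_sub, map_one, map_mul, E.bcA'_sR, AlgHom.commutes,
        IsScalarTower.algebraMap_apply k K (E.AR' K)]
    have h2 : 1 - (c * E.sR K) ^ n ∈ I :=
      I.mem_of_dvd (one_sub_dvd_one_sub_pow (R := E.AR' K) (c * E.sR K) n) h1
    have h3 : x = (1 - (c * E.sR K) ^ n) * x + c ^ n * (E.sR K ^ n * x) := by ring
    rw [h3]
    exact add_mem (I.mul_mem_right _ h2) (I.mul_mem_left _ hn)

/-- A nonzero function is nonzero at some rational point, after extension of scalars. -/
theorem exists_kPoint_ne_zero [IsAlgClosed k] {a : E.AR K} (ha : a ≠ 0) :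
    ∃ φ : E.A →ₐ[k] k, kPoint K φ a ≠ 0 := by
  classical
  let b := Module.Free.chooseBasis k K
  let bA := b.baseChange E.A
  let w : E.A ⊗[k] K := Algebra.TensorProduct.comm k K E.A a
  have hw : w ≠ 0 := fun h => ha ((Algebra.TensorProduct.comm k K E.A).map_eq_zero_iff.mp h)
  obtain ⟨i, hi⟩ : ∃ i, bA.repr w i ≠ 0 := by
    by_contra h
    push Not at h
    exact hw (bA.repr.map_eq_zero_iff.mp (Finsupp.ext h))
  have := E.isDomain_A
  have : Algebra.FiniteType k E.A := RingHom.finiteType_algebraMap.mp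
    ((Polynomial.aeval (R := k) E.t).comp_algebraMap ▸
      (RingHom.FiniteType.of_finite E.finite).comp
        (RingHom.finiteType_algebraMap.mpr (inferInstance : Algebra.FiniteType k (Polynomial k))))
  have hJ : IsJacobsonRing E.A := isJacobsonRing_of_finiteType (A := k)
  obtain ⟨m, hm, him⟩ : ∃ m : Ideal E.A, m.IsMaximal ∧ bA.repr w i ∉ m := by
    have hbot : (⊥ : Ideal E.A).jacobson = ⊥ :=
      IsJacobsonRing.out' _ (Ideal.isRadical_bot_iff.mpr inferInstance)
    by_contra h
    push Not at h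
    apply hi
    rw [← Ideal.mem_bot, ← hbot]
    exact Ideal.mem_sInf.mpr fun {J} hJ => h J hJ.2
  let := Ideal.Quotient.field m
  have : Module.Finite k (E.A ⧸ m) := finite_of_finite_type_of_isJacobsonRing k (E.A ⧸ m)
  let e : k ≃ₐ[k] (E.A ⧸ m) := AlgEquiv.ofBijective (Algebra.ofId k (E.A ⧸ m))
    IsAlgClosed.algebraMap_bijective_of_isIntegral
  let φ : E.A →ₐ[k] k := e.symm.toAlgHom.comp (Ideal.Quotient.mkₐ k m)
  refine ⟨φ, fun h0 => him ?_⟩
  have hΦ : ∀ (z : E.A ⊗[k] K) (l),
      b.repr (kPoint K φ (Algebra.TensorProduct.comm k E.A K z)) l = φ (bA.repr z l) := by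
    intro z l
    induction z using TensorProduct.induction_on with
    | zero => simp
    | tmul a c =>
      rw [Algebra.TensorProduct.comm_tmul, kPoint_tmul, mul_comm, ← Algebra.smul_def, map_smul,
        Finsupp.smul_apply, smul_eq_mul]
      simp [bA, Module.Basis.baseChange_repr_tmul, mul_comm]
    | add z z' hz hz' => simp [hz, hz']
  have h1 := hΦ w i
  rw [show Algebra.TensorProduct.comm k E.A K w = a from
    (Algebra.TensorProduct.comm k K E.A).symm_apply_apply a, h0, map_zero] at h1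
  rw [← Ideal.Quotient.eq_zero_iff_mem]
  exact e.symm.map_eq_zero_iff.mp h1.symm

end Triple

end FLTA.Jacobian
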