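import Mathlib
import Fermat.Agent.Jacobian.CurveDedekind

/-!
# Local structure of a smooth integral curve over a field
-/

set_option autoImplicit false

universe u

open CategoryTheory AlgebraicGeometry TopologicalSpace

namespace FLTA.Jacobian

variable {k : Type u} [Field k] {C : Scheme.{u}} (c : C ⟶ Spec (CommRingCat.of k))

/-- The `k`-algebra structure on the sections of `C` over an open. -/
noncomputable def curveAlgMap (V : C.Opens) : k →+* Γ(C, V) :=
  ((Scheme.ΓSpecIso (CommRingCat.of k)).inv ≫ c.appLE ⊤ V le_top).hom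

lemma exists_affine_smooth [SmoothOfRelativeDimension 1 c] (x : C) :
    ∃ V : C.Opens, IsAffineOpen V ∧ x ∈ V ∧
      (curveAlgMap c V).IsStandardSmoothOfRelativeDimension 1 := by
  obtain ⟨U, hU, V, hV, hx, e, hf⟩ :=
    SmoothOfRelativeDimension.exists_isStandardSmoothOfRelativeDimension (f := c) (n := 1) x
  obtain rfl : U = ⊤ := eq_top_iff.mpr fun y _ => by
    rw [Subsingleton.elim y (c x)]; exact e hx
  refine ⟨V, hV, hx, ?_⟩
  exact (RingHom.isStandardSmoothOfRelativeDimension_respectsIso (n := 1)).2 _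
    (Scheme.ΓSpecIso (CommRingCat.of k)).symm.commRingCatIsoToRingEquiv hf

variable [IsIntegral C] [SmoothOfRelativeDimension 1 c]

omit [IsIntegral C] in
lemma locallyOfFiniteType_of_smooth : LocallyOfFiniteType c :=
  have := SmoothOfRelativeDimension.smooth (n := 1) c
  inferInstance

include c


lemma exists_affine_dedekind_not_field (x : C) :
    ∃ V : C.Opens, IsAffineOpen V ∧ x ∈ V ∧ IsDedekindDomain Γ(C, V) ∧ ¬ IsField Γ(C, V) := by
  obtain ⟨V, hV, hx, hf⟩ := exists_affine_smooth c x
  have : Nonempty V := ⟨⟨x, hx⟩⟩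
  refine ⟨V, hV, hx, isDedekindDomain_of_isStandardSmooth _ hf, fun hfield => ?_⟩
  obtain ⟨g, hg, hget⟩ := hf.exists_etale_mvPolynomial
  algebraize [g]
  let _ := hfield.toField
  have hinj : Function.Injective g := by
    rw [injective_iff_map_eq_zero]
    intro a ha
    by_contra hne
    have hreg := IsSMulRegular.of_flat (S := Γ(C, V)) (IsRegular.of_ne_zero hne).left.isSMulRegular
    rw [RingHom.algebraMap_toAlgebra, ha] at hreg
    exact one_ne_zero (@hreg 1 0 (by simp))
  let _ := (curveAlgMap c V).toAlgebra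
  have : IsScalarTower k (MvPolynomial (Fin 1) k) Γ(C, V) :=
    .of_algebraMap_eq' hg.symm
  have : Algebra.FiniteType k Γ(C, V) :=
    Algebra.FiniteType.trans (S := MvPolynomial (Fin 1) k) inferInstance inferInstance
  have : Module.Finite k Γ(C, V) := finite_of_finite_type_of_isJacobsonRing k Γ(C, V)
  have : Module.Finite k (MvPolynomial (Fin 1) k) :=
    Module.Finite.of_injective (IsScalarTower.toAlgHom k (MvPolynomial (Fin 1) k) Γ(C, V)).toLinearMap
      hinj
  exact absurd (Algebra.IsAlgebraic.isAlgebraic (R := k) (MvPolynomial.X (0 : Fin 1)))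
    (MvPolynomial.transcendental_X k 0)

/-- The local ring at a non-generic point of a smooth curve is a discrete valuation ring. -/
lemma isDiscreteValuationRing_stalk {x : C} (hx : x ≠ genericPoint C) :
    IsDiscreteValuationRing (C.presheaf.stalk x) := by
  obtain ⟨V, hV, hxV, hD, -⟩ := exists_affine_dedekind_not_field c x
  have : Nonempty V := ⟨⟨x, hxV⟩⟩
  let _ := TopCat.Presheaf.algebra_section_stalk C.presheaf (⟨x, hxV⟩ : V)
  have := hV.isLocalization_stalk ⟨x, hxV⟩
  refine IsLocalization.AtPrime.isDiscreteValuationRing_of_dedekind_domain Γ(C, V)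
    (P := (hV.primeIdealOf ⟨x, hxV⟩).asIdeal) ?_ _
  intro hbot
  apply hx
  have hgen : genericPoint C ∈ V :=
    ((genericPoint_spec C).mem_open_set_iff V.isOpen).mpr (by simpa using ⟨x, hxV⟩)
  have h1 : hV.primeIdealOf ⟨x, hxV⟩ = hV.primeIdealOf ⟨genericPoint C, hgen⟩ := by
    rw [hV.primeIdealOf_genericPoint, genericPoint_eq_bot_of_affine]
    exact PrimeSpectrum.ext hbot
  have h2 := congr_arg hV.fromSpec h1
  simpa [IsAffineOpen.fromSpec_primeIdealOf] using h2

lemma isClosed_singleton_of_ne_genericPoint {x : C} (hx : x ≠ genericPoint C) :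
    IsClosed ({x} : Set C) := by
  have := locallyOfFiniteType_of_smooth c
  have : JacobsonSpace C := LocallyOfFiniteType.jacobsonSpace c
  obtain ⟨V, hV, hxV, hD, -⟩ := exists_affine_dedekind_not_field c x
  have : Nonempty V := ⟨⟨x, hxV⟩⟩
  let y := hV.primeIdealOf ⟨x, hxV⟩
  have hy : y.asIdeal ≠ ⊥ := by
    intro hbot
    apply hx
    have hgen : genericPoint C ∈ V :=
      ((genericPoint_spec C).mem_open_set_iff V.isOpen).mpr (by simpa using ⟨x, hxV⟩)
    have h1 : y = hV.primeIdealOf ⟨genericPoint C, hgen⟩ := by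
      rw [hV.primeIdealOf_genericPoint, genericPoint_eq_bot_of_affine]
      exact PrimeSpectrum.ext hbot
    have h2 := congr_arg hV.fromSpec h1
    simpa [y, IsAffineOpen.fromSpec_primeIdealOf] using h2
  have hy' : y ∈ closedPoints (Spec Γ(C, V)) :=
    (PrimeSpectrum.isClosed_singleton_iff_isMaximal y).mpr (y.isPrime.isMaximal hy)
  have := hV.fromSpec.closePoints_subset_preimage_closedPoints hy'
  have h : IsClosed ({hV.fromSpec y} : Set C) := this
  simpa [y, IsAffineOpen.fromSpec_primeIdealOf] using h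

lemma exists_ne_genericPoint : ∃ x : C, x ≠ genericPoint C := by
  obtain ⟨V, hV, hxV, -, hnf⟩ := exists_affine_dedekind_not_field c (genericPoint C)
  have : Nonempty V := ⟨⟨_, hxV⟩⟩
  obtain ⟨m, hm⟩ := Ideal.exists_maximal Γ(C, V)
  refine ⟨hV.fromSpec ⟨m, hm.isPrime⟩, fun h => hnf ?_⟩
  have h1 : hV.primeIdealOf ⟨genericPoint C, hxV⟩ = ⟨m, hm.isPrime⟩ := by
    apply hV.fromSpec.isOpenEmbedding.injective
    rw [IsAffineOpen.fromSpec_primeIdealOf, h]
  rw [hV.primeIdealOf_genericPoint, genericPoint_eq_bot_of_affine] at h1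
  have : (⊥ : Ideal Γ(C, V)) = m := congr_arg PrimeSpectrum.asIdeal h1
  subst this
  exact (RingEquiv.quotientBot Γ(C, V)).symm.toMulEquiv.isField
    ((Ideal.Quotient.maximal_ideal_iff_isField_quotient _).mp hm)

end FLTA.Jacobian
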