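import Mathlib
import Fermat.Agent.Jacobian.CurveStalk
import Fermat.Agent.Jacobian.CurveRegular

/-!
# A rational function gives a finite map from its regular locus to the affine line
-/

set_option autoImplicit false

universe u

open CategoryTheory AlgebraicGeometry TopologicalSpace Opposite

namespace FLTA.Jacobian

variable {k : Type u} [Field k] {C : Scheme.{u}} (c : C ⟶ Spec (CommRingCat.of k))

lemma curveAlgMap_res {V W : C.Opens} (i : W ≤ V) (a : k) :
    C.presheaf.map (homOfLE i).op (curveAlgMap c V a) = curveAlgMap c W a := by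
  simp only [curveAlgMap, CommRingCat.hom_comp, RingHom.comp_apply]
  exact ConcreteCategory.congr_hom (Scheme.Hom.appLE_map c (U := ⊤) (V := V) (V' := W)
    le_top (homOfLE i).op) _

variable [IsIntegral C]

/-- The base field inside the function field. -/
noncomputable def kFF : k →+* C.functionField :=
  (C.presheaf.germ ⊤ (genericPoint C) trivial).hom.comp (curveAlgMap c ⊤)

lemma toFF_curveAlgMap {V : C.Opens} (h : genericPoint C ∈ V) (a : k) :
    toFF V h (curveAlgMap c V a) = kFF c a := by
  rw [← curveAlgMap_res c (le_top : V ≤ ⊤), toFF_res]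
  rfl

/-- The ring map `k[X] → 𝒪(U_f)` attached to a rational function `f`. -/
noncomputable def lineHom (f : C.functionField) :
    Polynomial k →+* Γ(C, regularLocus f) :=
  Polynomial.eval₂RingHom (curveAlgMap c _) (regularSection f)

lemma toFF_lineHom (f : C.functionField) (p : Polynomial k) :
    toFF _ (genericPoint_mem_regularLocus f) (lineHom c f p) = Polynomial.eval₂ (kFF c) f p := by
  let g := (C.presheaf.germ (regularLocus f) (genericPoint C) (genericPoint_mem_regularLocus f)).hom
  change g (Polynomial.eval₂ (curveAlgMap c _) (regularSection f) p) = _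
  rw [Polynomial.hom_eval₂]
  congr 1
  · exact RingHom.ext fun a => toFF_curveAlgMap c _ a
  · exact toFF_regularSection f

/-- The morphism from the regular locus of `f` to the affine line defined by `f`. -/
noncomputable def lineMap (f : C.functionField) :
    (regularLocus f).toScheme ⟶ Spec (CommRingCat.of (Polynomial k)) :=
  (regularLocus f).toScheme.toSpecΓ ≫
    Spec.map (CommRingCat.ofHom (lineHom c f) ≫ (regularLocus f).topIso.inv)

lemma lineMap_appTop (f : C.functionField) :
    (lineMap c f).appTop = (Scheme.ΓSpecIso (CommRingCat.of (Polynomial k))).hom ≫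
      CommRingCat.ofHom (lineHom c f) ≫ (regularLocus f).topIso.inv := by
  rw [lineMap, Scheme.Hom.comp_appTop, Scheme.toSpecΓ_appTop, ← Scheme.ΓSpecIso_naturality]

lemma lineMap_over (f : C.functionField) :
    lineMap c f ≫ Spec.map (CommRingCat.ofHom Polynomial.C) = (regularLocus f).ι ≫ c := by
  apply ext_of_isAffine
  rw [Scheme.Hom.comp_appTop, lineMap_appTop, ← cancel_epi (Scheme.ΓSpecIso (CommRingCat.of k)).inv]
  rw [← Scheme.ΓSpecIso_inv_naturality_assoc, Scheme.Hom.comp_appTop]
  simp only [Iso.inv_hom_id_assoc]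
  rw [← Category.assoc, ← CommRingCat.ofHom_comp]
  have : CommRingCat.ofHom ((lineHom c f).comp Polynomial.C) =
      (Scheme.ΓSpecIso (CommRingCat.of k)).inv ≫ c.appLE ⊤ (regularLocus f) le_top := by
    refine CommRingCat.hom_ext (RingHom.ext fun a => ?_)
    simp [lineHom, curveAlgMap]
  rw [this, Category.assoc]
  congr 1
  simp only [Scheme.Hom.appLE, Scheme.Opens.ι_appTop, Scheme.Hom.appTop, Scheme.Opens.topIso,
    Category.assoc]
  exact congr_arg (c.app ⊤ ≫ ·) (C.presheaf.map_comp _ _).symm

variable [SmoothOfRelativeDimension 1 c]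

include c in
/-- Rational functions that fail to be regular at a point have a reciprocal vanishing there. -/
lemma exists_mul_eq_one_of_notMem {f : C.functionField} {x : C} (hx : x ∉ regularLocus f) :
    ∃ (V : C.Opens) (hV : x ∈ V) (g : Γ(C, V)),
      toFF V (genericPoint_mem hV) g * f = 1 ∧ x ∉ C.basicOpen g := by
  have hne : x ≠ genericPoint C := fun h => hx (h ▸ genericPoint_mem_regularLocus f)
  have := isDiscreteValuationRing_stalk c hne
  rw [mem_regularLocus_iff_range] at hx
  have hf0 : f ≠ 0 := fun h => hx (h ▸ Subring.zero_mem _)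
  rcases ValuationRing.isInteger_or_isInteger (C.presheaf.stalk x) f with h | h
  · exact absurd h hx
  obtain ⟨u, hu⟩ := h
  obtain ⟨V, hV, g, rfl⟩ := C.presheaf.exists_germ_eq u
  have : Nonempty V := ⟨⟨x, hV⟩⟩
  have hg : toFF V (genericPoint_mem hV) g = f⁻¹ :=
    (Scheme.algebraMap_germ_eq_germToFunctionField C hV g).symm.trans hu
  refine ⟨V, hV, g, by rw [hg, inv_mul_cancel₀ hf0], fun hmem => hx ?_⟩
  obtain ⟨w, hw⟩ := (Scheme.mem_basicOpen C g x hV).mp hmem
  refine ⟨((w⁻¹ : (C.presheaf.stalk x)ˣ) : C.presheaf.stalk x), ?_⟩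
  rw [map_units_inv, hw, hu, inv_inv]

variable [IsProper c]

omit [IsIntegral C] [SmoothOfRelativeDimension 1 c] in
include c in
lemma noetherianSpace_curve : NoetherianSpace C := by
  have := LocallyOfFiniteType.isLocallyNoetherian c
  have : CompactSpace C := QuasiCompact.compactSpace_of_compactSpace c
  have : AlgebraicGeometry.IsNoetherian C := ⟨⟩
  infer_instance

instance locallyOfFiniteType_lineMap (f : C.functionField) :
    LocallyOfFiniteType (lineMap c f) := by
  have := locallyOfFiniteType_of_smooth c
  have : LocallyOfFiniteType (lineMap c f ≫ Spec.map (CommRingCat.ofHom Polynomial.C)) := by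
    rw [lineMap_over]; infer_instance
  exact locallyOfFiniteType_of_comp _ (Spec.map (CommRingCat.ofHom Polynomial.C))

theorem isProper_lineMap (f : C.functionField) : IsProper (lineMap c f) := by
  have := noetherianSpace_curve c
  have : CompactSpace (regularLocus f).toScheme :=
    isCompact_iff_compactSpace.mp (NoetherianSpace.isCompact _)
  have : QuasiCompact (lineMap c f) := quasiCompact_of_compactSpace _
  have : IsSeparated (lineMap c f ≫ Spec.map (CommRingCat.ofHom Polynomial.C)) := by
    rw [lineMap_over]; infer_instance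
  have : IsSeparated (lineMap c f) :=
    IsSeparated.of_comp _ (Spec.map (CommRingCat.ofHom Polynomial.C))
  suffices ValuativeCriterion.Existence (lineMap c f) by
    have := UniversallyClosed.of_valuativeCriterion _ this
    exact ⟨⟩
  intro S
  let U := regularLocus f
  let q : Spec (CommRingCat.of S.K) ⟶ Spec (CommRingCat.of S.R) :=
    Spec.map (CommRingCat.ofHom (algebraMap S.R S.K))
  let S' : ValuativeCommSq c :=
    { R := S.R
      K := S.K
      i₁ := S.i₁ ≫ U.ι
      i₂ := S.i₂ ≫ Spec.map (CommRingCat.ofHom Polynomial.C)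
      commSq := ⟨by rw [Category.assoc, ← lineMap_over, S.commSq.w_assoc]⟩ }
  obtain ⟨⟨l, hl₁, hl₂⟩⟩ := ((ValuativeCriterion.existence
    (show ValuativeCriterion c from
      ((IsProper.eq_valuativeCriterion.le _ _ c ‹IsProper c›).1.1.1))) S').exists_lift
  change q ≫ l = S.i₁ ≫ U.ι at hl₁
  let x := l.base (IsLocalRing.closedPoint S.R)
  have htop : ∀ V : C.Opens, x ∈ V → l ⁻¹ᵁ V = ⊤ := fun V hV =>
    IsLocalRing.closed_point_mem_iff.mp hV
  have hxU : x ∈ U := by
    by_contra hxU
    obtain ⟨V, hV, g, hg, hgx⟩ := exists_mul_eq_one_of_notMem c hxU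
    have hW : genericPoint C ∈ V ⊓ U :=
      ⟨genericPoint_mem hV, genericPoint_mem_regularLocus f⟩
    have hprod : C.presheaf.map (homOfLE (inf_le_left : V ⊓ U ≤ V)).op g *
        C.presheaf.map (homOfLE (inf_le_right : V ⊓ U ≤ U)).op (regularSection f) = 1 := by
      apply toFF_injective _ hW
      change C.presheaf.germ _ _ hW (_ * _) = C.presheaf.germ _ _ hW 1
      rw [map_mul, map_one]
      change toFF _ hW _ * toFF _ hW _ = 1
      rw [toFF_res, toFF_res, toFF_regularSection, hg]
    let n := S.i₁ ≫ U.ι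
    have hnU : ⊤ ≤ n ⁻¹ᵁ U := fun y _ => (S.i₁ y).2
    have hnV : ⊤ ≤ n ⁻¹ᵁ V := by
      change ⊤ ≤ (S.i₁ ≫ U.ι) ⁻¹ᵁ V
      rw [← hl₁, Scheme.Hom.comp_preimage, htop V hV, Scheme.Hom.preimage_top]
    have hnW : ⊤ ≤ n ⁻¹ᵁ (V ⊓ U) := fun y hy => ⟨hnV hy, hnU hy⟩
    have h1 : n.appLE V ⊤ hnV g * n.appLE U ⊤ hnU (regularSection f) = 1 := by
      have h := congr_arg (n.appLE (V ⊓ U) ⊤ hnW) hprod
      rw [map_mul, map_one, ← ConcreteCategory.comp_apply, ← ConcreteCategory.comp_apply,
        Scheme.Hom.map_appLE, Scheme.Hom.map_appLE] at h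
      exact h
    let uR : Γ(Spec (CommRingCat.of S.R), ⊤) := l.appLE V ⊤ (htop V hV).ge g
    have h2 : n.appLE V ⊤ hnV g = q.appTop uR := by
      simp only [n, ← hl₁, uR, Scheme.Hom.appTop, ← Scheme.Hom.appLE_eq_app]
      exact (ConcreteCategory.congr_hom (Scheme.Hom.appLE_comp_appLE q l V ⊤ ⊤
        (htop V hV).ge le_rfl) g).symm
    let tR : Γ(Spec (CommRingCat.of S.R), ⊤) :=
      S.i₂.appTop ((Scheme.ΓSpecIso (CommRingCat.of (Polynomial k))).inv Polynomial.X)
    have h3 : n.appLE U ⊤ hnU (regularSection f) = q.appTop tR := by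
      have e : S.i₁.appTop ((lineMap c f).appTop
          ((Scheme.ΓSpecIso (CommRingCat.of (Polynomial k))).inv Polynomial.X)) = q.appTop tR := by
        have h := congr_arg (fun m => Scheme.Hom.appTop m
          ((Scheme.ΓSpecIso (CommRingCat.of (Polynomial k))).inv Polynomial.X)) S.commSq.w
        simp only [Scheme.Hom.comp_appTop, ConcreteCategory.comp_apply] at h
        exact h
      rw [← e, lineMap_appTop]
      simp only [ConcreteCategory.comp_apply, Iso.inv_hom_id_apply]
      rw [show CommRingCat.ofHom (lineHom c f) Polynomial.X = regularSection f by simp [lineHom]]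
      change (S.i₁ ≫ U.ι).appLE U ⊤ hnU (regularSection f) = _
      rw [Scheme.Hom.appTop, ← Scheme.Hom.appLE_eq_app]
      have hι : U.ι.appLE U ⊤ (fun y _ => y.2) = U.topIso.inv := by
        simp only [Scheme.Hom.appLE, Scheme.Opens.ι_app, Scheme.Opens.topIso]
        exact (C.presheaf.map_comp _ _).symm
      rw [← hι]
      exact (ConcreteCategory.congr_hom (Scheme.Hom.appLE_comp_appLE S.i₁ U.ι U ⊤ ⊤
        (fun y _ => y.2) le_rfl) (regularSection f)).symm
    have hinj : Function.Injective q.appTop := by
      have : q.appTop = (Scheme.ΓSpecIso (CommRingCat.of S.R)).hom ≫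
          CommRingCat.ofHom (algebraMap S.R S.K) ≫ (Scheme.ΓSpecIso (CommRingCat.of S.K)).inv := by
        rw [← Scheme.ΓSpecIso_naturality_assoc, Iso.hom_inv_id, Category.comp_id]
      rw [this]
      exact ((Scheme.ΓSpecIso (CommRingCat.of S.K)).symm.commRingCatIsoToRingEquiv.injective.comp
        (IsFractionRing.injective S.R S.K)).comp
        (Scheme.ΓSpecIso (CommRingCat.of S.R)).commRingCatIsoToRingEquiv.injective
    have hu : IsUnit uR := by
      refine IsUnit.of_mul_eq_one tR (hinj ?_)
      rw [map_mul, map_one, ← h2, ← h3, h1]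
    apply hgx
    have hb := Scheme.basicOpen_of_isUnit _ hu
    simp only [uR, Scheme.basicOpen_appLE] at hb
    have hmem : IsLocalRing.closedPoint S.R ∈ (⊤ : (Spec (CommRingCat.of S.R)).Opens) ⊓
        l ⁻¹ᵁ C.basicOpen g := hb.ge trivial
    exact hmem.2
  have hl : Set.range l.base ⊆ Set.range U.ι.base := by
    rw [Scheme.Opens.range_ι]
    rintro _ ⟨y, rfl⟩
    exact (htop U hxU).ge trivial
  let l' := IsOpenImmersion.lift U.ι l hl
  have hl'₁ : q ≫ l' = S.i₁ := by
    rw [← cancel_mono U.ι, Category.assoc, IsOpenImmersion.lift_fac, hl₁]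
  refine ⟨⟨⟨l', hl'₁, ?_⟩⟩⟩
  obtain ⟨a, ha⟩ := Spec.map_surjective (l' ≫ lineMap c f)
  obtain ⟨b, hb⟩ := Spec.map_surjective S.i₂
  rw [← ha, ← hb]
  congr 1
  have : Mono (CommRingCat.ofHom (algebraMap S.R S.K)) :=
    ConcreteCategory.mono_of_injective _ (IsFractionRing.injective S.R S.K)
  rw [← cancel_mono (CommRingCat.ofHom (algebraMap S.R S.K))]
  apply Spec.map_injective
  rw [Spec.map_comp, Spec.map_comp, ha, hb, ← Category.assoc, hl'₁, S.commSq.w]

omit [SmoothOfRelativeDimension 1 c] [IsProper c] in
lemma lineMap_genericPoint {f : C.functionField}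
    (hf : Function.Injective fun p : Polynomial k => Polynomial.eval₂ (kFF c) f p) :
    (lineMap c f ⟨genericPoint C, genericPoint_mem_regularLocus f⟩).asIdeal = ⊥ := by
  rw [eq_bot_iff]
  intro p hp
  rw [Ideal.mem_bot]
  apply hf
  simp only [Polynomial.eval₂_zero]
  rw [← toFF_lineHom]
  by_contra hne
  have hmem : (⟨genericPoint C, genericPoint_mem_regularLocus f⟩ : (regularLocus f).toScheme) ∈
      lineMap c f ⁻¹ᵁ PrimeSpectrum.basicOpen p := by
    rw [← basicOpen_eq_of_affine, Scheme.preimage_basicOpen_top, lineMap_appTop]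
    simp only [← ConcreteCategory.comp_apply, Iso.inv_hom_id_assoc]
    change (_ : (regularLocus f).toScheme) ∈ (regularLocus f).toScheme.basicOpen
      ((regularLocus f).topIso.inv (lineHom c f p))
    refine Scheme.Opens.mem_basicOpen_toScheme.mpr ?_
    have he : C.basicOpen ((regularLocus f).topIso.inv (lineHom c f p)) =
        C.basicOpen (lineHom c f p) := Scheme.basicOpen_res_eq C _ (eqToHom (regularLocus f).ι_image_top).op
    refine he.ge ((Scheme.mem_basicOpen _ _ _ (genericPoint_mem_regularLocus f)).mpr ?_)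
    exact isUnit_iff_ne_zero.mpr hne
  exact hmem hp

theorem isFinite_lineMap {f : C.functionField}
    (hf : Function.Injective fun p : Polynomial k => Polynomial.eval₂ (kFF c) f p) :
    IsFinite (lineMap c f) := by
  have := isProper_lineMap c f
  have := noetherianSpace_curve c
  have := locallyOfFiniteType_of_smooth c
  have : JacobsonSpace C := LocallyOfFiniteType.jacobsonSpace c
  suffices LocallyQuasiFinite (lineMap c f) from
    IsFinite.of_isProper_of_locallyQuasiFinite _
  refine .of_finite_preimage_singleton _ fun y => ?_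
  let η : (regularLocus f).toScheme := ⟨genericPoint C, genericPoint_mem_regularLocus f⟩
  have hclosed : ∀ z, z ≠ η → IsClosed ({z} : Set (regularLocus f).toScheme) := fun z hz => by
    have hz' : z.1 ≠ genericPoint C := fun h => hz (Subtype.ext h)
    have he : ({z} : Set (regularLocus f).toScheme) = (regularLocus f).ι ⁻¹' {z.1} := by
      refine Set.ext fun w => ⟨fun h => ?_, fun h => Subtype.ext h⟩
      exact congr_arg Subtype.val h
    rw [he]
    exact (isClosed_singleton_of_ne_genericPoint c hz').preimage (regularLocus f).ι.continuous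
  by_cases hy : y.asIdeal = ⊥
  · refine Set.Finite.subset (Set.finite_singleton η) fun z hz => ?_
    by_contra hne
    have h1 : IsClosed ({lineMap c f z} : Set (Spec (CommRingCat.of (Polynomial k)))) :=
      (lineMap c f).closePoints_subset_preimage_closedPoints (hclosed z hne)
    rw [show lineMap c f z = y from hz] at h1
    have h2 := (PrimeSpectrum.isClosed_singleton_iff_isMaximal y).mp h1
    rw [hy] at h2
    exact Polynomial.not_isField k (Ring.isField_iff_maximal_bot.mpr h2)
  · have hcl : IsClosed ((lineMap c f) ⁻¹' {y}) :=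
      ((PrimeSpectrum.isClosed_singleton_iff_isMaximal y).mpr (y.isPrime.isMaximal hy)).preimage
        (lineMap c f).continuous
    have : NoetherianSpace (regularLocus f).toScheme :=
      (regularLocus f).ι.isOpenEmbedding.isInducing.noetherianSpace
    obtain ⟨T, hTf, hTc, hTi, hTu⟩ :=
      NoetherianSpace.exists_finite_set_isClosed_irreducible hcl
    rw [hTu]
    refine hTf.sUnion fun Z hZ => ?_
    obtain ⟨z, hz⟩ := QuasiSober.sober (hTi Z hZ) (hTc Z hZ)
    have hzy : lineMap c f z = y :=
      hTu.ge (Set.mem_sUnion_of_mem hz.mem hZ)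
    have hne : z ≠ η := fun h => hy (by rw [← hzy, h]; exact lineMap_genericPoint c hf)
    rw [← hz.def, (hclosed z hne).closure_eq]
    exact Set.finite_singleton z

end FLTA.Jacobian
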