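import Mathlib
import Fermat.Agent.Jacobian.CurveFinite

/-!
# A rational function whose only pole is a given point
-/

set_option autoImplicit false

universe u

open CategoryTheory AlgebraicGeometry TopologicalSpace Opposite

namespace FLTA.Jacobian

variable {k : Type u} [Field k] {C : Scheme.{u}} (c : C ⟶ Spec (CommRingCat.of k))
  [IsIntegral C]

/-- The local ring at a point, inside the function field. -/
noncomputable def localSubring (x : C) : Subring C.functionField :=
  (algebraMap (C.presheaf.stalk x) C.functionField).range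

lemma mem_regularLocus_iff_mem_localSubring {f : C.functionField} {x : C} :
    x ∈ regularLocus f ↔ f ∈ localSubring x :=
  mem_regularLocus_iff_range

lemma toFF_mem_localSubring {V : C.Opens} (h : genericPoint C ∈ V) (s : Γ(C, V)) {x : C}
    (hx : x ∈ V) : toFF V h s ∈ localSubring x :=
  mem_regularLocus_iff_range.mp (mem_regularLocus.mpr ⟨V, hx, s, rfl⟩)

lemma kFF_mem_localSubring (a : k) (x : C) : kFF c a ∈ localSubring x :=
  toFF_mem_localSubring _ _ trivial

/-- Rational functions regular on a set of points. -/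
noncomputable def regOn (V : Set C) : Subring C.functionField := ⨅ x ∈ V, localSubring x

lemma mem_regOn {V : Set C} {f : C.functionField} :
    f ∈ regOn V ↔ ∀ x ∈ V, f ∈ localSubring x := by
  simp [regOn, Subring.mem_iInf]

lemma mem_regOn_opens {V : C.Opens} {f : C.functionField} :
    f ∈ regOn (V : Set C) ↔ V ≤ regularLocus f := by
  rw [mem_regOn]
  exact forall₂_congr fun x _ => mem_regularLocus_iff_mem_localSubring.symm

lemma exists_section_of_mem_regOn {V : C.Opens} (hV : genericPoint C ∈ V) {f : C.functionField}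
    (hf : f ∈ regOn (V : Set C)) : ∃ s : Γ(C, V), toFF V hV s = f :=
  ⟨C.presheaf.map (homOfLE (mem_regOn_opens.mp hf)).op (regularSection f),
    (toFF_res _ _ _).trans (toFF_regularSection f)⟩

lemma toFF_mem_regOn {V : C.Opens} (hV : genericPoint C ∈ V) (s : Γ(C, V)) :
    toFF V hV s ∈ regOn (V : Set C) :=
  mem_regOn.mpr fun _ hx => toFF_mem_localSubring hV s hx

lemma eq_kFF_of_root [IsAlgClosed k] {f : C.functionField} {p : Polynomial k} (hp0 : p ≠ 0)
    (hp : Polynomial.eval₂ (kFF c) f p = 0) : ∃ a, f = kFF c a := by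
  have hmem : f ∈ (p.map (kFF c)).roots := by
    rw [Polynomial.mem_roots (Polynomial.map_ne_zero hp0), Polynomial.IsRoot, Polynomial.eval_map]
    exact hp
  rw [(IsAlgClosed.splits p).roots_map, Multiset.mem_map] at hmem
  exact hmem.imp fun a ha => ha.2.symm

lemma eval₂_kFF_injective [IsAlgClosed k] {f : C.functionField} {x : C}
    (hf : f ∉ localSubring x) :
    Function.Injective fun p : Polynomial k => Polynomial.eval₂ (kFF c) f p := by
  change Function.Injective (Polynomial.eval₂RingHom (kFF c) f)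
  rw [injective_iff_map_eq_zero]
  intro p hp
  by_contra hne
  obtain ⟨a, rfl⟩ := eq_kFF_of_root c hne hp
  exact hf (kFF_mem_localSubring c a x)

variable [SmoothOfRelativeDimension 1 c]

include c in
lemma inv_mem_localSubring {f : C.functionField} {x : C} (hf : f ∉ localSubring x) :
    f⁻¹ ∈ localSubring x := by
  have hne : x ≠ genericPoint C := fun h => hf
    (mem_regularLocus_iff_range.mp (h ▸ genericPoint_mem_regularLocus f))
  have := isDiscreteValuationRing_stalk c hne
  rcases ValuationRing.isInteger_or_isInteger (C.presheaf.stalk x) f with h | h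
  · exact absurd h hf
  · exact h

include c in
lemma isAffineOpen_regularLocus [IsProper c] {f : C.functionField}
    (hf : Function.Injective fun p : Polynomial k => Polynomial.eval₂ (kFF c) f p) :
    IsAffineOpen (regularLocus f) :=
  have := isFinite_lineMap c hf
  isAffine_of_isAffineHom (lineMap c f)

include c in
lemma lineHom_finite [IsProper c] {f : C.functionField}
    (hf : Function.Injective fun p : Polynomial k => Polynomial.eval₂ (kFF c) f p) :
    (lineHom c f).Finite := by
  have := isFinite_lineMap c hf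
  have h := (lineMap c f).finite_appTop
  rw [lineMap_appTop] at h
  have h2 := RingHom.Finite.comp
    (RingHom.Finite.of_surjective _
      (regularLocus f).topIso.commRingCatIsoToRingEquiv.surjective)
    (RingHom.Finite.comp h (RingHom.Finite.of_surjective _
      (Scheme.ΓSpecIso (CommRingCat.of (Polynomial k))).symm.commRingCatIsoToRingEquiv.surjective))
  convert h2 using 1
  refine RingHom.ext fun p => ?_
  simp only [RingHom.comp_apply]
  have h1 := (regularLocus f).topIso.inv_hom_id_apply (lineHom c f p)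
  have h3 := (Scheme.ΓSpecIso (CommRingCat.of (Polynomial k))).inv_hom_id_apply p
  change _ = (regularLocus f).topIso.hom ((regularLocus f).topIso.inv (lineHom c f
    ((Scheme.ΓSpecIso (CommRingCat.of (Polynomial k))).hom
      ((Scheme.ΓSpecIso (CommRingCat.of (Polynomial k))).inv p))))
  rw [h3, h1]

include c in
lemma finite_of_isClosed [IsProper c] {Z : Set C} (hZ : IsClosed Z)
    (hη : genericPoint C ∉ Z) : Z.Finite := by
  have := noetherianSpace_curve c
  obtain ⟨T, hTf, hTc, hTi, rfl⟩ := NoetherianSpace.exists_finite_set_isClosed_irreducible hZ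
  refine hTf.sUnion fun W hW => ?_
  obtain ⟨z, hz⟩ := QuasiSober.sober (hTi W hW) (hTc W hW)
  have hne : z ≠ genericPoint C := fun h => hη (h ▸ Set.mem_sUnion_of_mem hz.mem hW)
  rw [← hz.def, (isClosed_singleton_of_ne_genericPoint c hne).closure_eq]
  exact Set.finite_singleton z

include c in
lemma exists_pow_mul_inv_mem {x : C} (hx : x ≠ genericPoint C) {a s : C.functionField}
    (ha : a ∈ localSubring x) (ha' : a⁻¹ ∉ localSubring x ∨ a = 0) (hs : s ∈ localSubring x)
    (hs0 : s ≠ 0) : ∃ M : ℕ, ∀ n, M ≤ n → a ^ n * s⁻¹ ∈ localSubring x := by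
  have := isDiscreteValuationRing_stalk c hx
  let O := C.presheaf.stalk x
  obtain ⟨a₀, rfl⟩ := ha
  obtain ⟨s₀, rfl⟩ := hs
  have hs₀ : s₀ ≠ 0 := fun h => hs0 (by rw [h, map_zero])
  have ham : a₀ ∈ IsLocalRing.maximalIdeal O := by
    rintro hu
    rcases ha' with h | h
    · exact h ⟨((hu.unit⁻¹ : Oˣ) : O), by rw [map_units_inv, IsUnit.unit_spec]⟩
    · exact (hu.map (algebraMap O C.functionField)).ne_zero h
  obtain ⟨ϖ, hϖ⟩ := IsDiscreteValuationRing.exists_irreducible O
  obtain ⟨e, u, hu⟩ := IsDiscreteValuationRing.eq_unit_mul_pow_irreducible hs₀ hϖ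
  rw [hϖ.maximalIdeal_eq, Ideal.mem_span_singleton] at ham
  refine ⟨e, fun n hn => ?_⟩
  obtain ⟨r, hr⟩ : s₀ ∣ a₀ ^ n := by
    rw [hu]
    exact (associated_unit_mul_left (ϖ ^ e) u u.isUnit).dvd.trans
      ((pow_dvd_pow_of_dvd ham e).trans (pow_dvd_pow a₀ hn))
  exact ⟨r, by rw [← map_pow, hr, map_mul, mul_comm, ← mul_assoc, inv_mul_cancel₀ hs0, one_mul]⟩

variable [IsAlgClosed k] [IsProper c]

include c in
/-- There is a rational function whose only pole is the given closed point. -/
theorem exists_regularLocus_eq_compl {x₀ : C} (hx₀ : x₀ ≠ genericPoint C) :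
    ∃ f : C.functionField, (regularLocus f : Set C) = {x₀}ᶜ := by
  classical
  let _ : Algebra k C.functionField := (kFF c).toAlgebra
  have := isDiscreteValuationRing_stalk c hx₀
  -- a function `t` with a pole at `x₀`
  obtain ⟨ϖ, hϖ⟩ := IsDiscreteValuationRing.exists_irreducible (C.presheaf.stalk x₀)
  let s : C.functionField := algebraMap _ _ ϖ
  have hs0 : s ≠ 0 := by
    simpa [s] using (map_ne_zero_iff _ (IsFractionRing.injective _ C.functionField)).mpr hϖ.ne_zero
  let t : C.functionField := s⁻¹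
  have htpole : t ∉ localSubring x₀ := by
    rintro ⟨r, hr⟩
    refine hϖ.not_isUnit (IsUnit.of_mul_eq_one r (IsFractionRing.injective _ C.functionField ?_))
    rw [map_mul, hr, map_one]
    exact mul_inv_cancel₀ hs0
  have ht := eval₂_kFF_injective c htpole
  have hscov : ∀ x : C, t ∈ localSubring x ∨ s ∈ localSubring x := fun x =>
    (em (t ∈ localSubring x)).imp_right fun h => by simpa [t] using inv_mem_localSubring c h
  have hs : Function.Injective fun p : Polynomial k => Polynomial.eval₂ (kFF c) s p := by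
    obtain ⟨x, hx⟩ : ∃ x : C, s ∉ localSubring x := by
      by_contra h
      push Not at h
      obtain ⟨g, hg⟩ := exists_section_of_mem_regOn (V := (⊤ : C.Opens)) trivial
        (f := s) (mem_regOn.mpr fun x _ => h x)
      have hint : (curveAlgMap c ⊤).IsIntegral := by
        have h' := isIntegral_appTop_of_universallyClosed c
        rw [Scheme.Hom.appTop, ← Scheme.Hom.appLE_eq_app] at h'
        exact RingHom.IsIntegral.trans _ _ (RingHom.isIntegral_of_surjective _
          (Scheme.ΓSpecIso (CommRingCat.of k)).symm.commRingCatIsoToRingEquiv.surjective) h'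
      obtain ⟨p, hpm, hp⟩ := hint g
      have hp' := congr_arg (C.presheaf.germ ⊤ (genericPoint C) trivial).hom hp
      rw [Polynomial.hom_eval₂, map_zero] at hp'
      obtain ⟨a, ha⟩ := eq_kFF_of_root c (f := s) hpm.ne_zero (by rw [← hg]; exact hp')
      refine htpole ?_
      simp only [t, ha, ← map_inv₀]
      exact kFF_mem_localSubring c _ _
    exact eval₂_kFF_injective c hx
  let U0 := regularLocus t
  let U1 := regularLocus s
  have hU1 : IsAffineOpen U1 := isAffineOpen_regularLocus c hs
  have hU0 : IsAffineOpen U0 := isAffineOpen_regularLocus c ht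
  -- the other poles of `t`
  let Z : Set C := (U0 : Set C)ᶜ \ {x₀}
  have hZfin : Z.Finite := (finite_of_isClosed c U0.isOpen.isClosed_compl
    (not_not.mpr (genericPoint_mem_regularLocus t))).sdiff
  have hZU1 : ∀ x ∈ Z, x ∈ U1 := fun x hx => mem_regularLocus_iff_mem_localSubring.mpr
    ((hscov x).resolve_left fun h => hx.1 (mem_regularLocus_iff_mem_localSubring.mpr h))
  have hx₀U1 : x₀ ∈ U1 :=
    mem_regularLocus_iff_mem_localSubring.mpr ((hscov x₀).resolve_left htpole)
  -- `a`: regular on `U1`, zero on `Z`, nonzero at `x₀`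
  have hsep : ∀ x ∈ Z, ∃ a ∈ regOn (U1 : Set C),
      (a⁻¹ ∉ localSubring x ∨ a = 0) ∧ a⁻¹ ∈ localSubring x₀ ∧ a ≠ 0 := by
    intro x hx
    have hxη : x ≠ genericPoint C := fun h => hx.1 (h ▸ genericPoint_mem_regularLocus t)
    obtain ⟨W, hW, hx₀W, hxW⟩ : ∃ W : C.Opens, W ≤ U1 ∧ x₀ ∈ W ∧ x ∉ W :=
      ⟨U1 ⊓ ⟨{x}ᶜ, (isClosed_singleton_of_ne_genericPoint c hxη).isOpen_compl⟩, inf_le_left,
        ⟨hx₀U1, fun h => hx.2 h.symm⟩, fun h => h.2 rfl⟩
    obtain ⟨g, hgW, hgx₀⟩ := hU1.exists_basicOpen_le (V := W) ⟨x₀, hx₀W⟩ hx₀U1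
    refine ⟨toFF U1 (genericPoint_mem hx₀U1) g, toFF_mem_regOn _ g, ?_, ?_, ?_⟩
    · refine (em (toFF U1 (genericPoint_mem hx₀U1) g = 0)).symm.imp_left fun hg0 => ?_
      rintro ⟨r, hr⟩
      refine hxW (hgW ((Scheme.mem_basicOpen _ _ _ (hZU1 x hx)).mpr
        (IsUnit.of_mul_eq_one r (IsFractionRing.injective _ C.functionField ?_))))
      have : Nonempty U1 := ⟨⟨x₀, hx₀U1⟩⟩
      rw [map_mul, hr, map_one, Scheme.algebraMap_germ_eq_germToFunctionField]
      exact mul_inv_cancel₀ hg0
    · obtain ⟨w, hw⟩ := (Scheme.mem_basicOpen _ _ _ hx₀U1).mp hgx₀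
      have : Nonempty U1 := ⟨⟨x₀, hx₀U1⟩⟩
      refine ⟨((w⁻¹ : (C.presheaf.stalk x₀)ˣ) : C.presheaf.stalk x₀), ?_⟩
      rw [map_units_inv, hw, Scheme.algebraMap_germ_eq_germToFunctionField]
      rfl
    · intro h
      have : g = 0 := toFF_injective _ _ (h.trans (map_zero _).symm)
      simp [this] at hgx₀
  choose! aF ha1 ha2 ha3 ha4 using hsep
  let a : C.functionField := ∏ x ∈ hZfin.toFinset, aF x
  have haU1 : a ∈ regOn (U1 : Set C) := prod_mem fun x hx => ha1 x (hZfin.mem_toFinset.mp hx)
  have ha0 : a ≠ 0 := Finset.prod_ne_zero_iff.mpr fun x hx => ha4 x (hZfin.mem_toFinset.mp hx)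
  have hainv : a⁻¹ ∈ localSubring x₀ := by
    simp only [a, ← Finset.prod_inv_distrib]
    exact prod_mem fun x hx => ha3 x (hZfin.mem_toFinset.mp hx)
  have hM : ∀ x ∈ Z, ∃ M : ℕ, ∀ n, M ≤ n → a ^ n * t ∈ localSubring x := by
    intro x hx
    have hxη : x ≠ genericPoint C := fun h => hx.1 (h ▸ genericPoint_mem_regularLocus t)
    refine exists_pow_mul_inv_mem c hxη (mem_regOn.mp haU1 x (hZU1 x hx)) ?_
      (mem_regularLocus_iff_mem_localSubring.mp (hZU1 x hx)) hs0
    left
    intro hmem
    refine (ha2 x hx).resolve_right (ha4 x hx) ?_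
    have : (aF x)⁻¹ = a⁻¹ * ∏ y ∈ hZfin.toFinset.erase x, aF y := by
      simp only [a]
      rw [← Finset.mul_prod_erase _ _ (hZfin.mem_toFinset.mpr hx), mul_inv, mul_assoc,
        inv_mul_cancel₀, mul_one]
      exact Finset.prod_ne_zero_iff.mpr fun y hy =>
        ha4 y (hZfin.mem_toFinset.mp (Finset.mem_of_mem_erase hy))
    rw [this]
    refine mul_mem hmem (prod_mem fun y hy => ?_)
    exact mem_regOn.mp (ha1 y (hZfin.mem_toFinset.mp (Finset.mem_of_mem_erase hy))) x (hZU1 x hx)
  choose! Mf hMf using hM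
  let M := hZfin.toFinset.sup Mf
  let b : C.functionField := a ^ M * t
  have hbZ : ∀ x ∈ Z, b ∈ localSubring x := fun x hx =>
    hMf x hx M (Finset.le_sup (hZfin.mem_toFinset.mpr hx))
  have hb01 : b ∈ regOn ((U0 ⊓ U1 : C.Opens) : Set C) := mem_regOn.mpr fun x hx =>
    mul_mem (pow_mem (mem_regOn.mp haU1 x hx.2) M) (mem_regularLocus_iff_mem_localSubring.mp hx.1)
  have hbx₀ : b ∉ localSubring x₀ := fun h => htpole <| by
    have : t = (a⁻¹) ^ M * b := by
      simp only [b]
      rw [← mul_assoc, ← mul_pow, inv_mul_cancel₀ ha0, one_pow, one_mul]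
    rw [this]
    exact mul_mem (pow_mem hainv M) h
  -- finiteness of the first cohomology
  let V0 : Submodule k C.functionField :=
    { (regOn (U0 : Set C)).toAddSubmonoid with
      smul_mem' := fun r f hf => by
        rw [Algebra.smul_def]
        exact mul_mem (mem_regOn.mpr fun x _ => kFF_mem_localSubring c r x) hf }
  let V1 : Submodule k C.functionField :=
    { (regOn (U1 : Set C)).toAddSubmonoid with
      smul_mem' := fun r f hf => by
        rw [Algebra.smul_def]
        exact mul_mem (mem_regOn.mpr fun x _ => kFF_mem_localSubring c r x) hf }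
  have key : ∀ (V W : C.Opens) (hV : IsAffineOpen V) (r : C.functionField),
      r ∈ regOn (V : Set C) → r ≠ 0 → (∀ x, x ∈ V → (x ∈ W ↔ r⁻¹ ∈ localSubring x)) →
      ∀ z ∈ regOn ((V ⊓ W : C.Opens) : Set C), genericPoint C ∈ V →
      ∃ N : ℕ, z * r ^ N ∈ regOn (V : Set C) := by
    intro V W hV r hr hr0 hW z hz hη
    have : Nonempty V := ⟨⟨_, hη⟩⟩
    obtain ⟨g, rfl⟩ := exists_section_of_mem_regOn hη hr
    have hDle : C.basicOpen g ≤ V ⊓ W := fun x hx => by
      have hxV := C.basicOpen_le g hx
      refine ⟨hxV, (hW x hxV).mpr ?_⟩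
      obtain ⟨w, hw⟩ := (Scheme.mem_basicOpen _ _ _ hxV).mp hx
      refine ⟨((w⁻¹ : (C.presheaf.stalk x)ˣ) : C.presheaf.stalk x), ?_⟩
      rw [map_units_inv, hw, Scheme.algebraMap_germ_eq_germToFunctionField]
      rfl
    have hηD : genericPoint C ∈ C.basicOpen g :=
      (Scheme.mem_basicOpen _ _ _ hη).mpr (isUnit_iff_ne_zero.mpr hr0)
    obtain ⟨z', hz'⟩ := exists_section_of_mem_regOn hηD
      (mem_regOn.mpr fun x hx => mem_regOn.mp hz x (hDle hx))
    have := hV.isLocalization_basicOpen g
    obtain ⟨⟨y, ⟨_, N, rfl⟩⟩, hy⟩ := IsLocalization.surj (Submonoid.powers g) z'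
    refine ⟨N, ?_⟩
    have h := congr_arg (C.presheaf.germ _ (genericPoint C) hηD).hom hy
    rw [map_mul] at h
    simp only [RingHom.algebraMap_toAlgebra, map_pow] at h
    have h1 : toFF (C.basicOpen g) hηD (C.presheaf.map (homOfLE (C.basicOpen_le g)).op g) =
        toFF V hη g := toFF_res _ _ _
    have h2 : toFF (C.basicOpen g) hηD (C.presheaf.map (homOfLE (C.basicOpen_le g)).op y) =
        toFF V hη y := toFF_res _ _ _
    simp only [toFF] at h1 h2 hz' h ⊢
    rw [hz', h1, h2] at h
    rw [h]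
    exact toFF_mem_regOn hη y
  have hiff0 : ∀ x, x ∈ U0 → (x ∈ U1 ↔ t⁻¹ ∈ localSubring x) := fun x _ => by
    simp [t, U1, mem_regularLocus_iff_mem_localSubring]
  have hiff1 : ∀ x, x ∈ U1 → (x ∈ U0 ↔ s⁻¹ ∈ localSubring x) := fun x _ =>
    mem_regularLocus_iff_mem_localSubring
  have hη1 : genericPoint C ∈ U1 := genericPoint_mem_regularLocus s
  obtain ⟨gens, hgens⟩ := (lineHom_finite c hs).1
  have hgenU0 : ∀ g : Γ(C, U1), ∃ d : ℕ, ∀ n, d ≤ n → toFF U1 hη1 g * t ^ n ∈ V0 := by
    intro g
    obtain ⟨d, hd⟩ := key U0 U1 hU0 t (mem_regOn_opens.mpr le_rfl) (inv_ne_zero hs0) hiff0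
      (toFF U1 hη1 g) (mem_regOn.mpr fun x hx => toFF_mem_localSubring hη1 g hx.2)
      (genericPoint_mem_regularLocus t)
    refine ⟨d, fun n hn => ?_⟩
    rw [← Nat.add_sub_cancel' hn, pow_add, ← mul_assoc]
    exact (mul_mem hd (pow_mem (mem_regOn_opens.mpr le_rfl) _) : _ ∈ regOn (U0 : Set C))
  choose d hd using hgenU0
  let S : Finset C.functionField :=
    gens.biUnion fun g => (Finset.range (d g)).image fun n => toFF U1 hη1 g * t ^ n
  let V := V0 ⊔ V1 ⊔ Submodule.span k (S : Set C.functionField)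
  have hmono : ∀ g ∈ gens, ∀ e N : ℕ, toFF U1 hη1 g * s ^ e * t ^ N ∈ V := by
    intro g hg e N
    rcases le_or_gt N e with hNe | hNe
    · apply Submodule.mem_sup_left; apply Submodule.mem_sup_right
      have : toFF U1 hη1 g * s ^ e * t ^ N = toFF U1 hη1 g * s ^ (e - N) := by
        rw [← Nat.sub_add_cancel hNe, pow_add, Nat.add_sub_cancel, mul_assoc, mul_assoc, ← mul_pow]
        simp [t, hs0]
      rw [this]
      exact (mul_mem (toFF_mem_regOn hη1 g) (pow_mem (mem_regOn_opens.mpr le_rfl) _) :
        _ ∈ regOn (U1 : Set C))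
    · have : toFF U1 hη1 g * s ^ e * t ^ N = toFF U1 hη1 g * t ^ (N - e) := by
        rw [← Nat.add_sub_cancel' hNe.le, pow_add, Nat.add_sub_cancel_left, ← mul_assoc,
          mul_assoc (toFF U1 hη1 g), ← mul_pow]
        simp [t, hs0]
      rw [this]
      rcases le_or_gt (d g) (N - e) with h | h
      · exact Submodule.mem_sup_left (Submodule.mem_sup_left (hd g _ h))
      · exact Submodule.mem_sup_right (Submodule.subset_span (Finset.mem_biUnion.mpr
          ⟨g, hg, Finset.mem_image.mpr ⟨N - e, Finset.mem_range.mpr h, rfl⟩⟩))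
  have hcover : ∀ z ∈ regOn ((U0 ⊓ U1 : C.Opens) : Set C), z ∈ V := by
    intro z hz
    obtain ⟨N, hN⟩ := key U1 U0 hU1 s (mem_regOn_opens.mpr le_rfl) hs0 hiff1 z
      (by rwa [inf_comm]) hη1
    obtain ⟨y, hy⟩ := exists_section_of_mem_regOn hη1 hN
    have hz : z = toFF U1 hη1 y * t ^ N := by
      rw [hy, mul_assoc, ← mul_pow, mul_inv_cancel₀ hs0, one_pow, mul_one]
    subst hz
    suffices ∀ e : ℕ, toFF U1 hη1 y * s ^ e * t ^ N ∈ V by simpa using this 0
    let _ := (lineHom c s).toAlgebra
    have hy' : y ∈ Submodule.span (Polynomial k) (gens : Set Γ(C, U1)) := by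
      rw [hgens]; trivial
    clear hy hz hN
    induction hy' using Submodule.span_induction with
    | mem g hg => exact fun e => hmono g hg e N
    | zero => intro e; simp [toFF]
    | add y y' _ _ h h' => intro e; simpa [toFF, add_mul] using V.add_mem (h e) (h' e)
    | smul p y _ h =>
      intro e
      have hm : toFF U1 hη1 (p • y) = Polynomial.eval₂ (kFF c) s p * toFF U1 hη1 y := by
        rw [Algebra.smul_def, RingHom.algebraMap_toAlgebra, ← toFF_lineHom]
        simp [toFF, U1]
      rw [hm]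
      clear hm
      induction p using Polynomial.induction_on' with
      | add p q hp hq =>
        rw [Polynomial.eval₂_add, add_mul, add_mul, add_mul]
        exact V.add_mem (hp) (hq)
      | monomial n r =>
        have : Polynomial.eval₂ (kFF c) s (Polynomial.monomial n r) * toFF U1 hη1 y * s ^ e * t ^ N
            = r • (toFF U1 hη1 y * s ^ (e + n) * t ^ N) := by
          rw [Polynomial.eval₂_monomial, Algebra.smul_def, RingHom.algebraMap_toAlgebra, pow_add]
          ring
        rw [this]
        exact V.smul_mem r (h _)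
  -- a polynomial in `b` without principal part
  let Q := C.functionField ⧸ (V0 ⊔ V1)
  let Φ : Polynomial k →ₗ[k] Q := (V0 ⊔ V1).mkQ ∘ₗ
    (Polynomial.aeval b).toLinearMap ∘ₗ LinearMap.mulLeft k (Polynomial.X : Polynomial k)
  have hΦ : ¬ Function.Injective Φ := by
    intro hinj
    let W := Submodule.map (V0 ⊔ V1).mkQ (Submodule.span k (S : Set C.functionField))
    have hW : ∀ p, Φ p ∈ W := fun p => by
      have hmem : Polynomial.aeval b (Polynomial.X * p) ∈ V := hcover _ (by
        rw [Polynomial.aeval_def, Polynomial.eval₂_eq_sum, Polynomial.sum]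
        exact sum_mem fun i _ => mul_mem (mem_regOn.mpr fun x _ => kFF_mem_localSubring c _ x)
          (pow_mem hb01 i))
      obtain ⟨v, hv, w, hw, hvw⟩ := Submodule.mem_sup.mp hmem
      refine Submodule.mem_map.mpr ⟨w, hw, ?_⟩
      simp only [Φ, LinearMap.comp_apply, LinearMap.mulLeft_apply, AlgHom.toLinearMap_apply]
      rw [← hvw, map_add, (LinearMap.mem_ker.mp (by simpa using hv) : (V0 ⊔ V1).mkQ v = 0), zero_add]
    have : Module.Finite k W := Module.Finite.iff_fg.mpr
      ((Submodule.fg_span S.finite_toSet).map _)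
    exact Polynomial.not_finite (R := k) (Module.Finite.of_injective (Φ.codRestrict W hW)
      fun p q h => hinj (congr_arg Subtype.val h))
  obtain ⟨p, hp0, hp⟩ : ∃ p, p ≠ 0 ∧ Φ p = 0 := by
    by_contra h
    push Not at h
    exact hΦ ((injective_iff_map_eq_zero Φ).mpr fun p hp => by_contra fun hne => h p hne hp)
  simp only [Φ, LinearMap.comp_apply, LinearMap.mulLeft_apply, AlgHom.toLinearMap_apply] at hp
  replace hp := (Submodule.Quotient.mk_eq_zero _).mp hp
  obtain ⟨f, hf, y, hy, hfy⟩ := Submodule.mem_sup.mp hp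
  refine ⟨f, Set.ext fun x => ?_⟩
  change x ∈ regularLocus f ↔ x ≠ x₀
  rw [mem_regularLocus_iff_mem_localSubring]
  constructor
  · rintro hx rfl
    apply hbx₀
    have hmem : Polynomial.aeval b (Polynomial.X * p) ∈ localSubring x := by
      rw [← hfy]
      exact add_mem hx (mem_regOn.mp hy x hx₀U1)
    obtain ⟨w, hw⟩ := hmem
    let φ : k →+* C.presheaf.stalk x :=
      (C.presheaf.germ ⊤ x trivial).hom.comp (curveAlgMap c ⊤)
    let q := Polynomial.X * p
    have hq0 : q ≠ 0 := mul_ne_zero Polynomial.X_ne_zero hp0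
    let m := q * Polynomial.C q.leadingCoeff⁻¹
    have hqdeg : 0 < (m.map φ).degree := by
      rw [Polynomial.degree_map, Polynomial.degree_mul_C (inv_ne_zero
        (Polynomial.leadingCoeff_ne_zero.mpr hq0))]
      simp only [q, Polynomial.degree_mul, Polynomial.degree_X]
      exact lt_of_lt_of_le zero_lt_one (le_add_of_nonneg_right (Polynomial.zero_le_degree_iff.mpr hp0))
    have hφ : (algebraMap (C.presheaf.stalk x) C.functionField).comp φ = kFF c := by
      refine RingHom.ext fun r => ?_
      have : Nonempty (⊤ : C.Opens) := ⟨⟨x, trivial⟩⟩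
      exact Scheme.algebraMap_germ_eq_germToFunctionField C (U := ⊤) _ _
    let r : C.presheaf.stalk x := w * φ q.leadingCoeff⁻¹
    have hbint : _root_.IsIntegral (C.presheaf.stalk x) b := by
      refine ⟨m.map φ - Polynomial.C r, ?_, ?_⟩
      · exact ((Polynomial.monic_mul_leadingCoeff_inv hq0).map φ).sub_of_left
          (lt_of_le_of_lt Polynomial.degree_C_le hqdeg)
      · have h1 : Polynomial.eval₂ (kFF c) b q =
            algebraMap (C.presheaf.stalk x) C.functionField w := hw.symm
        rw [Polynomial.eval₂_sub, Polynomial.eval₂_C, Polynomial.eval₂_map, hφ, sub_eq_zero]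
        simp only [m, r, Polynomial.eval₂_mul, Polynomial.eval₂_C, map_mul, h1]
        rw [← RingHom.comp_apply, hφ]
    exact (IsIntegrallyClosed.isIntegral_iff).mp hbint
  · intro hne
    by_cases hx : x ∈ U0
    · exact mem_regOn.mp hf x hx
    · have hxZ : x ∈ Z := ⟨hx, hne⟩
      rw [← eq_sub_iff_add_eq.mpr hfy |>.symm]
      refine sub_mem ?_ (mem_regOn.mp hy x (hZU1 x hxZ))
      rw [Polynomial.aeval_def, Polynomial.eval₂_eq_sum, Polynomial.sum]
      exact sum_mem fun i _ => mul_mem (kFF_mem_localSubring c _ x) (pow_mem (hbZ x hxZ) i)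

end FLTA.Jacobian
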