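import Mathlib
import Fermat.Prelude.Def_AlgebraicGeometry_NeronModelPropertyBundleCarrier
import Fermat.Agent.Jacobian.Cover
import Fermat.Agent.Jacobian.CurveBase
import Fermat.Agent.Jacobian.CurvePole

/-!
# S25 (Jacobian), task C1: a two-affine cover of a smooth proper curve
-/

set_option autoImplicit false

universe u

open CategoryTheory CategoryTheory.Limits AlgebraicGeometry NeronModelInfra

namespace FLTA.Jacobian

variable {k : Type u} [Field k] {C : Scheme.{u}} (c : C ⟶ Spec (CommRingCat.of k))
  (ε : SchemeHomOver (𝟙 (Spec (CommRingCat.of k))) c)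

/-- A realisation of the algebraic data `TwoCover` inside the curve `c : C ⟶ Spec k`,
with the marked point given by the section `ε`. -/
structure CurveCover : Type (u + 1) where
  E : TwoCover k
  j : Spec (CommRingCat.of E.A) ⟶ C
  j' : Spec (CommRingCat.of E.A') ⟶ C
  isOpenImmersion_j : IsOpenImmersion j
  isOpenImmersion_j' : IsOpenImmersion j'
  j_over : j ≫ c = Spec.map (CommRingCat.ofHom (algebraMap k E.A))
  j'_over : j' ≫ c = Spec.map (CommRingCat.ofHom (algebraMap k E.A'))
  cover : Set.range j.base ∪ Set.range j'.base = Set.univ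
  isPullback : IsPullback (Spec.map (CommRingCat.ofHom E.ι.toRingHom))
    (Spec.map (CommRingCat.ofHom E.ι'.toRingHom)) j j'
  ε_eq : Spec.map (CommRingCat.ofHom E.ε.toRingHom) ≫ j' = ε.1

attribute [instance] CurveCover.isOpenImmersion_j CurveCover.isOpenImmersion_j'

lemma SpecMap_curveAlgMap {V : C.Opens} (hV : IsAffineOpen V) :
    hV.fromSpec ≫ c = Spec.map (CommRingCat.ofHom (curveAlgMap c V)) := by
  rw [← IsAffineOpen.SpecMap_appLE_fromSpec c (isAffineOpen_top _) hV le_top]
  simp only [curveAlgMap, CommRingCat.ofHom_hom, Spec.map_comp]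
  congr 1
  rw [IsAffineOpen.fromSpec_top, Scheme.isoSpec_Spec_inv]

lemma locally_curveAlgMap [SmoothOfRelativeDimension 1 c] {V : C.Opens} (hV : IsAffineOpen V) :
    RingHom.Locally (RingHom.IsStandardSmoothOfRelativeDimension 1) (curveAlgMap c V) := by
  have h := HasRingHomProperty.appLE (P := @SmoothOfRelativeDimension 1) c
    ‹_› ⟨⊤, isAffineOpen_top _⟩ ⟨V, hV⟩ le_top
  exact (RingHom.locally_respectsIso RingHom.isStandardSmoothOfRelativeDimension_respectsIso).2 _
    (Scheme.ΓSpecIso (CommRingCat.of k)).symm.commRingCatIsoToRingEquiv h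

/-- The restriction maps between rings of sections, as `k`-algebra maps. -/
noncomputable def resAlgHom {V W : C.Opens} (i : W ≤ V) :
    letI := (curveAlgMap c V).toAlgebra
    letI := (curveAlgMap c W).toAlgebra
    Γ(C, V) →ₐ[k] Γ(C, W) :=
  letI := (curveAlgMap c V).toAlgebra
  letI := (curveAlgMap c W).toAlgebra
  { (C.presheaf.map (homOfLE i).op).hom with commutes' := fun a => curveAlgMap_res c i a }

/-- Every smooth proper integral curve with a marked rational point over an algebraically closed
field admits a two-affine cover. -/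
theorem nonempty_curveCover [IsAlgClosed k] [IsProper c] [SmoothOfRelativeDimension 1 c]
    [IsIntegral C] : Nonempty (CurveCover c ε) := by
  have hlft := locallyOfFiniteType_of_smooth c
  have hjac : JacobsonSpace C := LocallyOfFiniteType.jacobsonSpace c
  let x₀ : C := ε.1 (IsLocalRing.closedPoint k)
  have hx₀c : IsClosed ({x₀} : Set C) :=
    mem_closedPoints_iff.mp (pointEquivClosedPoint c ⟨ε.1, ε.2⟩).2
  have hx₀ : x₀ ≠ genericPoint C := fun h => by
    obtain ⟨y, hy⟩ := exists_ne_genericPoint c
    have hh : y ∈ closure ({x₀} : Set C) := by rw [h, genericPoint_closure]; trivial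
    rw [hx₀c.closure_eq, Set.mem_singleton_iff, h] at hh
    exact hy hh
  obtain ⟨f, hf⟩ := exists_regularLocus_eq_compl c hx₀
  have hmem : ∀ x : C, x ∈ regularLocus f ↔ x ≠ x₀ := fun x => Set.ext_iff.mp hf x
  have hfx₀ : f ∉ localSubring x₀ := fun h =>
    (hmem x₀).mp (mem_regularLocus_iff_mem_localSubring.mpr h) rfl
  have hf0 : f ≠ 0 := fun h => hfx₀ (h ▸ Subring.zero_mem _)
  have ht := eval₂_kFF_injective c hfx₀
  have hs : Function.Injective fun p : Polynomial k => Polynomial.eval₂ (kFF c) f⁻¹ p := by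
    change Function.Injective (Polynomial.eval₂RingHom (kFF c) f⁻¹)
    rw [injective_iff_map_eq_zero]
    intro p hp
    by_contra hne
    obtain ⟨a, ha⟩ := eq_kFF_of_root c hne hp
    exact hfx₀ (by rw [← inv_inv f, ha, ← map_inv₀]; exact kFF_mem_localSubring c _ _)
  let U0 := regularLocus f
  let U1 := regularLocus f⁻¹
  have hU0 : IsAffineOpen U0 := isAffineOpen_regularLocus c ht
  have hU1 : IsAffineOpen U1 := isAffineOpen_regularLocus c hs
  have hη0 : genericPoint C ∈ U0 := genericPoint_mem_regularLocus f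
  have hη1 : genericPoint C ∈ U1 := genericPoint_mem_regularLocus f⁻¹
  have hcov : ∀ x : C, x ∈ U0 ∨ x ∈ U1 := fun x => by
    simp only [U0, U1, mem_regularLocus_iff_mem_localSubring]
    exact (em (f ∈ localSubring x)).imp_right fun h => inv_mem_localSubring c h
  have hx₀U1 : x₀ ∈ U1 := (hcov x₀).resolve_left fun h => (hmem x₀).mp h rfl
  let t : Γ(C, U0) := regularSection f
  let s : Γ(C, U1) := regularSection f⁻¹
  -- the intersection as a basic open in both charts
  have hbasic : ∀ (g : C.functionField), g ≠ 0 → C.basicOpen (regularSection g) =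
      regularLocus g ⊓ regularLocus g⁻¹ := by
    intro g hg
    ext x
    constructor
    · intro hx
      have hxV := C.basicOpen_le _ hx
      refine ⟨hxV, mem_regularLocus_iff_mem_localSubring.mpr ?_⟩
      obtain ⟨w, hw⟩ := (Scheme.mem_basicOpen _ _ _ hxV).mp hx
      have : Nonempty (regularLocus g) := ⟨⟨x, hxV⟩⟩
      refine ⟨((w⁻¹ : (C.presheaf.stalk x)ˣ) : C.presheaf.stalk x), ?_⟩
      rw [map_units_inv, hw, Scheme.algebraMap_germ_eq_germToFunctionField]
      exact congr_arg (·⁻¹) (toFF_regularSection g)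
    · rintro ⟨hx, hx'⟩
      obtain ⟨r, hr⟩ := mem_regularLocus_iff_mem_localSubring.mp hx'
      have : Nonempty (regularLocus g) := ⟨⟨x, hx⟩⟩
      refine (Scheme.mem_basicOpen _ _ _ hx).mpr
        (IsUnit.of_mul_eq_one r (IsFractionRing.injective _ C.functionField ?_))
      rw [map_mul, map_one, hr, Scheme.algebraMap_germ_eq_germToFunctionField]
      exact (congr_arg (· * g⁻¹) (toFF_regularSection g)).trans (mul_inv_cancel₀ hg)
  have hb0 : U0 ⊓ U1 = C.basicOpen t := (hbasic f hf0).symm
  have hb1 : U0 ⊓ U1 = C.basicOpen s := by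
    rw [hbasic f⁻¹ (inv_ne_zero hf0), inv_inv, inf_comm]
  let algA := (curveAlgMap c U0).toAlgebra
  let algA' := (curveAlgMap c U1).toAlgebra
  let alg01 := (curveAlgMap c (U0 ⊓ U1)).toAlgebra
  have hne0 : Nonempty U0 := ⟨⟨_, hη0⟩⟩
  have hne1 : Nonempty U1 := ⟨⟨_, hη1⟩⟩
  -- finiteness over the polynomial rings
  have haev : ∀ g : C.functionField, letI := (curveAlgMap c (regularLocus g)).toAlgebra
      (Polynomial.aeval (R := k) (regularSection g)).toRingHom = lineHom c g := fun g =>
    Polynomial.ringHom_ext (fun a => by simp [lineHom, RingHom.algebraMap_toAlgebra])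
      (by simp [lineHom])
  have hfinA : (Polynomial.aeval (R := k) t).toRingHom.Finite := haev f ▸ lineHom_finite c ht
  have hfinA' : (Polynomial.aeval (R := k) s).toRingHom.Finite := haev f⁻¹ ▸ lineHom_finite c hs
  have hftA : Algebra.FiniteType k Γ(C, U0) :=
    RingHom.finiteType_algebraMap.mp ((Polynomial.aeval (R := k) t).comp_algebraMap ▸
      (RingHom.FiniteType.of_finite hfinA).comp (RingHom.finiteType_algebraMap.mpr
        (inferInstance : Algebra.FiniteType k (Polynomial k))))
  have hftA' : Algebra.FiniteType k Γ(C, U1) :=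
    RingHom.finiteType_algebraMap.mp ((Polynomial.aeval (R := k) s).comp_algebraMap ▸
      (RingHom.FiniteType.of_finite hfinA').comp (RingHom.finiteType_algebraMap.mpr
        (inferInstance : Algebra.FiniteType k (Polynomial k))))
  -- the marked point
  have hrange : Set.range ε.1 ⊆ Set.range hU1.fromSpec := by
    rw [hU1.range_fromSpec]
    rintro _ ⟨y, rfl⟩
    rw [Subsingleton.elim y (IsLocalRing.closedPoint k)]
    exact hx₀U1
  let εφ := Spec.preimage (IsOpenImmersion.lift hU1.fromSpec ε.1 hrange)
  have hεfac : Spec.map εφ ≫ hU1.fromSpec = ε.1 := by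
    rw [Spec.map_preimage, IsOpenImmersion.lift_fac]
  let εA : Γ(C, U1) →ₐ[k] k :=
    { εφ.hom with
      commutes' := fun a => by
        have h : CommRingCat.ofHom (curveAlgMap c U1) ≫ εφ = 𝟙 _ := Spec.map_injective <| by
          rw [Spec.map_comp, ← SpecMap_curveAlgMap c hU1, ← Category.assoc, hεfac, ε.2, Spec.map_id]
        exact congr($h a) }
  have hker : hU1.primeIdealOf ⟨x₀, hx₀U1⟩ = Spec.map εφ (IsLocalRing.closedPoint k) := by
    apply hU1.fromSpec.isOpenEmbedding.injective
    rw [IsAffineOpen.fromSpec_primeIdealOf]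
    exact (congr($hεfac (IsLocalRing.closedPoint k))).symm
  have hkerI : RingHom.ker εA = (hU1.primeIdealOf ⟨x₀, hx₀U1⟩).asIdeal := by
    rw [hker]
    ext a
    change εφ.hom a = 0 ↔ εφ.hom a ∈ IsLocalRing.maximalIdeal k
    rw [IsLocalRing.maximalIdeal_eq_bot, Ideal.mem_bot]
  have hsP : ∀ y : Spec Γ(C, U1), hU1.fromSpec y ∈ U0 ↔ s ∉ y.asIdeal := by
    intro y
    have hy : hU1.fromSpec y ∈ U1 := hU1.range_fromSpec.le ⟨y, rfl⟩
    have h1 : hU1.fromSpec y ∈ C.basicOpen s ↔ s ∉ y.asIdeal := by
      change y ∈ hU1.fromSpec ⁻¹ᵁ C.basicOpen s ↔ _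
      rw [hU1.fromSpec_preimage_basicOpen]
      rfl
    rw [← h1, ← hb1]
    exact ⟨fun h => ⟨h, hy⟩, And.left⟩
  have hεs : εA s = 0 := by
    rw [← RingHom.mem_ker, hkerI]
    by_contra h
    have := (hsP _).mpr h
    rw [IsAffineOpen.fromSpec_primeIdealOf] at this
    exact (hmem x₀).mp this rfl
  have hs0 : s ≠ 0 := fun h => inv_ne_zero hf0 <| by
    rw [← toFF_regularSection f⁻¹]
    change toFF U1 hη1 s = 0
    simp [h, toFF]
  let E : TwoCover k :=
    { A := Γ(C, U0)
      A' := Γ(C, U1)
      A01 := Γ(C, U0 ⊓ U1)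
      ι := resAlgHom c inf_le_left
      ι' := resAlgHom c inf_le_right
      t := t
      s := s
      isLoc := hU0.isLocalization_of_eq_basicOpen (f := t) (homOfLE inf_le_left) hb0
      isLoc' := hU1.isLocalization_of_eq_basicOpen (f := s) (homOfLE inf_le_right) hb1
      ts := by
        apply toFF_injective (U0 ⊓ U1) ⟨hη0, hη1⟩
        change C.presheaf.germ _ _ _ (_ * _) = C.presheaf.germ _ _ _ 1
        rw [map_mul, map_one]
        change toFF _ _ (C.presheaf.map (homOfLE inf_le_left).op t) *
          toFF _ _ (C.presheaf.map (homOfLE inf_le_right).op s) = 1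
        exact (congr_arg₂ (· * ·) ((toFF_res inf_le_left _ t).trans (toFF_regularSection f))
          ((toFF_res inf_le_right _ s).trans (toFF_regularSection f⁻¹))).trans (mul_inv_cancel₀ hf0)
      finite := hfinA
      finite' := hfinA'
      domain := fun K _ _ => (isDedekindDomain_baseChange (locally_curveAlgMap c hU0) K).1
      domain' := fun K _ _ => (isDedekindDomain_baseChange (locally_curveAlgMap c hU1) K).1
      dedekind := fun K _ _ => (isDedekindDomain_baseChange (locally_curveAlgMap c hU0) K).2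
      dedekind' := fun K _ _ => (isDedekindDomain_baseChange (locally_curveAlgMap c hU1) K).2
      ε := εA
      ε_s := hεs
      s_ne := hs0
      ε_only := fun P hP hsmem => by
        have hy : hU1.fromSpec ⟨P, hP⟩ = x₀ := by
          by_contra h
          exact (hsP ⟨P, hP⟩).mp ((hmem _).mpr h) hsmem
        rw [hkerI]
        have : (⟨P, hP⟩ : PrimeSpectrum Γ(C, U1)) = hU1.primeIdealOf ⟨x₀, hx₀U1⟩ := by
          apply hU1.fromSpec.isOpenEmbedding.injective
          rw [IsAffineOpen.fromSpec_primeIdealOf]; exact hy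
        exact congr_arg PrimeSpectrum.asIdeal this }
  refine ⟨{ E := E
            j := hU0.fromSpec
            j' := hU1.fromSpec
            isOpenImmersion_j := inferInstanceAs (IsOpenImmersion hU0.fromSpec)
            isOpenImmersion_j' := inferInstanceAs (IsOpenImmersion hU1.fromSpec)
            j_over := SpecMap_curveAlgMap c hU0
            j'_over := SpecMap_curveAlgMap c hU1
            cover := ?_
            isPullback := ?_
            ε_eq := hεfac }⟩
  · rw [hU0.range_fromSpec, hU1.range_fromSpec]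
    exact Set.eq_univ_of_forall hcov
  · have h01 : IsAffineOpen (U0 ⊓ U1) := hb0 ▸ hU0.basicOpen t
    change IsPullback (Spec.map (C.presheaf.map (homOfLE inf_le_left).op))
      (Spec.map (C.presheaf.map (homOfLE inf_le_right).op)) hU0.fromSpec hU1.fromSpec
    have hc : Spec.map (C.presheaf.map (homOfLE (inf_le_right : U0 ⊓ U1 ≤ U1)).op) ≫ hU1.fromSpec
        = h01.fromSpec := IsAffineOpen.map_fromSpec _ h01 _
    have : IsOpenImmersion
        (Spec.map (C.presheaf.map (homOfLE (inf_le_right : U0 ⊓ U1 ≤ U1)).op) ≫ hU1.fromSpec) := by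
      rw [hc]; infer_instance
    have : IsOpenImmersion (Spec.map (C.presheaf.map (homOfLE (inf_le_right : U0 ⊓ U1 ≤ U1)).op)) :=
      IsOpenImmersion.of_comp _ hU1.fromSpec
    refine IsOpenImmersion.isPullback _ _ hU0.fromSpec hU1.fromSpec ?_ ?_
    · exact hc.trans (IsAffineOpen.map_fromSpec _ h01 _).symm
    · refine TopologicalSpace.Opens.ext (Set.ext fun y => ?_)
      change hU1.fromSpec y ∈ Set.range hU0.fromSpec ↔ y ∈ Set.range _
      have hy : hU1.fromSpec y ∈ U1 := hU1.range_fromSpec.le ⟨y, rfl⟩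
      rw [← hU1.fromSpec.isOpenEmbedding.injective.mem_set_image (s := Set.range _),
        ← Set.range_comp, ← TopCat.coe_comp, ← Scheme.Hom.comp_base, hc, h01.range_fromSpec,
        hU0.range_fromSpec]
      exact ⟨fun h => ⟨h, hy⟩, And.left⟩

end FLTA.Jacobian
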