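import Fermat.Agent.Jacobian.CurvePeel

/-!
# Divisors of sections over a field
-/

set_option autoImplicit false

universe u

open TensorProduct
open scoped FLTA.Jacobian.TwoCover FLTA.Jacobian.Triple

namespace FLTA.Jacobian

section Modules

variable {A M : Type u} [CommRing A] [AddCommGroup M] [Module A M] [Module.Invertible A M]

/-- The cyclic submodule generated by `x` is `(x : M) • M`. -/
theorem span_eq_colon_smul_top (x : M) :
    Submodule.span A {x} =
      (Submodule.span A {x}).colon (⊤ : Submodule A M) • (⊤ : Submodule A M) := by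
  refine le_antisymm ?_ ?_
  · obtain ⟨ι, _, φ, m, h⟩ := exists_dual_partition A M
    rw [Submodule.span_singleton_le_iff_mem]
    have hsum : ∑ i, φ i (m i) • x = x := by rw [← Finset.sum_smul, h, one_smul]
    have key : ∑ i, φ i (m i) • x ∈
        (Submodule.span A {x}).colon (⊤ : Submodule A M) • (⊤ : Submodule A M) := by
      refine Submodule.sum_mem _ fun i _ => ?_
      rw [dual_apply_smul_comm (φ i) (m i) x]
      refine Submodule.smul_mem_smul ?_ trivial
      rw [colon_eq_evalIdeal]
      exact ⟨φ i, rfl⟩
    rwa [hsum] at key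
  · exact Submodule.smul_le.mpr fun r hr m hm => Submodule.mem_colon.mp hr m hm

/-- A nonzero vector of an invertible module over a domain has a nonzero colon ideal. -/
theorem exists_ne_zero_mem_colon [IsDomain A] {x : M} (hx : x ≠ 0) :
    ∃ a : A, a ≠ 0 ∧ a ∈ (Submodule.span A {x}).colon (⊤ : Submodule A M) := by
  obtain ⟨I, ⟨e⟩⟩ := Module.Invertible.exists_linearEquiv_ideal A M
  refine ⟨(e x : A), fun h => hx (e.injective (((Subtype.ext h : e x = 0)).trans (map_zero e).symm)),
    Submodule.mem_colon.mpr fun m _ => Submodule.mem_span_singleton.mpr ⟨(e m : A), ?_⟩⟩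
  apply e.injective
  rw [map_smul, map_smul]
  exact Subtype.ext (mul_comm _ _)

/-- A quotient by a cyclic submodule has the dimension of the quotient by the colon ideal. -/
theorem finrank_quot_span_singleton {K : Type u} [Field K] [IsDedekindDomain A] [Algebra K A]
    [Module K M] [IsScalarTower K A M] {x : M} (hx : x ≠ 0) :
    Module.finrank K (M ⧸ Submodule.span A {x}) =
      Module.finrank K (A ⧸ (Submodule.span A {x}).colon (⊤ : Submodule A M)) := by
  obtain ⟨a, ha, haQ⟩ := exists_ne_zero_mem_colon (A := A) hx
  set Q := (Submodule.span A {x}).colon (⊤ : Submodule A M) with hQ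
  let e : (M ⊗[A] (A ⧸ Q)) ≃ₗ[A] M ⧸ Submodule.span A {x} :=
    (TensorProduct.comm A M (A ⧸ Q)).trans ((TensorProduct.quotTensorEquivQuotSMul M Q).trans
      (Submodule.quotEquivOfEq _ _ (span_eq_colon_smul_top x).symm))
  rw [← (e.restrictScalars K).finrank_eq]
  refine finrank_tensor_invertible ha fun q => ?_
  induction q using Submodule.Quotient.induction_on with
  | H r => exact (Submodule.Quotient.mk_eq_zero Q).mpr (Q.mul_mem_right r haQ)

end Modules

namespace Triple

variable {k : Type u} [Field k] {E : TwoCover k} {K : Type u} [Field K] [Algebra k K]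

/-- If the divisor of an injective morphism avoids `s = 0`, its degree is seen on the first
chart. -/
theorem Hom.colength_eq_finrank_cokM {T₀ T : Triple E K} (f : Hom T₀ T)
    (hM : Function.Injective f.fM) (hM' : Function.Injective f.fM')
    (hs : ∀ y : T.M', ∃ y', y - E.sR K • y' ∈ LinearMap.range f.fM') :
    f.colength = Module.finrank K f.cokM := by
  have := f.finite_cokM hM
  have := f.finite_cokM' hM'
  have hpow : ∀ (i : ℕ) (y : T.M'), ∃ y', y - E.sR K ^ i • y' ∈ LinearMap.range f.fM' := by
    intro i
    induction i with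
    | zero => exact fun y => ⟨y, by rw [pow_zero, one_smul, sub_self]; exact zero_mem _⟩
    | succ i ih =>
      intro y
      obtain ⟨y', hy'⟩ := ih y
      obtain ⟨z, hz⟩ := hs y'
      refine ⟨z, ?_⟩
      have : y - E.sR K ^ (i + 1) • z = (y - E.sR K ^ i • y') + E.sR K ^ i • (y' - E.sR K • z) := by
        rw [pow_succ, mul_smul, smul_sub]
        abel
      rw [this]
      exact add_mem hy' (Submodule.smul_mem _ _ hz)
  have : Module.Finite K (T.M' ⧸ (LinearMap.range f.fM').restrictScalars K) :=
    f.finite_cokM' hM'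
  have : Module.Finite K (T.M' ⧸ LinearMap.range f.fM') :=
    Module.Finite.equiv (Submodule.Quotient.restrictScalarsEquiv K (LinearMap.range f.fM'))
  have hreg : ∀ y : T.M', E.sR K • y ∈ LinearMap.range f.fM' → y ∈ LinearMap.range f.fM' := by
    intro y hy
    let μ : (T.M' ⧸ LinearMap.range f.fM') →ₗ[K] T.M' ⧸ LinearMap.range f.fM' :=
      (LinearMap.lsmul (E.AR' K) _ (E.sR K)).restrictScalars K
    have hμ : Function.Injective μ := by
      refine LinearMap.injective_iff_surjective.mpr fun q => ?_
      induction q using Submodule.Quotient.induction_on with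
      | H w =>
        obtain ⟨w', hw'⟩ := hs w
        exact ⟨Submodule.Quotient.mk w', ((Submodule.Quotient.eq _).mpr hw').symm⟩
    rw [← Submodule.Quotient.mk_eq_zero]
    refine hμ (Eq.trans ?_ (map_zero μ).symm)
    exact (Submodule.Quotient.mk_eq_zero _).mpr hy
  have hregpow : ∀ (i : ℕ) (y : T.M'),
      E.sR K ^ i • y ∈ LinearMap.range f.fM' → y ∈ LinearMap.range f.fM' := by
    intro i
    induction i with
    | zero => intro y hy; rwa [pow_zero, one_smul] at hy
    | succ i ih =>
      intro y hy
      rw [pow_succ, mul_smul] at hy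
      exact hreg y (ih _ hy)
  have hsm : ∀ (i : ℕ) (m : T₀.M'),
      f.fN ((E.ιR' K (E.sR K)) ^ i • T₀.res' m) = T.res' (E.sR K ^ i • f.fM' m) := by
    intro i m
    refine (map_smul f.fN _ _).trans ?_
    rw [f.comm', ← map_pow]
    exact (T.res'.map_smulₛₗ _ _).symm
  have hbij : Function.Bijective f.cokRes' := by
    constructor
    · rw [injective_iff_map_eq_zero]
      intro q hq
      induction q using Submodule.Quotient.induction_on with
      | H y =>
        rw [Hom.cokRes', Submodule.mapQ_apply, Submodule.Quotient.mk_eq_zero] at hq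
        obtain ⟨n, hn⟩ := hq
        obtain ⟨m, i, hm⟩ := T₀.res'_surj n
        have h2 : T.res' (E.sR K ^ i • y) = T.res' (f.fM' m) := by
          rw [← f.comm', ← hm, LinearMap.map_smulₛₗ]
          refine Eq.trans ?_ (map_smul f.fN _ _).symm
          exact congrArg₂ (· • ·) (map_pow (E.ιR' K) _ _) hn.symm
        exact (Submodule.Quotient.mk_eq_zero _).mpr (hregpow i y ⟨m, (T.res'_injective h2).symm⟩)
    · intro q
      induction q using Submodule.Quotient.induction_on with
      | H n =>
        obtain ⟨y, i, hy⟩ := T.res'_surj n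
        obtain ⟨y', c, hc⟩ := hpow i y
        refine ⟨Submodule.Quotient.mk y', ?_⟩
        rw [Hom.cokRes', Submodule.mapQ_apply, Submodule.Quotient.eq]
        obtain ⟨u, hu⟩ := ((E.isUnit_ιR'_sR K).pow i).exists_left_inv
        refine ⟨-(u • T₀.res' c), ?_⟩
        change f.fN (-(u • T₀.res' c)) = T.res' y' - n
        rw [map_neg, map_smul, f.comm', hc, map_sub, ← hy, LinearMap.map_smulₛₗ]
        change -(u • ((E.ιR' K (E.sR K)) ^ i • n - E.ιR' K (E.sR K ^ i) • T.res' y')) = _
        rw [map_pow, smul_sub, smul_smul, smul_smul, hu, one_smul, one_smul, neg_sub]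
  have h1 := f.colength_add hM hM'
  have h2 := (LinearEquiv.ofBijective f.cokRes' hbij).finrank_eq
  omega

/-- The degree of the divisor of a section generating at `ε`. -/
theorem GeneratesAtε.finrank_quot_colon {T : Triple E K} {σ : T.H0} (h : T.GeneratesAtε σ.1.2)
    (hσ : σ ≠ 0) :
    Module.finrank K (E.AR K ⧸
        (Submodule.span (E.AR K) {σ.1.1}).colon (⊤ : Submodule (E.AR K) T.M)) =
      (T.sectionHom σ).colength := by
  obtain ⟨hM, hM'⟩ := T.sectionHom_injective hσ
  have := E.dedekind K
  have hrange : LinearMap.range (T.sectionHom σ).fM = Submodule.span (E.AR K) {σ.1.1} :=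
    LinearMap.range_toSpanSingleton _
  rw [(T.sectionHom σ).colength_eq_finrank_cokM hM hM' ?_,
    ← finrank_quot_span_singleton (K := K) (T.section_fst_ne_zero hσ)]
  · exact ((Submodule.Quotient.restrictScalarsEquiv K _).trans
      ((Submodule.quotEquivOfEq _ _ hrange).restrictScalars K)).finrank_eq.symm
  · intro y
    obtain ⟨u, hu, v, hv, huv⟩ := Submodule.mem_sup.mp (h.sup_sR.ge (Submodule.mem_top (x := y)))
    rw [Submodule.ideal_span_singleton_smul, Submodule.mem_smul_pointwise_iff_exists] at hv
    obtain ⟨w, -, rfl⟩ := hv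
    refine ⟨w, ?_⟩
    rw [← huv, add_sub_cancel_right]
    obtain ⟨c, rfl⟩ := Submodule.mem_span_singleton.mp hu
    exact ⟨c, rfl⟩

end Triple

end FLTA.Jacobian
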