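import Fermat.Agent.Jacobian.CurveConstPoint
import Fermat.Agent.Jacobian.CurveDivisor

/-!
# Finitely many translates of the good locus cover all bundles of degree zero
-/

set_option autoImplicit false

universe u

open TensorProduct
open scoped FLTA.Jacobian.TwoCover FLTA.Jacobian.Triple

namespace FLTA.Jacobian

namespace Triple

variable {k : Type u} [Field k] {E : TwoCover k} {K : Type u} [Field K] [Algebra k K]

/-- Composition of morphisms. -/
noncomputable def Hom.comp {R : Type u} [CommRing R] [Algebra k R] {T₀ T₁ T₂ : Triple E R}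
    (g : Hom T₁ T₂) (f : Hom T₀ T₁) : Hom T₀ T₂ where
  fM := g.fM ∘ₗ f.fM
  fM' := g.fM' ∘ₗ f.fM'
  fN := g.fN ∘ₗ f.fN
  comm m := (congrArg g.fN (f.comm m)).trans (g.comm _)
  comm' m := (congrArg g.fN (f.comm' m)).trans (g.comm' _)

theorem Hom.fX_mem_h0 {T₀ T : Triple E K} (f : Hom T₀ T) {x : T₀.M × T₀.M'} (hx : x ∈ T₀.H0) :
    f.fX x ∈ T.H0 := by
  rw [LinearMap.mem_ker] at hx ⊢
  rw [← f.fY_diff, hx, map_zero]

/-- Peeling off a point at which a section does not vanish keeps `H¹ = 0`. -/
theorem subsingleton_h1_tensor_pt (W : Triple E K) (h : Subsingleton W.H1)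
    (φ : E.AR K →ₐ[K] K) {σ : W.H0}
    (hσ : σ.1.1 ∉ RingHom.ker φ • (⊤ : Submodule (E.AR K) W.M)) :
    Subsingleton (W.tensor (ptTriple E φ)).H1 := by
  let f : Hom (W.tensor (ptTriple E φ)) W := W.tensorOne.toHom.comp ((ptHom E φ).lTensor W)
  have hM : Function.Injective f.fM :=
    W.tensorOne.eM.injective.comp ((ptHom E φ).lTensor_injective W Subtype.val_injective)
  have hM' : Function.Injective f.fM' :=
    W.tensorOne.eM'.injective.comp ((ptHom E φ).lTensor_injective' W Subtype.val_injective)
  have hrange : ∀ z, f.fM z ∈ RingHom.ker φ • (⊤ : Submodule (E.AR K) W.M) := by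
    intro z
    induction z using TensorProduct.induction_on with
    | zero => erw [map_zero]; exact zero_mem _
    | add a b ha hb => erw [map_add]; exact add_mem ha hb
    | tmul m p =>
      have h1 : f.fM (m ⊗ₜ p) = p.1 • W.tensorOne.eM (m ⊗ₜ (1 : E.AR K)) := by
        rw [← map_smul]
        refine congrArg W.tensorOne.eM ?_
        change m ⊗ₜ[E.AR K] p.1 = p.1 • (m ⊗ₜ[E.AR K] (1 : E.AR K))
        rw [← TensorProduct.tmul_smul, smul_eq_mul, mul_one]
      rw [h1]
      exact Submodule.smul_mem_smul p.2 trivial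
  let φ0 : (W.tensor (ptTriple E φ)).H0 →ₗ[K] W.H0 :=
    f.fX.restrict fun x hx => f.fX_mem_h0 hx
  have hinj : Function.Injective φ0 := fun a b hab =>
    Subtype.ext (f.fX_injective hM hM' (congrArg Subtype.val hab))
  have := W.finite_h0
  have hlt : Module.finrank K (LinearMap.range φ0) < Module.finrank K W.H0 := by
    refine Submodule.finrank_lt fun htop => hσ ?_
    obtain ⟨z, hz⟩ := htop.ge (Submodule.mem_top (x := σ))
    rw [show σ.1.1 = f.fM z.1.1 from congrArg (fun w : W.H0 => w.1.1) hz.symm]
    exact hrange _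
  rw [LinearMap.finrank_range_of_inj hinj] at hlt
  have hchi := degree_tensor_ptTriple W φ
  rw [degree, degree, chi, chi, Module.finrank_zero_of_subsingleton (M := W.H1)] at hchi
  have h0 : Module.finrank K (W.tensor (ptTriple E φ)).H1 = 0 := by omega
  exact Module.finrank_zero_iff.mp h0

/-- A bundle of large degree keeps `H¹ = 0` after removing `ε`. -/
theorem subsingleton_h1_twist_succ_ε (T : Triple E K) (m : ℕ) (h : Subsingleton (T.twist m).H1) :
    Subsingleton ((T.twist (m + 1)).tensor (εTriple E)).H1 := by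
  have hmem : ((⟨1, Submodule.mem_top⟩, ⟨E.sR K, RingHom.mem_ker.mpr (E.εR_sR)⟩) :
      ((εTriple E (K := K)).twist 1).M × ((εTriple E (K := K)).twist 1).M') ∈
        ((εTriple E (K := K)).twist 1).H0 := by
    rw [mem_h0_iff]
    refine Subtype.ext ?_
    change E.ιR K 1 = (E.ιR K (E.tR K)) ^ 1 * E.ιR' K (E.sR K)
    rw [pow_one, E.ιR_tR_mul_sR, map_one]
  let σ : ((εTriple E (K := K)).twist 1).H0 := ⟨_, hmem⟩
  have hσ : σ ≠ 0 := fun h0 => by
    have h1 : (1 : E.AR K) = 0 := congrArg (fun w : ((εTriple E (K := K)).twist 1).H0 => w.1.1.1) h0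
    have := E.domain K
    exact one_ne_zero h1
  obtain ⟨hM, hM'⟩ := ((εTriple E (K := K)).twist 1).sectionHom_injective hσ
  have h1 := ((T.twist m).tensorOne.symm).subsingleton_h1 h
  have h2 := (((εTriple E (K := K)).twist 1).sectionHom σ |>.lTensor (T.twist m)).subsingleton_h1
    (Hom.lTensor_injective _ _ hM) (Hom.lTensor_injective' _ _ hM') h1
  exact ((twistTwist T m 1).tensor (Iso.refl _)).subsingleton_h1
    (((T.twist m).tensorTwistLeft (εTriple E) 1).symm.subsingleton_h1
      (((T.twist m).tensorTwistRight (εTriple E) 1).subsingleton_h1 h2))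

/-- Modifying by one more point is tensoring with that point. -/
theorem nonempty_iso_modify_cons (T : Triple E K) (m : ℕ) (φ : E.A →ₐ[k] k)
    (xs : List (E.A →ₐ[k] k)) :
    Nonempty (Iso (((T.modify E m xs).tensor (εTriple E)).tensor (ptTriple E (kPoint K φ)))
      ((T.modify E m (φ :: xs)).tensor (εTriple E))) := by
  let P := (ptsTriple E xs).bc K
  let b : BaseChange (ptsTriple E (φ :: xs)) ((ptTriple E (kPoint K φ)).tensor P) :=
    (ptBaseChange K φ).tensor K ((ptsTriple E xs).bcBaseChange K)
  let i : Iso (P.tensor (ptTriple E (kPoint K φ))) ((ptsTriple E (φ :: xs)).bc K) :=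
    (P.tensorComm _).trans (b.iso ((ptsTriple E (φ :: xs)).bcBaseChange K))
  let pt := ptTriple E (kPoint K φ)
  let U := T.modify E m xs
  exact ⟨(((U.tensorAssoc _ pt).trans
    ((Iso.refl U).tensor ((εTriple E (K := K)).tensorComm pt))).trans
      (U.tensorAssoc pt _).symm).trans
    ((((T.twist m).tensorAssoc P pt).trans ((Iso.refl _).tensor i)).tensor (Iso.refl _))⟩

/-- A bundle of degree `g` without `H¹`, still so after removing `ε`, is good. -/
theorem exists_isGood (U : Triple E K) (hd : U.degree = E.genus)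
    (hε : Subsingleton (U.tensor (εTriple E)).H1) :
    ∃ b : Fin E.genus → E.A, IsGood b U := by
  classical
  have hU : Subsingleton U.H1 := by
    refine U.tensorOne.subsingleton_h1 (((εHom E (K := K)).lTensor U).subsingleton_h1 ?_ ?_ hε)
    · exact Hom.lTensor_injective _ _ Subtype.val_injective
    · exact Hom.lTensor_injective' _ _ Subtype.val_injective
  have := U.finite_h0
  have := (U.tensor (εTriple E)).finite_h0
  have h0 : Module.finrank K U.H0 = 1 := by
    rw [degree, chi, Module.finrank_zero_of_subsingleton (M := U.H1)] at hd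
    omega
  have hbot : (U.tensor (εTriple E)).H0 = ⊥ := by
    refine Submodule.finrank_eq_zero.mp ?_
    have h1 := degree_tensor_εTriple U
    rw [hd, degree, chi,
      Module.finrank_zero_of_subsingleton (M := (U.tensor (εTriple E)).H1)] at h1
    omega
  have : Nontrivial U.H0 := Module.nontrivial_of_finrank_eq_succ h0
  obtain ⟨σ, hσ⟩ := exists_ne (0 : U.H0)
  have hgen : U.GeneratesAtε σ.1.2 := by
    have hMax : (RingHom.ker (E.εR K)).IsMaximal :=
      RingHom.ker_isMaximal_of_surjective (E.εR K) fun x => ⟨algebraMap K _ x, (E.εR K).commutes x⟩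
    refine span_sup_smul_eq_top _ fun hmem => ?_
    refine h0_tensor_ne_bot (εHom E) Subtype.val_injective hσ
      (exists_tmul_of_mem_smul (Submodule.subtype (⊤ : Ideal (E.AR K))) ?_)
      (exists_tmul_of_mem_smul (Submodule.subtype (RingHom.ker (E.εR K))) ?_) hbot
    · rw [Submodule.range_subtype, Submodule.top_smul]
      trivial
    · rwa [Submodule.range_subtype]
  set Q := (Submodule.span (E.AR K) {σ.1.1}).colon (⊤ : Submodule (E.AR K) U.M) with hQ
  obtain ⟨hM, hM'⟩ := U.sectionHom_injective hσ
  have hdim : Module.finrank K (E.AR K ⧸ Q) = E.genus := by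
    rw [hgen.finrank_quot_colon hσ]
    have h1 := degree_eq_of_hom _ hM hM'
    rw [degree_one, zero_add, hd] at h1
    exact_mod_cast h1.symm
  have : Module.Finite K (E.AR K ⧸ Q) := by
    have := E.dedekind K
    have := E.domain K
    have : Algebra.FiniteType k E.A := RingHom.finiteType_algebraMap.mp
      ((Polynomial.aeval (R := k) E.t).comp_algebraMap ▸
        (RingHom.FiniteType.of_finite E.finite).comp
          (RingHom.finiteType_algebraMap.mpr (inferInstance : Algebra.FiniteType k (Polynomial k))))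
    obtain ⟨a, ha, haQ⟩ := exists_ne_zero_mem_colon (A := E.AR K) (U.section_fst_ne_zero hσ)
    refine finite_of_smul_eq_zero (A := E.AR K) ha fun q => ?_
    induction q using Submodule.Quotient.induction_on with
    | H r => exact (Submodule.Quotient.mk_eq_zero Q).mpr (Q.mul_mem_right r haQ)
  let v : E.A → E.AR K ⧸ Q := fun a => Ideal.Quotient.mk Q ((1 : K) ⊗ₜ[k] a)
  have hv : Submodule.span K (Set.range v) = ⊤ := by
    refine top_unique fun q _ => ?_
    obtain ⟨x, rfl⟩ := Ideal.Quotient.mk_surjective q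
    induction x using TensorProduct.induction_on with
    | zero => rw [map_zero]; exact zero_mem _
    | add a b ha hb => rw [map_add]; exact add_mem (ha trivial) (hb trivial)
    | tmul c a =>
      have : Ideal.Quotient.mk Q (c ⊗ₜ[k] a) = c • v a := by
        change _ = Ideal.Quotient.mk Q (c • ((1 : K) ⊗ₜ[k] a))
        rw [TensorProduct.smul_tmul', smul_eq_mul, mul_one]
      rw [this]
      exact Submodule.smul_mem _ _ (Submodule.subset_span ⟨a, rfl⟩)
  obtain ⟨s, hs, hspan, hli⟩ := exists_linearIndependent K (Set.range v)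
  let B := Module.Basis.mk hli (by rw [Subtype.range_coe, hspan, hv])
  let e := B.indexEquiv (Module.finBasisOfFinrankEq K _ hdim)
  let B' := B.reindex e
  have hB' : ∀ i, ∃ a : E.A, v a = B' i := fun i =>
    hs (show B' i ∈ s by rw [Module.Basis.reindex_apply, Module.Basis.mk_apply]; exact (e.symm i).2)
  choose b hb using hB'
  refine ⟨b, hU, σ, ?_, fun r hr => (smul_eq_zero.mp hr).resolve_right hσ, hgen, ?_⟩
  · exact (finrank_eq_one_iff_of_nonzero σ hσ).mp h0
  · have heq : (fun r : Fin E.genus → K =>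
        Ideal.Quotient.mk Q (∑ i, r i • ((1 : K) ⊗ₜ[k] b i))) = B'.equivFun.symm := by
      funext r
      rw [Module.Basis.equivFun_symm_apply, map_sum]
      exact Finset.sum_congr rfl fun i _ => by rw [← hb i]; rfl
    rw [heq]
    exact B'.equivFun.symm.bijective

/-- Coverage: finitely many translates of the good locus cover all degree zero bundles. -/
theorem exists_modify_isGood' [IsAlgClosed k] (E : TwoCover k) :
    ∃ m r : ℕ, (m * E.deg : ℤ) - r = E.genus ∧
      ∀ (K : Type u) [Field K] [IsAlgClosed K] [Algebra k K] (T : Triple E K), T.degree = 0 →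
        ∃ (xs : List (E.A →ₐ[k] k)) (b : Fin E.genus → E.A),
          xs.length = r ∧ IsGood b (T.modify E m xs) := by
  obtain ⟨m₀, hm₀⟩ := exists_uniform_twist_h1 E
  obtain ⟨m, hm⟩ : ∃ m, m = m₀ + E.genus + 1 := ⟨_, rfl⟩
  have hdeg := deg_pos (E := E)
  have hle : E.genus ≤ m * E.deg :=
    le_trans (by omega) (Nat.le_mul_of_pos_right m hdeg)
  refine ⟨m, m * E.deg - E.genus, by rw [Nat.cast_sub hle]; push_cast; ring, ?_⟩
  intro K _ _ _ T hT
  have hd : ∀ xs : List (E.A →ₐ[k] k), ((T.modify E m xs).tensor (εTriple E)).degree =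
      ((m * E.deg : ℕ) : ℤ) - xs.length - 1 := fun xs => by
    rw [degree_tensor_εTriple, degree_modify, hT]
    push_cast
    ring
  have key : ∀ j, j ≤ m * E.deg - E.genus → ∃ xs : List (E.A →ₐ[k] k), xs.length = j ∧
      Subsingleton ((T.modify E m xs).tensor (εTriple E)).H1 := by
    intro j
    induction j with
    | zero =>
      intro _
      refine ⟨[], rfl, ?_⟩
      have h1 := subsingleton_h1_twist_succ_ε T (m₀ + E.genus)
        (hm₀ K T hT (m₀ + E.genus) (Nat.le_add_right _ _))
      rw [hm]
      let i : Iso (one E K) ((ptsTriple E ([] : List (E.A →ₐ[k] k))).bc K) :=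
        (oneBaseChange E k K).iso ((one E k).bcBaseChange K)
      exact ((((T.twist (m₀ + E.genus + 1)).tensorOne.symm.trans
        ((Iso.refl _).tensor i)).tensor (Iso.refl _)).subsingleton_h1 h1 :)
    | succ j ih =>
      intro hj
      obtain ⟨xs, hlen, hW⟩ := ih (by omega)
      set W := (T.modify E m xs).tensor (εTriple E) with hWdef
      have hWd : W.H0 ≠ ⊥ := by
        refine h0_ne_bot_of_genus_le W ?_
        rw [hWdef, hd, hlen]
        omega
      obtain ⟨x, hx, hne⟩ := Submodule.exists_mem_ne_zero_of_ne_bot hWd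
      have hx1 : x.1 ≠ 0 := W.section_fst_ne_zero (σ := ⟨x, hx⟩)
        fun h0 => hne (congrArg Subtype.val h0)
      have := E.domain K
      obtain ⟨I, ⟨e⟩⟩ := Module.Invertible.exists_linearEquiv_ideal (E.AR K) W.M
      have ha : (e x.1 : E.AR K) ≠ 0 := fun h0 =>
        hx1 (e.map_eq_zero_iff.mp (Subtype.ext h0))
      obtain ⟨φ, hφ⟩ := exists_kPoint_ne_zero (K := K) ha
      have hσ : x.1 ∉ RingHom.ker (kPoint K φ) • (⊤ : Submodule (E.AR K) W.M) := fun hmem => by
        refine hφ ?_
        refine Submodule.smul_induction_on hmem (p := fun y => kPoint K φ (e y : E.AR K) = 0)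
          (fun r hr y _ => ?_) fun y z hy hz => ?_
        · rw [map_smul]
          change kPoint K φ (r * (e y : E.AR K)) = 0
          rw [map_mul, RingHom.mem_ker.mp hr, zero_mul]
        · rw [map_add]
          change kPoint K φ ((e y : E.AR K) + (e z : E.AR K)) = 0
          rw [map_add, hy, hz, add_zero]
      refine ⟨φ :: xs, by simp [hlen], ?_⟩
      obtain ⟨i⟩ := nonempty_iso_modify_cons T m φ xs
      exact i.subsingleton_h1 (subsingleton_h1_tensor_pt W hW (kPoint K φ) (σ := ⟨x, hx⟩) hσ)
  obtain ⟨xs, hlen, hxs⟩ := key _ le_rfl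
  obtain ⟨b, hb⟩ := exists_isGood (T.modify E m xs) (by
    rw [degree_modify, hT, hlen, Nat.cast_sub hle]
    push_cast
    ring) hxs
  exact ⟨xs, b, hlen, hb⟩

end Triple

end FLTA.Jacobian
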