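import Fermat.Agent.Jacobian.CurveDegreeBasic

/-!
# Vanishing of sections at points
-/

set_option autoImplicit false

universe u

open TensorProduct
open scoped FLTA.Jacobian.TwoCover FLTA.Jacobian.Triple

namespace FLTA.Jacobian

section Modules

variable {A M : Type u} [CommRing A] [AddCommGroup M] [Module A M] [Module.Invertible A M]

/-- A vector outside `P • M` generates an invertible module modulo the maximal ideal `P`. -/
theorem span_sup_smul_eq_top (P : Ideal A) [P.IsMaximal] {x : M}
    (hx : x ∉ P • (⊤ : Submodule A M)) :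
    Submodule.span A {x} ⊔ P • (⊤ : Submodule A M) = ⊤ := by
  let := Ideal.Quotient.field P
  obtain ⟨e⟩ : Nonempty ((A ⧸ P) ⊗[A] M ≃ₗ[A ⧸ P] A ⧸ P) :=
    Module.Invertible.free_iff_linearEquiv.mp inferInstance
  have hmem : ∀ m : M, ((1 : A ⧸ P) ⊗ₜ[A] m) = 0 → m ∈ P • (⊤ : Submodule A M) := fun m hm => by
    have h := congrArg (TensorProduct.quotTensorEquivQuotSMul M P) hm
    rw [map_zero, show (1 : A ⧸ P) = Ideal.Quotient.mk P 1 from rfl,
      TensorProduct.quotTensorEquivQuotSMul_mk_tmul, one_smul, Submodule.Quotient.mk_eq_zero] at h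
    exact h
  have hne : e (1 ⊗ₜ x) ≠ 0 := fun h => hx (hmem x (e.map_eq_zero_iff.mp h))
  refine top_unique fun m _ => ?_
  obtain ⟨c, hc⟩ := Ideal.Quotient.mk_surjective (e (1 ⊗ₜ m) / e (1 ⊗ₜ x))
  have h0 : ((1 : A ⧸ P) ⊗ₜ[A] (m - c • x)) = 0 := by
    apply e.injective
    rw [TensorProduct.tmul_sub, TensorProduct.tmul_smul, map_sub, map_zero,
      ← algebraMap_smul (A ⧸ P) c, e.map_smul]
    change _ - Ideal.Quotient.mk P c * _ = 0
    rw [hc, div_mul_cancel₀ _ hne, sub_self]
  have h1 := Submodule.add_mem_sup
    (Submodule.smul_mem (Submodule.span A {x}) c (Submodule.mem_span_singleton_self x)) (hmem _ h0)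
  simpa using h1

/-- An invertible module absorbing an ideal forces the ideal to be everything. -/
theorem eq_top_of_smul_eq_top (I : Ideal A) (h : I • (⊤ : Submodule A M) = ⊤) : I = ⊤ := by
  obtain ⟨r, hr, hrM⟩ := Submodule.exists_sub_one_mem_and_smul_eq_zero_of_fg_of_le_smul I
    (⊤ : Submodule A M) Module.Finite.fg_top h.ge
  have hr0 : r = 0 := FaithfulSMul.eq_of_smul_eq_smul (α := M)
    fun x => by rw [hrM x trivial, zero_smul]
  rw [hr0, zero_sub, neg_mem_iff] at hr
  exact (Ideal.eq_top_iff_one I).mpr hr

/-- If `x` does not generate the module, it lies in `P • M` for some maximal ideal `P`. -/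
theorem exists_maximal_mem_smul {x : M} (h : Submodule.span A {x} ≠ ⊤) :
    ∃ P : Ideal A, P.IsMaximal ∧ x ∈ P • (⊤ : Submodule A M) := by
  have hne : (Submodule.span A {x}).colon ((⊤ : Submodule A M) : Set M) ≠ ⊤ := by
    intro htop
    apply h
    refine top_unique fun m _ => ?_
    have h1 := Submodule.mem_colon.mp (htop.ge (Submodule.mem_top (x := (1 : A)))) m trivial
    rwa [one_smul] at h1
  obtain ⟨P, hP, hle⟩ := Ideal.exists_le_maximal _ hne
  refine ⟨P, hP, ?_⟩
  by_contra hx
  have htop := span_sup_smul_eq_top P hx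
  obtain ⟨r, hr, hr0⟩ := Submodule.exists_sub_one_mem_and_smul_eq_zero_of_fg_of_le_smul P
    (⊤ : Submodule A (M ⧸ Submodule.span A {x})) Module.Finite.fg_top (by
      intro q _
      induction q using Submodule.Quotient.induction_on with
      | H m =>
        obtain ⟨a, ha, b, hb, rfl⟩ := Submodule.mem_sup.mp (htop.ge (Submodule.mem_top (x := m)))
        rw [Submodule.Quotient.mk_add, (Submodule.Quotient.mk_eq_zero _).mpr ha, zero_add]
        have := Submodule.mem_map_of_mem (f := (Submodule.span A {x}).mkQ) hb
        rw [Submodule.map_smul'', Submodule.map_top] at this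
        exact Submodule.smul_mono le_rfl le_top this)
  have hrP : r ∈ P := hle <| Submodule.mem_colon.mpr fun m _ => by
    rw [← Submodule.Quotient.mk_eq_zero, Submodule.Quotient.mk_smul]
    exact hr0 _ trivial
  exact hP.ne_top ((Ideal.eq_top_iff_one P).mpr (by simpa using P.sub_mem hrP hr))

omit [Module.Invertible A M] in
/-- Elements of `I • M` come from `M ⊗ P` when `P` maps onto the ideal `I`. -/
theorem exists_tmul_of_mem_smul {P : Type u} [AddCommGroup P] [Module A P] (φ : P →ₗ[A] A)
    {x : M} (hx : x ∈ LinearMap.range φ • (⊤ : Submodule A M)) :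
    ∃ z : M ⊗[A] P, φ.lTensor M z = x ⊗ₜ 1 := by
  refine Submodule.smul_induction_on hx ?_ ?_
  · rintro _ ⟨p, rfl⟩ m -
    exact ⟨m ⊗ₜ p, by rw [LinearMap.lTensor_tmul, TensorProduct.smul_tmul, smul_eq_mul, mul_one]⟩
  · rintro a b ⟨za, ha⟩ ⟨zb, hb⟩
    exact ⟨za + zb, by rw [map_add, ha, hb, TensorProduct.add_tmul]⟩

end Modules

namespace Triple

variable {k : Type u} [Field k] {E : TwoCover k} {K : Type u} [Field K] [Algebra k K]

/-- A section vanishing along the image of `f : P → O` lifts to `T ⊗ P`. -/
theorem h0_tensor_ne_bot {T P : Triple E K} (f : Hom P (one E K))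
    (hM : Function.Injective f.fM) {σ : T.H0} (hσ : σ ≠ 0)
    (h1 : ∃ z : T.M ⊗[E.AR K] P.M, f.fM.lTensor T.M z = σ.1.1 ⊗ₜ (1 : E.AR K))
    (h2 : ∃ z : T.M' ⊗[E.AR' K] P.M', f.fM'.lTensor T.M' z = σ.1.2 ⊗ₜ (1 : E.AR' K)) :
    (T.tensor P).H0 ≠ ⊥ := by
  obtain ⟨z, hz⟩ := h1
  obtain ⟨z', hz'⟩ := h2
  intro hbot
  have hmem : ((z, z') : (T.tensor P).M × (T.tensor P).M') ∈ (T.tensor P).H0 := by
    rw [mem_h0_iff]
    apply (f.lTensor T).fN_injective (f.lTensor_injective T hM)
    rw [(f.lTensor T).comm, (f.lTensor T).comm']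
    change T.tensorRes (one E K) (f.fM.lTensor T.M z) =
      T.tensorRes' (one E K) (f.fM'.lTensor T.M' z')
    rw [hz, hz']
    change T.res σ.1.1 ⊗ₜ[E.AR01 K] (E.ιR K 1) = T.res' σ.1.2 ⊗ₜ[E.AR01 K] (E.ιR' K 1)
    rw [map_one, map_one, (T.mem_h0_iff σ.1).mp σ.2]
  rw [hbot, Submodule.mem_bot] at hmem
  have hz0 : z = 0 := congrArg Prod.fst hmem
  refine T.section_fst_ne_zero hσ ?_
  have h := congrArg (TensorProduct.rid (E.AR K) T.M) hz
  rw [hz0] at h
  erw [map_zero] at h
  exact ((h.trans (TensorProduct.rid_tmul _ _)).trans (one_smul _ _)).symm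

theorem exists_point_of_section' [IsAlgClosed K] (T : Triple E K) (hd : 0 < T.degree)
    (h : T.H0 ≠ ⊥) :
    (∃ φ : E.AR K →ₐ[K] K, (T.tensor (ptTriple E φ)).H0 ≠ ⊥) ∨
      (T.tensor (εTriple E)).H0 ≠ ⊥ := by
  obtain ⟨σ, hσ, hdeg⟩ := exists_section_hom T h
  obtain ⟨hM, hM'⟩ := T.sectionHom_injective hσ
  have := E.domain K
  have := E.domain' K
  by_cases hgen : Submodule.span (E.AR K) {σ.1.1} = ⊤
  · -- the section generates on the first chart, so it vanishes at `ε`
    refine Or.inr (h0_tensor_ne_bot (εHom E) Subtype.val_injective hσ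
      (exists_tmul_of_mem_smul (Submodule.subtype (⊤ : Ideal (E.AR K))) ?_)
      (exists_tmul_of_mem_smul (Submodule.subtype (RingHom.ker (E.εR K))) ?_))
    · rw [show LinearMap.range (⊤ : Ideal (E.AR K)).subtype = ⊤ from Submodule.range_subtype _,
        Submodule.top_smul]
      trivial
    · rw [show LinearMap.range (RingHom.ker (E.εR K)).subtype = RingHom.ker (E.εR K) from
        Submodule.range_subtype _]
      by_contra hx
      have hMax : (RingHom.ker (E.εR K)).IsMaximal :=
        RingHom.ker_isMaximal_of_surjective (E.εR K) fun x => ⟨algebraMap K _ x, (E.εR K).commutes x⟩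
      have hgen' : Submodule.span (E.AR' K) {σ.1.2} = ⊤ := by
        by_contra hne
        obtain ⟨P, hP, hxP⟩ := exists_maximal_mem_smul hne
        -- `P` must contain `s`
        by_cases hs : E.sR K ∈ P
        · have hle : RingHom.ker (E.εR K) ≤ P := by
            intro x hx'
            have hnil : ∀ y : E.A', E.ε y = 0 → ∃ n : ℕ, y ^ n ∈ Ideal.span {E.s} := by
              intro y hy
              have : y ∈ (Ideal.span {E.s}).radical := by
                rw [Ideal.radical_eq_sInf]
                exact Submodule.mem_sInf.mpr fun J hJ => by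
                  rw [E.ε_only J hJ.2 (hJ.1 (Ideal.mem_span_singleton_self _))]
                  exact hy
              exact this
            have hk : ∀ y : E.A', E.ε y = 0 → (1 : K) ⊗ₜ[k] y ∈ P := fun y hy => by
              obtain ⟨n, hn⟩ := hnil y hy
              obtain ⟨z, hz⟩ := Ideal.mem_span_singleton'.mp hn
              refine hP.isPrime.mem_of_pow_mem n ?_
              rw [Algebra.TensorProduct.tmul_pow, one_pow, ← hz]
              have : (1 : K) ⊗ₜ[k] (z * E.s) = ((1 : K) ⊗ₜ[k] z) * E.sR K := by
                simp [TwoCover.sR]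
              rw [this]
              exact P.mul_mem_left _ hs
            have key : ∀ x : E.AR' K, x - algebraMap K (E.AR' K) (E.εR K x) ∈ P := by
              intro x
              induction x using TensorProduct.induction_on with
              | zero => simp
              | add a b ha hb =>
                rw [map_add, map_add, add_sub_add_comm]
                exact add_mem ha hb
              | tmul r a =>
                have h0 : E.ε (a - algebraMap k E.A' (E.ε a)) = 0 := by
                  rw [map_sub, AlgHom.commutes]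
                  exact sub_self _
                have := P.mul_mem_left (algebraMap K (E.AR' K) r) (hk _ h0)
                convert this using 1
                simp [TwoCover.εR, TensorProduct.tmul_sub, Algebra.algebraMap_eq_smul_one, mul_sub,
                  Algebra.TensorProduct.one_def, TensorProduct.smul_tmul', mul_comm]
            have := key x
            rwa [RingHom.mem_ker.mp hx', map_zero, sub_zero] at this
          exact hx (Submodule.smul_mono_left (hMax.eq_of_le hP.ne_top hle ▸ le_rfl) hxP)
        · -- off `s = 0` the section generates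
          have h1 : Ideal.span {E.sR K} ⊔ P = ⊤ :=
            hP.1.2 _ (lt_of_le_of_ne le_sup_right fun he => hs
              (he.ge (Ideal.mem_sup_left (Ideal.mem_span_singleton_self _))))
          have hres : ∀ m : T.M', ∃ i, (E.sR K) ^ i • m ∈ Submodule.span (E.AR' K) {σ.1.2} := by
            intro m
            obtain ⟨n, hn⟩ := T.res_surj (T.res' m)
            obtain ⟨i, hn⟩ := hn
            obtain ⟨a, ha⟩ := Submodule.mem_span_singleton.mp (hgen.ge (Submodule.mem_top (x := n)))
            obtain ⟨j, a', ha'⟩ := E.exists_ιR'_pow K (E.ιR K a * (E.ιR' K (E.sR K)) ^ i)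
            refine ⟨j, Submodule.mem_span_singleton.mpr ⟨a', T.res'_injective ?_⟩⟩
            rw [LinearMap.map_smulₛₗ, LinearMap.map_smulₛₗ]
            change E.ιR' K a' • T.res' σ.1.2 = E.ιR' K (E.sR K ^ j) • T.res' m
            rw [← ha', ← (T.mem_h0_iff σ.1).mp σ.2, mul_comm (E.ιR K a), ← mul_assoc, mul_smul]
            have : E.ιR K a • T.res σ.1.1 = (E.ιR K (E.tR K)) ^ i • T.res' m := by
              rw [hn, ← ha]
              exact (T.res.map_smulₛₗ a _).symm
            rw [this, smul_smul, mul_assoc, mul_comm ((E.ιR' K (E.sR K)) ^ i),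
              E.tR_pow_mul_ιR', mul_one, map_pow]
          refine hP.ne_top (eq_top_of_smul_eq_top (M := T.M') P (top_unique fun m _ => ?_))
          obtain ⟨i, hi⟩ := hres m
          have hsm : (E.sR K) ^ i • m ∈ P • (⊤ : Submodule (E.AR' K) T.M') := by
            obtain ⟨c, hc⟩ := Submodule.mem_span_singleton.mp hi
            rw [← hc]
            exact Submodule.smul_mem _ c hxP
          have h2 : Ideal.span {(E.sR K) ^ i} ⊔ P = ⊤ := by
            rw [← Ideal.span_singleton_pow]
            exact Ideal.pow_sup_eq_top h1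
          obtain ⟨u, hu, v, hv, huv⟩ :=
            Submodule.mem_sup.mp (h2.ge (Submodule.mem_top (x := (1 : E.AR' K))))
          obtain ⟨c, rfl⟩ := Ideal.mem_span_singleton'.mp hu
          rw [← one_smul (E.AR' K) m, ← huv, add_smul, mul_smul]
          exact add_mem (Submodule.smul_mem _ c hsm) (Submodule.smul_mem_smul hv trivial)
      -- then the colength is zero, contradicting positivity
      set f := T.sectionHom σ with hf
      have := f.finite_cokM hM
      have := f.finite_cokM' hM'
      have hadd := f.colength_add hM hM'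
      have s1 : Subsingleton f.cokM := Submodule.Quotient.subsingleton_iff.mpr (top_unique
        fun x _ => by
          obtain ⟨a, ha⟩ := Submodule.mem_span_singleton.mp (hgen.ge (Submodule.mem_top (x := x)))
          exact ⟨a, ha⟩)
      have s2 : Subsingleton f.cokM' := Submodule.Quotient.subsingleton_iff.mpr (top_unique
        fun x _ => by
          obtain ⟨a, ha⟩ := Submodule.mem_span_singleton.mp (hgen'.ge (Submodule.mem_top (x := x)))
          exact ⟨a, ha⟩)
      rw [Module.finrank_zero_of_subsingleton (M := f.cokM),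
        Module.finrank_zero_of_subsingleton (M := f.cokM')] at hadd
      omega
  · -- the section vanishes at a point of the first chart
    obtain ⟨P, hP, hxP⟩ := exists_maximal_mem_smul hgen
    have : Algebra.FiniteType k E.A := RingHom.finiteType_algebraMap.mp
      ((Polynomial.aeval (R := k) E.t).comp_algebraMap ▸
        (RingHom.FiniteType.of_finite E.finite).comp
          (RingHom.finiteType_algebraMap.mpr (inferInstance : Algebra.FiniteType k (Polynomial k))))
    let := Ideal.Quotient.field P
    have : Module.Finite K (E.AR K ⧸ P) := finite_of_finite_type_of_isJacobsonRing K _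
    let e : K ≃ₐ[K] (E.AR K ⧸ P) := AlgEquiv.ofBijective (Algebra.ofId K _)
      IsAlgClosed.algebraMap_bijective_of_isIntegral
    let φ : E.AR K →ₐ[K] K := e.symm.toAlgHom.comp (Ideal.Quotient.mkₐ K P)
    have hker : RingHom.ker φ = P := by
      ext x
      rw [RingHom.mem_ker, ← Ideal.Quotient.eq_zero_iff_mem (I := P)]
      exact e.symm.map_eq_zero_iff
    refine Or.inl ⟨φ, h0_tensor_ne_bot (ptHom E φ) Subtype.val_injective hσ
      (exists_tmul_of_mem_smul (Submodule.subtype (RingHom.ker φ)) ?_)
      (exists_tmul_of_mem_smul (Submodule.subtype (ptIdeal' E φ)) ?_)⟩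
    · rw [show LinearMap.range (RingHom.ker φ).subtype = RingHom.ker φ from
        Submodule.range_subtype _, hker]
      exact hxP
    · rw [show LinearMap.range (ptIdeal' E φ).subtype = ptIdeal' E φ from Submodule.range_subtype _]
      set I' := ptIdeal' E φ with hI'
      by_contra hx
      have hres : T.res' σ.1.2 ∈ (P.map (E.ιR K)) • (⊤ : Submodule (E.AR01 K) T.N) := by
        rw [← (T.mem_h0_iff σ.1).mp σ.2]
        refine Submodule.smul_induction_on hxP (fun a ha m _ => ?_) (fun a b ha hb => ?_)
        · rw [LinearMap.map_smulₛₗ]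
          exact Submodule.smul_mem_smul (Ideal.mem_map_of_mem _ ha) trivial
        · rw [map_add]; exact add_mem ha hb
      have hJ : P.map (E.ιR K) ≠ ⊤ := fun htop => hx <| by
        rw [show I' = ⊤ from by rw [hI', ptIdeal', hker, htop, Ideal.comap_top], Submodule.top_smul]
        trivial
      have hJp : (P.map (E.ιR K)).IsPrime := IsLocalization.isPrime_of_isPrime_disjoint
        (Submonoid.powers (E.tR K)) (E.AR01 K) P hP.isPrime (by
          rw [Set.disjoint_left]
          rintro _ ⟨i, rfl⟩ hi
          exact hJ (Ideal.eq_top_of_isUnit_mem _ (Ideal.mem_map_of_mem _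
            (hP.isPrime.mem_of_pow_mem i hi)) (E.isUnit_ιR_tR K)))
      have := E.dedekind' K
      have hI'p : I'.IsPrime := by rw [hI', ptIdeal', hker]; exact Ideal.IsPrime.comap _
      have hI'm : I'.IsMaximal := hI'p.isMaximal (ptIdeal'_ne_bot E φ)
      have htop := span_sup_smul_eq_top I' hx
      refine hJ (eq_top_of_smul_eq_top (M := T.N) _ (top_unique (T.span_range_res'.ge.trans
        (Submodule.span_le.mpr ?_))))
      rintro _ ⟨m, rfl⟩
      obtain ⟨a, ha, b, hb, rfl⟩ := Submodule.mem_sup.mp (htop.ge (Submodule.mem_top (x := m)))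
      obtain ⟨c, rfl⟩ := Submodule.mem_span_singleton.mp ha
      rw [SetLike.mem_coe, map_add, LinearMap.map_smulₛₗ]
      refine add_mem (Submodule.smul_mem _ _ hres) ?_
      refine Submodule.smul_induction_on hb (fun a ha m _ => ?_) (fun a b ha hb => ?_)
      · rw [LinearMap.map_smulₛₗ]
        refine Submodule.smul_mem_smul ?_ trivial
        have : E.ιR' K a ∈ (RingHom.ker φ).map (E.ιR K) := ha
        rwa [hker] at this
      · rw [map_add]; exact add_mem ha hb

end Triple

end FLTA.Jacobian
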