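import Fermat.Agent.Jacobian.CurveDegreeBasic
import Fermat.Agent.Jacobian.CurvePeel
import Fermat.Agent.Jacobian.CurveCoverage

/-!
# Degrees of line bundles over fields (task C2): points and coverage
-/

set_option autoImplicit false

universe u

open TensorProduct
open scoped FLTA.Jacobian.TwoCover FLTA.Jacobian.Triple

namespace FLTA.Jacobian

namespace Triple

variable {k : Type u} [Field k] {E : TwoCover k} {K : Type u} [Field K] [Algebra k K]

/-- An effective bundle of positive degree has a point in its divisor. -/
theorem exists_point_of_section [IsAlgClosed K] (T : Triple E K) (hd : 0 < T.degree)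
    (h : T.H0 ≠ ⊥) :
    (∃ φ : E.AR K →ₐ[K] K, (T.tensor (ptTriple E φ)).H0 ≠ ⊥) ∨
      (T.tensor (εTriple E)).H0 ≠ ⊥ := exists_point_of_section' T hd h

/-- Coverage: finitely many translates of the good locus cover all degree zero bundles. -/
theorem exists_modify_isGood [IsAlgClosed k] (E : TwoCover k) :
    ∃ m r : ℕ, (m * E.deg : ℤ) - r = E.genus ∧
      ∀ (K : Type u) [Field K] [IsAlgClosed K] [Algebra k K] (T : Triple E K), T.degree = 0 →
        ∃ (xs : List (E.A →ₐ[k] k)) (b : Fin E.genus → E.A),
          xs.length = r ∧ IsGood b (T.modify E m xs) := exists_modify_isGood' E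

end Triple

end FLTA.Jacobian
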