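import Mathlib

/-!
# Euler characteristics of two-term complexes and their subcomplexes
-/

set_option autoImplicit false

namespace FLTA.Jacobian

section

variable {K X Y X₀ Y₀ : Type*} [Field K] [AddCommGroup X] [AddCommGroup Y] [AddCommGroup X₀]
  [AddCommGroup Y₀] [Module K X] [Module K Y] [Module K X₀] [Module K Y₀]
  (d₀ : X₀ →ₗ[K] Y₀) (d : X →ₗ[K] Y) (fX : X₀ →ₗ[K] X) (fY : Y₀ →ₗ[K] Y)

/-- The degree of the quotient complex: classes in `X/X₀` with differential in `Y₀`. -/
abbrev quotKer : Type _ :=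
  ↥((LinearMap.range fY).comap d) ⧸
    (LinearMap.range fX).comap ((LinearMap.range fY).comap d).subtype

/-- Additivity of the Euler characteristic along an injective map of two-term complexes whose
quotient has surjective differential. -/
theorem euler_subcomplex (comm : ∀ x, fY (d₀ x) = d (fX x)) (hX : Function.Injective fX)
    (hY : Function.Injective fY) (hsurj : LinearMap.range d ⊔ LinearMap.range fY = ⊤)
    [Module.Finite K (LinearMap.ker d₀)] [Module.Finite K (LinearMap.ker d)]
    [Module.Finite K (Y₀ ⧸ LinearMap.range d₀)] :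
    Module.Finite K (quotKer d fX fY) ∧
    Function.Surjective (Submodule.mapQ (LinearMap.range d₀) (LinearMap.range d) fY (by
      rintro _ ⟨x, rfl⟩
      exact ⟨fX x, (comm x).symm⟩)) ∧
    (Module.finrank K (LinearMap.ker d) : ℤ) - Module.finrank K (Y ⧸ LinearMap.range d) =
      (Module.finrank K (LinearMap.ker d₀) : ℤ) - Module.finrank K (Y₀ ⧸ LinearMap.range d₀) +
        Module.finrank K (quotKer d fX fY) := by
  set W := (LinearMap.range fY).comap d with hWdef
  have hrW : ∀ x, fX x ∈ W := fun x => ⟨d₀ x, comm x⟩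
  have hkW : LinearMap.ker d ≤ W := fun x hx => by
    rw [LinearMap.mem_ker] at hx
    exact ⟨0, by rw [map_zero, hx]⟩
  let p : Submodule K W := (LinearMap.range fX).comap W.subtype
  let γ : LinearMap.ker d →ₗ[K] W ⧸ p := p.mkQ ∘ₗ Submodule.inclusion hkW
  let pre : W →ₗ[K] Y₀ :=
    (LinearEquiv.ofInjective fY hY).symm.toLinearMap ∘ₗ
      (d ∘ₗ W.subtype).codRestrict (LinearMap.range fY) fun x => x.2
  have hpre : ∀ w : W, fY (pre w) = d w.1 := fun w =>
    (LinearEquiv.ofInjective_symm_apply (h := hY) _ _).trans rfl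
  let β : W ⧸ p →ₗ[K] Y₀ ⧸ LinearMap.range d₀ :=
    p.liftQ ((LinearMap.range d₀).mkQ ∘ₗ pre) (by
      rintro w ⟨x, hx⟩
      rw [LinearMap.mem_ker, LinearMap.comp_apply, Submodule.mkQ_apply,
        Submodule.Quotient.mk_eq_zero]
      exact ⟨x, hY (by rw [comm, hpre]; exact congrArg d hx)⟩)
  let π : Y₀ ⧸ LinearMap.range d₀ →ₗ[K] Y ⧸ LinearMap.range d :=
    Submodule.mapQ _ _ fY (by rintro _ ⟨x, rfl⟩; exact ⟨fX x, (comm x).symm⟩)
  have hπ : Function.Surjective π := by
    intro y
    induction y using Submodule.Quotient.induction_on with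
    | H y =>
      obtain ⟨a, ⟨x, rfl⟩, b, ⟨y₀, rfl⟩, hab⟩ :=
        Submodule.mem_sup.mp (hsurj.ge (Submodule.mem_top (x := y)))
      refine ⟨Submodule.Quotient.mk y₀, ?_⟩
      rw [Submodule.mapQ_apply, Submodule.Quotient.eq, ← hab, sub_add_cancel_right]
      exact neg_mem ⟨x, rfl⟩
  have hkerβ : LinearMap.ker β = LinearMap.range γ := by
    refine le_antisymm ?_ ?_
    · intro z hz
      induction z using Submodule.Quotient.induction_on with
      | H w =>
        simp only [β, LinearMap.mem_ker, Submodule.liftQ_apply, LinearMap.comp_apply,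
          Submodule.mkQ_apply, Submodule.Quotient.mk_eq_zero] at hz
        obtain ⟨x, hx⟩ := hz
        have hd : d (w.1 - fX x) = 0 := by rw [map_sub, ← comm, hx, hpre, sub_self]
        refine ⟨⟨w.1 - fX x, hd⟩, ?_⟩
        simp only [γ, LinearMap.comp_apply, Submodule.mkQ_apply, Submodule.Quotient.eq]
        exact ⟨-x, by simp⟩
    · rintro _ ⟨x, rfl⟩
      simp only [γ, β, LinearMap.mem_ker, LinearMap.comp_apply, Submodule.mkQ_apply,
        Submodule.liftQ_apply, Submodule.Quotient.mk_eq_zero]
      exact ⟨0, hY (by rw [map_zero, map_zero, hpre]; exact (LinearMap.mem_ker.mp x.2).symm)⟩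
  have hrβ : LinearMap.range β = LinearMap.ker π := by
    refine le_antisymm ?_ ?_
    · rintro _ ⟨z, rfl⟩
      induction z using Submodule.Quotient.induction_on with
      | H w =>
        simp only [β, π, LinearMap.mem_ker, Submodule.liftQ_apply, LinearMap.comp_apply,
          Submodule.mkQ_apply, Submodule.mapQ_apply, Submodule.Quotient.mk_eq_zero, hpre]
        exact ⟨w.1, rfl⟩
    · intro y hy
      induction y using Submodule.Quotient.induction_on with
      | H y =>
        simp only [π, LinearMap.mem_ker, Submodule.mapQ_apply, Submodule.Quotient.mk_eq_zero] at hy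
        obtain ⟨x, hx⟩ := hy
        refine ⟨p.mkQ ⟨x, ⟨y, hx.symm⟩⟩, ?_⟩
        simp only [β, Submodule.mkQ_apply, Submodule.liftQ_apply, LinearMap.comp_apply]
        congr 1
        exact hY (by rw [hpre]; exact hx)
  let ι : LinearMap.ker d₀ →ₗ[K] LinearMap.ker d :=
    (fX ∘ₗ (LinearMap.ker d₀).subtype).codRestrict _ fun x => by
      rw [LinearMap.mem_ker, LinearMap.comp_apply, ← comm]
      simp [LinearMap.mem_ker.mp x.2]
  have hι : Function.Injective ι := fun a b h => Subtype.ext (hX (congr_arg Subtype.val h))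
  have hkγ : LinearMap.ker γ = LinearMap.range ι := by
    refine le_antisymm ?_ ?_
    · intro x hx
      simp only [γ, LinearMap.mem_ker, LinearMap.comp_apply, Submodule.mkQ_apply,
        Submodule.Quotient.mk_eq_zero] at hx
      obtain ⟨x₀, hx₀⟩ := hx
      refine ⟨⟨x₀, hY ?_⟩, Subtype.ext hx₀⟩
      rw [comm, map_zero]
      exact (congrArg d hx₀).trans (LinearMap.mem_ker.mp x.2)
    · rintro _ ⟨x, rfl⟩
      simp only [γ, LinearMap.mem_ker, LinearMap.comp_apply, Submodule.mkQ_apply,
        Submodule.Quotient.mk_eq_zero]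
      exact ⟨x.1, rfl⟩
  have : Module.Finite K (LinearMap.ker β) := hkerβ ▸ inferInstance
  have hfin : Module.Finite K (W ⧸ p) :=
    haveI : Module.Finite K ((W ⧸ p) ⧸ LinearMap.ker β) :=
      Module.Finite.equiv (LinearMap.quotKerEquivRange β).symm
    Module.Finite.of_submodule_quotient (LinearMap.ker β)
  refine ⟨hfin, hπ, ?_⟩
  have h1 := LinearMap.finrank_range_add_finrank_ker γ
  have h2 := LinearMap.finrank_range_add_finrank_ker β
  have h3 := LinearMap.finrank_range_add_finrank_ker π
  rw [hkγ, LinearMap.finrank_range_of_inj hι] at h1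
  rw [hkerβ, hrβ] at h2
  have : Module.Finite K (Y ⧸ LinearMap.range d) := Module.Finite.of_surjective π hπ
  rw [LinearMap.range_eq_top.mpr hπ, finrank_top] at h3
  change _ = _ + (Module.finrank K (W ⧸ p) : ℤ)
  omega

end

end FLTA.Jacobian
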