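import Fermat.Agent.Jacobian.CechCohom
import Fermat.Agent.Jacobian.CurveEuler

/-!
# Injective maps of line bundles over a field
-/

set_option autoImplicit false

universe u

open TensorProduct
open scoped FLTA.Jacobian.TwoCover FLTA.Jacobian.Triple

namespace FLTA.Jacobian

namespace Triple

variable {k : Type u} [Field k] {E : TwoCover k}

/-- Morphisms of line bundles. -/
structure Hom {R : Type u} [CommRing R] [Algebra k R] (T₀ T : Triple E R) : Type u where
  fM : T₀.M →ₗ[E.AR R] T.M
  fM' : T₀.M' →ₗ[E.AR' R] T.M'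
  fN : T₀.N →ₗ[E.AR01 R] T.N
  comm : ∀ m, fN (T₀.res m) = T.res (fM m)
  comm' : ∀ m, fN (T₀.res' m) = T.res' (fM' m)

namespace Hom

section Ring

variable {R : Type u} [CommRing R] [Algebra k R] {T₀ T : Triple E R} (f : Hom T₀ T)

/-- The `R`-linear map on cochains in degree zero. -/
noncomputable def fX : T₀.M × T₀.M' →ₗ[R] T.M × T.M' :=
  (f.fM.restrictScalars R).prodMap (f.fM'.restrictScalars R)

/-- The `R`-linear map on cochains in degree one. -/
noncomputable def fY : T₀.N →ₗ[R] T.N := f.fN.restrictScalars R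

lemma fY_diff (x : T₀.M × T₀.M') : f.fY (T₀.diff x) = T.diff (f.fX x) := by
  rw [diff_apply, diff_apply, fY, LinearMap.coe_restrictScalars, map_sub, f.comm, f.comm']
  rfl

lemma fN_injective (hM : Function.Injective f.fM) : Function.Injective f.fN := by
  rw [injective_iff_map_eq_zero]
  intro n hn
  obtain ⟨m, i, hm⟩ := T₀.res_surj n
  have : f.fM m = 0 := T.res_injective (by rw [← f.comm, ← hm, map_smul, hn, smul_zero, map_zero])
  rw [hM (this.trans (map_zero _).symm), map_zero] at hm
  exact (((E.isUnit_ιR_tR R).pow i).smul_eq_zero).mp hm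

/-- Twisting a morphism. -/
noncomputable def twist (m : ℕ) : Hom (T₀.twist m) (T.twist m) where
  fM := f.fM
  fM' := f.fM'
  fN := f.fN
  comm := f.comm
  comm' x := by
    change f.fN ((E.ιR R (E.tR R)) ^ m • T₀.res' x) = (E.ιR R (E.tR R)) ^ m • T.res' (f.fM' x)
    exact (map_smul f.fN _ _).trans (congrArg _ (f.comm' x))

end Ring

section Field

variable {K : Type u} [Field K] [Algebra k K] {T₀ T : Triple E K} (f : Hom T₀ T)

lemma nontrivial_M (U : Triple E K) : Nontrivial U.M := by
  have := E.domain K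
  by_contra h
  rw [not_nontrivial_iff_subsingleton] at h
  have h1 : ∀ (a : E.AR K) (x : U.M), a • x = x := fun a x => Subsingleton.elim _ _
  exact zero_ne_one (FaithfulSMul.eq_of_smul_eq_smul (α := U.M)
    (fun x => (h1 (0 : E.AR K) x).trans (h1 1 x).symm))

lemma exists_ne_zero_smul_mem (hM : Function.Injective f.fM) :
    ∃ a : E.AR K, a ≠ 0 ∧ ∀ m : T.M, a • m ∈ LinearMap.range f.fM := by
  have := E.domain K
  have := nontrivial_M T₀
  obtain ⟨m₀, hm₀⟩ := exists_ne (0 : T₀.M)
  obtain ⟨I, ⟨e⟩⟩ := Module.Invertible.exists_linearEquiv_ideal (E.AR K) T.M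
  refine ⟨(e (f.fM m₀) : E.AR K), fun h => ?_, fun m => ⟨(e m : E.AR K) • m₀, ?_⟩⟩
  · exact hm₀ (hM (e.injective (((Subtype.ext h : e (f.fM m₀) = 0).trans (map_zero e).symm).trans
      (congrArg e (map_zero f.fM).symm))))
  · apply e.injective
    rw [map_smul, map_smul, map_smul]
    exact Subtype.ext (mul_comm _ _)

lemma sup_range_res (hM : Function.Injective f.fM) :
    LinearMap.range T.resLin ⊔ LinearMap.range f.fY = ⊤ := by
  obtain ⟨a, ha, hasmul⟩ := f.exists_ne_zero_smul_mem hM
  have := E.domain K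
  have := E.dedekind K
  have : IsArtinianRing (E.AR K ⧸ Ideal.span {a}) := by
    have hne : Ideal.span {a} ≠ ⊥ := by simpa using ha
    have : Ring.KrullDimLE 0 (E.AR K ⧸ Ideal.span {a}) := by
      refine Ring.KrullDimLE.mk₀ fun P hP => ?_
      have hP' := Ideal.comap_isPrime (Ideal.Quotient.mk (Ideal.span {a})) P
      have hne' : P.comap (Ideal.Quotient.mk (Ideal.span {a})) ≠ ⊥ := fun h => hne <| by
        rw [eq_bot_iff, ← h]
        intro x hx
        simp [Ideal.mem_comap, Ideal.Quotient.eq_zero_iff_mem.mpr hx]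
      have := hP'.isMaximal hne'
      rw [← Ideal.map_comap_of_surjective _ Ideal.Quotient.mk_surjective P]
      refine (Ideal.map_eq_top_or_isMaximal_of_surjective _ Ideal.Quotient.mk_surjective
        this).resolve_left ?_
      rw [Ideal.map_comap_of_surjective _ Ideal.Quotient.mk_surjective P]
      exact hP.ne_top
    exact isArtinianRing_iff_isNoetherianRing_krullDimLE_zero.mpr ⟨inferInstance, this⟩
  obtain ⟨j, r, hr⟩ := IsArtinian.exists_pow_succ_smul_dvd
    (Ideal.Quotient.mk (Ideal.span {a}) (E.tR K)) (1 : E.AR K ⧸ Ideal.span {a})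
  obtain ⟨r, rfl⟩ := Ideal.Quotient.mk_surjective r
  simp only [smul_eq_mul, mul_one] at hr
  have key : ∀ i : ℕ, E.tR K ^ j - E.tR K ^ (i + j) * r ^ i ∈ Ideal.span {a} := by
    intro i
    induction i with
    | zero => simp
    | succ i ih =>
      have h1 : E.tR K ^ (j + 1) * r - E.tR K ^ j ∈ Ideal.span {a} := by
        rw [← Ideal.Quotient.eq, map_mul, map_pow, map_pow, ← hr]
      have : E.tR K ^ j - E.tR K ^ (i + 1 + j) * r ^ (i + 1) =
          (E.tR K ^ j - E.tR K ^ (i + j) * r ^ i) -
            E.tR K ^ i * r ^ i * (E.tR K ^ (j + 1) * r - E.tR K ^ j) := by ring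
      rw [this]
      exact sub_mem ih (Ideal.mul_mem_left _ _ h1)
  rw [eq_top_iff]
  intro n _
  obtain ⟨m, i, hm⟩ := T.res_surj n
  obtain ⟨c, hc⟩ := Ideal.mem_span_singleton'.mp (key i)
  obtain ⟨z, hz⟩ := hasmul (c • m)
  rw [smul_smul, mul_comm, hc] at hz
  have h2 : (E.ιR K (E.tR K)) ^ (i + j) • n =
      (E.ιR K (E.tR K)) ^ (i + j) • T.res (r ^ i • m) + f.fN (T₀.res z) := by
    rw [f.comm, hz, LinearMap.map_smulₛₗ, LinearMap.map_smulₛₗ, ← hm]
    simp only [AlgHom.toRingHom_eq_coe, RingHom.coe_coe, map_sub, map_mul, map_pow, smul_smul,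
      ← add_smul]
    congr 1
    ring
  have h3 := congrArg ((E.ιR' K (E.sR K)) ^ (i + j) • ·) h2
  simp only [smul_add, smul_smul, mul_comm ((E.ιR' K (E.sR K)) ^ (i + j)),
    E.tR_pow_mul_ιR', one_smul] at h3
  rw [h3]
  refine add_mem (Submodule.mem_sup_left ⟨_, rfl⟩) (Submodule.mem_sup_right
    ⟨(E.ιR' K (E.sR K)) ^ (i + j) • T₀.res z, ?_⟩)
  exact map_smul f.fN _ _

lemma sup_range_diff (hM : Function.Injective f.fM) :
    LinearMap.range T.diff ⊔ LinearMap.range f.fY = ⊤ := by
  refine top_unique (le_trans (f.sup_range_res hM).ge (sup_le_sup_right ?_ _))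
  rintro _ ⟨m, rfl⟩
  exact ⟨(m, 0), by rw [diff_apply]; exact (congrArg (T.res m - ·) (map_zero T.res')).trans (sub_zero _)⟩

/-- The map on first cohomology. -/
noncomputable def h1Map : T₀.H1 →ₗ[K] T.H1 :=
  Submodule.mapQ _ _ f.fY (by rintro _ ⟨x, rfl⟩; exact ⟨f.fX x, (f.fY_diff x).symm⟩)

/-- The degree of the divisor of an injective morphism. -/
noncomputable def colength : ℕ := Module.finrank K (quotKer T.diff f.fX f.fY)

lemma fX_injective (hM : Function.Injective f.fM) (hM' : Function.Injective f.fM') :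
    Function.Injective f.fX := hM.prodMap hM'

theorem finite_quotKer (hM : Function.Injective f.fM) (hM' : Function.Injective f.fM') :
    Module.Finite K (quotKer T.diff f.fX f.fY) := by
  have := T₀.finite_h0
  have := T.finite_h0
  exact (euler_subcomplex T₀.diff T.diff f.fX f.fY f.fY_diff (f.fX_injective hM hM')
    (f.fN_injective hM) (f.sup_range_diff hM)).1

theorem h1Map_surjective (hM : Function.Injective f.fM) (hM' : Function.Injective f.fM') :
    Function.Surjective f.h1Map := by
  have := T₀.finite_h0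
  have := T.finite_h0
  exact (euler_subcomplex T₀.diff T.diff f.fX f.fY f.fY_diff (f.fX_injective hM hM')
    (f.fN_injective hM) (f.sup_range_diff hM)).2.1

theorem chi_eq (hM : Function.Injective f.fM) (hM' : Function.Injective f.fM') :
    T.chi = T₀.chi + f.colength := by
  have := T₀.finite_h0
  have := T.finite_h0
  exact (euler_subcomplex T₀.diff T.diff f.fX f.fY f.fY_diff (f.fX_injective hM hM')
    (f.fN_injective hM) (f.sup_range_diff hM)).2.2

theorem subsingleton_h1 (hM : Function.Injective f.fM) (hM' : Function.Injective f.fM')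
    (h : Subsingleton T₀.H1) : Subsingleton T.H1 :=
  (f.h1Map_surjective hM hM').subsingleton

end Field

end Hom

end Triple

end FLTA.Jacobian
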