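import Fermat.Agent.Jacobian.CurveColength
import Fermat.Agent.Jacobian.CurveField

/-!
# Sections, the morphism from the trivial bundle, and point triples
-/

set_option autoImplicit false

universe u

open TensorProduct
open scoped FLTA.Jacobian.TwoCover FLTA.Jacobian.Triple

namespace FLTA.Jacobian

namespace Triple

variable {k : Type u} [Field k] {E : TwoCover k}

/-- An isomorphism as a morphism. -/
noncomputable def Iso.toHom {R : Type u} [CommRing R] [Algebra k R] {T T' : Triple E R}
    (e : Iso T T') : Hom T T' where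
  fM := e.eM.toLinearMap
  fM' := e.eM'.toLinearMap
  fN := e.eN.toLinearMap
  comm := e.comm
  comm' := e.comm'

/-- The morphism from the trivial bundle given by a global section. -/
noncomputable def sectionHom {R : Type u} [CommRing R] [Algebra k R] (T : Triple E R)
    (σ : T.H0) : Hom (one E R) T where
  fM := (LinearMap.toSpanSingleton (E.AR R) T.M σ.1.1)
  fM' := (LinearMap.toSpanSingleton (E.AR' R) T.M' σ.1.2)
  fN := (LinearMap.toSpanSingleton (E.AR01 R) T.N (T.res σ.1.1))
  comm a := (T.res.map_smulₛₗ a σ.1.1).symm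
  comm' a := by
    change E.ιR' R a • T.res σ.1.1 = T.res' ((show E.AR' R from a) • σ.1.2)
    rw [(T.mem_h0_iff σ.1).mp σ.2]
    exact (T.res'.map_smulₛₗ a σ.1.2).symm

/-- Iterated twists. -/
noncomputable def twistTwist {R : Type u} [CommRing R] [Algebra k R] (T : Triple E R) (i j : ℕ) :
    Iso ((T.twist i).twist j) (T.twist (i + j)) where
  eM := LinearEquiv.refl _ _
  eM' := LinearEquiv.refl _ _
  eN := LinearEquiv.refl _ _
  comm _ := rfl
  comm' x := by
    change (E.ιR R (E.tR R)) ^ j • (E.ιR R (E.tR R)) ^ i • T.res' x =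
      (E.ιR R (E.tR R)) ^ (i + j) • T.res' x
    rw [smul_smul, ← pow_add, add_comm]

variable {K : Type u} [Field K] [Algebra k K] (T : Triple E K)

lemma torsionFree_of_invertible {A M : Type u} [CommRing A] [IsDomain A] [AddCommGroup M]
    [Module A M] [Module.Invertible A M] {a : A} {x : M} (hx : x ≠ 0) (h : a • x = 0) : a = 0 := by
  obtain ⟨I, ⟨e⟩⟩ := Module.Invertible.exists_linearEquiv_ideal A M
  have h1 : a * (e x : A) = 0 := by
    have := congrArg e h
    rw [map_smul, map_zero] at this
    exact congrArg Subtype.val this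
  exact (mul_eq_zero.mp h1).resolve_right fun h2 =>
    hx (e.injective (((Subtype.ext h2 : e x = 0)).trans (map_zero e).symm))

lemma section_fst_ne_zero {σ : T.H0} (hσ : σ ≠ 0) : σ.1.1 ≠ 0 := fun h => hσ <| by
  refine Subtype.ext (Prod.ext h (T.res'_injective ?_))
  rw [← (T.mem_h0_iff σ.1).mp σ.2, h, map_zero]
  exact (map_zero T.res').symm

lemma section_snd_ne_zero {σ : T.H0} (hσ : σ ≠ 0) : σ.1.2 ≠ 0 := fun h => hσ <| by
  refine Subtype.ext (Prod.ext (T.res_injective ?_) h)
  rw [(T.mem_h0_iff σ.1).mp σ.2, h, map_zero]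
  exact (map_zero T.res).symm

lemma sectionHom_injective {σ : T.H0} (hσ : σ ≠ 0) :
    Function.Injective (T.sectionHom σ).fM ∧ Function.Injective (T.sectionHom σ).fM' := by
  have := E.domain K
  have := E.domain' K
  constructor
  · rw [injective_iff_map_eq_zero]
    exact fun a ha => torsionFree_of_invertible (T.section_fst_ne_zero hσ) ha
  · rw [injective_iff_map_eq_zero]
    exact fun a ha => torsionFree_of_invertible (T.section_snd_ne_zero hσ) ha

theorem nonempty_iso_one_of_colength {σ : T.H0} (hσ : σ ≠ 0)
    (h : (T.sectionHom σ).colength = 0) : Nonempty (Iso T (one E K)) := by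
  set f := T.sectionHom σ with hf
  obtain ⟨hM, hM'⟩ := T.sectionHom_injective hσ
  have := f.finite_cokM hM
  have := f.finite_cokM' hM'
  have hadd := f.colength_add hM hM'
  have hle := LinearMap.finrank_le_finrank_of_surjective (f := f.cokRes) (f.cokRes_surjective hM)
  have hM'0 : Module.finrank K f.cokM' = 0 := by omega
  have htop' : LinearMap.range f.fM' = ⊤ := by
    have := Module.finrank_zero_iff.mp hM'0
    rw [Submodule.Quotient.subsingleton_iff] at this
    exact top_unique fun x _ => (this.ge (Submodule.mem_top (x := x)) :)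
  have hN : LinearMap.range f.fN = ⊤ := by
    refine top_unique (T.span_range_res'.ge.trans (Submodule.span_le.mpr ?_))
    rintro _ ⟨x, rfl⟩
    obtain ⟨y, rfl⟩ := LinearMap.range_eq_top.mp htop' x
    exact ⟨_, f.comm' y⟩
  have hN0 : Module.finrank K f.cokN = 0 := by
    have : Subsingleton f.cokN := Submodule.Quotient.subsingleton_iff.mpr
      (top_unique fun x _ => (hN.ge (Submodule.mem_top (x := x)) :))
    exact Module.finrank_zero_of_subsingleton
  have hM0 : Module.finrank K f.cokM = 0 := by omega
  have htop : LinearMap.range f.fM = ⊤ := by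
    have := Module.finrank_zero_iff.mp hM0
    rw [Submodule.Quotient.subsingleton_iff] at this
    exact top_unique fun x _ => (this.ge (Submodule.mem_top (x := x)) :)
  exact ⟨Iso.symm
    { eM := LinearEquiv.ofBijective f.fM ⟨hM, LinearMap.range_eq_top.mp htop⟩
      eM' := LinearEquiv.ofBijective f.fM' ⟨hM', LinearMap.range_eq_top.mp htop'⟩
      eN := LinearEquiv.ofBijective f.fN ⟨f.fN_injective hM, LinearMap.range_eq_top.mp hN⟩
      comm := f.comm
      comm' := f.comm' }⟩

variable (E)

/-- The inclusion `O(-x) → O`. -/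
noncomputable def ptHom (φ : E.AR K →ₐ[K] K) : Hom (ptTriple E φ) (one E K) where
  fM := (RingHom.ker φ).subtype
  fM' := (ptIdeal' E φ).subtype
  fN := ((RingHom.ker φ).map (E.ιR K)).subtype
  comm _ := rfl
  comm' _ := rfl

/-- The inclusion `O(-ε) → O`. -/
noncomputable def εHom : Hom (εTriple E (K := K)) (one E K) where
  fM := (⊤ : Ideal (E.AR K)).subtype
  fM' := (RingHom.ker (E.εR K)).subtype
  fN := ((⊤ : Ideal (E.AR K)).map (E.ιR K)).subtype
  comm _ := rfl
  comm' _ := rfl

theorem colength_ptHom (φ : E.AR K →ₐ[K] K) : (ptHom E φ).colength = 1 := by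
  set f := ptHom E φ with hf
  have hM : Function.Injective f.fM := Subtype.val_injective
  have hM' : Function.Injective f.fM' := Subtype.val_injective
  have := f.finite_cokM hM
  have := f.finite_cokM' hM'
  have hadd := f.colength_add hM hM'
  have hle := LinearMap.finrank_le_finrank_of_surjective (f := f.cokRes) (f.cokRes_surjective hM)
  have hMrange : LinearMap.range ((RingHom.ker φ).subtype.restrictScalars K) =
      LinearMap.ker φ.toLinearMap := by
    ext x
    exact ⟨fun ⟨y, hy⟩ => hy ▸ y.2, fun hx => ⟨⟨x, hx⟩, rfl⟩⟩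
  have hd : Module.finrank K f.cokM = 1 := by
    change Module.finrank K
      (E.AR K ⧸ LinearMap.range ((RingHom.ker φ).subtype.restrictScalars K)) = 1
    rw [← Module.finrank_self K]
    exact ((Submodule.quotEquivOfEq _ _ hMrange).trans
      (φ.toLinearMap.quotKerEquivOfSurjective fun x => ⟨algebraMap K _ x, φ.commutes x⟩)).finrank_eq
  have hinj : Function.Injective f.cokRes' := by
    rw [injective_iff_map_eq_zero]
    intro q hq
    induction q using Submodule.Quotient.induction_on with
    | H x =>
      rw [Hom.cokRes', Submodule.mapQ_apply, Submodule.Quotient.mk_eq_zero] at hq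
      obtain ⟨y, hy⟩ := hq
      exact (Submodule.Quotient.mk_eq_zero _).mpr
        ⟨⟨x, Ideal.mem_comap.mpr (hy ▸ y.2 : E.ιR' K x ∈ _)⟩, rfl⟩
  have : Module.Finite K f.cokN := Module.Finite.of_surjective _ (f.cokRes_surjective hM)
  have hle' := LinearMap.finrank_le_finrank_of_injective hinj
  by_cases h0 : Module.finrank K f.cokM' = 0
  · have hsub := Module.finrank_zero_iff.mp h0
    rw [Submodule.Quotient.subsingleton_iff] at hsub
    obtain ⟨y, hy⟩ := hsub.ge (Submodule.mem_top (x := (1 : E.AR' K)))
    have h1 : (1 : E.AR01 K) ∈ (RingHom.ker φ).map (E.ιR K) := by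
      have h2 := y.2
      rw [show y.1 = 1 from hy] at h2
      simpa [ptIdeal'] using h2
    have : Subsingleton f.cokN := Submodule.Quotient.subsingleton_iff.mpr
      (top_unique fun x _ => ⟨⟨x, (Ideal.eq_top_iff_one _).mpr h1 ▸ Submodule.mem_top⟩, rfl⟩)
    have := Module.finrank_zero_of_subsingleton (R := K) (M := f.cokN)
    omega
  · omega

theorem colength_εHom : (εHom E (K := K)).colength = 1 := by
  set f := εHom E (K := K) with hf
  have hM : Function.Injective f.fM := Subtype.val_injective
  have hM' : Function.Injective f.fM' := Subtype.val_injective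
  have := f.finite_cokM hM
  have hadd := f.colength_add hM hM'
  have hle := LinearMap.finrank_le_finrank_of_surjective (f := f.cokRes) (f.cokRes_surjective hM)
  have : Subsingleton f.cokM := Submodule.Quotient.subsingleton_iff.mpr
    (top_unique fun x _ => ⟨⟨x, Submodule.mem_top⟩, rfl⟩)
  have h0 := Module.finrank_zero_of_subsingleton (R := K) (M := f.cokM)
  have hrange : LinearMap.range ((RingHom.ker (E.εR K)).subtype.restrictScalars K) =
      LinearMap.ker (E.εR K).toLinearMap := by
    ext x
    exact ⟨fun ⟨y, hy⟩ => hy ▸ y.2, fun hx => ⟨⟨x, hx⟩, rfl⟩⟩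
  have hd : Module.finrank K f.cokM' = 1 := by
    change Module.finrank K
      (E.AR' K ⧸ LinearMap.range ((RingHom.ker (E.εR K)).subtype.restrictScalars K)) = 1
    rw [← Module.finrank_self K]
    exact ((Submodule.quotEquivOfEq _ _ hrange).trans
      ((E.εR K).toLinearMap.quotKerEquivOfSurjective
        fun x => ⟨algebraMap K _ x, (E.εR K).commutes x⟩)).finrank_eq
  omega

end Triple

end FLTA.Jacobian
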