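import Fermat.Agent.Jacobian.CurvePoint
import Fermat.Agent.Jacobian.CurveTensorIso
import Fermat.Agent.Jacobian.CurveHom
import Fermat.Agent.Jacobian.CurveSection
import Fermat.Agent.Jacobian.CurveField
import Fermat.Agent.Jacobian.CechCohom
import Fermat.Agent.Jacobian.ChartGood

/-!
# Degrees of line bundles over fields (task C2)
-/

set_option autoImplicit false

universe u

open TensorProduct
open scoped FLTA.Jacobian.TwoCover FLTA.Jacobian.Triple

namespace FLTA.Jacobian

namespace Triple

variable {k : Type u} [Field k] {E : TwoCover k} {K : Type u} [Field K] [Algebra k K]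

/-- The degree of a line bundle over a field. -/
noncomputable def degree (T : Triple E K) : ℤ := T.chi - (1 - (E.genus : ℤ))

theorem finrank_h0_one : Module.finrank K (one E K).H0 = 1 := finrank_h0_one'

theorem chi_one : (one E K).chi = 1 - (E.genus : ℤ) := chi_one'

theorem degree_one : (one E K).degree = 0 := by rw [degree, chi_one, sub_self]

theorem Iso.degree_eq {T T' : Triple E K} (e : Iso T T') : T.degree = T'.degree := by
  rw [degree, degree, e.chi_eq]

theorem BaseChange.degree_eq {L : Type u} [Field L] [Algebra k L] [Algebra K L]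
    [IsScalarTower k K L] {T : Triple E K} {TL : Triple E L} (b : BaseChange T TL) :
    TL.degree = T.degree := by
  rw [degree, degree, b.chi_eq]

theorem degree_twist (T : Triple E K) (m : ℕ) :
    (T.twist m).degree = T.degree + m * E.deg := by
  rw [degree, degree, chi_twist]
  ring

theorem deg_pos : 0 < E.deg := deg_pos'

/-- Riemann's inequality. -/
theorem h0_ne_bot_of_genus_le (T : Triple E K) (h : (E.genus : ℤ) ≤ T.degree) : T.H0 ≠ ⊥ := by
  intro hbot
  have h0 : Module.finrank K T.H0 = 0 := by rw [hbot, finrank_bot]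
  rw [degree, chi] at h
  omega

theorem degree_eq_of_hom {T₀ T : Triple E K} (f : Hom T₀ T) (hM : Function.Injective f.fM)
    (hM' : Function.Injective f.fM') : T.degree = T₀.degree + f.colength := by
  rw [degree, degree, f.chi_eq hM hM']
  ring

theorem exists_section_hom (T : Triple E K) (h : T.H0 ≠ ⊥) :
    ∃ σ : T.H0, σ ≠ 0 ∧ T.degree = (T.sectionHom σ).colength := by
  obtain ⟨x, hx, hne⟩ := Submodule.exists_mem_ne_zero_of_ne_bot h
  refine ⟨⟨x, hx⟩, fun h0 => hne (congrArg Subtype.val h0), ?_⟩
  obtain ⟨h1, h2⟩ := T.sectionHom_injective (σ := ⟨x, hx⟩) fun h0 => hne (congrArg Subtype.val h0)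
  rw [degree_eq_of_hom _ h1 h2, degree_one, zero_add]

theorem degree_nonneg (T : Triple E K) (h : T.H0 ≠ ⊥) : 0 ≤ T.degree := by
  obtain ⟨σ, -, hσ⟩ := exists_section_hom T h
  rw [hσ]
  positivity

theorem nonempty_iso_one (T : Triple E K) (hd : T.degree = 0) (h : T.H0 ≠ ⊥) :
    Nonempty (Iso T (one E K)) := by
  obtain ⟨σ, hσ, hdeg⟩ := exists_section_hom T h
  exact T.nonempty_iso_one_of_colength hσ (by omega)

theorem Iso.subsingleton_h1 {T T' : Triple E K} (e : Iso T T') (h : Subsingleton T.H1) :
    Subsingleton T'.H1 :=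
  e.toHom.subsingleton_h1 e.eM.injective e.eM'.injective h

/-- Uniform vanishing of `H¹` for twists of degree zero bundles. -/
theorem exists_uniform_twist_h1 (E : TwoCover k) :
    ∃ m₀ : ℕ, ∀ (K : Type u) [Field K] [Algebra k K] (T : Triple E K), T.degree = 0 →
      ∀ m : ℕ, m₀ ≤ m → Subsingleton (T.twist m).H1 := by
  obtain ⟨d, hd⟩ := (one E k).exists_twist_h1
  refine ⟨E.genus + d, fun K _ _ T hT m hm => ?_⟩
  obtain ⟨j, rfl⟩ := Nat.exists_eq_add_of_le (le_trans (Nat.le_add_right _ _) hm)
  have h1 : Subsingleton ((one E K).twist j).H1 :=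
    ((oneBaseChange E k K).twist j).h1_subsingleton (hd j (by omega))
  have h2 : ((T.twist E.genus).H0) ≠ ⊥ := by
    apply h0_ne_bot_of_genus_le
    rw [degree_twist, hT, zero_add]
    have := deg_pos (E := E)
    exact_mod_cast Nat.le_mul_of_pos_right _ this
  obtain ⟨σ, hσ, -⟩ := exists_section_hom _ h2
  obtain ⟨i1, i2⟩ := (T.twist E.genus).sectionHom_injective hσ
  exact (twistTwist T E.genus j).subsingleton_h1
    ((((T.twist E.genus).sectionHom σ).twist j).subsingleton_h1 i1 i2 h1)

/-- The degree is additive. -/
theorem degree_tensor (T P : Triple E K) : (T.tensor P).degree = T.degree + P.degree := by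
  let m := E.genus + (-P.degree).toNat
  have hP : (P.twist m).H0 ≠ ⊥ := by
    apply h0_ne_bot_of_genus_le
    rw [degree_twist]
    have h1 := deg_pos (E := E)
    have h2 : (m : ℤ) ≤ m * E.deg := by exact_mod_cast Nat.le_mul_of_pos_right m h1
    omega
  obtain ⟨σ, hσ, hdeg⟩ := exists_section_hom _ hP
  obtain ⟨hM, hM'⟩ := (P.twist m).sectionHom_injective hσ
  set f := (P.twist m).sectionHom σ
  have h := degree_eq_of_hom (f.lTensor T) (f.lTensor_injective T hM) (f.lTensor_injective' T hM')
  rw [f.colength_lTensor T hM hM', (T.tensorTwistRight P m).degree_eq, degree_twist,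
    T.tensorOne.degree_eq, ← hdeg, degree_twist] at h
  linarith

theorem degree_ptTriple (φ : E.AR K →ₐ[K] K) : (ptTriple E φ).degree = -1 := by
  have h := degree_eq_of_hom (ptHom E φ) Subtype.val_injective Subtype.val_injective
  rw [colength_ptHom, degree_one] at h
  omega

theorem degree_εTriple : (εTriple E (K := K)).degree = -1 := by
  have h := degree_eq_of_hom (εHom E (K := K)) Subtype.val_injective Subtype.val_injective
  rw [colength_εHom, degree_one] at h
  omega

theorem degree_tensor_ptTriple (T : Triple E K) (φ : E.AR K →ₐ[K] K) :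
    (T.tensor (ptTriple E φ)).degree = T.degree - 1 := by
  rw [degree_tensor, degree_ptTriple]; ring

theorem degree_tensor_εTriple (T : Triple E K) :
    (T.tensor (εTriple E)).degree = T.degree - 1 := by
  rw [degree_tensor, degree_εTriple]; ring

/-- A modification is the tensor product with a constant line bundle. -/
theorem modifyIso {R : Type u} [CommRing R] [Algebra k R] (T : Triple E R) (m : ℕ)
    (xs : List (E.A →ₐ[k] k)) :
    Nonempty (Iso (T.modify E m xs) (T.tensor (((one E k).modify E m xs).bc R))) := by
  let b1 := (oneBaseChange E k R).twist m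
  let b2 : BaseChange ((ptsTriple E xs).bc k) ((ptsTriple E xs).bc R) :=
    ((BaseChange.refl (ptsTriple E xs)).iso ((ptsTriple E xs).bcBaseChange k)).symm |>
      fun e => BaseChange.congrLeft e ((ptsTriple E xs).bcBaseChange R)
  let b : BaseChange ((one E k).modify E m xs) (((one E R).twist m).tensor ((ptsTriple E xs).bc R)) :=
    b1.tensor R b2
  have i1 := (((one E k).modify E m xs).bcBaseChange R).iso b
  exact ⟨((((Iso.refl T).tensor i1).trans
    ((T.tensorAssoc _ _).symm.trans (((T.tensorTwistRight (one E R) m).trans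
      (T.tensorOne.twist m)).tensor (Iso.refl _))))).symm⟩

theorem degree_ptsTriple (xs : List (E.A →ₐ[k] k)) :
    (ptsTriple E xs).degree = -(xs.length : ℤ) := by
  induction xs with
  | nil => simpa [ptsTriple] using degree_one (E := E) (K := k)
  | cons φ l ih =>
    rw [ptsTriple, degree_tensor, degree_ptTriple, ih, List.length_cons]
    push_cast
    ring

theorem degree_modify (T : Triple E K) (m : ℕ) (xs : List (E.A →ₐ[k] k)) :
    (T.modify E m xs).degree = T.degree + m * E.deg - xs.length := by
  rw [modify, degree_tensor, degree_twist, ((ptsTriple E xs).bcBaseChange K).degree_eq,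
    degree_ptsTriple]
  ring

end Triple

end FLTA.Jacobian
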