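import Fermat.Agent.Jacobian.CurveTriple

/-!
# Point triples
-/

set_option autoImplicit false

universe u

open TensorProduct
open scoped nonZeroDivisors
open scoped FLTA.Jacobian.TwoCover FLTA.Jacobian.Triple

namespace FLTA.Jacobian

/-- Nonzero ideals of a Dedekind domain are invertible modules. -/
theorem invertible_ideal_of_ne_bot {A : Type u} [CommRing A] [IsDedekindDomain A] {I : Ideal A}
    (hI : I ≠ ⊥) : Module.Invertible A I := by
  let L := FractionRing A
  let J : FractionalIdeal A⁰ L := I
  have hJ : IsUnit J := isUnit_iff_ne_zero.mpr (FractionalIdeal.coeIdeal_ne_zero.mpr hI)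
  have hU : IsUnit (J : Submodule A L) := by
    obtain ⟨u, hu⟩ := hJ
    refine IsUnit.of_mul_eq_one ((u⁻¹ : (FractionalIdeal A⁰ L)ˣ) : FractionalIdeal A⁰ L) ?_
    rw [← FractionalIdeal.coe_mul, ← hu, Units.mul_inv, FractionalIdeal.coe_one]
  have h1 : Module.Invertible A hU.unit.1 := inferInstance
  exact Module.Invertible.congr ((LinearEquiv.ofEq hU.unit.1 (Submodule.map (Algebra.linearMap A L) I) (by
    rw [IsUnit.unit_spec, FractionalIdeal.coe_coeIdeal]; rfl)).trans
    (Submodule.equivMapOfInjective (Algebra.linearMap A L)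
      (IsFractionRing.injective A L) I).symm)

namespace Triple

variable {k : Type u} [Field k] (E : TwoCover k) {K : Type u} [Field K] [Algebra k K]

/-- The ideal on the second chart attached to a point of the first chart. -/
noncomputable def ptIdeal' (φ : E.AR K →ₐ[K] K) : Ideal (E.AR' K) :=
  ((RingHom.ker φ).map (E.ιR K)).comap (E.ιR' K)

lemma ker_ne_bot (φ : E.AR K →ₐ[K] K) : RingHom.ker φ ≠ ⊥ := by
  intro h
  have ht : E.t ∉ Submodule.span k {(1 : E.A)} := fun hm => by
    obtain ⟨c, hc⟩ := Submodule.mem_span_singleton.mp hm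
    exact E.not_isIntegral_t (by
      rw [← hc, ← Algebra.algebraMap_eq_smul_one]; exact isIntegral_algebraMap)
  obtain ⟨f, hft, hf1⟩ := Submodule.exists_dual_map_eq_bot_of_notMem ht inferInstance
  let c := φ (E.tR K)
  have h0 : E.tR K - algebraMap K (E.AR K) c = 0 := by
    rw [← Ideal.mem_bot, ← h, RingHom.mem_ker, map_sub, φ.commutes]
    exact sub_self _
  have h1 := congr_arg ((TensorProduct.rid k K).toLinearMap.comp (f.lTensor K)) h0
  have hf : f 1 = 0 := (Submodule.eq_bot_iff _).mp hf1 _
    (Submodule.mem_map_of_mem (Submodule.mem_span_singleton_self 1))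
  simp [TwoCover.tR, Algebra.TensorProduct.algebraMap_apply, hf, hft] at h1

lemma ptIdeal'_ne_bot (φ : E.AR K →ₐ[K] K) : ptIdeal' E φ ≠ ⊥ := by
  intro h
  have hK := IsLocalization.map_under (Submonoid.powers (E.sR K)) (E.AR01 K)
    ((RingHom.ker φ).map (E.ιR K))
  change ((ptIdeal' E φ).map (E.ιR' K)) = _ at hK
  rw [h, Ideal.map_bot, eq_comm, Ideal.map_eq_bot_iff_of_injective (E.ιR_injective K)] at hK
  exact ker_ne_bot E φ hK

/-- The ideal triple `O(-x)` of a point `x` of the first chart. -/
noncomputable def ptTriple (φ : E.AR K →ₐ[K] K) : Triple E K :=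
  haveI := E.dedekind K
  haveI := E.dedekind' K
  haveI := invertible_ideal_of_ne_bot (ker_ne_bot E φ)
  haveI := invertible_ideal_of_ne_bot (ptIdeal'_ne_bot E φ)
  ofIdeals (RingHom.ker φ) (ptIdeal' E φ)
    (IsLocalization.map_under (Submonoid.powers (E.sR K)) (E.AR01 K) _).symm

lemma εR_ker_ne_bot : RingHom.ker (E.εR K) ≠ ⊥ := by
  have := E.domain' K
  intro h
  have hinj : Function.Injective (E.εR K) := (RingHom.injective_iff_ker_eq_bot _).mpr h
  have : E.sR K = 0 := hinj (by simp [TwoCover.εR, TwoCover.sR, E.ε_s])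
  exact E.s_ne (Algebra.TensorProduct.includeRight_injective (A := K) (B := E.A')
    (algebraMap k K).injective (this.trans (map_zero _).symm))

/-- The ideal triple `O(-ε)`. -/
noncomputable def εTriple : Triple E K :=
  haveI := E.dedekind K
  haveI := E.dedekind' K
  haveI : Module.Invertible (E.AR K) (⊤ : Ideal (E.AR K)) :=
    Module.Invertible.congr Submodule.topEquiv.symm
  haveI := invertible_ideal_of_ne_bot (εR_ker_ne_bot E (K := K))
  ofIdeals ⊤ (RingHom.ker (E.εR K)) (by
    rw [Ideal.map_top, eq_comm, Ideal.eq_top_iff_one]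
    obtain ⟨u, hu⟩ := E.isUnit_ιR'_sR K
    rw [← Ideal.eq_top_iff_one]
    refine Ideal.eq_top_of_isUnit_mem _ (Ideal.mem_map_of_mem _ ?_) ⟨u, hu⟩
    simp [RingHom.mem_ker, TwoCover.εR, TwoCover.sR, E.ε_s])

/-- A finite product of constant points `O(-x₁ - ... - xᵣ)`, over the base field. -/
noncomputable def ptsTriple : List (E.A →ₐ[k] k) → Triple E k
  | [] => one E k
  | φ :: l => (ptTriple E ((Algebra.ofId k k).comp φ |> fun f =>
      Algebra.TensorProduct.lift (Algebra.ofId k k) f fun _ _ => Commute.all _ _)).tensor (ptsTriple l)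

/-- Twist by `m` times `t = ∞` and remove constant points. -/
noncomputable def modify {R : Type u} [CommRing R] [Algebra k R] (T : Triple E R) (m : ℕ)
    (xs : List (E.A →ₐ[k] k)) : Triple E R :=
  (T.twist m).tensor ((ptsTriple E xs).bc R)

end Triple

end FLTA.Jacobian
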