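import Fermat.Agent.Jacobian.DiagonalIdeal
import Fermat.Agent.Jacobian.CurvePoint
import Fermat.Agent.Jacobian.CurveTensor
import Fermat.Agent.Jacobian.CechCover
import Fermat.Agent.Jacobian.CurveTriple
import Fermat.Agent.Jacobian.ChartInvertible

/-!
# Triples of graphs of points (S25; owner helper13).
-/

set_option autoImplicit false

universe u

open TensorProduct
open scoped FLTA.Jacobian.TwoCover FLTA.Jacobian.Triple

namespace FLTA.Jacobian

section Gen

variable {P Q : Type u} [CommRing P] [CommRing Q]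

lemma map_map_le {F G F' G' : Type*} {P₁ P₂ : Type u} [CommRing P₁] [CommRing P₂]
    [FunLike F P P₁] [RingHomClass F P P₁] [FunLike G P₁ Q] [RingHomClass G P₁ Q]
    [FunLike F' P P₂] [RingHomClass F' P P₂] [FunLike G' P₂ Q] [RingHomClass G' P₂ Q]
    (f : F) (g : G) (f' : F') (g' : G') (h : ∀ x, g (f x) = g' (f' x)) (I : Ideal P) :
    (I.map f).map g ≤ (I.map f').map g' :=
  Ideal.map_le_iff_le_comap.mpr (Ideal.map_le_iff_le_comap.mpr fun x hx =>
    Ideal.mem_comap.mpr (Ideal.mem_comap.mpr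
      ((h x).symm ▸ Ideal.mem_map_of_mem g' (Ideal.mem_map_of_mem f' hx))))

lemma map_map_comm {F G F' G' : Type*} {P₁ P₂ : Type u} [CommRing P₁] [CommRing P₂]
    [FunLike F P P₁] [RingHomClass F P P₁] [FunLike G P₁ Q] [RingHomClass G P₁ Q]
    [FunLike F' P P₂] [RingHomClass F' P P₂] [FunLike G' P₂ Q] [RingHomClass G' P₂ Q]
    (f : F) (g : G) (f' : F') (g' : G') (h : ∀ x, g (f x) = g' (f' x)) (I : Ideal P) :
    (I.map f).map g = (I.map f').map g' :=
  le_antisymm (map_map_le f g f' g' h I) (map_map_le f' g' f g (fun x => (h x).symm) I)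

/-- An ideal comaximal with the inverted element is saturated. -/
lemma comap_map_of_sup {L : Type u} [CommRing L] [Algebra P L] (s : P) [IsLocalization.Away s L]
    (hinj : Function.Injective (algebraMap P L)) {J : Ideal P} (hJ : J ⊔ Ideal.span {s} = ⊤) :
    (J.map (algebraMap P L)).comap (algebraMap P L) = J := by
  refine le_antisymm (fun x hx => ?_) Ideal.le_comap_map
  obtain ⟨⟨⟨j, hj⟩, ⟨_, n, rfl⟩⟩, he⟩ :=
    (IsLocalization.mem_map_algebraMap_iff (Submonoid.powers s) L).mp hx
  rw [← map_mul] at he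
  have h1 : J ⊔ Ideal.span {s ^ n} = ⊤ := by
    rw [← Ideal.span_singleton_pow]; exact Ideal.sup_pow_eq_top hJ
  obtain ⟨a, ha, b, hb, hab⟩ := Submodule.mem_sup.mp ((Ideal.eq_top_iff_one _).mp h1)
  obtain ⟨c, rfl⟩ := Ideal.mem_span_singleton'.mp hb
  rw [← mul_one x, ← hab, mul_add, mul_left_comm, hinj he]
  exact add_mem (J.mul_mem_left _ ha) (J.mul_mem_left _ hj)

lemma span_range_eq_top_of_map {F : Type*} [FunLike F P Q] [RingHomClass F P Q] (f : F)
    {I : Ideal P} {J : Ideal Q} (hJ : I.map f = J) (g : I → J) (hg : ∀ x, (g x).1 = f x.1) :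
    Submodule.span Q (Set.range g) = ⊤ := by
  apply Submodule.map_injective_of_injective (f := J.subtype) Subtype.val_injective
  rw [Submodule.map_span, Submodule.map_top, Submodule.range_subtype, ← Set.range_comp]
  refine Eq.trans ?_ hJ
  refine (congrArg (Submodule.span Q) ?_).trans rfl
  ext y
  exact ⟨fun ⟨x, e⟩ => ⟨x.1, x.2, (hg x).symm.trans e⟩,
    fun ⟨x, hx, e⟩ => ⟨⟨x, hx⟩, (hg ⟨x, hx⟩).trans e⟩⟩

theorem invertible_of_isLocPrincipal [IsDomain P] {I : Ideal P} (h : IsLocPrincipal I)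
    (hI : I ≠ ⊥) : Module.Invertible P I := by
  refine invertible_ideal_of_locally I fun M hM => ?_
  obtain ⟨a, ha, f, hf, haI⟩ := h M hM.isPrime
  have hf0 : f ≠ 0 := by
    rintro rfl
    refine hI (eq_bot_iff.mpr fun i hi => ?_)
    have := haI i hi
    rw [Ideal.span_singleton_zero, Ideal.mem_bot] at this
    exact (mul_eq_zero.mp this).resolve_left fun h0 => ha (h0 ▸ zero_mem _)
  obtain ⟨φ, hφ, -⟩ := exists_dual_of_colon (y := a) hf
    (fun z hz => (mul_eq_zero.mp hz).resolve_left hf0)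
    (Submodule.mem_colon.mpr fun i hi => by rw [smul_eq_mul]; exact haI i hi)
  exact ⟨φ, ⟨f, hf⟩, by rwa [hφ]⟩

lemma isDedekindDomain_of_ringEquiv [IsDedekindDomain P] (e : P ≃+* Q) : IsDedekindDomain Q := by
  have : IsDomain Q := MulEquiv.isDomain P e.symm.toMulEquiv
  let := e.toRingHom.toAlgebra
  have : IsLocalization (⊥ : Submonoid P) Q := by
    refine (isLocalization_iff _ _).mpr ⟨fun y => ?_, fun z => ⟨(e.symm z, 1), ?_⟩, fun {x y} h => ⟨1, ?_⟩⟩
    · rw [Submonoid.mem_bot.mp y.2, map_one]; exact isUnit_one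
    · rw [OneMemClass.coe_one, map_one, mul_one]
      exact (e.apply_symm_apply z).symm
    · rw [e.injective h]
  exact IsLocalization.isDedekindDomain P (bot_le : (⊥ : Submonoid P) ≤ _) Q

end Gen

namespace TwoCover

variable {k : Type u} [Field k] (E : TwoCover k)

theorem finiteType_A : Algebra.FiniteType k E.A :=
  RingHom.finiteType_algebraMap.mp ((Polynomial.aeval (R := k) E.t).comp_algebraMap ▸
    (RingHom.FiniteType.of_finite E.finite).comp
      (RingHom.finiteType_algebraMap.mpr (inferInstance : Algebra.FiniteType k (Polynomial k))))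

theorem finiteType_A' : Algebra.FiniteType k E.A' :=
  RingHom.finiteType_algebraMap.mp ((Polynomial.aeval (R := k) E.s).comp_algebraMap ▸
    (RingHom.FiniteType.of_finite E.finite').comp
      (RingHom.finiteType_algebraMap.mpr (inferInstance : Algebra.FiniteType k (Polynomial k))))

theorem isDedekindDomain_A : IsDedekindDomain E.A :=
  haveI := E.dedekind k
  isDedekindDomain_of_ringEquiv (Algebra.TensorProduct.lid k E.A).toRingEquiv

theorem isDedekindDomain_A' : IsDedekindDomain E.A' :=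
  haveI := E.dedekind' k
  isDedekindDomain_of_ringEquiv (Algebra.TensorProduct.lid k E.A').toRingEquiv

theorem isDomain_A01 : IsDomain E.A01 := by
  let := E.ι.toRingHom.toAlgebra
  have := E.isLoc
  have := E.isDomain_A
  exact IsLocalization.isDomain_of_le_nonZeroDivisors (M := Submonoid.powers E.t) E.A01
    (powers_le_nonZeroDivisors_of_noZeroDivisors E.t_ne)

section Other

variable {R : Type u} [CommRing R] [Algebra k R]

/-- The ideal on the second chart of the graph of a point of the first chart. -/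
noncomputable def otherId (φ : E.A →ₐ[k] R) : Ideal (E.AR' R) :=
  ((graphId φ).map (E.ιR R)).comap (E.ιR' R)

/-- The ideal on the first chart of the graph of a point of the second chart. -/
noncomputable def otherId' (φ : E.A' →ₐ[k] R) : Ideal (E.AR R) :=
  ((graphId φ).map (E.ιR' R)).comap (E.ιR R)

lemma map_otherId (φ : E.A →ₐ[k] R) :
    (E.otherId φ).map (E.ιR' R) = (graphId φ).map (E.ιR R) :=
  IsLocalization.map_under (Submonoid.powers (E.sR R)) (E.AR01 R) _

lemma map_otherId' (φ : E.A' →ₐ[k] R) :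
    (E.otherId' φ).map (E.ιR R) = (graphId φ).map (E.ιR' R) :=
  IsLocalization.map_under (Submonoid.powers (E.tR R)) (E.AR01 R) _

lemma evR_ιR (ψ : E.A01 →ₐ[k] R) (x : E.AR R) :
    evR ψ (E.ιR R x) = evR (ψ.comp E.ι) x := by
  induction x using TensorProduct.induction_on with
  | zero => simp
  | tmul r a => simp [TwoCover.ιR]
  | add x y hx hy => simp [hx, hy]

lemma evR_ιR' (ψ : E.A01 →ₐ[k] R) (x : E.AR' R) :
    evR ψ (E.ιR' R x) = evR (ψ.comp E.ι') x := by
  induction x using TensorProduct.induction_on with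
  | zero => simp
  | tmul r a => simp [TwoCover.ιR']
  | add x y hx hy => simp [hx, hy]

lemma map_graphId_ιR (ψ : E.A01 →ₐ[k] R) :
    (graphId (ψ.comp E.ι)).map (E.ιR R) = graphId ψ := by
  refine le_antisymm (Ideal.map_le_iff_le_comap.mpr fun x hx => ?_) fun x hx => ?_
  · change E.ιR R x ∈ graphId ψ
    rwa [mem_graphId, evR_ιR, ← mem_graphId]
  · obtain ⟨i, a, ha⟩ := E.exists_ιR_pow R x
    have ha' : a ∈ graphId (ψ.comp E.ι) := by
      rw [mem_graphId, ← evR_ιR, ← ha, map_mul, mem_graphId.mp hx, mul_zero]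
    have : x = E.ιR R a * (E.ιR' R (E.sR R)) ^ i := by
      rw [← ha, mul_assoc, mul_left_comm, E.tR_pow_mul_ιR', mul_one]
    rw [this]
    exact Ideal.mul_mem_right _ _ (Ideal.mem_map_of_mem _ ha')

lemma map_graphId_ιR' (ψ : E.A01 →ₐ[k] R) :
    (graphId (ψ.comp E.ι')).map (E.ιR' R) = graphId ψ := by
  refine le_antisymm (Ideal.map_le_iff_le_comap.mpr fun x hx => ?_) fun x hx => ?_
  · change E.ιR' R x ∈ graphId ψ
    rwa [mem_graphId, evR_ιR', ← mem_graphId]
  · obtain ⟨i, a, ha⟩ := E.exists_ιR'_pow R x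
    have ha' : a ∈ graphId (ψ.comp E.ι') := by
      rw [mem_graphId, ← evR_ιR', ← ha, map_mul, mem_graphId.mp hx, mul_zero]
    have : x = E.ιR' R a * (E.ιR R (E.tR R)) ^ i := by
      rw [← ha]
      linear_combination -x * E.tR_pow_mul_ιR' R i
    rw [this]
    exact Ideal.mul_mem_right _ _ (Ideal.mem_map_of_mem _ ha')

lemma otherId_of_overlap (ψ : E.A01 →ₐ[k] R) :
    E.otherId (ψ.comp E.ι) = graphId (ψ.comp E.ι') := by
  rw [otherId, map_graphId_ιR]
  ext x
  rw [Ideal.mem_comap, mem_graphId, mem_graphId, evR_ιR']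

lemma otherId'_of_overlap (ψ : E.A01 →ₐ[k] R) :
    E.otherId' (ψ.comp E.ι') = graphId (ψ.comp E.ι) := by
  rw [otherId', map_graphId_ιR']
  ext x
  rw [Ideal.mem_comap, mem_graphId, mem_graphId, evR_ιR]

lemma otherId_mem (φ : E.A →ₐ[k] R) :
    1 - algebraMap R (E.AR' R) (φ E.t) * E.sR R ∈ E.otherId φ := by
  have hgen : E.tR R - algebraMap R (E.AR R) (φ E.t) ∈ graphId φ := by
    rw [mem_graphId, map_sub, AlgHom.commutes]
    simp [TwoCover.tR]
  rw [otherId, Ideal.mem_comap, map_sub, map_one, map_mul, AlgHom.commutes, ← E.ιR_tR_mul_sR R,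
    ← (E.ιR R).commutes (φ E.t), ← sub_mul, ← map_sub]
  exact Ideal.mul_mem_right _ _ (Ideal.mem_map_of_mem _ hgen)

lemma otherId'_mem (φ : E.A' →ₐ[k] R) :
    1 - algebraMap R (E.AR R) (φ E.s) * E.tR R ∈ E.otherId' φ := by
  have hgen : E.sR R - algebraMap R (E.AR' R) (φ E.s) ∈ graphId φ := by
    rw [mem_graphId, map_sub, AlgHom.commutes]
    simp [TwoCover.sR]
  rw [otherId', Ideal.mem_comap, map_sub, map_one, map_mul, AlgHom.commutes,
    ← E.ιR_tR_mul_sR R, mul_comm (algebraMap R (E.AR01 R) (φ E.s)), ← mul_sub,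
    ← (E.ιR' R).commutes (φ E.s), ← map_sub]
  exact Ideal.mul_mem_left _ _ (Ideal.mem_map_of_mem _ hgen)

lemma otherId_sup (φ : E.A →ₐ[k] R) : E.otherId φ ⊔ Ideal.span {E.sR R} = ⊤ :=
  (Ideal.eq_top_iff_one _).mpr (Submodule.mem_sup.mpr ⟨_, E.otherId_mem φ,
    algebraMap R (E.AR' R) (φ E.t) * E.sR R,
    Ideal.mul_mem_left _ _ (Ideal.mem_span_singleton_self _), sub_add_cancel _ _⟩)

lemma otherId'_sup (φ : E.A' →ₐ[k] R) : E.otherId' φ ⊔ Ideal.span {E.tR R} = ⊤ :=
  (Ideal.eq_top_iff_one _).mpr (Submodule.mem_sup.mpr ⟨_, E.otherId'_mem φ,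
    algebraMap R (E.AR R) (φ E.s) * E.tR R,
    Ideal.mul_mem_left _ _ (Ideal.mem_span_singleton_self _), sub_add_cancel _ _⟩)

variable (S : Type u) [CommRing S] [Algebra k S] [Algebra R S] [IsScalarTower k R S]

lemma map_graphId_bcA (φ : E.A →ₐ[k] R) :
    (graphId φ).map (E.bcA R S) = graphId ((IsScalarTower.toAlgHom k R S).comp φ) :=
  map_graphId S φ

lemma map_graphId_bcA' (φ : E.A' →ₐ[k] R) :
    (graphId φ).map (E.bcA' R S) = graphId ((IsScalarTower.toAlgHom k R S).comp φ) :=
  map_graphId S φ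

lemma map_otherId_bcA' (φ : E.A →ₐ[k] R) :
    (E.otherId φ).map (E.bcA' R S) = E.otherId ((IsScalarTower.toAlgHom k R S).comp φ) := by
  have h1 : ((E.otherId φ).map (E.bcA' R S)).map (E.ιR' S) =
      (graphId ((IsScalarTower.toAlgHom k R S).comp φ)).map (E.ιR S) := by
    rw [map_map_comm (E.bcA' R S) (E.ιR' S) (E.ιR' R) (E.bc01 R S)
      (fun x => (E.bc01_ιR' R S x).symm), map_otherId,
      map_map_comm (E.ιR R) (E.bc01 R S) (E.bcA R S) (E.ιR S) (E.bc01_ιR R S), map_graphId_bcA]
  have h2 : (E.otherId φ).map (E.bcA' R S) ⊔ Ideal.span {E.sR S} = ⊤ := by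
    have := congrArg (Ideal.map (E.bcA' R S)) (E.otherId_sup φ)
    rwa [Ideal.map_sup, Ideal.map_span, Set.image_singleton, Ideal.map_top, E.bcA'_sR] at this
  exact (comap_map_of_sup (E.sR S) (E.ιR'_injective S) h2).symm.trans
    (congrArg (Ideal.comap (E.ιR' S)) h1)

lemma map_otherId'_bcA (φ : E.A' →ₐ[k] R) :
    (E.otherId' φ).map (E.bcA R S) = E.otherId' ((IsScalarTower.toAlgHom k R S).comp φ) := by
  have h1 : ((E.otherId' φ).map (E.bcA R S)).map (E.ιR S) =
      (graphId ((IsScalarTower.toAlgHom k R S).comp φ)).map (E.ιR' S) := by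
    rw [map_map_comm (E.bcA R S) (E.ιR S) (E.ιR R) (E.bc01 R S)
      (fun x => (E.bc01_ιR R S x).symm), map_otherId',
      map_map_comm (E.ιR' R) (E.bc01 R S) (E.bcA' R S) (E.ιR' S) (E.bc01_ιR' R S),
      map_graphId_bcA']
  have h2 : (E.otherId' φ).map (E.bcA R S) ⊔ Ideal.span {E.tR S} = ⊤ := by
    have := congrArg (Ideal.map (E.bcA R S)) (E.otherId'_sup φ)
    rwa [Ideal.map_sup, Ideal.map_span, Set.image_singleton, Ideal.map_top, E.bcA_tR] at this
  exact (comap_map_of_sup (E.tR S) (E.ιR_injective S) h2).symm.trans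
    (congrArg (Ideal.comap (E.ιR S)) h1)

end Other

section Universal

variable [IsAlgClosed k]

theorem isLocPrincipal_graph_A : IsLocPrincipal (graphId (AlgHom.id k E.A)) :=
  haveI := E.finiteType_A
  haveI := E.isDedekindDomain_A
  isLocPrincipal_graphId

theorem isLocPrincipal_graph_A' : IsLocPrincipal (graphId (AlgHom.id k E.A')) :=
  haveI := E.finiteType_A'
  haveI := E.isDedekindDomain_A'
  isLocPrincipal_graphId

theorem isLocPrincipal_other_A : IsLocPrincipal (E.otherId (AlgHom.id k E.A)) := by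
  have := E.finiteType_A
  have := E.finiteType_A'
  have : Algebra.FiniteType k (E.AR' E.A) :=
    Algebra.FiniteType.trans (S := E.A) inferInstance inferInstance
  have : IsNoetherianRing (E.AR' E.A) := Algebra.FiniteType.isNoetherianRing k _
  intro M hM
  by_cases hs : E.sR E.A ∈ M
  · refine ⟨_, fun h => hM.ne_top ((Ideal.eq_top_iff_one _).mpr ?_), _, E.otherId_mem _,
      fun i _ => Ideal.mem_span_singleton.mpr (dvd_mul_right _ i)⟩
    have := M.add_mem h (M.mul_mem_left (algebraMap E.A (E.AR' E.A) ((AlgHom.id k E.A) E.t)) hs)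
    rwa [sub_add_cancel] at this
  · refine IsLocPrincipal.of_away (IsNoetherian.noetherian _) (E.sR E.A) (L := E.AR01 E.A) ?_ M hs
    change IsLocPrincipal (Ideal.map (E.ιR' E.A) _)
    rw [map_otherId]
    exact E.isLocPrincipal_graph_A.map (E.ιR E.A).toRingHom

theorem isLocPrincipal_other_A' : IsLocPrincipal (E.otherId' (AlgHom.id k E.A')) := by
  have := E.finiteType_A
  have := E.finiteType_A'
  have : Algebra.FiniteType k (E.AR E.A') :=
    Algebra.FiniteType.trans (S := E.A') inferInstance inferInstance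
  have : IsNoetherianRing (E.AR E.A') := Algebra.FiniteType.isNoetherianRing k _
  intro M hM
  by_cases hs : E.tR E.A' ∈ M
  · refine ⟨_, fun h => hM.ne_top ((Ideal.eq_top_iff_one _).mpr ?_), _, E.otherId'_mem _,
      fun i _ => Ideal.mem_span_singleton.mpr (dvd_mul_right _ i)⟩
    have := M.add_mem h (M.mul_mem_left (algebraMap E.A' (E.AR E.A') ((AlgHom.id k E.A') E.s)) hs)
    rwa [sub_add_cancel] at this
  · refine IsLocPrincipal.of_away (IsNoetherian.noetherian _) (E.tR E.A') (L := E.AR01 E.A') ?_ M hs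
    change IsLocPrincipal (Ideal.map (E.ιR E.A') _)
    rw [map_otherId']
    exact E.isLocPrincipal_graph_A'.map (E.ιR' E.A').toRingHom

omit [IsAlgClosed k] in
lemma otherId_ne_bot {R : Type u} [CommRing R] [Algebra k R] [Nontrivial R] (φ : E.A →ₐ[k] R) :
    E.otherId φ ≠ ⊥ := fun h => by
  have := E.map_otherId φ
  rw [h, Ideal.map_bot, eq_comm, Ideal.map_eq_bot_iff_of_injective (E.ιR_injective R)] at this
  exact graphId_ne_bot φ E.not_isIntegral_t this

omit [IsAlgClosed k] in
lemma otherId'_ne_bot {R : Type u} [CommRing R] [Algebra k R] [Nontrivial R] (φ : E.A' →ₐ[k] R) :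
    E.otherId' φ ≠ ⊥ := fun h => by
  have := E.map_otherId' φ
  rw [h, Ideal.map_bot, eq_comm, Ideal.map_eq_bot_iff_of_injective (E.ιR'_injective R)] at this
  exact graphId_ne_bot φ E.not_isIntegral_s this

end Universal

end TwoCover

namespace Triple

variable {k : Type u} [Field k] {E : TwoCover k} {R : Type u} [CommRing R] [Algebra k R]
  {S : Type u} [CommRing S] [Algebra k S] [Algebra R S] [IsScalarTower k R S]

/-- Base change of triples given by ideals. -/
noncomputable def ofIdealsBC {I : Ideal (E.AR R)} {I' : Ideal (E.AR' R)}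
    {_hI : Module.Invertible (E.AR R) I} {_hI' : Module.Invertible (E.AR' R) I'}
    (h : I.map (E.ιR R) = I'.map (E.ιR' R))
    {J : Ideal (E.AR S)} {J' : Ideal (E.AR' S)}
    {_hJi : Module.Invertible (E.AR S) J} {_hJi' : Module.Invertible (E.AR' S) J'}
    (h' : J.map (E.ιR S) = J'.map (E.ιR' S))
    (hJ : I.map (E.bcA R S) = J) (hJ' : I'.map (E.bcA' R S) = J') :
    BaseChange (ofIdeals I I' h) (ofIdeals J J' h') where
  fM :=
    { toFun := fun x => ⟨E.bcA R S x.1, hJ.le (Ideal.mem_map_of_mem _ x.2)⟩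
      map_add' := fun x y => Subtype.ext (map_add (E.bcA R S) x.1 y.1)
      map_smul' := fun a x => Subtype.ext (map_mul (E.bcA R S) a x.1) }
  fM' :=
    { toFun := fun x => ⟨E.bcA' R S x.1, hJ'.le (Ideal.mem_map_of_mem _ x.2)⟩
      map_add' := fun x y => Subtype.ext (map_add (E.bcA' R S) x.1 y.1)
      map_smul' := fun a x => Subtype.ext (map_mul (E.bcA' R S) a x.1) }
  fN :=
    { toFun := fun x => ⟨E.bc01 R S x.1, by
        have := Ideal.mem_map_of_mem (E.bc01 R S) x.2
        rwa [map_map_comm (E.ιR R) (E.bc01 R S) (E.bcA R S) (E.ιR S) (E.bc01_ιR R S), hJ] at this⟩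
      map_add' := fun x y => Subtype.ext (map_add (E.bc01 R S) x.1 y.1)
      map_smul' := fun a x => Subtype.ext (map_mul (E.bc01 R S) a x.1) }
  comm m := Subtype.ext (E.bc01_ιR R S m.1)
  comm' m := Subtype.ext (E.bc01_ιR' R S m.1)
  gen := span_range_eq_top_of_map (E.bcA R S) hJ _ fun _ => rfl
  gen' := span_range_eq_top_of_map (E.bcA' R S) hJ' _ fun _ => rfl

section Graphs

variable (E) [IsAlgClosed k]

/-- The triple of the universal point of the first chart. -/
noncomputable def graphTriple : Triple E E.A :=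
  haveI := E.finiteType_A
  haveI := E.finiteType_A'
  haveI := E.isDomain_A
  haveI := E.isDomain_A'
  haveI : IsDomain (E.AR E.A) := isDomain_tensorProduct
  haveI : IsDomain (E.AR' E.A) := isDomain_tensorProduct
  haveI := invertible_of_isLocPrincipal E.isLocPrincipal_graph_A
    (graphId_ne_bot (AlgHom.id k E.A) E.not_isIntegral_t)
  haveI := invertible_of_isLocPrincipal E.isLocPrincipal_other_A (E.otherId_ne_bot _)
  ofIdeals (graphId (AlgHom.id k E.A)) (E.otherId (AlgHom.id k E.A)) (E.map_otherId _).symm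

/-- The triple of the universal point of the second chart. -/
noncomputable def graphTriple' : Triple E E.A' :=
  haveI := E.finiteType_A
  haveI := E.finiteType_A'
  haveI := E.isDomain_A
  haveI := E.isDomain_A'
  haveI : IsDomain (E.AR E.A') := isDomain_tensorProduct
  haveI : IsDomain (E.AR' E.A') := isDomain_tensorProduct
  haveI := invertible_of_isLocPrincipal E.isLocPrincipal_graph_A'
    (graphId_ne_bot (AlgHom.id k E.A') E.not_isIntegral_s)
  haveI := invertible_of_isLocPrincipal E.isLocPrincipal_other_A' (E.otherId'_ne_bot _)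
  ofIdeals (E.otherId' (AlgHom.id k E.A')) (graphId (AlgHom.id k E.A')) (E.map_otherId' _)

/-- Both universal graphs restrict to the same triple over the overlap. -/
theorem exists_graph_overlap :
    letI := E.ι.toRingHom.toAlgebra
    letI := E.ι'.toRingHom.toAlgebra
    haveI : IsScalarTower k E.A E.A01 := IsScalarTower.of_algebraMap_eq fun x => (E.ι.commutes x).symm
    haveI : IsScalarTower k E.A' E.A01 :=
      IsScalarTower.of_algebraMap_eq fun x => (E.ι'.commutes x).symm
    ∃ G : Triple E E.A01,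
      Nonempty (BaseChange (graphTriple E) G) ∧ Nonempty (BaseChange (graphTriple' E) G) := by
  letI := E.ι.toRingHom.toAlgebra
  letI := E.ι'.toRingHom.toAlgebra
  haveI : IsScalarTower k E.A E.A01 := IsScalarTower.of_algebraMap_eq fun x => (E.ι.commutes x).symm
  haveI : IsScalarTower k E.A' E.A01 :=
    IsScalarTower.of_algebraMap_eq fun x => (E.ι'.commutes x).symm
  have := E.finiteType_A
  have := E.finiteType_A'
  have := E.isDomain_A
  have := E.isDomain_A'
  have := E.isDomain_A01
  have : IsDomain (E.AR E.A01) := isDomain_tensorProduct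
  have : IsDomain (E.AR' E.A01) := isDomain_tensorProduct
  have eι : (IsScalarTower.toAlgHom k E.A E.A01).comp (AlgHom.id k E.A) = E.ι :=
    AlgHom.ext fun _ => rfl
  have eι' : (IsScalarTower.toAlgHom k E.A' E.A01).comp (AlgHom.id k E.A') = E.ι' :=
    AlgHom.ext fun _ => rfl
  have e1 : (graphId (AlgHom.id k E.A)).map (E.bcA E.A E.A01) = graphId E.ι := by
    rw [E.map_graphId_bcA, eι]
  have e2 : (E.otherId (AlgHom.id k E.A)).map (E.bcA' E.A E.A01) = graphId E.ι' := by
    rw [E.map_otherId_bcA', eι, ← AlgHom.id_comp E.ι, E.otherId_of_overlap, AlgHom.id_comp]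
  have e3 : (E.otherId' (AlgHom.id k E.A')).map (E.bcA E.A' E.A01) = graphId E.ι := by
    rw [E.map_otherId'_bcA, eι', ← AlgHom.id_comp E.ι', E.otherId'_of_overlap, AlgHom.id_comp]
  have e4 : (graphId (AlgHom.id k E.A')).map (E.bcA' E.A' E.A01) = graphId E.ι' := by
    rw [E.map_graphId_bcA', eι']
  have l1 : IsLocPrincipal (graphId E.ι) :=
    e1 ▸ E.isLocPrincipal_graph_A.map (E.bcA E.A E.A01).toRingHom
  have l4 : IsLocPrincipal (graphId E.ι') :=
    e4 ▸ E.isLocPrincipal_graph_A'.map (E.bcA' E.A' E.A01).toRingHom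
  have := invertible_of_isLocPrincipal l1 (graphId_ne_bot E.ι E.not_isIntegral_t)
  have := invertible_of_isLocPrincipal l4 (graphId_ne_bot E.ι' E.not_isIntegral_s)
  have h : (graphId E.ι).map (E.ιR E.A01) = (graphId E.ι').map (E.ιR' E.A01) := by
    conv_lhs => rw [← AlgHom.id_comp E.ι, E.map_graphId_ιR]
    conv_rhs => rw [← AlgHom.id_comp E.ι', E.map_graphId_ιR']
  exact ⟨ofIdeals (graphId E.ι) (graphId E.ι') h, ⟨ofIdealsBC _ h e1 e2⟩, ⟨ofIdealsBC _ h e3 e4⟩⟩

/-- The universal graph specialises to the point triples. -/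
theorem graphTriple_pt (φ : E.A →ₐ[k] k) :
    letI := φ.toRingHom.toAlgebra
    haveI : IsScalarTower k E.A k := IsScalarTower.of_algebraMap_eq fun x => (φ.commutes x).symm
    Nonempty (BaseChange (graphTriple E) (ptTriple E (evR φ))) := by
  letI := φ.toRingHom.toAlgebra
  haveI : IsScalarTower k E.A k := IsScalarTower.of_algebraMap_eq fun x => (φ.commutes x).symm
  have e : (IsScalarTower.toAlgHom k E.A k).comp (AlgHom.id k E.A) = φ := AlgHom.ext fun _ => rfl
  have e1 : (graphId (AlgHom.id k E.A)).map (E.bcA E.A k) = RingHom.ker (evR φ) := by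
    rw [E.map_graphId_bcA, e]; rfl
  have e2 : (E.otherId (AlgHom.id k E.A)).map (E.bcA' E.A k) = ptIdeal' E (evR φ) := by
    rw [E.map_otherId_bcA', e]; rfl
  refine ⟨ofIdealsBC _ _ e1 e2⟩

/-- The universal graph at the marked point. -/
theorem graphTriple'_ε :
    letI := E.ε.toRingHom.toAlgebra
    haveI : IsScalarTower k E.A' k := IsScalarTower.of_algebraMap_eq fun x => (E.ε.commutes x).symm
    Nonempty (BaseChange (graphTriple' E) (εTriple E (K := k))) := by
  letI := E.ε.toRingHom.toAlgebra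
  haveI : IsScalarTower k E.A' k := IsScalarTower.of_algebraMap_eq fun x => (E.ε.commutes x).symm
  have e : (IsScalarTower.toAlgHom k E.A' k).comp (AlgHom.id k E.A') = (Algebra.ofId k k).comp E.ε :=
    AlgHom.ext fun _ => rfl
  have e2 : (graphId (AlgHom.id k E.A')).map (E.bcA' E.A' k) = RingHom.ker (E.εR k) := by
    rw [E.map_graphId_bcA', e]; rfl
  have e1 : (E.otherId' (AlgHom.id k E.A')).map (E.bcA E.A' k) = ⊤ := by
    rw [E.map_otherId'_bcA, e, TwoCover.otherId', Ideal.eq_top_iff_one, Ideal.mem_comap, map_one,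
      ← Ideal.eq_top_iff_one]
    refine Ideal.eq_top_of_isUnit_mem _ (Ideal.mem_map_of_mem _ ?_) (E.isUnit_ιR'_sR k)
    simp [mem_graphId, TwoCover.sR, E.ε_s]
  exact ⟨ofIdealsBC _ _ e1 e2⟩

end Graphs

end Triple

end FLTA.Jacobian
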