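import Fermat.Agent.Jacobian.AssembleFibre
import Fermat.Agent.Jacobian.DiagonalTriple

/-!
# The class of the diagonal of the curve and the point classes (S25; owner helper13).
-/

set_option autoImplicit false

universe u

open CategoryTheory CategoryTheory.Limits AlgebraicGeometry NeronModelInfra
  AlgebraicGeometry.RelPicard TopologicalSpace
open scoped FLTA.Jacobian.TwoCover FLTA.Jacobian.Triple

namespace FLTA.Jacobian

variable {k : Type u} [Field k] [IsAlgClosed k] {C : Scheme.{u}}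
  {c : C ⟶ Spec (CommRingCat.of k)}
  {ε : SchemeHomOver (𝟙 (Spec (CommRingCat.of k))) c} (cc : CurveCover c ε)

/-- The two charts of the curve as an open cover. -/
noncomputable def chartsCover : Scheme.OpenCover.{u} C :=
  Scheme.Cover.mkOfCovers (ULift.{u} Bool)
    (fun b => cond b.down (Spec (CommRingCat.of cc.E.A)) (Spec (CommRingCat.of cc.E.A')))
    (fun b => match b with
      | ⟨true⟩ => cc.j
      | ⟨false⟩ => cc.j')
    (fun x => by
      rcases cc.cover.ge (Set.mem_univ x) with h | h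
      · exact ⟨⟨true⟩, h⟩
      · exact ⟨⟨false⟩, h⟩)
    (fun b => match b with
      | ⟨true⟩ => cc.isOpenImmersion_j
      | ⟨false⟩ => cc.isOpenImmersion_j')

/-- A point over `k` of a class rigidified along the section. -/
lemma rigidify_field (a : Pic (pullback c (baseMap k k)) ⊤) : (rigidify ε a).1 = a := by
  have : Subsingleton (Spec (CommRingCat.of k)) :=
    inferInstanceAs (Subsingleton (PrimeSpectrum k))
  simp [rigidify, pic_point_eq_one (Pic.pullTop (rigSection c (baseMap k k) ε) a)]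

omit [IsAlgClosed k] in
/-- A point of a chart, seen in the base of the chart. -/
lemma exists_chart_point {B : Type u} [CommRing B] [Algebra k B] (φ : B →ₐ[k] k)
    (j : Spec (CommRingCat.of B) ⟶ C)
    (hj : j ≫ c = Spec.map (CommRingCat.ofHom (algebraMap k B)))
    (P : SchemeHomOver (baseMap k k) c)
    (hP : P.1 = Spec.map (CommRingCat.ofHom φ.toRingHom) ≫ j) :
    ∃ Q : SchemeHomOver (baseMap k k) (j ≫ c),
      postComp (overHom (t := c) j) Q = P ∧
        postComp (⟨𝟙 _, (Category.id_comp _).trans hj.symm⟩ :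
          SchemeHomOver (j ≫ c) (baseMap k B)) Q = algOver φ :=
  ⟨⟨Spec.map (CommRingCat.ofHom φ.toRingHom), by rw [← Category.assoc, ← hP, P.2]⟩,
    Subtype.ext hP.symm, Subtype.ext (Category.comp_id _)⟩

variable [IsProper c] [SmoothOfRelativeDimension 1 c] [IsIntegral C]

omit [IsProper c] [SmoothOfRelativeDimension 1 c] [IsIntegral C] in
/-- The graphs of the universal points glue to one rigidified class. -/
lemma exists_glued_graph :
    ∃ (aA : Pic (pullback c (baseMap k cc.E.A)) ⊤)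
      (aA' : Pic (pullback c (baseMap k cc.E.A')) ⊤) (b : RPic ε c),
      Nonempty (Triple.Iso (tripleOf cc.E.A cc aA) (Triple.graphTriple cc.E)) ∧
      Nonempty (Triple.Iso (tripleOf cc.E.A' cc aA') (Triple.graphTriple' cc.E)) ∧
      rmap (overHom (t := c) cc.j) b =
        rmap (⟨𝟙 _, (Category.id_comp _).trans cc.j_over.symm⟩ :
          SchemeHomOver (cc.j ≫ c) (baseMap k cc.E.A)) (rigidify ε aA) ∧
      rmap (overHom (t := c) cc.j') b =
        rmap (⟨𝟙 _, (Category.id_comp _).trans cc.j'_over.symm⟩ :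
          SchemeHomOver (cc.j' ≫ c) (baseMap k cc.E.A')) (rigidify ε aA') := by
  obtain ⟨aA, hA⟩ := exists_tripleOf cc.E.A cc (Triple.graphTriple cc.E)
  obtain ⟨aA', hA'⟩ := exists_tripleOf cc.E.A' cc (Triple.graphTriple' cc.E)
  letI := cc.E.ι.toRingHom.toAlgebra
  letI := cc.E.ι'.toRingHom.toAlgebra
  haveI : IsScalarTower k cc.E.A cc.E.A01 :=
    IsScalarTower.of_algebraMap_eq fun x => (cc.E.ι.commutes x).symm
  haveI : IsScalarTower k cc.E.A' cc.E.A01 :=
    IsScalarTower.of_algebraMap_eq fun x => (cc.E.ι'.commutes x).symm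
  have hov : Pic.pullTop (baseChangeSnd c (baseHom (k := k) cc.E.A cc.E.A01)) aA =
      Pic.pullTop (baseChangeSnd c (baseHom (k := k) cc.E.A' cc.E.A01)) aA' := by
    obtain ⟨G, ⟨g⟩, ⟨g'⟩⟩ := Triple.exists_graph_overlap cc.E
    obtain ⟨p⟩ := tripleOf_pull cc.E.A cc cc.E.A01 aA
    obtain ⟨p'⟩ := tripleOf_pull cc.E.A' cc cc.E.A01 aA'
    obtain ⟨e⟩ := hA
    obtain ⟨e'⟩ := hA'
    exact (tripleOf_iso_iff cc.E.A01 cc _ _).mp
      ⟨((p.congrLeft e.symm).iso g).trans ((p'.congrLeft e'.symm).iso g').symm⟩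
  let a : ∀ i, RPic ε ((chartsCover cc).f i ≫ c) := fun i =>
    match i with
    | ⟨true⟩ => rmap (⟨𝟙 _, (Category.id_comp _).trans cc.j_over.symm⟩ :
          SchemeHomOver (cc.j ≫ c) (baseMap k cc.E.A)) (rigidify ε aA)
    | ⟨false⟩ => rmap (⟨𝟙 _, (Category.id_comp _).trans cc.j'_over.symm⟩ :
          SchemeHomOver (cc.j' ≫ c) (baseMap k cc.E.A')) (rigidify ε aA')
  have hmix : ∀ (Z : Scheme.{u}) (z : Z ⟶ Spec (CommRingCat.of k))
      (gi : SchemeHomOver z (cc.j ≫ c)) (gj : SchemeHomOver z (cc.j' ≫ c)),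
      gi.1 ≫ cc.j = gj.1 ≫ cc.j' → rmap gi (a ⟨true⟩) = rmap gj (a ⟨false⟩) := by
    intro Z z gi gj hg
    let l : SchemeHomOver z (baseMap k cc.E.A01) :=
      ⟨cc.isPullback.lift gi.1 gj.1 hg, by
        have e : baseMap k cc.E.A01 =
            Spec.map (CommRingCat.ofHom cc.E.ι.toRingHom) ≫ baseMap k cc.E.A :=
          (baseHom (k := k) cc.E.A cc.E.A01).2.symm
        rw [e, ← Category.assoc, cc.isPullback.lift_fst, baseMap, ← cc.j_over]
        exact gi.2⟩
    change rmap gi (rmap _ _) = rmap gj (rmap _ _)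
    rw [rmap_rmap, rmap_rmap,
      rmap_congr (ψ' := postComp (baseHom (k := k) cc.E.A cc.E.A01) l)
        (show gi.1 ≫ 𝟙 _ = _ from (Category.comp_id _).trans (cc.isPullback.lift_fst _ _ hg).symm),
      rmap_congr (ψ' := postComp (baseHom (k := k) cc.E.A' cc.E.A01) l)
        (show gj.1 ≫ 𝟙 _ = _ from (Category.comp_id _).trans (cc.isPullback.lift_snd _ _ hg).symm),
      ← rmap_rmap, ← rmap_rmap]
    simp only [rigidify_pull, hov]
  obtain ⟨b, hb⟩ := rPic_exists_glue cc (chartsCover cc) a (by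
    rintro ⟨i⟩ ⟨j⟩ Z z gi gj hg
    cases i <;> cases j
    · have : IsOpenImmersion ((chartsCover cc).f ⟨false⟩) := cc.isOpenImmersion_j'
      exact DFunLike.congr_fun (rmap_congr ((cancel_mono _).mp hg)) _
    · exact (hmix Z z gj gi hg.symm).symm
    · exact hmix Z z gi gj hg
    · have : IsOpenImmersion ((chartsCover cc).f ⟨true⟩) := cc.isOpenImmersion_j
      exact DFunLike.congr_fun (rmap_congr ((cancel_mono _).mp hg)) _)
  exact ⟨aA, aA', b, hA, hA', hb ⟨true⟩, hb ⟨false⟩⟩

/-- The ideal class of the diagonal, restricted to points of the curve. -/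
theorem exists_diagonal_class :
    ∃ δ : Pic (pullback c c) ⊤,
      (∀ (P : SchemeHomOver (baseMap k k) c) (φ : cc.E.A →ₐ[k] k),
        P.1 = Spec.map (CommRingCat.ofHom φ.toRingHom) ≫ cc.j →
          Nonempty (Triple.Iso (tripleOf k cc (Pic.pullTop (baseChangeSnd c P) δ))
            (Triple.ptTriple cc.E (Algebra.TensorProduct.lift (Algebra.ofId k k)
              ((Algebra.ofId k k).comp φ) fun _ _ => Commute.all _ _)))) ∧
      ∀ (P : SchemeHomOver (baseMap k k) c), P.1 = ε.1 →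
          Nonempty (Triple.Iso (tripleOf k cc (Pic.pullTop (baseChangeSnd c P) δ))
            (Triple.εTriple cc.E)) := by
  obtain ⟨aA, aA', b, ⟨eA⟩, ⟨eA'⟩, hb, hb'⟩ := exists_glued_graph cc
  refine ⟨b.1, fun P φ hP => ?_, fun P hP => ?_⟩
  · obtain ⟨Q, hQ, hQ'⟩ := exists_chart_point φ cc.j cc.j_over P hP
    letI := φ.toRingHom.toAlgebra
    haveI : IsScalarTower k cc.E.A k := IsScalarTower.of_algebraMap_eq fun x => (φ.commutes x).symm
    have hpull : Pic.pullTop (baseChangeSnd c P) b.1 =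
        Pic.pullTop (baseChangeSnd c (baseHom (k := k) cc.E.A k)) aA := by
      rw [← coe_rmap, ← hQ, ← rmap_rmap, hb, rmap_rmap, hQ', rigidify_pull, rigidify_field]
      rfl
    obtain ⟨p⟩ := tripleOf_pull cc.E.A cc k aA
    obtain ⟨g⟩ := Triple.graphTriple_pt cc.E φ
    rw [hpull, show (Algebra.ofId k k).comp φ = φ from AlgHom.ext fun _ => rfl]
    exact ⟨(p.congrLeft eA.symm).iso g⟩
  · obtain ⟨Q, hQ, hQ'⟩ := exists_chart_point cc.E.ε cc.j' cc.j'_over P
      (hP.trans cc.ε_eq.symm)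
    letI := cc.E.ε.toRingHom.toAlgebra
    haveI : IsScalarTower k cc.E.A' k :=
      IsScalarTower.of_algebraMap_eq fun x => (cc.E.ε.commutes x).symm
    have hpull : Pic.pullTop (baseChangeSnd c P) b.1 =
        Pic.pullTop (baseChangeSnd c (baseHom (k := k) cc.E.A' k)) aA' := by
      rw [← coe_rmap, ← hQ, ← rmap_rmap, hb', rmap_rmap, hQ', rigidify_pull, rigidify_field]
      rfl
    obtain ⟨p⟩ := tripleOf_pull cc.E.A' cc k aA'
    obtain ⟨g⟩ := Triple.graphTriple'_ε cc.E
    rw [hpull]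
    exact ⟨(p.congrLeft eA'.symm).iso g⟩

end FLTA.Jacobian
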