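import Mathlib

/-!
# The ideal of a graph in `R ⊗ B` and locally principal ideals (S25; owner helper13).
-/

set_option autoImplicit false

universe u

open TensorProduct

namespace FLTA.Jacobian

section LocallyPrincipal

variable {P : Type u} [CommRing P]

/-- Near every prime the ideal is generated by a single element. -/
def IsLocPrincipal (I : Ideal P) : Prop :=
  ∀ M : Ideal P, M.IsPrime → ∃ h ∉ M, ∃ f ∈ I, ∀ i ∈ I, h * i ∈ Ideal.span {f}

lemma isLocPrincipal_of_maximal {I : Ideal P}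
    (H : ∀ M : Ideal P, M.IsMaximal → ∃ h ∉ M, ∃ f ∈ I, ∀ i ∈ I, h * i ∈ Ideal.span {f}) :
    IsLocPrincipal I := fun M hM => by
  obtain ⟨M₀, hmax, hle⟩ := M.exists_le_maximal hM.ne_top
  obtain ⟨h, hh, rest⟩ := H M₀ hmax
  exact ⟨h, fun hm => hh (hle hm), rest⟩

lemma IsLocPrincipal.map {I : Ideal P} (H : IsLocPrincipal I) {Q : Type u} [CommRing Q]
    (σ : P →+* Q) : IsLocPrincipal (I.map σ) := fun M hM => by
  obtain ⟨h, hh, f, hf, hI⟩ := H (M.comap σ) (Ideal.IsPrime.comap σ)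
  refine ⟨σ h, hh, σ f, Ideal.mem_map_of_mem σ hf, fun i hi => ?_⟩
  induction hi using Submodule.span_induction with
  | mem x hx =>
    obtain ⟨y, hy, rfl⟩ := hx
    rw [← map_mul, ← Set.image_singleton, ← Ideal.map_span]
    exact Ideal.mem_map_of_mem σ (hI y hy)
  | zero => simp
  | add x y _ _ hx hy => rw [mul_add]; exact add_mem hx hy
  | smul c x _ hx => rw [smul_eq_mul, mul_left_comm]; exact Ideal.mul_mem_left _ c hx

/-- Transfer from a localization away from an element. -/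
lemma IsLocPrincipal.of_away {I : Ideal P} (hfg : I.FG) (s : P) {L : Type u} [CommRing L]
    [Algebra P L] [IsLocalization.Away s L] (H : IsLocPrincipal (I.map (algebraMap P L)))
    (M : Ideal P) [M.IsPrime] (hs : s ∉ M) :
    ∃ h ∉ M, ∃ f ∈ I, ∀ i ∈ I, h * i ∈ Ideal.span {f} := by
  classical
  have hdisj : Disjoint (Submonoid.powers s : Set P) (M : Set P) := by
    rw [Set.disjoint_left]
    rintro _ ⟨n, rfl⟩ hn
    exact hs (‹M.IsPrime›.mem_of_pow_mem n hn)
  have hp : (M.map (algebraMap P L)).IsPrime :=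
    IsLocalization.isPrime_of_isPrime_disjoint (Submonoid.powers s) L M ‹_› hdisj
  obtain ⟨h, hh, f, hf, hI⟩ := H _ hp
  obtain ⟨⟨h₀, ⟨_, a, rfl⟩⟩, hh₀⟩ := IsLocalization.surj (Submonoid.powers s) h
  obtain ⟨⟨⟨f₀, hf₀⟩, ⟨_, b, rfl⟩⟩, hf₁⟩ :=
    (IsLocalization.mem_map_algebraMap_iff (Submonoid.powers s) L).mp hf
  have hu : ∀ n : ℕ, IsUnit (algebraMap P L (s ^ n)) := fun n =>
    IsLocalization.map_units L (⟨_, n, rfl⟩ : Submonoid.powers s)
  have hh₀' : h₀ ∉ M := fun hm => by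
    have h1 : h * algebraMap P L (s ^ a) ∈ M.map (algebraMap P L) := hh₀ ▸ Ideal.mem_map_of_mem _ hm
    exact hh ((Ideal.mul_unit_mem_iff_mem _ (hu a)).mp h1)
  have key : ∀ i ∈ I, ∃ n, s ^ n * (h₀ * i) ∈ Ideal.span {f₀} := fun i hi => by
    obtain ⟨z, hz⟩ := Ideal.mem_span_singleton.mp (hI _ (Ideal.mem_map_of_mem _ hi))
    obtain ⟨⟨z₀, ⟨_, e, rfl⟩⟩, hz₀⟩ := IsLocalization.surj (Submonoid.powers s) z
    have : algebraMap P L (s ^ b * s ^ e * (h₀ * i)) = algebraMap P L (s ^ a * (f₀ * z₀)) := by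
      simp only [map_mul] at *
      rw [← hh₀, ← hf₁, ← hz₀]
      linear_combination (algebraMap P L (s ^ b) * algebraMap P L (s ^ e) * algebraMap P L (s ^ a)) * hz
    obtain ⟨⟨_, d, rfl⟩, hd⟩ := (IsLocalization.eq_iff_exists (Submonoid.powers s) L).mp this
    refine ⟨d + b + e, Ideal.mem_span_singleton.mpr ⟨s ^ d * s ^ a * z₀, ?_⟩⟩
    rw [pow_add, pow_add]
    linear_combination hd
  obtain ⟨G, hG⟩ := hfg
  choose n hn using fun g : G => key g.1 (hG ▸ Ideal.subset_span g.2)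
  refine ⟨s ^ (∑ g, n g) * h₀, ‹M.IsPrime›.mul_notMem (fun hm => hs (‹M.IsPrime›.mem_of_pow_mem _ hm))
    hh₀', f₀, hf₀, fun i hi => ?_⟩
  rw [← hG] at hi
  induction hi using Submodule.span_induction with
  | mem x hx =>
    obtain ⟨e, he⟩ := Nat.exists_eq_add_of_le
      (Finset.single_le_sum (f := n) (fun _ _ => Nat.zero_le _) (Finset.mem_univ (⟨x, hx⟩ : G)))
    rw [he, pow_add, mul_comm (s ^ n _) (s ^ e), mul_assoc (s ^ e), mul_assoc (s ^ e),
      mul_assoc (s ^ n _)]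
    exact Ideal.mul_mem_left _ _ (hn ⟨x, hx⟩)
  | zero => simp
  | add x y _ _ hx hy => rw [mul_add]; exact add_mem hx hy
  | smul c x _ hx => rw [smul_eq_mul, mul_left_comm]; exact Ideal.mul_mem_left _ c hx

end LocallyPrincipal

section Graph

variable {k : Type u} [Field k] {B : Type u} [CommRing B] [Algebra k B]
  {R : Type u} [CommRing R] [Algebra k R]

/-- Evaluation of functions on the base change at a point. -/
noncomputable def evR (φ : B →ₐ[k] R) : R ⊗[k] B →ₐ[R] R :=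
  Algebra.TensorProduct.lift (Algebra.ofId R R) φ fun _ _ => Commute.all _ _

@[simp] lemma evR_tmul (φ : B →ₐ[k] R) (r : R) (b : B) : evR φ (r ⊗ₜ b) = r * φ b := by
  simp [evR]

/-- The ideal of the graph of a point. -/
noncomputable def graphId (φ : B →ₐ[k] R) : Ideal (R ⊗[k] B) := RingHom.ker (evR φ)

lemma mem_graphId {φ : B →ₐ[k] R} {x : R ⊗[k] B} : x ∈ graphId φ ↔ evR φ x = 0 :=
  RingHom.mem_ker

lemma graphId_eq_span (φ : B →ₐ[k] R) :
    graphId φ = Ideal.span (Set.range fun b => (1 : R) ⊗ₜ[k] b - φ b ⊗ₜ 1) := by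
  refine le_antisymm (fun x hx => ?_) (Ideal.span_le.mpr ?_)
  · have : ∀ y : R ⊗[k] B, y - evR φ y ⊗ₜ 1 ∈
        Ideal.span (Set.range fun b => (1 : R) ⊗ₜ[k] b - φ b ⊗ₜ 1) := fun y => by
      induction y using TensorProduct.induction_on with
      | zero => simp
      | tmul r b =>
        have : r ⊗ₜ[k] b - evR φ (r ⊗ₜ b) ⊗ₜ 1 = (r ⊗ₜ 1) * ((1 : R) ⊗ₜ[k] b - φ b ⊗ₜ 1) := by
          rw [mul_sub, Algebra.TensorProduct.tmul_mul_tmul, Algebra.TensorProduct.tmul_mul_tmul,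
            evR_tmul, mul_one, one_mul, one_mul]
        rw [this]
        exact Ideal.mul_mem_left _ _ (Ideal.subset_span ⟨b, rfl⟩)
      | add y z hy hz =>
        rw [map_add, TensorProduct.add_tmul, add_sub_add_comm]
        exact add_mem hy hz
    simpa [mem_graphId.mp hx] using this x
  · rintro _ ⟨b, rfl⟩
    simp [mem_graphId]

lemma map_graphId (S : Type u) [CommRing S] [Algebra k S] [Algebra R S] [IsScalarTower k R S]
    (φ : B →ₐ[k] R) :
    (graphId φ).map (Algebra.TensorProduct.map (IsScalarTower.toAlgHom k R S) (AlgHom.id k B)) =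
      graphId ((IsScalarTower.toAlgHom k R S).comp φ) := by
  rw [graphId_eq_span, graphId_eq_span, Ideal.map_span, ← Set.range_comp]
  congr 2
  funext b
  simp

lemma graphId_ne_bot [Nontrivial R] (φ : B →ₐ[k] R) {t : B} (ht : ¬ IsIntegral k t) :
    graphId φ ≠ ⊥ := by
  intro h
  have ht' : t ∉ Submodule.span k {(1 : B)} := fun hm => by
    obtain ⟨c, hc⟩ := Submodule.mem_span_singleton.mp hm
    exact ht (by rw [← hc, ← Algebra.algebraMap_eq_smul_one]; exact isIntegral_algebraMap)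
  obtain ⟨f, hft, hf1⟩ := Submodule.exists_dual_map_eq_bot_of_notMem ht' inferInstance
  have h0 : (1 : R) ⊗ₜ[k] t - φ t ⊗ₜ 1 = 0 := by
    rw [← Ideal.mem_bot, ← h, graphId_eq_span]
    exact Ideal.subset_span ⟨t, rfl⟩
  have h1 := congr_arg ((TensorProduct.rid k R).toLinearMap.comp (f.lTensor R)) h0
  have hf : f 1 = 0 := (Submodule.eq_bot_iff _).mp hf1 _
    (Submodule.mem_map_of_mem (Submodule.mem_span_singleton_self 1))
  simp [hf, hft] at h1

/-- The diagonal of a smooth affine curve is locally principal. -/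
theorem isLocPrincipal_graphId [IsAlgClosed k] [Algebra.FiniteType k B] [IsDedekindDomain B] :
    IsLocPrincipal (graphId (AlgHom.id k B)) := by
  refine isLocPrincipal_of_maximal fun M hM => ?_
  let I := graphId (AlgHom.id k B)
  change ∃ h ∉ M, ∃ f ∈ I, ∀ i ∈ I, h * i ∈ Ideal.span {f}
  by_cases hIM : I ≤ M
  swap
  · obtain ⟨f, hf, hfM⟩ := SetLike.not_le_iff_exists.mp hIM
    exact ⟨f, hfM, f, hf, fun i _ => Ideal.mem_span_singleton.mpr (dvd_mul_right _ _)⟩
  have : Algebra.FiniteType k (B ⊗[k] B) := Algebra.FiniteType.trans (S := B) ‹_› inferInstance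
  have hN : IsNoetherianRing (B ⊗[k] B) := Algebra.FiniteType.isNoetherianRing k _
  let := Ideal.Quotient.field M
  have : Module.Finite k ((B ⊗[k] B) ⧸ M) := finite_of_finite_type_of_isJacobsonRing k _
  let e : k ≃ₐ[k] ((B ⊗[k] B) ⧸ M) := AlgEquiv.ofBijective (Algebra.ofId k _)
    IsAlgClosed.algebraMap_bijective_of_isIntegral
  let x : B ⊗[k] B →ₐ[k] k := e.symm.toAlgHom.comp (Ideal.Quotient.mkₐ k M)
  have hx : ∀ z, x z = 0 ↔ z ∈ M := fun z => by
    rw [← Ideal.Quotient.eq_zero_iff_mem]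
    exact e.symm.map_eq_zero_iff
  let incl : B →ₐ[k] B ⊗[k] B := Algebra.TensorProduct.includeRight
  let d : B → B ⊗[k] B := fun b => 1 ⊗ₜ b - b ⊗ₜ 1
  have hd : ∀ b, d b ∈ I := fun b => by
    change _ ∈ graphId _
    rw [graphId_eq_span]
    exact Ideal.subset_span ⟨b, rfl⟩
  have hxl : ∀ b : B, x (b ⊗ₜ 1) = x (1 ⊗ₜ b) := fun b => by
    have := (hx _).mpr (hIM (hd b))
    rw [map_sub, sub_eq_zero] at this
    exact this.symm
  let m : Ideal B := RingHom.ker (x.comp incl)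
  have hm : m.IsMaximal := RingHom.ker_isMaximal_of_surjective _ fun a =>
    ⟨algebraMap k B a, (x.comp incl).commutes a⟩
  obtain ⟨u, hu, hsup⟩ : ∃ u ∈ m, m ≤ Ideal.span {u} ⊔ m ^ 2 := by
    rcases eq_or_ne m ⊥ with h0 | h0
    · exact ⟨0, zero_mem _, h0.le.trans bot_le⟩
    obtain ⟨u, hu1, hu2⟩ := Ideal.exists_mem_pow_notMem_pow_succ m h0 hm.ne_top 1
    rw [pow_one] at hu1
    refine ⟨u, hu1, ?_⟩
    let J := Ideal.span {u} ⊔ m ^ 2
    have hJ : J ∣ m ^ 2 := Ideal.dvd_iff_le.mpr le_sup_right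
    obtain ⟨i, hi, hass⟩ := (dvd_prime_pow (Ideal.prime_of_isPrime h0 hm.isPrime) _).mp hJ
    rw [associated_iff_eq] at hass
    interval_cases i
    · exfalso
      refine hm.ne_top (top_le_iff.mp ?_)
      rw [← Ideal.one_eq_top, ← pow_zero m, ← hass]
      exact sup_le ((Ideal.span_singleton_le_iff_mem _).mpr hu1) (Ideal.pow_le_self two_ne_zero)
    · rw [pow_one] at hass
      exact hass.ge
    · exact absurd (hass.le (Submodule.mem_sup_left (Ideal.mem_span_singleton_self u))) hu2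
  let N : Ideal (B ⊗[k] B) := Ideal.span {d u} ⊔ M * I
  have hml : ∀ a, a ∈ m → a ⊗ₜ[k] (1 : B) ∈ M := fun a ha => (hx _).mp (by rw [hxl]; exact ha)
  have hmr : ∀ a, a ∈ m → (1 : B) ⊗ₜ[k] a ∈ M := fun a ha => (hx _).mp ha
  have dmul : ∀ a b, d (a * b) = (1 ⊗ₜ a) * d b + (b ⊗ₜ 1) * d a := fun a b => by
    simp only [d, mul_sub, Algebra.TensorProduct.tmul_mul_tmul, one_mul, mul_one, mul_comm b a]
    ring
  have dadd : ∀ a b, d (a + b) = d a + d b := fun a b => by
    simp only [d, TensorProduct.tmul_add, TensorProduct.add_tmul]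
    abel
  have dconst : ∀ c : k, d (algebraMap k B c) = 0 := fun c => by
    simp only [d, Algebra.algebraMap_eq_smul_one, TensorProduct.smul_tmul, sub_self]
  have hsq : ∀ a ∈ m ^ 2, d a ∈ N := fun a ha => by
    rw [pow_two] at ha
    refine Submodule.mul_induction_on ha (fun p hp q hq => ?_) fun p q hp hq => ?_
    · rw [dmul]
      exact add_mem (Submodule.mem_sup_right (Ideal.mul_mem_mul (hmr p hp) (hd q)))
        (Submodule.mem_sup_right (Ideal.mul_mem_mul (hml q hq) (hd p)))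
    · rw [dadd]; exact add_mem hp hq
  have hIN : I ≤ N := by
    change graphId _ ≤ N
    rw [graphId_eq_span, Ideal.span_le]
    rintro _ ⟨b, rfl⟩
    change d b ∈ N
    have hb : b - algebraMap k B (x (incl b)) ∈ m := by
      rw [RingHom.mem_ker, map_sub]
      exact sub_eq_zero.mpr ((x.comp incl).commutes _).symm
    obtain ⟨p, hp, q, hq, hpq⟩ := Submodule.mem_sup.mp (hsup hb)
    obtain ⟨c, rfl⟩ := Ideal.mem_span_singleton'.mp hp
    have : d b = (1 ⊗ₜ c) * d u + (u ⊗ₜ 1) * d c + d q := by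
      rw [← dmul, ← dadd, hpq]
      conv_lhs => rw [← sub_add_cancel b (algebraMap k B (x (incl b))), dadd, dconst, add_zero]
    rw [this]
    exact add_mem (add_mem (Submodule.mem_sup_left
      (Ideal.mul_mem_left _ _ (Ideal.mem_span_singleton_self _)))
      (Submodule.mem_sup_right (Ideal.mul_mem_mul (hml u hu) (hd c)))) (hsq q hq)
  let Q : Submodule (B ⊗[k] B)
      ((B ⊗[k] B) ⧸ (Ideal.span {d u} : Submodule (B ⊗[k] B) (B ⊗[k] B))) :=
    Submodule.map (Submodule.mkQ _) (I : Submodule (B ⊗[k] B) (B ⊗[k] B))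
  have hQ : Q ≤ M • Q := by
    rintro _ ⟨i, hi, rfl⟩
    obtain ⟨p, hp, q, hq, rfl⟩ := Submodule.mem_sup.mp (hIN hi)
    rw [map_add, show Submodule.mkQ _ p = 0 from (Submodule.Quotient.mk_eq_zero _).mpr hp, zero_add,
      ← Submodule.map_smul'']
    exact ⟨q, by rwa [smul_eq_mul], rfl⟩
  obtain ⟨h, h1, hh⟩ :=
    Submodule.exists_sub_one_mem_and_smul_eq_zero_of_fg_of_le_smul M Q
      (Submodule.FG.map _ (IsNoetherian.noetherian I)) hQ
  refine ⟨h, fun hm' => hM.ne_top ((Ideal.eq_top_iff_one _).mpr ?_), d u, hd u, fun i hi => ?_⟩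
  · simpa using M.sub_mem hm' h1
  · exact (Submodule.Quotient.mk_eq_zero _).mp (hh _ ⟨i, hi, rfl⟩)

end Graph

end FLTA.Jacobian
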