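import Fermat.Agent.Jacobian.AssembleChart
import Fermat.Agent.Jacobian.CechLift

/-!
# The charts are smooth (S25, end layer; owner helper13).
-/

set_option autoImplicit false

universe u

open CategoryTheory CategoryTheory.Limits AlgebraicGeometry TopologicalSpace NeronModelInfra
open scoped FLTA.Jacobian.TwoCover FLTA.Jacobian.Triple

namespace FLTA.Jacobian

variable {k : Type u} [Field k]

/-- Points in the locus lift along square zero extensions. -/
theorem exists_lift_chart_point {E : TwoCover k} {g : ℕ} {b : Fin g → E.A}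
    {R : Type u} [CommRing R] [Algebra k R] {S : Type u} [CommRing S] [Algebra k S]
    [Algebra R S] [IsScalarTower k R S] (hs : Function.Surjective (algebraMap R S))
    (hn : IsNilpotent (RingHom.ker (algebraMap R S))) (ψ : ChartRing E b →ₐ[k] S)
    (hψ : Triple.IsGood b (chartTripleAt ψ)) :
    ∃ χ : ChartRing E b →ₐ[k] R, (IsScalarTower.toAlgHom k R S).comp χ = ψ := by
  obtain ⟨T, ⟨bS⟩⟩ := Triple.exists_lift hs hn (chartTripleAt ψ)
  obtain ⟨σ, -, -, hσ, -⟩ := hψ.section_
  have hgood : Triple.IsGood b T := by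
    refine Triple.IsGood.of_fibres (Triple.exists_generatesAtε_lift hs hn bS ⟨_, hσ⟩) ?_
    intro K _ _ _ _ TK bK
    have hker : RingHom.ker (algebraMap R S) ≤ RingHom.ker (algebraMap R K) := fun x hx => by
      obtain ⟨n, hn⟩ := hn
      have h0 : x ^ n = 0 := by
        rw [← Ideal.mem_bot, ← Ideal.zero_eq_bot, ← hn]
        exact Ideal.pow_mem_pow hx n
      exact RingHom.mem_ker.mpr
        (IsNilpotent.eq_zero (⟨n, by rw [← map_pow, h0, map_zero]⟩))
    let φ : S →+* K := (algebraMap R S).liftOfSurjective hs ⟨algebraMap R K, hker⟩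
    have hφ : ∀ x, φ (algebraMap R S x) = algebraMap R K x := fun x =>
      RingHom.liftOfRightInverse_comp_apply _ _ _ _ x
    let := φ.toAlgebra
    have t1 : IsScalarTower R S K := IsScalarTower.of_algebraMap_eq fun x => (hφ x).symm
    have t2 : IsScalarTower k S K := IsScalarTower.of_algebraMap_eq fun x => by
      rw [IsScalarTower.algebraMap_apply k R K, IsScalarTower.algebraMap_apply k R S]
      exact (hφ _).symm
    exact hψ.baseChange (bS.descend bK)
  obtain ⟨χ, ⟨e⟩, -⟩ := existsUnique_chartTripleAt hgood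
  obtain ⟨bc⟩ := chartTripleAt_baseChange (S := S) χ
  refine ⟨χ, (existsUnique_chartTripleAt hψ).unique ⟨?_⟩
    ⟨Triple.Iso.refl _⟩⟩
  exact ((bc.congrLeft e.symm).iso bS)

/-- The chart is formally smooth at the good points. -/
theorem formallySmooth_chartRing_away {E : TwoCover k} {g : ℕ} {b : Fin g → E.A}
    (f : ChartRing E b) (hf : PrimeSpectrum.basicOpen f ≤ chartLocus E b) :
    Algebra.FormallySmooth k (Localization.Away f) := by
  refine Algebra.FormallySmooth.iff_comp_surjective.mpr fun B _ _ I hI φ => ?_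
  let ι : ChartRing E b →ₐ[k] Localization.Away f :=
    IsScalarTower.toAlgHom k (ChartRing E b) (Localization.Away f)
  let ψ : ChartRing E b →ₐ[k] B ⧸ I := φ.comp ι
  have hu : IsUnit (ψ f) := (IsLocalization.Away.algebraMap_isUnit f).map φ
  have hgood : Triple.IsGood b (chartTripleAt ψ) := (isGood_chartTripleAt_iff ψ).mpr fun p =>
    hf fun h0 => p.isPrime.ne_top (Ideal.eq_top_of_isUnit_mem _ h0 hu)
  have hn : IsNilpotent (RingHom.ker (algebraMap B (B ⧸ I))) := by
    rw [Ideal.Quotient.algebraMap_eq, Ideal.mk_ker]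
    exact ⟨2, hI⟩
  obtain ⟨χ, hχ⟩ := exists_lift_chart_point (R := B) (S := B ⧸ I) Ideal.Quotient.mk_surjective hn ψ
    hgood
  have hχf : IsUnit (χ f) := by
    obtain ⟨v, hv⟩ := hu.exists_right_inv
    obtain ⟨w, rfl⟩ := Ideal.Quotient.mk_surjective v
    have h1 : 1 - χ f * w ∈ I := by
      rw [← Ideal.Quotient.eq_zero_iff_mem, map_sub, map_one, map_mul]
      rw [← hχ] at hv
      exact sub_eq_zero.mpr hv.symm
    have h2 : IsNilpotent (1 - χ f * w) := ⟨2, by
      rw [← Ideal.mem_bot, ← hI]
      exact Ideal.pow_mem_pow h1 2⟩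
    have := h2.isUnit_one_sub
    rw [sub_sub_cancel] at this
    exact isUnit_of_mul_isUnit_left this
  let L : Localization.Away f →+* B := IsLocalization.Away.lift f hχf
  have hL : ∀ x, L (ι x) = χ x := fun x => IsLocalization.Away.lift_eq f hχf x
  refine ⟨{ L with commutes' := fun r => ?_ }, ?_⟩
  · change L (algebraMap k (Localization.Away f) r) = _
    rw [← ι.commutes, hL, χ.commutes]
  · apply AlgHom.coe_ringHom_injective
    refine IsLocalization.ringHom_ext (Submonoid.powers f) (RingHom.ext fun x => ?_)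
    change Ideal.Quotient.mk I (L (ι x)) = φ (ι x)
    rw [hL]
    exact DFunLike.congr_fun hχ x

/-- The coordinate ring of a chart is smooth at the good points. -/
theorem smooth_chartRing_away {E : TwoCover k} {g : ℕ} {b : Fin g → E.A}
    (f : ChartRing E b) (hf : PrimeSpectrum.basicOpen f ≤ chartLocus E b) :
    Algebra.Smooth k (Localization.Away f) := by
  have := ChartRing.finiteType E b
  have : Algebra.FiniteType k (Localization.Away f) :=
    Algebra.FiniteType.trans (S := ChartRing E b) inferInstance inferInstance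
  exact { formallySmooth := formallySmooth_chartRing_away f hf
          finitePresentation := Algebra.FinitePresentation.of_finiteType.mp this }

variable {C : Scheme.{u}} {c : C ⟶ Spec (CommRingCat.of k)}
  {ε : SchemeHomOver (𝟙 (Spec (CommRingCat.of k))) c}

/-- The charts are smooth. -/
theorem smooth_chartHom (cc : CurveCover c ε) {g : ℕ} (b : Fin g → cc.E.A) :
    Smooth (chartHom cc b) := by
  let ι := {f : ChartRing cc.E b // PrimeSpectrum.basicOpen f ≤ chartLocus cc.E b}
  let m : ∀ i : ι, Spec (CommRingCat.of (Localization.Away i.1)) ⟶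
      Spec (CommRingCat.of (ChartRing cc.E b)) := fun i =>
    Spec.map (CommRingCat.ofHom (algebraMap (ChartRing cc.E b) (Localization.Away i.1)))
  have hm : ∀ i, IsOpenImmersion (m i) := fun i =>
    IsOpenImmersion.of_isLocalization i.1
  have hmr : ∀ i, Set.range (m i) = ((PrimeSpectrum.basicOpen i.1).carrier : Set (PrimeSpectrum (ChartRing cc.E b))) := fun i =>
    PrimeSpectrum.localization_away_comap_range (Localization.Away i.1) i.1
  have hr : ∀ i, Set.range (m i) ⊆ Set.range (chartOpen cc b).ι := fun i => by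
    rw [Scheme.Opens.range_ι, hmr]
    exact i.2
  let l : ∀ i : ι, Spec (CommRingCat.of (Localization.Away i.1)) ⟶ chartScheme cc b := fun i =>
    IsOpenImmersion.lift (chartOpen cc b).ι (m i) (hr i)
  have hl : ∀ i, l i ≫ (chartOpen cc b).ι = m i := fun i => IsOpenImmersion.lift_fac _ _ _
  have hli : ∀ i, IsOpenImmersion (l i) := fun i => by
    have : IsOpenImmersion (l i ≫ (chartOpen cc b).ι) := by rw [hl]; exact hm i
    exact IsOpenImmersion.of_comp (l i) (chartOpen cc b).ι
  let 𝒰 : Scheme.OpenCover.{u} (chartScheme cc b) := Scheme.Cover.mkOfCovers ι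
    (fun i => Spec (CommRingCat.of (Localization.Away i.1))) l (fun x => by
      obtain ⟨_, ⟨f, rfl⟩, hxf, hle⟩ := PrimeSpectrum.isTopologicalBasis_basic_opens.exists_subset_of_mem_open
        x.2 (chartLocus cc.E b).2
      have hle' : PrimeSpectrum.basicOpen f ≤ chartLocus cc.E b := hle
      obtain ⟨y, hy⟩ := (hmr ⟨f, hle'⟩).ge hxf
      refine ⟨⟨f, hle'⟩, y, (chartOpen cc b).ι.isOpenEmbedding.injective ?_⟩
      exact (congr($(hl ⟨f, hle'⟩) y)).trans hy) hli
  rw [IsZariskiLocalAtSource.iff_of_openCover (P := @Smooth) 𝒰]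
  intro i
  change Smooth (l i ≫ chartHom cc b)
  rw [chartHom, ← Category.assoc, hl, baseMap, ← Spec.map_comp,
    HasRingHomProperty.Spec_iff (P := @Smooth)]
  have hs := RingHom.smooth_algebraMap.mpr (smooth_chartRing_away i.1 i.2)
  rwa [IsScalarTower.algebraMap_eq k (ChartRing cc.E b) (Localization.Away i.1)] at hs

end FLTA.Jacobian
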