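import Fermat.Agent.Jacobian.EndRep
import Fermat.Agent.Jacobian.EndSmooth
import Fermat.Agent.Jacobian.AlgEquivTheta

/-!
# Smoothness, universal closedness and connectedness of the Jacobian (S25, end layer).
-/

set_option autoImplicit false

universe u

open CategoryTheory CategoryTheory.Limits AlgebraicGeometry NeronModelInfra
  AlgebraicGeometry.RelPicard TopologicalSpace

namespace FLTA.Jacobian

variable {k : Type u} [Field k] [IsAlgClosed k] {C : Scheme.{u}}
  {c : C ⟶ Spec (CommRingCat.of k)}
  {ε : SchemeHomOver (𝟙 (Spec (CommRingCat.of k))) c} (cc : CurveCover c ε)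

/-- The Jacobian is smooth. -/
theorem smooth_jacHom : Smooth (jacHom cc) := by
  choose b j hj hp hjc using exists_chart_nhd cc
  let 𝒰 : Scheme.OpenCover.{u} (jacScheme cc) := Scheme.Cover.mkOfCovers (jacScheme cc)
    (fun p => chartScheme cc (b p)) j (fun p => ⟨p, hp p⟩) hj
  rw [IsZariskiLocalAtSource.iff_of_openCover (P := @Smooth) 𝒰]
  intro p
  change Smooth (j p ≫ jacHom cc)
  rw [hjc p]
  exact smooth_chartHom cc (b p)

theorem locallyOfFiniteType_jacHom : LocallyOfFiniteType (jacHom cc) := by
  have := smooth_jacHom cc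
  infer_instance

variable [IsProper c] [SmoothOfRelativeDimension 1 c] [IsIntegral C]

/-- A proper geometrically integral family maps onto the Jacobian. -/
theorem exists_surjective_jac :
    ∃ (Z : Scheme.{u}) (z : Z ⟶ Spec (CommRingCat.of k)) (_ : IsProper z)
      (_ : GeometricallyIntegral z) (q : SchemeHomOver z (jacHom cc)), Surjective q.1 := by
  obtain ⟨Z, z, hz, hz', θ, hθ, hhit⟩ := exists_theta_family cc
  refine ⟨Z, z, hz, hz', jacClassify cc θ hθ, ⟨fun x => ?_⟩⟩
  obtain ⟨K, _, _, _, s, hs⟩ := exists_point_of_mem (t := jacHom cc) x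
  obtain ⟨s', hs'⟩ := hhit K (rmap s (jacClass cc)) ((isDeg0_jacClass cc).rmap s)
  have e : postComp (jacClassify cc θ hθ) s' = s := by
    apply jac_ext cc
    rw [← rmap_rmap, rmap_jacClassify, hs']
  refine ⟨s'.1.base (IsLocalRing.closedPoint K), ?_⟩
  rw [← hs, ← e]
  rfl

theorem universallyClosed_jacHom : UniversallyClosed (jacHom cc) := by
  obtain ⟨Z, z, hz, -, q, hq⟩ := exists_surjective_jac cc
  have : UniversallyClosed (q.1 ≫ jacHom cc) := by rw [q.2]; infer_instance
  exact UniversallyClosed.of_comp_surjective q.1 (jacHom cc)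

/-- The Jacobian is geometrically connected. -/
theorem geometricallyConnected_jacHom : GeometricallyConnected (jacHom cc) := by
  obtain ⟨Z, z, -, hz, q, hq⟩ := exists_surjective_jac cc
  refine ⟨geometrically_iff_of_isClosedUnderIsomorphisms.mpr fun K _ x => ?_⟩
  let F : pullback z x ⟶ pullback (jacHom cc) x :=
    pullback.map z x (jacHom cc) x q.1 (𝟙 _) (𝟙 _) (by rw [Category.comp_id, q.2]) (by simp)
  have hpb : IsPullback F (pullback.fst z x) (pullback.fst (jacHom cc) x) q.1 := by
    refine IsPullback.of_right (h₁₂ := pullback.snd (jacHom cc) x) (h₂₂ := jacHom cc) (v₁₃ := x)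
      ?_ (pullback.lift_fst _ _ _) (IsPullback.of_hasPullback (jacHom cc) x).flip
    rw [q.2, show F ≫ pullback.snd (jacHom cc) x = pullback.snd z x from
      (pullback.lift_snd _ _ _).trans (Category.comp_id _)]
    exact (IsPullback.of_hasPullback z x).flip
  have : Surjective F := MorphismProperty.of_isPullback hpb.flip hq
  have : IsIntegral (pullback z x) :=
    GeometricallyIntegral.geometrically_isIntegral _ _ _ (IsPullback.of_hasPullback z x)
  exact F.surjective.connectedSpace F.continuous

end FLTA.Jacobian
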