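import Fermat.Agent.Jacobian.AssembleRPic
import Fermat.Agent.Jacobian.PicModules
import Fermat.Prelude.Def_AlgebraicGeometry_RepresentsRelSubPic

/-!
# Rigidified line bundles versus rigidified classes (S25, end layer).
-/

set_option autoImplicit false

universe u

open CategoryTheory CategoryTheory.Limits AlgebraicGeometry NeronModelInfra
  AlgebraicGeometry.RelPicard

namespace FLTA.Jacobian

variable {k : Type u} [Field k] {C : Scheme.{u}} {c : C ⟶ Spec (CommRingCat.of k)}
  {ε : SchemeHomOver (𝟙 (Spec (CommRingCat.of k))) c} {T T' : Scheme.{u}}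
  {t : T ⟶ Spec (CommRingCat.of k)} {t' : T' ⟶ Spec (CommRingCat.of k)}

/-- The class of a rigidified line bundle. -/
noncomputable def rlbClass (M : RigidifiedLineBundle c ε t) : RPic ε t :=
  ⟨classOfModule M.L M.isInvertible, mem_rPic.mpr (by
    rw [← classOfModule_pullback, ← classOfModule_unit]
    exact (classOfModule_eq_iff _ _).mpr M.rigidified)⟩

@[simp]
lemma coe_rlbClass (M : RigidifiedLineBundle c ε t) :
    (rlbClass M : Pic (pullback c t) ⊤) = classOfModule M.L M.isInvertible := rfl

lemma rlbClass_eq_iff (M M' : RigidifiedLineBundle c ε t) :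
    rlbClass M = rlbClass M' ↔ Nonempty (M.L ≅ M'.L) := by
  rw [Subtype.ext_iff, coe_rlbClass, coe_rlbClass, classOfModule_eq_iff]

lemma rlbClass_surjective (a : RPic ε t) : ∃ M : RigidifiedLineBundle c ε t, rlbClass M = a := by
  obtain ⟨L, hL, e⟩ := classOfModule_surjective a.1
  refine ⟨⟨L, hL, ?_⟩, Subtype.ext e⟩
  refine (classOfModule_eq_iff (hL.pullback _) (Scheme.Modules.isInvertible_unit _)).mp ?_
  rw [classOfModule_pullback (hM := hL), classOfModule_unit, e]
  exact mem_rPic.mp a.2

lemma rlbClass_unit : rlbClass (RigidifiedLineBundle.unit (c := c) (ε := ε) t) = 1 :=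
  Subtype.ext classOfModule_unit

lemma rlbClass_pullbackAlong (M : RigidifiedLineBundle c ε t) (ψ : SchemeHomOver t' t) :
    rlbClass (M.pullbackAlong ψ) = rmap ψ (rlbClass M) :=
  Subtype.ext (classOfModule_pullback _ M.isInvertible)

end FLTA.Jacobian
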