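import Fermat.Agent.Jacobian.EndRep
import Fermat.Agent.Jacobian.EndProps
import Fermat.Agent.Jacobian.EndRLB
import Fermat.Agent.Jacobian.AlgEquivMain

/-!
# Representability of the degree zero Picard functor of the curve (S25, end layer).
-/

set_option autoImplicit false

universe u

open CategoryTheory CategoryTheory.Limits AlgebraicGeometry NeronModelInfra
  AlgebraicGeometry.RelPicard GoodReductionJacobian

namespace FLTA.Jacobian

variable {k : Type u} [Field k] [IsAlgClosed k] {C : Scheme.{u}}
  {c : C ⟶ Spec (CommRingCat.of k)}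
  {ε : SchemeHomOver (𝟙 (Spec (CommRingCat.of k))) c} (cc : CurveCover c ε)

/-- The Jacobian with its zero section. -/
noncomputable def jacDesignation : RelativePic0Designation k c where
  P := jacScheme cc
  toBase := jacHom cc
  zeroSection := (jacClassify cc (1 : RPic ε (𝟙 (Spec (CommRingCat.of k)))) isDeg0_one).1
  zeroSection_toBase :=
    (jacClassify cc (1 : RPic ε (𝟙 (Spec (CommRingCat.of k)))) isDeg0_one).2

variable [IsProper c] [SmoothOfRelativeDimension 1 c] [IsIntegral C]

/-- The Jacobian represents the rigidified bundles algebraically equivalent to zero. -/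
theorem nonempty_represents :
    Nonempty (RepresentsRelSubPic c ε (algEquivZeroCut c ε) (jacDesignation cc)) := by
  obtain ⟨P, hP⟩ := rlbClass_surjective (jacClass cc)
  refine ⟨{
    poincare := P
    poincare_mem := (fibrewiseAlgEquivZero_iff cc P (jacClass cc) (by rw [← hP]; rfl)).mpr
      (isDeg0_jacClass cc)
    univ := fun t M hM => ?_
    zero := (rlbClass_eq_iff _ _).mp ?_ }⟩
  · have ha : IsDeg0 cc (rlbClass M) := (fibrewiseAlgEquivZero_iff cc M (rlbClass M) rfl).mp hM
    have key : ∀ g : SchemeHomOver t (jacHom cc),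
        Nonempty ((P.pullbackAlong g).L ≅ M.L) ↔ rmap g (jacClass cc) = rlbClass M := fun g => by
      rw [← rlbClass_eq_iff, rlbClass_pullbackAlong, hP]
    obtain ⟨ψ, hψ, huniq⟩ := existsUnique_jac cc (rlbClass M) ha
    exact ⟨ψ, (key ψ).mpr hψ, fun g hg => huniq g ((key g).mp hg)⟩
  · rw [rlbClass_pullbackAlong, rlbClass_unit]
    exact (congrArg _ hP).trans (rmap_jacClassify cc _ isDeg0_one)

end FLTA.Jacobian
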