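import Fermat.Agent.Jacobian.AssembleFunctor

/-!
# The universal class on the Jacobian of the curve (S25, end layer).
-/

set_option autoImplicit false

universe u

open CategoryTheory CategoryTheory.Limits AlgebraicGeometry NeronModelInfra
  AlgebraicGeometry.RelPicard TopologicalSpace Opposite

namespace FLTA.Jacobian

attribute [local irreducible] Pic.pull rmap rigidify chartClass goodLocus

variable {k : Type u} [Field k] [IsAlgClosed k] {C : Scheme.{u}}
  {c : C ⟶ Spec (CommRingCat.of k)}
  {ε : SchemeHomOver (𝟙 (Spec (CommRingCat.of k))) c} (cc : CurveCover c ε)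
  {T : Scheme.{u}} {t : T ⟶ Spec (CommRingCat.of k)}

/-- The universal point. -/
noncomputable def jacUniv : JacPt cc (jacScheme cc) :=
  (jacRepresentableBy cc).homEquiv (𝟙 _)

/-- The structure morphism of the Jacobian. -/
noncomputable def jacHom : jacScheme cc ⟶ Spec (CommRingCat.of k) := (jacUniv cc).1

/-- The universal class. -/
noncomputable def jacClass : RPic ε (jacHom cc) := (jacUniv cc).2.1

lemma isDeg0_jacClass : IsDeg0 cc (jacClass cc) := (jacUniv cc).2.2

lemma jac_homEquiv (f : T ⟶ jacScheme cc) :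
    (jacRepresentableBy cc).homEquiv f = JacPt.map cc f (jacUniv cc) := by
  conv_lhs => rw [← Category.comp_id f]
  exact (jacRepresentableBy cc).homEquiv_comp f (𝟙 _)

/-- The universal property of the Jacobian. -/
theorem existsUnique_jac (a : RPic ε t) (ha : IsDeg0 cc a) :
    ∃! ψ : SchemeHomOver t (jacHom cc), rmap ψ (jacClass cc) = a := by
  let x : JacPt cc T := ⟨t, a, ha⟩
  let f := (jacRepresentableBy cc).homEquiv.symm x
  have hf : JacPt.map cc f (jacUniv cc) = x :=
    (jac_homEquiv cc f).symm.trans ((jacRepresentableBy cc).homEquiv.apply_symm_apply x)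
  have he : f ≫ jacHom cc = t := congrArg JacPt.fst hf
  have mapId : JacPt.map cc (𝟙 T) x = x := JacPt.map_id_apply cc x
  refine ⟨⟨f, he⟩, ?_, fun ψ hψ => ?_⟩
  · exact (JacPt.rmap_eq_of_map_eq cc (hf.trans mapId.symm) he (Category.id_comp t)).trans
      (rmap_id a)
  · apply Subtype.ext
    change ψ.1 = (jacRepresentableBy cc).homEquiv.symm x
    rw [Equiv.eq_symm_apply, jac_homEquiv]
    refine JacPt.ext' ψ.2 ?_
    change rmap (castHom _) a = rmap (overHom ψ.1) (jacClass cc)
    rw [← hψ, rmap_rmap]
    exact DFunLike.congr_fun (rmap_congr (Category.id_comp _)) _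

/-- Two morphisms to the Jacobian with the same class agree. -/
theorem jac_ext (ψ ψ' : SchemeHomOver t (jacHom cc))
    (h : rmap ψ (jacClass cc) = rmap ψ' (jacClass cc)) : ψ = ψ' :=
  (existsUnique_jac cc _ ((isDeg0_jacClass cc).rmap ψ')).unique h rfl

/-- The classifying morphism. -/
noncomputable def jacClassify (a : RPic ε t) (ha : IsDeg0 cc a) :
    SchemeHomOver t (jacHom cc) :=
  (existsUnique_jac cc a ha).choose

lemma rmap_jacClassify (a : RPic ε t) (ha : IsDeg0 cc a) :
    rmap (jacClassify cc a ha) (jacClass cc) = a :=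
  (existsUnique_jac cc a ha).choose_spec.1

lemma eq_jacClassify {a : RPic ε t} (ha : IsDeg0 cc a) (ψ : SchemeHomOver t (jacHom cc))
    (h : rmap ψ (jacClass cc) = a) : ψ = jacClassify cc a ha :=
  (existsUnique_jac cc a ha).unique h (rmap_jacClassify cc a ha)

/-- Every point has an open neighbourhood isomorphic to a chart over the base field. -/
theorem exists_chart_nhd (p : jacScheme cc) :
    ∃ (b : Fin cc.E.genus → cc.E.A) (j : chartScheme cc b ⟶ jacScheme cc),
      IsOpenImmersion j ∧ p ∈ Set.range j ∧ j ≫ jacHom cc = chartHom cc b := by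
  let D := Scheme.LocalRepresentability.glueData (isOpenImmersion_chartFamily cc)
  obtain ⟨i, y, hy⟩ := D.ι_jointly_surjective p
  let j : chartScheme cc i.2 ⟶ jacScheme cc :=
    Scheme.LocalRepresentability.toGlued (isOpenImmersion_chartFamily cc) i
  have hj : JacPt.map cc j (jacUniv cc) =
      chartPt cc i.2 (coverParams cc).1 i.1.1 (hm_index cc i) := by
    rw [← jac_homEquiv]
    exact (Scheme.LocalRepresentability.yonedaGluedToSheaf_app_toGlued
      (isOpenImmersion_chartFamily cc)).trans (yonedaEquiv.apply_symm_apply _)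
  exact ⟨i.2, j, inferInstanceAs (IsOpenImmersion (D.ι i)), ⟨y, hy⟩, congrArg JacPt.fst hj⟩

end FLTA.Jacobian
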