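import Fermat.Agent.Jacobian.EndRep

/-!
# The Jacobian of the curve is separated (S25, end layer).
-/

set_option autoImplicit false

universe u

open CategoryTheory CategoryTheory.Limits AlgebraicGeometry NeronModelInfra
  AlgebraicGeometry.RelPicard TopologicalSpace Opposite

namespace FLTA.Jacobian

attribute [local irreducible] Pic.pull rmap rigidify

variable {k : Type u} [Field k] [IsAlgClosed k] {C : Scheme.{u}}
  {c : C ⟶ Spec (CommRingCat.of k)}
  {ε : SchemeHomOver (𝟙 (Spec (CommRingCat.of k))) c} (cc : CurveCover c ε)

/-- The origin of the Jacobian. -/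
noncomputable def jacOne : SchemeHomOver (baseMap k k) (jacHom cc) :=
  jacClassify cc 1 isDeg0_one

lemma isClosedImmersion_jacOne : IsClosedImmersion (jacOne cc).1 := by
  have : Subsingleton (Spec (CommRingCat.of k) : Scheme.{u}) :=
    inferInstanceAs (Subsingleton (PrimeSpectrum k))
  exact isClosedImmersion_of_comp_eq_id (jacHom cc) _ ((jacOne cc).2.trans baseMap_self)

/-- The Jacobian is separated: its diagonal is the base change of the origin along the
difference of the two projections. -/
theorem isSeparated_jacHom : IsSeparated (jacHom cc) := by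
  let π := jacHom cc
  let t₂ : pullback π π ⟶ Spec (CommRingCat.of k) := pullback.fst π π ≫ π
  let p₁ : SchemeHomOver t₂ π := ⟨pullback.fst π π, rfl⟩
  let p₂ : SchemeHomOver t₂ π := ⟨pullback.snd π π, pullback.condition.symm⟩
  let a : RPic ε t₂ := rmap p₁ (jacClass cc) * (rmap p₂ (jacClass cc))⁻¹
  have ha : IsDeg0 cc a :=
    ((isDeg0_jacClass cc).rmap p₁).mul ((isDeg0_jacClass cc).rmap p₂).inv
  let d := jacClassify cc a ha
  let e := jacOne cc
  have he : rmap e (jacClass cc) = 1 := rmap_jacClassify cc 1 isDeg0_one
  have hd : rmap d (jacClass cc) = a := rmap_jacClassify cc a ha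
  have hπe : e.1 ≫ π = 𝟙 _ := e.2.trans baseMap_self
  have w : π ≫ e.1 = pullback.diagonal π ≫ d.1 := by
    let s₀ : SchemeHomOver π t₂ :=
      ⟨pullback.diagonal π, by simp [t₂]⟩
    let z : SchemeHomOver π (baseMap k k) := ⟨π, by rw [baseMap_self, Category.comp_id]⟩
    have h : postComp e z = postComp d s₀ := by
      apply jac_ext
      rw [← rmap_rmap, ← rmap_rmap, he, hd, map_one, map_mul, map_inv, rmap_rmap, rmap_rmap,
        rmap_congr (ψ := postComp p₁ s₀) (ψ' := postComp p₂ s₀) (by simp [p₁, p₂, s₀, postComp]),
        mul_inv_cancel]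
    exact congrArg Subtype.val h
  have sq : IsPullback π (pullback.diagonal π) e.1 d.1 := by
    refine ⟨⟨w⟩, ⟨PullbackCone.IsLimit.mk w (fun s => s.snd ≫ pullback.fst π π) ?_ ?_ ?_⟩⟩
    all_goals intro s
    · have := congrArg (· ≫ π) s.condition
      simp only [Category.assoc, hπe, Category.comp_id] at this
      rw [this, d.2]
      simp [t₂, π]
    · let u : SchemeHomOver (s.snd ≫ t₂) t₂ := ⟨s.snd, rfl⟩
      let z : SchemeHomOver (s.snd ≫ t₂) (baseMap k k) := ⟨s.fst, by
        refine (congrArg (s.fst ≫ ·) baseMap_self).trans ((Category.comp_id _).trans ?_)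
        have := congrArg (· ≫ π) s.condition
        simp only [Category.assoc, hπe, Category.comp_id] at this
        rw [this, d.2]⟩
      have h : rmap u a = 1 := by
        rw [← hd, rmap_rmap, rmap_congr (ψ := postComp d u) (ψ' := postComp e z)
          s.condition.symm, ← rmap_rmap, he, map_one]
      have h12 : postComp p₁ u = postComp p₂ u := by
        apply jac_ext
        rw [← rmap_rmap, ← rmap_rmap]
        have h' : rmap u (rmap p₁ (jacClass cc)) * (rmap u (rmap p₂ (jacClass cc)))⁻¹ = 1 := by
          rw [← map_inv, ← map_mul]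
          exact h
        exact mul_inv_eq_one.mp h'
      have h12' : s.snd ≫ pullback.fst π π = s.snd ≫ pullback.snd π π :=
        congrArg Subtype.val h12
      apply pullback.hom_ext
      · simp
      · simp [h12']
    · intro m hm hs
      rw [← hs]
      simp
  exact ⟨MorphismProperty.of_isPullback sq (isClosedImmersion_jacOne cc)⟩

end FLTA.Jacobian
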