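import Fermat.Agent.Jacobian.PicAffineExtend
import Fermat.Agent.Jacobian.PicImmersion

/-!
# Sections of cocycles on affine charts as modules over the coordinate rings (S25, part A).
-/

set_option autoImplicit false
set_option linter.unusedVariables false

universe u

open CategoryTheory AlgebraicGeometry Opposite TopologicalSpace

open TensorProduct

namespace FLTA.Jacobian

lemma invertible_of_pairing {B M N : Type u} [CommRing B] [AddCommGroup M] [Module B M]
    [AddCommGroup N] [Module B N] (φ : M →ₗ[B] N →ₗ[B] B)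
    (hl : ∀ (x u : M) (v : N), φ x v • u = φ u v • x)
    (hr : ∀ (x : M) (v w : N), φ x v • w = φ x w • v) {n : ℕ} (u : Fin n → M) (v : Fin n → N)
    (h : ∑ l, φ (u l) (v l) = 1) : Module.Invertible B M :=
  Module.Invertible.left (N := N) <| LinearEquiv.ofLinearMap (TensorProduct.lift φ)
    (LinearMap.toSpanSingleton _ _ (∑ l, u l ⊗ₜ v l))
    (LinearMap.ext_ring (by
      simp only [LinearMap.comp_apply, LinearMap.toSpanSingleton_apply, one_smul, map_sum,
        TensorProduct.lift.tmul, LinearMap.id_apply]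
      exact h))
    (TensorProduct.ext' fun x y => by
      simp only [LinearMap.comp_apply, LinearMap.toSpanSingleton_apply, TensorProduct.lift.tmul,
        LinearMap.id_apply, Finset.smul_sum]
      simp_rw [TensorProduct.smul_tmul', hl x, TensorProduct.smul_tmul,
        fun l => hr (u l) y (v l), ← TensorProduct.tmul_sum, ← Finset.sum_smul, h, one_smul])

variable {X : Scheme.{u}} {B : Type u} [CommRing B] (f : Spec (CommRingCat.of B) ⟶ X)
  [IsOpenImmersion f]

lemma top_le_preimage_opensRange : (⊤ : (Spec (CommRingCat.of B)).Opens) ≤ f ⁻¹ᵁ f.opensRange :=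
  fun x _ => ⟨x, rfl⟩

/-- Evaluation of functions on the image of an affine chart. -/
noncomputable def chartEv : Γ(X, f.opensRange) →+* B :=
  (Scheme.ΓSpecIso (CommRingCat.of B)).hom.hom.comp (pb f (top_le_preimage_opensRange f))

lemma bijective_chartEv : Function.Bijective (chartEv f) := by
  have hΓ : Function.Bijective (Scheme.ΓSpecIso (CommRingCat.of B)).hom.hom :=
    (Scheme.ΓSpecIso (CommRingCat.of B)).commRingCatIsoToRingEquiv.bijective
  refine hΓ.comp ?_
  have hb : Function.Bijective (pb f (le_refl (f ⁻¹ᵁ f.opensRange))) :=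
    Function.bijective_iff_has_inverse.mpr
      ⟨pushFun f f.opensRange le_rfl, pushFun_pb f le_rfl, pb_pushFun f le_rfl⟩
  have hr : Function.Bijective (rs (top_le_preimage_opensRange f)) :=
    Function.bijective_iff_has_inverse.mpr
      ⟨rs le_top, fun a => (rs_rs _ _ _).trans (rs_self _ _), fun a => (rs_rs _ _ _).trans (rs_self _ _)⟩
  convert hr.comp hb using 1
  funext a
  simp

/-- The coordinate ring of a chart is the ring of functions on its image. -/
noncomputable def chartEquiv : B ≃+* Γ(X, f.opensRange) :=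
  (RingEquiv.ofBijective (chartEv f) (bijective_chartEv f)).symm

lemma chartEv_chartEquiv (b : B) : chartEv f (chartEquiv f b) = b :=
  (RingEquiv.ofBijective (chartEv f) (bijective_chartEv f)).apply_symm_apply b

lemma chartEquiv_chartEv (a : Γ(X, f.opensRange)) : chartEquiv f (chartEv f a) = a :=
  (RingEquiv.ofBijective (chartEv f) (bijective_chartEv f)).symm_apply_apply a

lemma pb_congr {Y : Scheme.{u}} {g g' : Y ⟶ X} (e : g = g') {V : X.Opens} {W : Y.Opens}
    (h : W ≤ g ⁻¹ᵁ V) (a : Γ(X, V)) : pb g h a = pb g' (e ▸ h) a := by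
  subst e; rfl

section naturality

variable {X' : Scheme.{u}} {B' : Type u} [CommRing B'] (g : Spec (CommRingCat.of B') ⟶ X')
  [IsOpenImmersion g] (F : X' ⟶ X) (ψ : B →+* B')
  (w : Spec.map (CommRingCat.ofHom ψ) ≫ f = g ≫ F)

include w in
lemma chartRange_le : g.opensRange ≤ F ⁻¹ᵁ f.opensRange := by
  rintro _ ⟨z, rfl⟩
  exact ⟨(Spec.map (CommRingCat.ofHom ψ)).base z,
    congrArg (fun m : Spec (CommRingCat.of B') ⟶ X => m.base z) w⟩

include w in
lemma pb_chartEquiv (h : g.opensRange ≤ F ⁻¹ᵁ f.opensRange) (b : B) :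
    pb F h (chartEquiv f b) = chartEquiv g (ψ b) := by
  apply (bijective_chartEv g).1
  rw [chartEv_chartEquiv]
  conv_rhs => rw [← chartEv_chartEquiv f b]
  simp only [chartEv, RingHom.comp_apply]
  rw [pb_pb, pb_congr w.symm, ← pb_pb (Spec.map (CommRingCat.ofHom ψ)) f
    (V' := ⊤) le_top (top_le_preimage_opensRange f)]
  generalize pb f (top_le_preimage_opensRange f) (chartEquiv f b) = y
  have h1 : (Spec.map (CommRingCat.ofHom ψ)).appLE ⊤ ⊤ le_top =
      (Spec.map (CommRingCat.ofHom ψ)).appTop := Scheme.Hom.appLE_eq_app ..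
  show ((Scheme.ΓSpecIso (CommRingCat.of B')).hom.hom
    (((Spec.map (CommRingCat.ofHom ψ)).appLE ⊤ ⊤ le_top).hom y)) = _
  rw [h1]
  exact congrArg (fun m => m.hom y) (Scheme.ΓSpecIso_naturality (CommRingCat.ofHom ψ))

end naturality

section ChartSec

variable {V : X.Opens} {ι : Type u}

/-- Sections of a cocycle over a chart, as a module over the coordinate ring. -/
def ChartSec (c : Cocycle X V ι) : Type u := CSec c f.opensRange

variable {c : Cocycle X V ι}

noncomputable instance : AddCommGroup (ChartSec f c) :=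
  inferInstanceAs (AddCommGroup (CSec c f.opensRange))

/-- A section over the chart, seen in the coordinate-ring module. -/
def ChartSec.mk (x : CSec c f.opensRange) : ChartSec f c := x

variable {f}

/-- The underlying section. -/
def ChartSec.sec (x : ChartSec f c) : CSec c f.opensRange := x

noncomputable instance : Module B (ChartSec f c) :=
  Module.compHom (CSec c f.opensRange) (chartEquiv f).toRingHom

lemma ChartSec.sec_smul (b : B) (x : ChartSec f c) :
    (b • x).sec = chartEquiv f b • x.sec := rfl

lemma ChartSec.sec_add (x y : ChartSec f c) : (x + y).sec = x.sec + y.sec := rfl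

lemma ChartSec.smul_mk (a : Γ(X, f.opensRange)) (x : CSec c f.opensRange) :
    ChartSec.mk f (a • x) = chartEv f a • ChartSec.mk f x := by
  change a • x = chartEquiv f (chartEv f a) • x
  rw [chartEquiv_chartEv]

lemma ChartSec.invertible (hV : f.opensRange ≤ V) : Module.Invertible B (ChartSec f c) := by
  let P := CSec.Partition.choice (c := c) (isAffineOpen_opensRange f) hV
  let φ : ChartSec f c →ₗ[B] ChartSec f c.inv →ₗ[B] B :=
    LinearMap.mk₂ B (fun x y => chartEv f (CSec.ctr hV x.sec y.sec))
      (fun x x' y => by rw [ChartSec.sec_add, CSec.ctr_add_left, map_add])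
      (fun b x y => by
        rw [ChartSec.sec_smul, CSec.ctr_smul_left, map_mul, chartEv_chartEquiv, smul_eq_mul])
      (fun x y y' => by rw [ChartSec.sec_add, CSec.ctr_add_right, map_add])
      (fun b x y => by
        rw [ChartSec.sec_smul, CSec.ctr_smul_right, map_mul, chartEv_chartEquiv, smul_eq_mul])
  refine invertible_of_pairing φ (fun x u v => ?_) (fun x v w => ?_)
    (fun l => ChartSec.mk f (P.u l)) (fun l => ChartSec.mk f (P.v l)) ?_
  · change chartEquiv f (chartEv f _) • u.sec = chartEquiv f (chartEv f _) • x.sec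
    rw [chartEquiv_chartEv, chartEquiv_chartEv]
    exact CSec.ctr_smul_comm hV _ _ _
  · change chartEquiv f (chartEv f _) • w.sec = chartEquiv f (chartEv f _) • v.sec
    rw [chartEquiv_chartEv, chartEquiv_chartEv]
    exact CSec.ctr_smul_comm_right hV _ _ _
  · change ∑ l, chartEv f (CSec.ctr hV (P.u l) (P.v l)) = 1
    rw [← map_sum, P.sum_eq, map_one]

lemma ChartSec.span_eq_top {hV : f.opensRange ≤ V} (P : CSec.Partition c f.opensRange hV)
    {S : Set (ChartSec f c)} (hS : ∀ l, ChartSec.mk f (P.u l) ∈ Submodule.span B S) :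
    Submodule.span B S = ⊤ := by
  refine eq_top_iff.mpr fun x _ => ?_
  have h : ∑ l, chartEv f (CSec.ctr hV x.sec (P.v l)) • ChartSec.mk f (P.u l) = x := by
    simp_rw [← ChartSec.smul_mk]
    exact P.expand x.sec
  rw [← h]
  exact Submodule.sum_mem _ fun l _ => Submodule.smul_mem _ _ (hS l)

/-- A linear map of sections as a linear map of chart modules. -/
noncomputable def ChartSec.map {V' : X.Opens} {ι' : Type u} {c' : Cocycle X V' ι'}
    (e : CSec c f.opensRange ≃ₗ[Γ(X, f.opensRange)] CSec c' f.opensRange) :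
    ChartSec f c ≃ₗ[B] ChartSec f c' where
  toFun x := ChartSec.mk f (e x.sec)
  map_add' x y := e.map_add x.sec y.sec
  map_smul' b x := e.map_smul (chartEquiv f b) x.sec
  invFun x := ChartSec.mk f (e.symm x.sec)
  left_inv x := e.symm_apply_apply x.sec
  right_inv x := e.apply_symm_apply x.sec

/-- A linear equivalence of chart modules as one of sections. -/
noncomputable def ChartSec.unmap {V' : X.Opens} {ι' : Type u} {c' : Cocycle X V' ι'}
    (e : ChartSec f c ≃ₗ[B] ChartSec f c') :
    CSec c f.opensRange ≃ₗ[Γ(X, f.opensRange)] CSec c' f.opensRange where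
  toFun x := (e (ChartSec.mk f x)).sec
  map_add' x y := e.map_add (ChartSec.mk f x) (ChartSec.mk f y)
  map_smul' a x := by
    rw [RingHom.id_apply, ChartSec.smul_mk, map_smul, ChartSec.sec_smul, chartEquiv_chartEv]
  invFun x := (e.symm (ChartSec.mk f x)).sec
  left_inv x := e.symm_apply_apply (ChartSec.mk f x)
  right_inv x := e.apply_symm_apply (ChartSec.mk f x)

end ChartSec

section semilinear

variable {V : X.Opens} {ι : Type u} {c : Cocycle X V ι} {B₁ : Type u} [CommRing B₁]
  (f₁ : Spec (CommRingCat.of B₁) ⟶ X) [IsOpenImmersion f₁] (ψ : B →+* B₁)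
  (w : Spec.map (CommRingCat.ofHom ψ) ≫ f = f₁)

include w in
lemma subChart_le : f₁.opensRange ≤ f.opensRange :=
  chartRange_le f f₁ (𝟙 X) ψ (w.trans (Category.comp_id _).symm)

include w in
lemma rs_chartEquiv (b : B) :
    rs (subChart_le f f₁ ψ w) (chartEquiv f b) = chartEquiv f₁ (ψ b) := by
  have := pb_chartEquiv f f₁ (𝟙 X) ψ (w.trans (Category.comp_id _).symm)
    (subChart_le f f₁ ψ w) b
  exact (pb_id (subChart_le f f₁ ψ w) _).symm.trans this

/-- Restriction to a smaller chart. -/
noncomputable def chartRes : ChartSec f c →ₛₗ[ψ] ChartSec f₁ c where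
  toFun x := ChartSec.mk f₁ (x.sec.restrict (subChart_le f f₁ ψ w))
  map_add' x y := CSec.ext' fun i O hO hi => rfl
  map_smul' b x := by
    change CSec.restrict _ (chartEquiv f b • x.sec) = chartEquiv f₁ (ψ b) • _
    refine CSec.ext' fun i O hO hi => ?_
    simp only [CSec.val_restrict, CSec.val_smul, ← rs_chartEquiv f f₁ ψ w b, rs_rs]
    rfl

lemma span_range_chartRes (hV : f.opensRange ≤ V) :
    Submodule.span B₁ (Set.range (chartRes f f₁ ψ w (c := c))) = ⊤ :=
  ChartSec.span_eq_top ((CSec.Partition.choice (c := c) (isAffineOpen_opensRange f) hV).restrict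
    (subChart_le f f₁ ψ w)) fun l => Submodule.subset_span ⟨_, rfl⟩

variable {X' : Scheme.{u}} {B' : Type u} [CommRing B'] (g : Spec (CommRingCat.of B') ⟶ X')
  [IsOpenImmersion g] (F : X' ⟶ X) (φ : B →+* B')
  (wF : Spec.map (CommRingCat.ofHom φ) ≫ f = g ≫ F) {V' : X'.Opens} {hV' : V' ≤ F ⁻¹ᵁ V}

/-- Pullback to a chart of another scheme. -/
noncomputable def chartPull : ChartSec f c →ₛₗ[φ] ChartSec g (c.pull F V' hV') where
  toFun x := ChartSec.mk g (x.sec.pull F (chartRange_le f g F φ wF))
  map_add' x y := CSec.pull_add F _ x.sec y.sec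
  map_smul' b x := by
    change CSec.pull F _ (chartEquiv f b • x.sec) = chartEquiv g (φ b) • _
    rw [CSec.pull_smul, pb_chartEquiv f g F φ wF (chartRange_le f g F φ wF) b]
    rfl

lemma span_range_chartPull (hV : f.opensRange ≤ V) (hg : g.opensRange ≤ V') :
    Submodule.span B' (Set.range (chartPull f g F φ wF (c := c) (hV' := hV'))) = ⊤ :=
  ChartSec.span_eq_top ((CSec.Partition.choice (c := c) (isAffineOpen_opensRange f) hV).pull F
    (chartRange_le f g F φ wF) hg) fun l => Submodule.subset_span ⟨_, rfl⟩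

end semilinear

end FLTA.Jacobian
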