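import Fermat.Agent.Jacobian.CurveCover
import Fermat.Agent.Jacobian.CechCover
import Fermat.Prelude.Def_AlgebraicGeometry_RelativePicardFunctor

/-!
# The two affine charts of the curve over an affine base (S25, part A).
-/

set_option autoImplicit false
set_option linter.unusedVariables false

universe u

open CategoryTheory CategoryTheory.Limits AlgebraicGeometry NeronModelInfra TopologicalSpace
  AlgebraicGeometry.RelPicard
open TensorProduct

namespace FLTA.Jacobian

variable {k : Type u} [Field k] {C : Scheme.{u}} {c : C ⟶ Spec (CommRingCat.of k)}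
  {ε : SchemeHomOver (𝟙 (Spec (CommRingCat.of k))) c}

section lift

variable (R : Type u) [CommRing R] [Algebra k R] {A : Type u} [CommRing A] [Algebra k A]
  (j : Spec (CommRingCat.of A) ⟶ C) (hj : j ≫ c = Spec.map (CommRingCat.ofHom (algebraMap k A)))

/-- The base change to `R` of an affine chart of the curve. -/
noncomputable def liftChart :
    Spec (CommRingCat.of (R ⊗[k] A)) ⟶ pullback c (Spec.map (CommRingCat.ofHom (algebraMap k R))) :=
  pullback.lift
    (Spec.map (CommRingCat.ofHom (Algebra.TensorProduct.includeRight (R := k) (A := R) (B := A)).toRingHom) ≫ j)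
    (Spec.map (CommRingCat.ofHom (algebraMap R (R ⊗[k] A)))) (by
      rw [Category.assoc, hj, ← Spec.map_comp, ← Spec.map_comp, ← CommRingCat.ofHom_comp,
        ← CommRingCat.ofHom_comp]
      congr 2
      exact RingHom.ext fun x => ((Algebra.TensorProduct.includeRight (R := k) (A := R)
        (B := A)).commutes x).trans (IsScalarTower.algebraMap_apply k R (R ⊗[k] A) x))

@[reassoc (attr := simp)]
lemma liftChart_fst : liftChart R j hj ≫ pullback.fst _ _ =
    Spec.map (CommRingCat.ofHom (Algebra.TensorProduct.includeRight (R := k) (A := R) (B := A)).toRingHom) ≫ j :=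
  pullback.lift_fst _ _ _

@[reassoc (attr := simp)]
lemma liftChart_snd : liftChart R j hj ≫ pullback.snd _ _ =
    Spec.map (CommRingCat.ofHom (algebraMap R (R ⊗[k] A))) :=
  pullback.lift_snd _ _ _

lemma liftChart_eq : liftChart R j hj = (pullbackSpecIso k R A).inv ≫ (pullbackSymmetry _ _).hom ≫
    pullback.map _ _ c _ j (𝟙 _) (𝟙 _) (by rw [Category.comp_id, hj]) (by simp) := by
  apply pullback.hom_ext
  · simp only [liftChart_fst, Category.assoc, pullback.lift_fst, pullbackSymmetry_hom_comp_fst_assoc,
      pullbackSpecIso_inv_snd_assoc]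
    rfl
  · simp only [liftChart_snd, Category.assoc, pullback.lift_snd, Category.comp_id,
      pullbackSymmetry_hom_comp_snd, pullbackSpecIso_inv_fst']

variable [IsOpenImmersion j]

instance isOpenImmersion_liftChart : IsOpenImmersion (liftChart R j hj) := by
  rw [liftChart_eq]; infer_instance

lemma opensRange_liftChart :
    (liftChart R j hj).opensRange = pullback.fst c _ ⁻¹ᵁ j.opensRange := by
  apply TopologicalSpace.Opens.ext
  show Set.range _ = _ ⁻¹' Set.range _
  rw [liftChart_eq, ← Category.assoc]
  simp only [Scheme.Hom.comp_base, TopCat.coe_comp]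
  rw [Set.range_comp, Set.range_eq_univ.mpr, Set.image_univ, Scheme.Pullback.range_map]
  · simp
  · exact ((pullbackSpecIso k R A).inv ≫ (pullbackSymmetry _ _).hom).homeomorph.surjective

omit [IsOpenImmersion j] in
lemma liftChart_comp {A₁ : Type u} [CommRing A₁] [Algebra k A₁] (g : A →ₐ[k] A₁)
    (j₁ : Spec (CommRingCat.of A₁) ⟶ C)
    (hj₁ : j₁ ≫ c = Spec.map (CommRingCat.ofHom (algebraMap k A₁)))
    (hg : Spec.map (CommRingCat.ofHom g.toRingHom) ≫ j = j₁) :
    Spec.map (CommRingCat.ofHom (Algebra.TensorProduct.map (AlgHom.id R R) g).toRingHom) ≫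
      liftChart R j hj = liftChart R j₁ hj₁ := by
  apply pullback.hom_ext
  · rw [Category.assoc, liftChart_fst, liftChart_fst, ← hg, ← Category.assoc, ← Category.assoc,
      ← Spec.map_comp, ← Spec.map_comp, ← CommRingCat.ofHom_comp, ← CommRingCat.ofHom_comp]
    congr 3
  · rw [Category.assoc, liftChart_snd, liftChart_snd, ← Spec.map_comp, ← CommRingCat.ofHom_comp]
    congr 2
    exact RingHom.ext fun x => (Algebra.TensorProduct.map (AlgHom.id R R) g).commutes x

omit [IsOpenImmersion j] in
lemma liftChart_baseChange (S : Type u) [CommRing S] [Algebra k S] [Algebra R S]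
    [IsScalarTower k R S]
    (ψ : SchemeHomOver (Spec.map (CommRingCat.ofHom (algebraMap k S)))
      (Spec.map (CommRingCat.ofHom (algebraMap k R))))
    (hψ : ψ.1 = Spec.map (CommRingCat.ofHom (algebraMap R S))) :
    Spec.map (CommRingCat.ofHom
        (Algebra.TensorProduct.map (IsScalarTower.toAlgHom k R S) (AlgHom.id k A)).toRingHom) ≫
      liftChart R j hj = liftChart S j hj ≫ baseChangeSnd c ψ := by
  apply pullback.hom_ext
  · simp only [baseChangeSnd, Category.assoc, pullback.lift_fst, Category.comp_id, liftChart_fst]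
    rw [← Category.assoc, ← Spec.map_comp, ← CommRingCat.ofHom_comp]
    congr 3
    exact RingHom.ext fun a => by simp
  · simp only [baseChangeSnd, Category.assoc, pullback.lift_snd, liftChart_snd,
      liftChart_snd_assoc, hψ]
    rw [← Spec.map_comp, ← Spec.map_comp, ← CommRingCat.ofHom_comp, ← CommRingCat.ofHom_comp]
    congr 2

end lift

namespace CurveCover

variable (cc : CurveCover c ε)

/-- The overlap chart of the curve. -/
noncomputable def j01 : Spec (CommRingCat.of cc.E.A01) ⟶ C :=
  Spec.map (CommRingCat.ofHom cc.E.ι.toRingHom) ≫ cc.j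

lemma j01_over : cc.j01 ≫ c = Spec.map (CommRingCat.ofHom (algebraMap k cc.E.A01)) := by
  rw [j01, Category.assoc, cc.j_over, ← Spec.map_comp, ← CommRingCat.ofHom_comp]
  congr 2
  exact AlgHom.comp_algebraMap _

instance isOpenImmersion_j01 : IsOpenImmersion cc.j01 :=
  haveI : IsOpenImmersion (Spec.map (CommRingCat.ofHom cc.E.ι.toRingHom)) :=
    MorphismProperty.of_isPullback cc.isPullback.flip (inferInstance : IsOpenImmersion cc.j')
  inferInstanceAs (IsOpenImmersion (_ ≫ cc.j))

lemma opensRange_j01 : cc.j01.opensRange = cc.j.opensRange ⊓ cc.j'.opensRange := by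
  apply TopologicalSpace.Opens.ext
  show Set.range _ = Set.range _ ∩ Set.range _
  rw [j01, ← cc.isPullback.isoPullback_hom_fst, Category.assoc]
  simp only [Scheme.Hom.comp_base, TopCat.coe_comp]
  rw [Set.range_comp, Set.range_eq_univ.mpr, Set.image_univ]
  · exact Scheme.Pullback.range_fst_comp _ _
  · exact cc.isPullback.isoPullback.hom.homeomorph.surjective

variable (R : Type u) [CommRing R] [Algebra k R]

/-- The first chart over `R`. -/
noncomputable abbrev chA : Spec (CommRingCat.of (cc.E.AR R)) ⟶
    pullback c (Spec.map (CommRingCat.ofHom (algebraMap k R))) :=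
  liftChart R cc.j cc.j_over

/-- The second chart over `R`. -/
noncomputable abbrev chA' : Spec (CommRingCat.of (cc.E.AR' R)) ⟶
    pullback c (Spec.map (CommRingCat.ofHom (algebraMap k R))) :=
  liftChart R cc.j' cc.j'_over

/-- The overlap chart over `R`. -/
noncomputable abbrev ch01 : Spec (CommRingCat.of (cc.E.AR01 R)) ⟶
    pullback c (Spec.map (CommRingCat.ofHom (algebraMap k R))) :=
  liftChart R cc.j01 cc.j01_over

lemma SpecMap_ιR_chA :
    Spec.map (CommRingCat.ofHom (cc.E.ιR R).toRingHom) ≫ cc.chA R = cc.ch01 R :=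
  liftChart_comp R cc.j cc.j_over cc.E.ι cc.j01 cc.j01_over rfl

lemma SpecMap_ιR'_chA' :
    Spec.map (CommRingCat.ofHom (cc.E.ιR' R).toRingHom) ≫ cc.chA' R = cc.ch01 R :=
  liftChart_comp R cc.j' cc.j'_over cc.E.ι' cc.j01 cc.j01_over cc.isPullback.w.symm

lemma chart_overlap_eq :
    (cc.ch01 R).opensRange = (cc.chA R).opensRange ⊓ (cc.chA' R).opensRange := by
  rw [opensRange_liftChart, opensRange_liftChart, opensRange_liftChart, opensRange_j01]
  rfl

lemma chart_cover (x : (pullback c (Spec.map (CommRingCat.ofHom (algebraMap k R))) : Scheme)) :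
    x ∈ (cc.chA R).opensRange ∨ x ∈ (cc.chA' R).opensRange := by
  rw [opensRange_liftChart, opensRange_liftChart]
  exact Set.eq_univ_iff_forall.mp cc.cover ((pullback.fst c _).base x)

lemma rigSection_eq :
    rigSection c (Spec.map (CommRingCat.ofHom (algebraMap k R))) ε =
      Spec.map (CommRingCat.ofHom (cc.E.εR R).toRingHom) ≫ cc.chA' R := by
  apply pullback.hom_ext
  · rw [Category.assoc, liftChart_fst, rigSection, pullback.lift_fst, ← cc.ε_eq,
      ← Category.assoc, ← Category.assoc, ← Spec.map_comp, ← Spec.map_comp,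
      ← CommRingCat.ofHom_comp, ← CommRingCat.ofHom_comp]
    congr 3
    ext a
    simp [TwoCover.εR, Algebra.ofId_apply]
  · rw [Category.assoc, liftChart_snd, rigSection, pullback.lift_snd, ← Spec.map_comp,
      ← CommRingCat.ofHom_comp]
    rw [show (cc.E.εR R).toRingHom.comp (algebraMap R (R ⊗[k] cc.E.A')) = RingHom.id R from
      RingHom.ext fun r => (cc.E.εR R).commutes r]
    exact (Spec.map_id _).symm

end CurveCover

end FLTA.Jacobian
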