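import Fermat.Agent.Jacobian.PicAffineFrame

/-!
# Existence of partitions of unity over affine opens (S25, part A).
-/

set_option autoImplicit false
set_option linter.unusedVariables false

universe u

open CategoryTheory AlgebraicGeometry Opposite TopologicalSpace

namespace FLTA.Jacobian

variable {X : Scheme.{u}} {V : X.Opens} {ι : Type u} {c : Cocycle X V ι} {W : X.Opens}

namespace CSec

section ofCover

variable {κ : Type u} (D : κ → X.Opens) (idx : κ → ι) (hD : ∀ a, D a ≤ c.U (idx a))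
  (hcover : ∀ p ∈ W, ∃ a, p ∈ D a) (t : ∀ a, Γ(X, D a))
  (ht : ∀ a b, c.g (idx a) (idx b) (D a ⊓ D b) (inf_le_left.trans (hD a))
      (inf_le_right.trans (hD b)) * rs inf_le_right (t b) = rs inf_le_left (t a))

include ht in
lemma ofCover_aux (i : ι) (O : X.Opens) (hi : O ≤ c.U i) (a b : κ) :
    rs (show O ⊓ D a ⊓ D b ≤ O ⊓ D a from inf_le_left)
      (c.g i (idx a) (O ⊓ D a) (inf_le_left.trans hi) (inf_le_right.trans (hD a)) *
        rs inf_le_right (t a)) =
    rs (show O ⊓ D a ⊓ D b ≤ O ⊓ D b from le_inf (inf_le_left.trans inf_le_left) inf_le_right)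
      (c.g i (idx b) (O ⊓ D b) (inf_le_left.trans hi) (inf_le_right.trans (hD b)) *
        rs inf_le_right (t b)) := by
  have h := congrArg (rs (show O ⊓ D a ⊓ D b ≤ D a ⊓ D b from
    le_inf (inf_le_left.trans inf_le_right) inf_le_right)) (ht a b)
  simp only [map_mul, Cocycle.g_res, rs_rs] at h ⊢
  rw [← h, ← mul_assoc, c.g_mul]

/-- A section from local data. -/
noncomputable def ofCover : CSec c W where
  val i O hO hi := glue D (fun p hp => hcover p (hO hp)) _ (ofCover_aux D idx hD t ht i O hi)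
  val_res i O O' hO hi h := by
    refine eq_of_locally D (fun p hp => hcover p (hO (h hp))) fun a => ?_
    rw [rs_rs, glue_spec _ _ _ _ a _ inf_le_right, glue_spec _ _ _ _ a _ inf_le_right]
    simp
  val_g i j O hO hi hj := by
    refine eq_of_locally D (fun p hp => hcover p (hO hp)) fun a => ?_
    rw [map_mul, glue_spec _ _ _ _ a _ inf_le_right, glue_spec _ _ _ _ a _ inf_le_right]
    simp only [map_mul, Cocycle.g_res]
    rw [← mul_assoc, c.g_mul]

lemma ofCover_val (i : ι) (O : X.Opens) (hO : O ≤ W) (hi : O ≤ c.U i) (a : κ) :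
    rs inf_le_left ((ofCover D idx hD hcover t ht).val i O hO hi) =
      c.g i (idx a) (O ⊓ D a) (inf_le_left.trans hi) (inf_le_right.trans (hD a)) *
        rs inf_le_right (t a) := by
  exact (glue_spec D (fun p hp => hcover p (hO hp)) _ (ofCover_aux D idx hD t ht i O hi) a
    inf_le_left inf_le_right).trans (rs_self _ _)

end ofCover

end CSec

lemma exists_rs_eq_pow_mul {U : X.Opens} (hU : IsAffineOpen U) (f : Γ(X, U)) {D : X.Opens}
    (hD : D = X.basicOpen f) (h : D ≤ U) (y : Γ(X, D)) :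
    ∃ (n : ℕ) (t : Γ(X, U)), rs h t = rs h f ^ n * y := by
  subst hD
  letI := hU.isLocalization_basicOpen f
  obtain ⟨n, t, ht⟩ := IsLocalization.Away.surj f y
  exact ⟨n, t, (ht.symm.trans (mul_comm _ _))⟩

lemma exists_pow_mul_eq_zero {U : X.Opens} (hU : IsAffineOpen U) (f : Γ(X, U)) {D : X.Opens}
    (hD : D = X.basicOpen f) (h : D ≤ U) (a : Γ(X, U)) (ha : rs h a = 0) :
    ∃ n : ℕ, f ^ n * a = 0 := by
  subst hD
  letI := hU.isLocalization_basicOpen f
  have h0 : algebraMap Γ(X, U) Γ(X, X.basicOpen f) a = 0 := ha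
  rw [IsLocalization.map_eq_zero_iff (Submonoid.powers f)] at h0
  obtain ⟨⟨_, n, rfl⟩, hn⟩ := h0
  exact ⟨n, hn⟩

/-- A power of a function times a local frame extends to a section. -/
lemma exists_extend (hW : IsAffineOpen W) (hWV : W ≤ V) (f : Γ(X, W)) (i : ι)
    (hf : X.basicOpen f ≤ c.U i) :
    ∃ (N : ℕ) (u : CSec c W), u.val i (X.basicOpen f) (X.basicOpen_le f) hf =
      rs (X.basicOpen_le f) f ^ N := by
  classical
  have hcov : W ≤ ⨆ g : {g : Γ(X, W) // ∃ j, X.basicOpen g ≤ c.U j},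
      X.basicOpen (g : Γ(X, W)) := by
    intro x hx
    obtain ⟨j, hj⟩ := c.cover x (hWV hx)
    obtain ⟨g, hg, hxg⟩ := hW.exists_basicOpen_le ⟨x, hj⟩ hx
    exact Opens.mem_iSup.mpr ⟨⟨g, j, hg⟩, hxg⟩
  obtain ⟨T, hT, hspan⟩ := (Ideal.span_eq_top_iff_finite _).mp
    ((hW.self_le_iSup_basicOpen_iff (s := {g : Γ(X, W) | ∃ j, X.basicOpen g ≤ c.U j})).mp hcov)
  have hcov' : W ≤ ⨆ g : (T : Set Γ(X, W)), X.basicOpen (g : Γ(X, W)) :=
    (hW.self_le_iSup_basicOpen_iff (s := (T : Set Γ(X, W)))).mpr hspan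
  let κ : Type u := {g : Γ(X, W) // g ∈ T}
  have hidx : ∀ a : κ, ∃ j, X.basicOpen a.1 ≤ c.U j := fun a => hT a.2
  choose idx hidx using hidx
  let D : κ → X.Opens := fun a => X.basicOpen a.1
  have hDW : ∀ a, D a ≤ W := fun a => X.basicOpen_le _
  have hDaff : ∀ a, IsAffineOpen (D a) := fun a => hW.basicOpen _
  let Df : X.Opens := X.basicOpen f
  have hDf : ∀ a, D a ⊓ Df = X.basicOpen (rs (hDW a) f) := fun a => (X.basicOpen_res f _).symm
  have h1 := fun a => exists_rs_eq_pow_mul (hDaff a) (rs (hDW a) f) (hDf a) inf_le_left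
    (c.g (idx a) i (D a ⊓ Df) (inf_le_left.trans (hidx a)) (inf_le_right.trans hf))
  choose n t ht using h1
  obtain ⟨N, hN⟩ : ∃ N, ∀ a, n a ≤ N :=
    ⟨Finset.univ.sup n, fun a => Finset.le_sup (f := n) (Finset.mem_univ a)⟩
  let t' : ∀ a, Γ(X, D a) := fun a => rs (hDW a) f ^ (N - n a) * t a
  have ht' : ∀ a, rs (inf_le_left : D a ⊓ Df ≤ D a) (t' a) =
      rs (inf_le_left.trans (hDW a)) f ^ N *
        c.g (idx a) i (D a ⊓ Df) (inf_le_left.trans (hidx a)) (inf_le_right.trans hf) := by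
    intro a
    rw [map_mul, ht a, map_pow, rs_rs, ← mul_assoc, ← pow_add, Nat.sub_add_cancel (hN a)]
  have h2 : ∀ q : κ × κ, ∃ m : ℕ, rs (inf_le_left.trans (hDW q.1) : D q.1 ⊓ D q.2 ≤ W) f ^ m *
      (c.g (idx q.1) (idx q.2) (D q.1 ⊓ D q.2) (inf_le_left.trans (hidx q.1))
        (inf_le_right.trans (hidx q.2)) * rs inf_le_right (t' q.2) - rs inf_le_left (t' q.1)) = 0 := by
    intro q
    have haff : IsAffineOpen (D q.1 ⊓ D q.2) := by
      have := hW.basicOpen (q.1.1 * q.2.1)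
      rwa [X.basicOpen_mul] at this
    refine exists_pow_mul_eq_zero haff _ (D := D q.1 ⊓ D q.2 ⊓ Df) (X.basicOpen_res f _).symm
      inf_le_left _ ?_
    have e1 := congrArg (rs (show D q.1 ⊓ D q.2 ⊓ Df ≤ D q.1 ⊓ Df from
      inf_le_inf_right _ inf_le_left)) (ht' q.1)
    have e2 := congrArg (rs (show D q.1 ⊓ D q.2 ⊓ Df ≤ D q.2 ⊓ Df from
      inf_le_inf_right _ inf_le_right)) (ht' q.2)
    simp only [map_mul, map_pow, map_sub, rs_rs, Cocycle.g_res] at e1 e2 ⊢
    rw [e1, e2, mul_left_comm, c.g_mul, sub_self]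
  choose m hm using h2
  obtain ⟨M, hM⟩ : ∃ M, ∀ q, m q ≤ M :=
    ⟨Finset.univ.sup m, fun q => Finset.le_sup (f := m) (Finset.mem_univ q)⟩
  have hcover : ∀ p ∈ W, ∃ a : κ, p ∈ D a := by
    intro p hp
    obtain ⟨⟨g, hg⟩, hpg⟩ := Opens.mem_iSup.mp (hcov' hp)
    exact ⟨⟨g, hg⟩, hpg⟩
  refine ⟨M + N, CSec.ofCover D idx hidx hcover (fun a => rs (hDW a) f ^ M * t' a)
    (fun a b => ?_), ?_⟩
  · have e : rs (inf_le_left.trans (hDW a) : D a ⊓ D b ≤ W) f ^ M *
        (c.g (idx a) (idx b) (D a ⊓ D b) (inf_le_left.trans (hidx a))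
          (inf_le_right.trans (hidx b)) * rs inf_le_right (t' b) - rs inf_le_left (t' a)) = 0 := by
      rw [← Nat.sub_add_cancel (hM (a, b)), pow_add, mul_assoc, hm (a, b), mul_zero]
    rw [mul_sub, sub_eq_zero] at e
    simp only [map_mul, map_pow, rs_rs]
    rw [mul_left_comm]
    exact e
  · refine eq_of_locally D (fun p hp => hcover p (X.basicOpen_le f hp)) fun a => ?_
    rw [CSec.ofCover_val, map_pow, rs_rs]
    have e := congrArg (rs (show Df ⊓ D a ≤ D a ⊓ Df from le_inf inf_le_right inf_le_left)) (ht' a)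
    simp only [map_mul, map_pow, rs_rs, Cocycle.g_res] at e ⊢
    rw [e, pow_add, ← mul_assoc (rs _ f ^ M), mul_left_comm, c.g_mul, c.g_self, mul_one]

/-- Partitions of unity exist on affine opens. -/
theorem nonempty_partition (hW : IsAffineOpen W) (hWV : W ≤ V) :
    Nonempty (CSec.Partition c W hWV) := by
  classical
  have hcov : W ≤ ⨆ a : Set.range (fun q : CSec c W × CSec c.inv W => CSec.ctr hWV q.1 q.2),
      X.basicOpen (a : Γ(X, W)) := by
    intro x hx
    obtain ⟨i, hi⟩ := c.cover x (hWV hx)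
    obtain ⟨f, hf, hxf⟩ := hW.exists_basicOpen_le ⟨x, hi⟩ hx
    obtain ⟨N, u, hu⟩ := exists_extend hW hWV f i hf
    obtain ⟨M, v, hv⟩ := exists_extend (c := c.inv) hW hWV f i hf
    refine Opens.mem_iSup.mpr ⟨⟨_, (u, v), rfl⟩, ?_⟩
    have h1 : X.basicOpen (rs (X.basicOpen_le f) (CSec.ctr hWV u v)) = X.basicOpen f := by
      rw [CSec.ctr_spec hWV u v i _ (X.basicOpen_le f) hf, hu, hv, ← pow_add]
      refine X.basicOpen_of_isUnit (IsUnit.pow _ ?_)
      exact RingedSpace.isUnit_res_basicOpen _ f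
    have h2 : x ∈ X.basicOpen (rs (X.basicOpen_le f) (CSec.ctr hWV u v)) := h1.symm ▸ hxf
    exact ((X.basicOpen_res (CSec.ctr hWV u v) (homOfLE (X.basicOpen_le f)).op).le h2).2
  have hspan := (hW.self_le_iSup_basicOpen_iff).mp hcov
  have h1 : (1 : Γ(X, W)) ∈ Ideal.span
      (Set.range fun q : CSec c W × CSec c.inv W => CSec.ctr hWV q.1 q.2) := by
    rw [hspan]; exact Submodule.mem_top
  obtain ⟨l, hl⟩ := Finsupp.mem_ideal_span_range_iff_exists_finsupp.mp h1
  refine ⟨CSec.Partition.ofFintype hWV (κ := l.support) (fun q => l q.1 • q.1.1)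
    (fun q => q.1.2) ?_⟩
  simp_rw [CSec.ctr_smul_left]
  rw [← hl, Finsupp.sum]
  exact Finset.sum_coe_sort l.support fun q => l q * CSec.ctr hWV q.1 q.2

/-- A chosen partition. -/
noncomputable def CSec.Partition.choice (hW : IsAffineOpen W) (hWV : W ≤ V) :
    CSec.Partition c W hWV :=
  (nonempty_partition hW hWV).some

end FLTA.Jacobian
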