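import Fermat.Agent.Jacobian.PicAffineSec

/-!
# Partitions of unity for sections of a cocycle, sections of hom bundles (S25, part A).
-/

set_option autoImplicit false
set_option linter.unusedVariables false

universe u

open CategoryTheory AlgebraicGeometry Opposite TopologicalSpace

open TensorProduct

namespace FLTA.Jacobian

variable {X : Scheme.{u}} {V : X.Opens} {ι ι' : Type u}

namespace CSec

variable {c : Cocycle X V ι} {c' : Cocycle X V ι'} {W W' : X.Opens}

lemma ctr_mul (hW : W ≤ V) (x : CSec c W) (x' : CSec c' W) (y : CSec c.inv W)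
    (y' : CSec c'.inv W) :
    ctr hW (x.mul x') (y.mul y' : CSec (c.mul c').inv W) = ctr hW x y * ctr hW x' y' := by
  refine (eq_ctr hW _ _ _ fun p O hO hp => ?_).symm
  rw [map_mul, ctr_spec hW x y p.1 O hO (hp.trans inf_le_left),
    ctr_spec hW x' y' p.2 O hO (hp.trans inf_le_right)]
  exact (mul_mul_mul_comm _ _ _ _).symm

/-- Sections and dual sections with contractions summing to one. -/
structure Partition (c : Cocycle X V ι) (W : X.Opens) (hW : W ≤ V) : Type u where
  n : ℕ
  u : Fin n → CSec c W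
  v : Fin n → CSec c.inv W
  sum_eq : ∑ l, ctr hW (u l) (v l) = 1

namespace Partition

variable {hW : W ≤ V}

/-- A partition from a family indexed by a finite type. -/
noncomputable def ofFintype (hW : W ≤ V) {κ : Type*} [Fintype κ] (u : κ → CSec c W)
    (v : κ → CSec c.inv W) (h : ∑ l, ctr hW (u l) (v l) = 1) : Partition c W hW where
  n := Fintype.card κ
  u := u ∘ (Fintype.equivFin κ).symm
  v := v ∘ (Fintype.equivFin κ).symm
  sum_eq := by
    rw [← h]
    exact Equiv.sum_comp (Fintype.equivFin κ).symm fun l => ctr hW (u l) (v l)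

lemma expand (P : Partition c W hW) (x : CSec c W) : ∑ l, ctr hW x (P.v l) • P.u l = x := by
  simp_rw [ctr_smul_comm hW x, ← Finset.sum_smul, P.sum_eq, one_smul]

lemma span_eq_top (P : Partition c W hW) {S : Set (CSec c W)} (hS : ∀ l, P.u l ∈ Submodule.span Γ(X, W) S) :
    Submodule.span Γ(X, W) S = ⊤ := by
  refine eq_top_iff.mpr fun x _ => ?_
  rw [← P.expand x]
  exact Submodule.sum_mem _ fun l _ => Submodule.smul_mem _ _ (hS l)

lemma span_range (P : Partition c W hW) : Submodule.span Γ(X, W) (Set.range P.u) = ⊤ :=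
  P.span_eq_top fun l => Submodule.subset_span ⟨l, rfl⟩

/-- The contraction pairing identifies the tensor product with functions. -/
noncomputable def tensorEquiv (P : Partition c W hW) :
    CSec c W ⊗[Γ(X, W)] CSec c.inv W ≃ₗ[Γ(X, W)] Γ(X, W) :=
  LinearEquiv.ofLinearMap (TensorProduct.lift (ctrLin hW))
    (LinearMap.toSpanSingleton _ _ (∑ l, P.u l ⊗ₜ P.v l))
    (LinearMap.ext_ring (by
      simp only [LinearMap.comp_apply, LinearMap.toSpanSingleton_apply, one_smul, map_sum,
        TensorProduct.lift.tmul, LinearMap.id_apply]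
      exact P.sum_eq))
    (TensorProduct.ext' fun x y => by
      simp only [LinearMap.comp_apply, LinearMap.toSpanSingleton_apply, TensorProduct.lift.tmul,
        LinearMap.id_apply, Finset.smul_sum]
      change ∑ l, ctr hW x y • P.u l ⊗ₜ[Γ(X, W)] P.v l = _
      simp_rw [TensorProduct.smul_tmul', ctr_smul_comm hW x, TensorProduct.smul_tmul,
        fun l => ctr_smul_comm_right hW (P.u l) y (P.v l), ← TensorProduct.tmul_sum,
        ← Finset.sum_smul, P.sum_eq, one_smul])

lemma invertible (P : Partition c W hW) : Module.Invertible Γ(X, W) (CSec c W) :=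
  Module.Invertible.left P.tensorEquiv

/-- Restriction of a partition. -/
noncomputable def restrict (P : Partition c W hW) (h : W' ≤ W) : Partition c W' (h.trans hW) where
  n := P.n
  u l := (P.u l).restrict h
  v l := (P.v l).restrict h
  sum_eq := by simp_rw [← ctr_restrict hW h, ← map_sum, P.sum_eq, map_one]

/-- Product of partitions. -/
noncomputable def mul (P : Partition c W hW) (Q : Partition c' W hW) :
    Partition (c.mul c') W hW :=
  ofFintype hW (fun q : Fin P.n × Fin Q.n => (P.u q.1).mul (Q.u q.2))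
    (fun q => ((P.v q.1).mul (Q.v q.2) : CSec (c.mul c').inv W)) (by
      simp_rw [ctr_mul, Fintype.sum_prod_type, ← Finset.mul_sum, Q.sum_eq, mul_one, P.sum_eq])

lemma span_range_mul (P : Partition c W hW) (Q : Partition c' W hW) :
    Submodule.span Γ(X, W) (Set.range fun q : CSec c W × CSec c' W => q.1.mul q.2) = ⊤ :=
  (P.mul Q).span_eq_top fun l => Submodule.subset_span ⟨(_, _), rfl⟩

end Partition

/-- The section of `c ⊗ c'⁻¹` of a linear map. -/
noncomputable def homSec {hW : W ≤ V} (P : Partition c' W hW)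
    (e : CSec c' W →ₗ[Γ(X, W)] CSec c W) : CSec (c.mul c'.inv) W :=
  ∑ l, (e (P.u l)).mul (P.v l)

variable {hW : W ≤ V} (P : Partition c' W hW) (e : CSec c' W →ₗ[Γ(X, W)] CSec c W)

lemma sum_val (i : ι') (O : X.Opens) (hO : O ≤ W) (hi : O ≤ c'.U i) :
    ∑ l, (P.u l).val i O hO hi * (P.v l).val i O hO hi = 1 := by
  simp_rw [← ctr_spec hW _ _ i O hO hi, ← map_sum, P.sum_eq, map_one]

lemma homSec_apply (y : CSec c' W) (i : ι) (j : ι') (O : X.Opens) (hO : O ≤ W) (hi : O ≤ c.U i)
    (hj : O ≤ c'.U j) :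
    (homSec P e).val (i, j) O hO (le_inf hi hj) * y.val j O hO hj = (e y).val i O hO hi := by
  conv_rhs => rw [← P.expand y, map_sum]
  simp only [homSec, val_sum, val_mul, map_smul, val_smul, Finset.sum_mul]
  refine Finset.sum_congr rfl fun l _ => ?_
  rw [ctr_spec hW y (P.v l) j O hO hj]
  ring

lemma eq_homSec (w : CSec (c.mul c'.inv) W)
    (h : ∀ (y : CSec c' W) (i : ι) (j : ι') (O : X.Opens) (hO : O ≤ W) (hi : O ≤ c.U i)
      (hj : O ≤ c'.U j),
      w.val (i, j) O hO (le_inf hi hj) * y.val j O hO hj = (e y).val i O hO hi) :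
    w = homSec P e := by
  refine ext' fun p O hO hp => ?_
  obtain ⟨i, j⟩ := p
  have hi : O ≤ c.U i := hp.trans inf_le_left
  have hj : O ≤ c'.U j := hp.trans inf_le_right
  calc w.val (i, j) O hO hp
      = w.val (i, j) O hO hp * ∑ l, (P.u l).val j O hO hj * (P.v l).val j O hO hj := by
        rw [sum_val P j O hO hj, mul_one]
    _ = ∑ l, (e (P.u l)).val i O hO hi * (P.v l).val j O hO hj := by
        rw [Finset.mul_sum]
        refine Finset.sum_congr rfl fun l _ => ?_
        rw [← mul_assoc, h (P.u l) i j O hO hi hj]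
    _ = _ := by simp [homSec]

lemma homSec_eq (Q : Partition c' W hW) : homSec P e = homSec Q e :=
  eq_homSec Q e _ fun y i j O hO hi hj => homSec_apply P e y i j O hO hi hj

lemma homSec_restrict (h : W' ≤ W) (e' : CSec c' W' →ₗ[Γ(X, W')] CSec c W')
    (he : ∀ y, e' (y.restrict h) = (e y).restrict h) :
    (homSec P e).restrict h = homSec (P.restrict h) e' := by
  refine ext' fun p O hO hp => ?_
  simp only [homSec, val_restrict, val_sum, val_mul]
  refine Finset.sum_congr rfl fun l _ => ?_
  show _ = (e' ((P.u l).restrict h)).val p.1 O hO _ * _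
  rw [he]
  rfl

lemma isUnit_homSec (e : CSec c' W ≃ₗ[Γ(X, W)] CSec c W) (Q : Partition c W hW) (p : ι × ι')
    (O : X.Opens) (hO : O ≤ W) (hp : O ≤ (c.mul c'.inv).U p) :
    IsUnit ((homSec P e.toLinearMap).val p O hO hp) := by
  obtain ⟨i, j⟩ := p
  have hi : O ≤ c.U i := hp.trans inf_le_left
  have hj : O ≤ c'.U j := hp.trans inf_le_right
  refine isUnit_iff_exists_inv.mpr
    ⟨(homSec Q e.symm.toLinearMap).val (j, i) O hO (le_inf hj hi), ?_⟩
  calc (homSec P e.toLinearMap).val (i, j) O hO hp *
        (homSec Q e.symm.toLinearMap).val (j, i) O hO (le_inf hj hi)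
      = (homSec P e.toLinearMap).val (i, j) O hO hp *
        (homSec Q e.symm.toLinearMap).val (j, i) O hO (le_inf hj hi) *
        ∑ l, (Q.u l).val i O hO hi * (Q.v l).val i O hO hi := by
        rw [sum_val Q i O hO hi, mul_one]
    _ = ∑ l, (Q.u l).val i O hO hi * (Q.v l).val i O hO hi := by
        rw [Finset.mul_sum]
        refine Finset.sum_congr rfl fun l _ => ?_
        rw [← mul_assoc, mul_assoc ((homSec P e.toLinearMap).val (i, j) O hO hp),
          homSec_apply Q e.symm.toLinearMap (Q.u l) j i O hO hj hi,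
          homSec_apply P e.toLinearMap _ i j O hO hi hj]
        simp
    _ = 1 := sum_val Q i O hO hi

end CSec

section triv

variable {c : Cocycle X V ι} {c' : Cocycle X V ι'}

/-- A section all whose values are units. -/
def CSec.IsUnitSec {W : X.Opens} (w : CSec c W) : Prop :=
  ∀ i O hO hi, IsUnit (w.val i O hO hi)

/-- The isomorphism of cocycles given by an invertible section of the hom bundle. -/
noncomputable def CocycleIso.ofSec (w : CSec (c.mul c'.inv) V) (hw : w.IsUnitSec) :
    CocycleIso c c' where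
  h i j O hi hj := w.val (i, j) O (hi.trans (c.le i)) (le_inf hi hj)
  h_res i j O O' hi hj hh := w.val_res _ _ _ _ _ _
  h_unit i j O hi hj := hw _ _ _ _
  h_left i i' j O hi hi' hj := by
    refine Eq.trans ?_ (w.val_g (i, j) (i', j) O (hi.trans (c.le i)) (le_inf hi hj) (le_inf hi' hj))
    simp [Cocycle.mul, Cocycle.inv]
  h_right i j j' O hi hj hj' := by
    refine Eq.trans ?_ (w.val_g (i, j') (i, j) O (hi.trans (c.le i)) (le_inf hi hj') (le_inf hi hj))
    simp only [Cocycle.mul, Cocycle.inv, Cocycle.g_self, one_mul]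
    exact mul_comm _ _

lemma cls_eq_one_iff : c.cls = 1 ↔ ∃ w : CSec c V, w.IsUnitSec := by
  constructor
  · intro h
    rw [← cls_one] at h
    obtain ⟨H⟩ := cls_eq_iff.mp h
    refine ⟨⟨fun i O hO hi => H.h i ⟨⟩ O hi hO, fun i O O' hO hi hh => H.h_res _ _ _ _ _ _ _,
      fun i j O hO hi hj => H.h_left _ _ _ _ _ _ _⟩, fun i O hO hi => H.h_unit _ _ _ _ _⟩
  · rintro ⟨w, hw⟩
    rw [← cls_one]
    exact cls_eq
      { h := fun i _ O hi hj => w.val i O hj hi
        h_res := fun i _ O O' hi hj hh => w.val_res _ _ _ _ _ _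
        h_unit := fun i _ O hi hj => hw _ _ _ _
        h_left := fun i i' _ O hi hi' hj => w.val_g _ _ _ _ _ _
        h_right := fun i _ _ O hi hj hj' => mul_one _ }

variable {W : X.Opens}

/-- The inverse of an invertible section. -/
noncomputable def CSec.unitInv (w : CSec c W) (hw : w.IsUnitSec) : CSec c.inv W where
  val i O hO hi := ((hw i O hO hi).unit⁻¹ : Γ(X, O)ˣ)
  val_res i O O' hO hi h := by
    refine left_inv_eq_right_inv (a := w.val i O' (h.trans hO) (h.trans hi)) ?_
      (IsUnit.mul_val_inv _)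
    rw [← w.val_res i O O' hO hi h, ← map_mul, IsUnit.val_inv_mul, map_one]
  val_g i j O hO hi hj := by
    refine (hw i O hO hi).mul_left_cancel ?_
    rw [IsUnit.mul_val_inv]
    conv_lhs => rw [← w.val_g i j O hO hi hj]
    rw [mul_mul_mul_comm, IsUnit.mul_val_inv, mul_one]
    exact c.g_symm_mul i j O hi hj

/-- An invertible section is a partition by itself. -/
noncomputable def CSec.Partition.single (hW : W ≤ V) (w : CSec c W) (hw : w.IsUnitSec) :
    CSec.Partition c W hW :=
  CSec.Partition.ofFintype hW (fun _ : Unit => w) (fun _ => w.unitInv hw) (by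
    rw [Fintype.sum_unique]
    refine (CSec.eq_ctr hW _ _ _ fun i O hO hi => ?_).symm
    rw [map_one]
    exact (IsUnit.mul_val_inv _).symm)

lemma CSec.span_singleton_eq_top_iff {hW : W ≤ V} (P : CSec.Partition c W hW) (w : CSec c W) :
    Submodule.span Γ(X, W) {w} = ⊤ ↔ w.IsUnitSec := by
  constructor
  · intro h i O hO hi
    have hu : ∀ l, ∃ r : Γ(X, W), r • w = P.u l := fun l =>
      Submodule.mem_span_singleton.mp (h ▸ Submodule.mem_top)
    choose r hr using hu
    refine isUnit_iff_exists_inv.mpr ⟨∑ l, rs hO (r l) * (P.v l).val i O hO hi, ?_⟩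
    rw [← sum_val P i O hO hi, Finset.mul_sum]
    refine Finset.sum_congr rfl fun l _ => ?_
    rw [← hr l, val_smul]
    ring
  · intro hw
    exact (CSec.Partition.single hW w hw).span_eq_top fun l => Submodule.subset_span rfl

end triv

section pull

variable {Y : Scheme.{u}} (f : X ⟶ Y) {U : Y.Opens} {κ : Type u} {d : Cocycle Y U κ}
  {hV : V ≤ f ⁻¹ᵁ U} {O : Y.Opens} {W : X.Opens}

/-- Pullback of sections of the dual. -/
noncomputable def CSec.pullInv (hW : W ≤ f ⁻¹ᵁ O) (y : CSec d.inv O) :
    CSec (d.pull f V hV).inv W where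
  val i P hP hi := (y.pull f hW (hV := hV)).val i P hP hi
  val_res i P P' hP hi h := CSec.val_res _ _ _ _ _ _ _
  val_g i j P hP hi hj := by
    refine Eq.trans ?_ ((y.pull f hW (hV := hV)).val_g i j P hP hi hj)
    congr 1
    have e : P ≤ f ⁻¹ᵁ (d.U i ⊓ d.U j) := fun x hx => ⟨(hi hx).2, (hj hx).2⟩
    rw [Cocycle.pull_g d.inv f V hV i j P hi hj _ e inf_le_left inf_le_right]
    exact Cocycle.pull_g d f V hV j i P hj hi _ e inf_le_right inf_le_left

/-- Pullback of a partition. -/
noncomputable def CSec.Partition.pull {hO : O ≤ U} (P : CSec.Partition d O hO) (hW : W ≤ f ⁻¹ᵁ O)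
    (hW' : W ≤ V) : CSec.Partition (d.pull f V hV) W hW' where
  n := P.n
  u l := (P.u l).pull f hW
  v l := (P.v l).pullInv f hW
  sum_eq := by
    simp_rw [← CSec.ctr_pull f hO hW' hW _ (P.v _) ((P.v _).pullInv f hW (hV := hV))
      (fun _ _ _ _ => rfl), ← map_sum, P.sum_eq, map_one]

lemma CSec.span_range_pull {hO : O ≤ U} (P : CSec.Partition d O hO) (hW : W ≤ f ⁻¹ᵁ O)
    (hW' : W ≤ V) :
    Submodule.span Γ(X, W) (Set.range fun s : CSec d O => s.pull f hW (hV := hV)) = ⊤ :=
  (P.pull f hW hW').span_eq_top fun l => Submodule.subset_span ⟨_, rfl⟩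

end pull

end FLTA.Jacobian
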