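import Fermat.Agent.Jacobian.PicFunctor

/-!
# Sections of a cocycle (S25, part A).

`CSec c W` is the module of sections over `W` of the line bundle given by the cocycle `c`.
-/

set_option autoImplicit false
set_option linter.unusedVariables false

universe u

open CategoryTheory AlgebraicGeometry Opposite TopologicalSpace

namespace FLTA.Jacobian

variable {X : Scheme.{u}} {V : X.Opens} {ι ι' : Type u}

/-- A section over `W` of the line bundle given by a cocycle. -/
@[ext]
structure CSec (c : Cocycle X V ι) (W : X.Opens) : Type u where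
  val : ∀ (i : ι) (O : X.Opens), O ≤ W → O ≤ c.U i → Γ(X, O)
  val_res : ∀ (i : ι) (O O' : X.Opens) (hO : O ≤ W) (hi : O ≤ c.U i) (h : O' ≤ O),
    rs h (val i O hO hi) = val i O' (h.trans hO) (h.trans hi)
  val_g : ∀ (i j : ι) (O : X.Opens) (hO : O ≤ W) (hi : O ≤ c.U i) (hj : O ≤ c.U j),
    c.g i j O hi hj * val j O hO hj = val i O hO hi

attribute [simp] CSec.val_res

namespace CSec

variable {c : Cocycle X V ι} {c' : Cocycle X V ι'} {W W' : X.Opens}

instance : Zero (CSec c W) where
  zero := ⟨fun _ _ _ _ => 0, fun _ _ _ _ _ _ => map_zero _, fun _ _ _ _ _ _ => mul_zero _⟩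

instance : Add (CSec c W) where
  add x y := ⟨fun i O hO hi => x.val i O hO hi + y.val i O hO hi,
    fun i O O' hO hi h => by rw [map_add, x.val_res, y.val_res],
    fun i j O hO hi hj => by rw [mul_add, x.val_g, y.val_g]⟩

instance : Neg (CSec c W) where
  neg x := ⟨fun i O hO hi => -x.val i O hO hi,
    fun i O O' hO hi h => by rw [map_neg, x.val_res],
    fun i j O hO hi hj => by rw [mul_neg, x.val_g]⟩

@[simp] lemma val_zero (i : ι) (O : X.Opens) (hO : O ≤ W) (hi : O ≤ c.U i) :
    (0 : CSec c W).val i O hO hi = 0 := rfl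

@[simp] lemma val_add (x y : CSec c W) (i : ι) (O : X.Opens) (hO : O ≤ W) (hi : O ≤ c.U i) :
    (x + y).val i O hO hi = x.val i O hO hi + y.val i O hO hi := rfl

@[simp] lemma val_neg (x : CSec c W) (i : ι) (O : X.Opens) (hO : O ≤ W) (hi : O ≤ c.U i) :
    (-x).val i O hO hi = -x.val i O hO hi := rfl

lemma ext' {x y : CSec c W} (h : ∀ i O hO hi, x.val i O hO hi = y.val i O hO hi) : x = y :=
  CSec.ext (funext fun i => funext fun O => funext fun hO => funext fun hi => h i O hO hi)

noncomputable instance : AddCommGroup (CSec c W) where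
  add_assoc x y z := ext' fun i O hO hi => add_assoc _ _ _
  zero_add x := ext' fun i O hO hi => zero_add _
  add_zero x := ext' fun i O hO hi => add_zero _
  add_comm x y := ext' fun i O hO hi => add_comm _ _
  neg_add_cancel x := ext' fun i O hO hi => neg_add_cancel _
  nsmul := nsmulRec
  zsmul := zsmulRec

noncomputable instance : SMul Γ(X, W) (CSec c W) where
  smul a x := ⟨fun i O hO hi => rs hO a * x.val i O hO hi,
    fun i O O' hO hi h => by rw [map_mul, x.val_res, rs_rs],
    fun i j O hO hi hj => by rw [mul_left_comm, x.val_g]⟩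

@[simp] lemma val_smul (a : Γ(X, W)) (x : CSec c W) (i : ι) (O : X.Opens) (hO : O ≤ W)
    (hi : O ≤ c.U i) : (a • x).val i O hO hi = rs hO a * x.val i O hO hi := rfl

noncomputable instance : Module Γ(X, W) (CSec c W) where
  one_smul x := ext' fun i O hO hi => by simp
  mul_smul a b x := ext' fun i O hO hi => by simp [mul_assoc]
  smul_zero a := ext' fun i O hO hi => by simp
  smul_add a x y := ext' fun i O hO hi => by simp [mul_add]
  add_smul a b x := ext' fun i O hO hi => by simp [add_mul]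
  zero_smul x := ext' fun i O hO hi => by simp

@[simp] lemma val_sum {κ : Type*} (s : Finset κ) (x : κ → CSec c W) (i : ι) (O : X.Opens)
    (hO : O ≤ W) (hi : O ≤ c.U i) :
    (∑ l ∈ s, x l).val i O hO hi = ∑ l ∈ s, (x l).val i O hO hi := by
  classical
  induction s using Finset.induction_on with
  | empty => simp
  | insert a s ha ih => rw [Finset.sum_insert ha, Finset.sum_insert ha, val_add, ih]

/-- Values of a section on opens may be computed on any smaller cover. -/
lemma ext_of_cover {x y : CSec c W} {κ : Type u} (D : κ → X.Opens) (idx : κ → ι)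
    (hD : ∀ a, D a ≤ c.U (idx a)) (hcover : ∀ p ∈ W, ∃ a, p ∈ D a)
    (h : ∀ a, x.val (idx a) (W ⊓ D a) inf_le_left (inf_le_right.trans (hD a)) =
      y.val (idx a) (W ⊓ D a) inf_le_left (inf_le_right.trans (hD a))) : x = y := by
  refine ext' fun i O hO hi => eq_of_locally D (fun p hp => hcover p (hO hp)) fun a => ?_
  have hh := congrArg (rs (show O ⊓ D a ≤ W ⊓ D a from inf_le_inf_right _ hO)) (h a)
  simp only [val_res] at hh ⊢
  rw [← x.val_g i (idx a) (O ⊓ D a) _ _ (inf_le_right.trans (hD a)), hh, y.val_g]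

/-- Restriction of sections. -/
noncomputable def restrict (h : W' ≤ W) (x : CSec c W) : CSec c W' where
  val i O hO hi := x.val i O (hO.trans h) hi
  val_res i O O' hO hi hh := x.val_res _ _ _ _ _ _
  val_g i j O hO hi hj := x.val_g _ _ _ _ _ _

@[simp] lemma val_restrict (h : W' ≤ W) (x : CSec c W) (i : ι) (O : X.Opens) (hO : O ≤ W')
    (hi : O ≤ c.U i) : (x.restrict h).val i O hO hi = x.val i O (hO.trans h) hi := rfl

/-- Multiplication of sections. -/
noncomputable def mul (x : CSec c W) (y : CSec c' W) : CSec (c.mul c') W where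
  val p O hO hp := x.val p.1 O hO (hp.trans inf_le_left) * y.val p.2 O hO (hp.trans inf_le_right)
  val_res p O O' hO hp h := by simp
  val_g p q O hO hp hq := by
    simp only [Cocycle.mul]
    rw [mul_mul_mul_comm, x.val_g, y.val_g]

@[simp] lemma val_mul (x : CSec c W) (y : CSec c' W) (p : ι × ι') (O : X.Opens) (hO : O ≤ W)
    (hp : O ≤ (c.mul c').U p) :
    (x.mul y).val p O hO hp =
      x.val p.1 O hO (hp.trans inf_le_left) * y.val p.2 O hO (hp.trans inf_le_right) := rfl

lemma cover_of_le (hW : W ≤ V) : ∀ p ∈ W, ∃ i, p ∈ c.U i := fun p hp => c.cover p (hW hp)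

lemma ctr_aux (x : CSec c W) (y : CSec c.inv W) (i j : ι) :
    rs (show W ⊓ c.U i ⊓ c.U j ≤ W ⊓ c.U i from inf_le_left)
      (x.val i (W ⊓ c.U i) inf_le_left inf_le_right *
        y.val i (W ⊓ c.U i) inf_le_left inf_le_right) =
    rs (show W ⊓ c.U i ⊓ c.U j ≤ W ⊓ c.U j from
      le_inf (inf_le_left.trans inf_le_left) inf_le_right)
      (x.val j (W ⊓ c.U j) inf_le_left inf_le_right *
        y.val j (W ⊓ c.U j) inf_le_left inf_le_right) := by
  simp only [map_mul, val_res]
  have hO : W ⊓ c.U i ⊓ c.U j ≤ W := inf_le_left.trans inf_le_left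
  have hi : W ⊓ c.U i ⊓ c.U j ≤ c.U i := inf_le_left.trans inf_le_right
  have h1 := x.val_g i j _ hO hi inf_le_right
  have h2 := y.val_g i j _ hO hi inf_le_right
  refine (congrArg₂ (· * ·) h1.symm h2.symm).trans ?_
  rw [mul_mul_mul_comm]
  exact (congrArg (· * _) (c.g_symm_mul i j _ hi inf_le_right)).trans (one_mul _)

/-- The contraction of a section with a section of the dual. -/
noncomputable def ctr (hW : W ≤ V) (x : CSec c W) (y : CSec c.inv W) : Γ(X, W) :=
  glue c.U (cover_of_le hW) _ (ctr_aux x y)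

lemma ctr_spec (hW : W ≤ V) (x : CSec c W) (y : CSec c.inv W) (i : ι) (O : X.Opens) (hO : O ≤ W)
    (hi : O ≤ c.U i) : rs hO (ctr hW x y) = x.val i O hO hi * y.val i O hO hi := by
  rw [ctr, glue_spec _ _ _ _ i hO hi, map_mul, val_res, val_res]

lemma eq_ctr (hW : W ≤ V) (x : CSec c W) (y : CSec c.inv W) (a : Γ(X, W))
    (h : ∀ i O hO hi, rs hO a = x.val i O hO hi * y.val i O hO hi) : a = ctr hW x y :=
  eq_of_locally c.U (cover_of_le hW) fun i => by
    rw [h i _ inf_le_left inf_le_right, ctr_spec hW x y i _ inf_le_left inf_le_right]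

lemma ctr_add_left (hW : W ≤ V) (x x' : CSec c W) (y : CSec c.inv W) :
    ctr hW (x + x') y = ctr hW x y + ctr hW x' y := by
  refine (eq_ctr hW _ _ _ fun i O hO hi => ?_).symm
  rw [map_add, ctr_spec hW x y i O hO hi, ctr_spec hW x' y i O hO hi, val_add, add_mul]

lemma ctr_smul_left (hW : W ≤ V) (a : Γ(X, W)) (x : CSec c W) (y : CSec c.inv W) :
    ctr hW (a • x) y = a * ctr hW x y := by
  refine (eq_ctr hW _ _ _ fun i O hO hi => ?_).symm
  rw [map_mul, ctr_spec hW x y i O hO hi, val_smul, mul_assoc]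

lemma ctr_add_right (hW : W ≤ V) (x : CSec c W) (y y' : CSec c.inv W) :
    ctr hW x (y + y') = ctr hW x y + ctr hW x y' := by
  refine (eq_ctr hW _ _ _ fun i O hO hi => ?_).symm
  rw [map_add, ctr_spec hW x y i O hO hi, ctr_spec hW x y' i O hO hi, val_add, mul_add]

lemma ctr_smul_right (hW : W ≤ V) (a : Γ(X, W)) (x : CSec c W) (y : CSec c.inv W) :
    ctr hW x (a • y) = a * ctr hW x y := by
  refine (eq_ctr hW _ _ _ fun i O hO hi => ?_).symm
  rw [map_mul, ctr_spec hW x y i O hO hi, val_smul, mul_left_comm]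

/-- The contraction as a bilinear map. -/
noncomputable def ctrLin (hW : W ≤ V) :
    CSec c W →ₗ[Γ(X, W)] CSec c.inv W →ₗ[Γ(X, W)] Γ(X, W) :=
  LinearMap.mk₂ _ (ctr hW) (ctr_add_left hW) (ctr_smul_left hW) (ctr_add_right hW)
    (ctr_smul_right hW)

lemma ctr_restrict (hW : W ≤ V) (h : W' ≤ W) (x : CSec c W) (y : CSec c.inv W) :
    rs h (ctr hW x y) = ctr (h.trans hW) (x.restrict h) (y.restrict h) := by
  refine eq_ctr _ _ _ _ fun i O hO hi => ?_
  rw [rs_rs, ctr_spec hW x y i O (hO.trans h) hi]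
  rfl

/-- The basic identity of rank one. -/
lemma ctr_smul_comm (hW : W ≤ V) (x u : CSec c W) (v : CSec c.inv W) :
    ctr hW x v • u = ctr hW u v • x := by
  refine ext' fun i O hO hi => ?_
  rw [val_smul, val_smul, ctr_spec hW x v i O hO hi, ctr_spec hW u v i O hO hi]
  ring

lemma ctr_smul_comm_right (hW : W ≤ V) (x : CSec c W) (v w : CSec c.inv W) :
    ctr hW x v • w = ctr hW x w • v := by
  refine ext' fun i O hO hi => ?_
  rw [val_smul, val_smul, ctr_spec hW x v i O hO hi, ctr_spec hW x w i O hO hi]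
  ring

end CSec

section mapSec

variable {c : Cocycle X V ι} {c' : Cocycle X V ι'} {W : X.Opens}

lemma CocycleIso.mapSec_aux (H : CocycleIso c c') (s : CSec c W) (j : ι') (O : X.Opens)
    (hO : O ≤ W) (hj : O ≤ c'.U j) (a b : ι) :
    rs (show O ⊓ c.U a ⊓ c.U b ≤ O ⊓ c.U a from inf_le_left)
      (H.symm.h j a (O ⊓ c.U a) (inf_le_left.trans hj) inf_le_right *
        s.val a (O ⊓ c.U a) (inf_le_left.trans hO) inf_le_right) =
    rs (show O ⊓ c.U a ⊓ c.U b ≤ O ⊓ c.U b from
      le_inf (inf_le_left.trans inf_le_left) inf_le_right)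
      (H.symm.h j b (O ⊓ c.U b) (inf_le_left.trans hj) inf_le_right *
        s.val b (O ⊓ c.U b) (inf_le_left.trans hO) inf_le_right) := by
  simp only [map_mul, CocycleIso.h_res, CSec.val_res]
  rw [← s.val_g a b _ _ (inf_le_left.trans inf_le_right) inf_le_right, ← mul_assoc,
    H.symm.h_right]

/-- Transport of sections along an isomorphism of cocycles. -/
noncomputable def CocycleIso.mapSec (H : CocycleIso c c') (hW : W ≤ V) (s : CSec c W) :
    CSec c' W where
  val j O hO hj := glue c.U (CSec.cover_of_le (hO.trans hW)) _ (H.mapSec_aux s j O hO hj)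
  val_res j O O' hO hj h := by
    refine eq_of_locally c.U (CSec.cover_of_le ((h.trans hO).trans hW)) fun a => ?_
    rw [rs_rs, glue_spec _ _ _ _ a _ inf_le_right, glue_spec _ _ _ _ a _ inf_le_right]
    simp
  val_g i j O hO hi hj := by
    refine eq_of_locally c.U (CSec.cover_of_le (hO.trans hW)) fun a => ?_
    rw [map_mul, glue_spec _ _ _ _ a _ inf_le_right, glue_spec _ _ _ _ a _ inf_le_right]
    simp only [map_mul, Cocycle.g_res, CocycleIso.h_res, CSec.val_res]
    rw [← mul_assoc, H.symm.h_left]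

lemma CocycleIso.mapSec_val (H : CocycleIso c c') (hW : W ≤ V) (s : CSec c W) (i : ι) (j : ι')
    (O : X.Opens) (hO : O ≤ W) (hi : O ≤ c.U i) (hj : O ≤ c'.U j) :
    (H.mapSec hW s).val j O hO hj = H.symm.h j i O hj hi * s.val i O hO hi := by
  have e := glue_spec c.U (CSec.cover_of_le (hO.trans hW)) _ (H.mapSec_aux s j O hO hj) i
    le_rfl hi
  rw [rs_self] at e
  refine e.trans ?_
  simp

lemma CocycleIso.mul_mapSec_val (H : CocycleIso c c') (hW : W ≤ V) (s : CSec c W) (i : ι)
    (j : ι') (O : X.Opens) (hO : O ≤ W) (hi : O ≤ c.U i) (hj : O ≤ c'.U j) :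
    H.h i j O hi hj * (H.mapSec hW s).val j O hO hj = s.val i O hO hi := by
  rw [H.mapSec_val hW s i j O hO hi hj, ← mul_assoc]
  simp [CocycleIso.symm, IsUnit.mul_val_inv]

/-- Transport of sections, as a linear equivalence. -/
noncomputable def CocycleIso.secEquiv (H : CocycleIso c c') (hW : W ≤ V) :
    CSec c W ≃ₗ[Γ(X, W)] CSec c' W where
  toFun := H.mapSec hW
  map_add' x y := CSec.ext' fun j O hO hj =>
    eq_of_locally c.U (CSec.cover_of_le (hO.trans hW)) fun a => by
      simp [H.mapSec_val hW _ a j (O ⊓ c.U a) (inf_le_left.trans hO) inf_le_right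
        (inf_le_left.trans hj), mul_add]
  map_smul' r x := CSec.ext' fun j O hO hj =>
    eq_of_locally c.U (CSec.cover_of_le (hO.trans hW)) fun a => by
      simp [H.mapSec_val hW _ a j (O ⊓ c.U a) (inf_le_left.trans hO) inf_le_right
        (inf_le_left.trans hj), mul_left_comm]
  invFun := H.symm.mapSec hW
  left_inv x := CSec.ext' fun i O hO hi =>
    eq_of_locally c'.U (CSec.cover_of_le (hO.trans hW)) fun b => by
      rw [CSec.val_res, CSec.val_res]
      refine (H.h_unit i b (O ⊓ c'.U b) (inf_le_left.trans hi) inf_le_right).unit⁻¹.mul_right_inj.1 ?_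
      have e := H.symm.mul_mapSec_val hW (H.mapSec hW x) b i (O ⊓ c'.U b) (inf_le_left.trans hO)
        inf_le_right (inf_le_left.trans hi)
      refine e.trans ?_
      exact H.mapSec_val hW x i b _ _ _ _
  right_inv y := CSec.ext' fun j O hO hj =>
    eq_of_locally c.U (CSec.cover_of_le (hO.trans hW)) fun a => by
      rw [CSec.val_res, CSec.val_res]
      rw [H.mapSec_val hW _ a j (O ⊓ c.U a) (inf_le_left.trans hO) inf_le_right
        (inf_le_left.trans hj)]
      exact H.symm.mul_mapSec_val hW y j a _ _ _ _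

@[simp] lemma CocycleIso.secEquiv_apply (H : CocycleIso c c') (hW : W ≤ V) (x : CSec c W) :
    H.secEquiv hW x = H.mapSec hW x := rfl

lemma CocycleIso.mapSec_restrict (H : CocycleIso c c') (hW : W ≤ V) {W' : X.Opens} (h : W' ≤ W)
    (x : CSec c W) :
    (H.mapSec hW x).restrict h = H.mapSec (h.trans hW) (x.restrict h) := by
  refine CSec.ext' fun j O hO hj =>
    eq_of_locally c.U (CSec.cover_of_le (hO.trans (h.trans hW))) fun a => ?_
  simp [H.mapSec_val hW _ a j (O ⊓ c.U a) (inf_le_left.trans (hO.trans h)) inf_le_right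
      (inf_le_left.trans hj),
    H.mapSec_val (h.trans hW) _ a j (O ⊓ c.U a) (inf_le_left.trans hO) inf_le_right
      (inf_le_left.trans hj)]

end mapSec

section pullSec

variable {Y : Scheme.{u}} (f : X ⟶ Y) {U : Y.Opens} {κ : Type u} {d : Cocycle Y U κ}
  {hV : V ≤ f ⁻¹ᵁ U} {O : Y.Opens} {W : X.Opens}

/-- Pullback of sections. -/
noncomputable def CSec.pull (hW : W ≤ f ⁻¹ᵁ O) (s : CSec d O) : CSec (d.pull f V hV) W where
  val i P hP hi := pb f (show P ≤ f ⁻¹ᵁ (O ⊓ d.U i) from fun x hx => ⟨hW (hP hx), (hi hx).2⟩)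
    (s.val i (O ⊓ d.U i) inf_le_left inf_le_right)
  val_res i P P' hP hi h := by rw [rs_pb]
  val_g i j P hP hi hj := by
    have e : P ≤ f ⁻¹ᵁ (O ⊓ (d.U i ⊓ d.U j)) :=
      fun x hx => ⟨hW (hP hx), (hi hx).2, (hj hx).2⟩
    have h1 := congrArg (pb f e) (s.val_g i j (O ⊓ (d.U i ⊓ d.U j)) inf_le_left
      (inf_le_right.trans inf_le_left) (inf_le_right.trans inf_le_right))
    rw [map_mul, ← s.val_res i (O ⊓ d.U i) _ inf_le_left inf_le_right
        (inf_le_inf_left _ inf_le_left),
      ← s.val_res j (O ⊓ d.U j) _ inf_le_left inf_le_right (inf_le_inf_left _ inf_le_right),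
      pb_rs, pb_rs] at h1
    rw [d.pull_g f V hV i j P hi hj _ e (inf_le_right.trans inf_le_left)
      (inf_le_right.trans inf_le_right)]
    exact h1

lemma CSec.pull_val (hW : W ≤ f ⁻¹ᵁ O) (s : CSec d O) (i : κ) (P : X.Opens) (hP : P ≤ W)
    (hi : P ≤ (d.pull f V hV).U i) (Q : Y.Opens) (hPQ : P ≤ f ⁻¹ᵁ Q) (hQ : Q ≤ O)
    (hQi : Q ≤ d.U i) :
    (s.pull f hW (hV := hV)).val i P hP hi = pb f hPQ (s.val i Q hQ hQi) := by
  show pb f _ _ = _
  rw [← s.val_res i (O ⊓ d.U i) Q inf_le_left inf_le_right (le_inf hQ hQi), pb_rs]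

lemma CSec.pull_add (hW : W ≤ f ⁻¹ᵁ O) (s t : CSec d O) :
    ((s + t).pull f hW (hV := hV)) = s.pull f hW + t.pull f hW :=
  CSec.ext' fun i P hP hi => map_add (pb f _) _ _

lemma CSec.pull_smul (hW : W ≤ f ⁻¹ᵁ O) (a : Γ(Y, O)) (s : CSec d O) :
    ((a • s).pull f hW (hV := hV)) = pb f hW a • s.pull f hW := by
  refine CSec.ext' fun i P hP hi => ?_
  show pb f _ _ = rs hP (pb f hW a) * pb f _ _
  rw [CSec.val_smul, map_mul, pb_rs, rs_pb]

/-- Pullback of sections, as a semilinear map. -/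
noncomputable def CSec.pullLin (hW : W ≤ f ⁻¹ᵁ O) :
    CSec d O →ₛₗ[pb f hW] CSec (d.pull f V hV) W where
  toFun := CSec.pull f hW
  map_add' := CSec.pull_add f hW
  map_smul' := CSec.pull_smul f hW

lemma CSec.ctr_pull (hO : O ≤ U) (hW' : W ≤ V) (hW : W ≤ f ⁻¹ᵁ O) (x : CSec d O)
    (y : CSec d.inv O) (z : CSec (d.pull f V hV).inv W)
    (hz : ∀ i P hP hi, z.val i P hP hi = (y.pull f hW (hV := hV)).val i P hP hi) :
    pb f hW (CSec.ctr hO x y) = CSec.ctr hW' (x.pull f hW) z := by
  refine CSec.eq_ctr _ _ _ _ fun i P hP hi => ?_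
  have e : P ≤ f ⁻¹ᵁ (O ⊓ d.U i) := fun p hp => ⟨hW (hP hp), (hi hp).2⟩
  rw [hz, rs_pb, CSec.pull_val f hW x i P hP hi _ e inf_le_left inf_le_right,
    CSec.pull_val f hW y i P hP hi _ e inf_le_left inf_le_right, ← map_mul,
    ← CSec.ctr_spec hO x y i (O ⊓ d.U i) inf_le_left inf_le_right, pb_rs]

end pullSec

end FLTA.Jacobian
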