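import Fermat.Agent.Jacobian.PicAffineChart
import Fermat.Agent.Jacobian.PicAffineCurve
import Fermat.Agent.Jacobian.CechBasic

/-!
# The triple of a cocycle on the curve over an affine base (S25, part A).
-/

set_option autoImplicit false
set_option linter.unusedVariables false

universe u

open CategoryTheory CategoryTheory.Limits AlgebraicGeometry NeronModelInfra TopologicalSpace
open scoped FLTA.Jacobian.TwoCover FLTA.Jacobian.Triple

namespace FLTA.Jacobian

section general

lemma exists_pow_smul_eq {A L M N : Type u} [CommRing A] [CommRing L] [AddCommGroup M]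
    [AddCommGroup N] [Module A M] [Module L N] {σ : A →+* L} (a : A)
    (hσ : ∀ x : L, ∃ (i : ℕ) (b : A), (σ a) ^ i * x = σ b) (f : M →ₛₗ[σ] N)
    (hf : Submodule.span L (Set.range f) = ⊤) (n : N) :
    ∃ (m : M) (i : ℕ), (σ a) ^ i • n = f m := by
  have hn : n ∈ Submodule.span L (Set.range f) := hf ▸ Submodule.mem_top
  induction hn using Submodule.span_induction with
  | mem n hn => obtain ⟨m, rfl⟩ := hn; exact ⟨m, 0, by simp⟩
  | zero => exact ⟨0, 0, by simp⟩
  | add x y _ _ hx hy =>
    obtain ⟨m, i, hm⟩ := hx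
    obtain ⟨m', j, hm'⟩ := hy
    refine ⟨a ^ j • m + a ^ i • m', i + j, ?_⟩
    rw [map_add, LinearMap.map_smulₛₗ, LinearMap.map_smulₛₗ, ← hm, ← hm', map_pow, map_pow,
      smul_add, smul_smul, smul_smul, pow_add, mul_comm ((σ a) ^ i)]
  | smul x y _ hy =>
    obtain ⟨m, i, hm⟩ := hy
    obtain ⟨j, b, hb⟩ := hσ x
    refine ⟨b • m, j + i, ?_⟩
    rw [LinearMap.map_smulₛₗ, ← hb, ← hm, smul_smul, smul_smul, pow_add]
    ring_nf

variable {X : Scheme.{u}} {B : Type u} [CommRing B] (f : Spec (CommRingCat.of B) ⟶ X)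
  [IsOpenImmersion f] {V : X.Opens} {ι : Type u} {c : Cocycle X V ι} {B₁ : Type u} [CommRing B₁]
  (f₁ : Spec (CommRingCat.of B₁) ⟶ X) [IsOpenImmersion f₁] (ψ : B →+* B₁)
  (w : Spec.map (CommRingCat.ofHom ψ) ≫ f = f₁)

lemma chartRes_injective (hψ : Function.Injective ψ) (hV : f.opensRange ≤ V) :
    Function.Injective (chartRes f f₁ ψ w (c := c)) := by
  refine (injective_iff_map_eq_zero _).mpr fun x hx => ?_
  let P := CSec.Partition.choice (c := c) (isAffineOpen_opensRange f) hV
  have h0 : ∀ l, CSec.ctr hV x.sec (P.v l) = 0 := fun l => by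
    apply (chartEquiv f).symm.injective
    apply hψ
    apply (chartEquiv f₁).injective
    rw [map_zero, map_zero, map_zero, ← rs_chartEquiv f f₁ ψ w, RingEquiv.apply_symm_apply,
      CSec.ctr_restrict hV]
    have hx' : x.sec.restrict (subChart_le f f₁ ψ w) = 0 := hx
    rw [hx']
    refine (CSec.eq_ctr _ _ _ _ fun i O hO hi => ?_).symm
    simp
  refine (P.expand x.sec).symm.trans (Finset.sum_eq_zero fun l _ => ?_)
  rw [h0, zero_smul]

end general

variable {k : Type u} [Field k] {C : Scheme.{u}} {c : C ⟶ Spec (CommRingCat.of k)}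
  {ε : SchemeHomOver (𝟙 (Spec (CommRingCat.of k))) c}

variable (R : Type u) [CommRing R] [Algebra k R] (cc : CurveCover c ε) {ι ι' : Type u}

/-- The module of a cocycle over a chart, as a module over the base. -/
@[reducible] noncomputable def baseModule {A : Type u} [CommRing A] [Algebra R A]
    {X : Scheme.{u}} (f : Spec (CommRingCat.of A) ⟶ X) [IsOpenImmersion f] {V : X.Opens}
    (d : Cocycle X V ι) : Module R (ChartSec f d) :=
  Module.compHom _ (algebraMap R A)

lemma baseModule_tower {A : Type u} [CommRing A] [Algebra R A]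
    {X : Scheme.{u}} (f : Spec (CommRingCat.of A) ⟶ X) [IsOpenImmersion f] {V : X.Opens}
    (d : Cocycle X V ι) :
    letI := baseModule R f d
    IsScalarTower R A (ChartSec f d) :=
  letI := baseModule R f d
  IsScalarTower.of_algebraMap_smul fun _ _ => rfl

variable {R}

/-- The triple of a cocycle. -/
noncomputable def tripleOfCocycle
    (d : Cocycle (pullback c (Spec.map (CommRingCat.ofHom (algebraMap k R)))) ⊤ ι) :
    Triple cc.E R where
  M := ChartSec (cc.chA R) d
  M' := ChartSec (cc.chA' R) d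
  N := ChartSec (cc.ch01 R) d
  rM := baseModule R (cc.chA R) d
  rM' := baseModule R (cc.chA' R) d
  rN := baseModule R (cc.ch01 R) d
  towM := baseModule_tower R (cc.chA R) d
  towM' := baseModule_tower R (cc.chA' R) d
  towN := baseModule_tower R (cc.ch01 R) d
  invM := ChartSec.invertible le_top
  invM' := ChartSec.invertible le_top
  res := chartRes (cc.chA R) (cc.ch01 R) (cc.E.ιR R).toRingHom (cc.SpecMap_ιR_chA R)
  res' := chartRes (cc.chA' R) (cc.ch01 R) (cc.E.ιR' R).toRingHom (cc.SpecMap_ιR'_chA' R)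
  res_surj := exists_pow_smul_eq (cc.E.tR R) (cc.E.exists_ιR_pow R) _
    (span_range_chartRes _ _ _ _ le_top)
  res_ker m h := ⟨0, by
    rw [pow_zero, one_smul]
    exact chartRes_injective _ _ _ _ (cc.E.ιR_injective R) le_top (h.trans (map_zero _).symm)⟩
  res'_surj := exists_pow_smul_eq (cc.E.sR R) (cc.E.exists_ιR'_pow R) _
    (span_range_chartRes _ _ _ _ le_top)
  res'_ker m h := ⟨0, by
    rw [pow_zero, one_smul]
    exact chartRes_injective _ _ _ _ (cc.E.ιR'_injective R) le_top (h.trans (map_zero _).symm)⟩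

variable {d : Cocycle (pullback c (Spec.map (CommRingCat.ofHom (algebraMap k R)))) ⊤ ι}
  {d' : Cocycle (pullback c (Spec.map (CommRingCat.ofHom (algebraMap k R)))) ⊤ ι'}

/-- Isomorphic cocycles give isomorphic triples. -/
noncomputable def tripleIsoOfCocycleIso (H : CocycleIso d d') :
    Triple.Iso (tripleOfCocycle cc d) (tripleOfCocycle cc d') where
  eM := ChartSec.map (H.secEquiv le_top)
  eM' := ChartSec.map (H.secEquiv le_top)
  eN := ChartSec.map (H.secEquiv le_top)
  comm m := (H.mapSec_restrict le_top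
    (subChart_le _ _ _ (cc.SpecMap_ιR_chA R)) m.sec).symm
  comm' m := (H.mapSec_restrict le_top
    (subChart_le _ _ _ (cc.SpecMap_ιR'_chA' R)) m.sec).symm

/-- Gluing of invertible sections given on the members of a cover. -/
lemma exists_gluePieces {X : Scheme.{u}} {ι κ : Type u} {d : Cocycle X ⊤ ι} (D : κ → X.Opens)
    (hD : ∀ p : X, ∃ a, p ∈ D a) (s : ∀ a, CSec d (D a))
    (agree : ∀ (a b : κ) (i : ι) (P : X.Opens) (ha : P ≤ D a) (hb : P ≤ D b) (hi : P ≤ d.U i),
      (s a).val i P ha hi = (s b).val i P hb hi)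
    (hs : ∀ a, (s a).IsUnitSec) : ∃ z : CSec d ⊤, z.IsUnitSec := by
  have ht : ∀ (i : ι) (O : X.Opens) (hi : O ≤ d.U i) (a b : κ),
      rs (show O ⊓ D a ⊓ D b ≤ O ⊓ D a from inf_le_left)
        ((s a).val i (O ⊓ D a) inf_le_right (inf_le_left.trans hi)) =
      rs (show O ⊓ D a ⊓ D b ≤ O ⊓ D b from le_inf (inf_le_left.trans inf_le_left) inf_le_right)
        ((s b).val i (O ⊓ D b) inf_le_right (inf_le_left.trans hi)) := fun i O hi a b => by
    rw [CSec.val_res, CSec.val_res]
    exact agree _ _ _ _ _ _ _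
  let z : CSec d ⊤ :=
    { val := fun i O _ hi => glue D (fun p _ => hD p) _ (ht i O hi)
      val_res := fun i O O' hO hi hh => by
        refine eq_of_locally D (fun p _ => hD p) fun a => ?_
        rw [rs_rs, glue_spec _ _ _ _ a _ inf_le_right, glue_spec _ _ _ _ a _ inf_le_right]
        simp
      val_g := fun i j O hO hi hj => by
        refine eq_of_locally D (fun p _ => hD p) fun a => ?_
        rw [map_mul, glue_spec _ _ _ _ a _ inf_le_right, glue_spec _ _ _ _ a _ inf_le_right]
        simp [CSec.val_g] }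
  refine ⟨z, fun i O hO hi => isUnit_of_locally D (fun p _ => hD p) fun a => ?_⟩
  have e := glue_spec D (fun p _ => hD p) _ (ht i O hi) a (inf_le_left : O ⊓ D a ≤ O) inf_le_right
  rw [rs_self] at e
  exact (congrArg IsUnit e).mpr (hs a i _ inf_le_right (inf_le_left.trans hi))

/-- Gluing of sections given on the two charts. -/
lemma exists_glueSec {X : Scheme.{u}} {ι : Type u} {d : Cocycle X ⊤ ι} {U U' W : X.Opens}
    (hcover : ∀ x : X, x ∈ U ∨ x ∈ U') (hW : U ⊓ U' ≤ W) (hWU : W ≤ U) (hWU' : W ≤ U')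
    (x : CSec d U) (x' : CSec d U') (h : x.restrict hWU = x'.restrict hWU')
    (hx : x.IsUnitSec) (hx' : x'.IsUnitSec) :
    ∃ z : CSec d ⊤, z.IsUnitSec := by
  let D : ULift.{u} Bool → X.Opens := fun b => cond b.down U U'
  let s : ∀ b, CSec d (D b) := fun b =>
    match b with
    | ⟨true⟩ => x
    | ⟨false⟩ => x'
  have agree : ∀ (i : ι) (P : X.Opens) (hU : P ≤ U) (hU' : P ≤ U') (hi : P ≤ d.U i),
      x.val i P hU hi = x'.val i P hU' hi := fun i P hU hU' hi =>
    congrArg (fun t : CSec d W => t.val i P ((le_inf hU hU').trans hW) hi) h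
  refine exists_gluePieces D (fun p => ?_) s ?_ ?_
  · rcases hcover p with hp | hp
    · exact ⟨⟨true⟩, hp⟩
    · exact ⟨⟨false⟩, hp⟩
  · rintro ⟨a⟩ ⟨b⟩ i P ha hb hi
    cases a <;> cases b
    · rfl
    · exact (agree i P hb ha hi).symm
    · exact agree i P ha hb hi
    · rfl
  · rintro ⟨a⟩
    cases a
    · exact hx'
    · exact hx

/-- Isomorphic triples come from isomorphic cocycles. -/
theorem cls_eq_of_tripleIso (e : Triple.Iso (tripleOfCocycle cc d) (tripleOfCocycle cc d')) :
    d.cls = d'.cls := by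
  let eA := (ChartSec.unmap e.eM).symm
  let eA' := (ChartSec.unmap e.eM').symm
  let e01 := (ChartSec.unmap e.eN).symm
  let Q := CSec.Partition.choice (c := d) (isAffineOpen_opensRange (cc.chA R)) le_top
  let Q' := CSec.Partition.choice (c := d) (isAffineOpen_opensRange (cc.chA' R)) le_top
  let P := CSec.Partition.choice (c := d') (isAffineOpen_opensRange (cc.chA R)) le_top
  let P' := CSec.Partition.choice (c := d') (isAffineOpen_opensRange (cc.chA' R)) le_top
  let hle := subChart_le _ _ _ (cc.SpecMap_ιR_chA R)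
  let hle' := subChart_le _ _ _ (cc.SpecMap_ιR'_chA' R)
  have hA : ∀ y, e01.toLinearMap (y.restrict hle) = (eA.toLinearMap y).restrict hle := fun y => by
    apply e01.symm.injective
    have h := e.comm (ChartSec.mk _ (eA y))
    rw [LinearEquiv.coe_coe, LinearEquiv.symm_apply_apply]
    refine Eq.trans ?_ h.symm
    show y.restrict hle = CSec.restrict hle (eA.symm (eA y))
    rw [LinearEquiv.symm_apply_apply]
  have hA' : ∀ y, e01.toLinearMap (y.restrict hle') = (eA'.toLinearMap y).restrict hle' :=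
      fun y => by
    apply e01.symm.injective
    have h := e.comm' (ChartSec.mk _ (eA' y))
    rw [LinearEquiv.coe_coe, LinearEquiv.symm_apply_apply]
    refine Eq.trans ?_ h.symm
    show y.restrict hle' = CSec.restrict hle' (eA'.symm (eA' y))
    rw [LinearEquiv.symm_apply_apply]
  obtain ⟨z, hz⟩ := exists_glueSec (d := d.mul d'.inv) (cc.chart_cover R)
    (cc.chart_overlap_eq R).ge hle hle' (CSec.homSec P eA.toLinearMap)
    (CSec.homSec P' eA'.toLinearMap)
    (by rw [CSec.homSec_restrict P _ hle _ hA, CSec.homSec_restrict P' _ hle' _ hA']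
        exact CSec.homSec_eq _ _ _)
    (CSec.isUnit_homSec P eA Q) (CSec.isUnit_homSec P' eA' Q')
  exact cls_eq (CocycleIso.ofSec z hz)

end FLTA.Jacobian
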