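import Fermat.Agent.Jacobian.PicSec

/-!
# Line bundle cocycles on an open of a scheme (S25, part A).
-/

set_option autoImplicit false

universe u

open CategoryTheory AlgebraicGeometry Opposite TopologicalSpace

namespace FLTA.Jacobian

variable {X Y : Scheme.{u}}

/-- Transition functions of a line bundle on the open `V` of `X`. -/
structure Cocycle (X : Scheme.{u}) (V : X.Opens) (ι : Type u) : Type u where
  U : ι → X.Opens
  le : ∀ i, U i ≤ V
  cover : ∀ x ∈ V, ∃ i, x ∈ U i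
  g : ∀ (i j : ι) (W : X.Opens), W ≤ U i → W ≤ U j → Γ(X, W)
  g_res : ∀ (i j : ι) (W W' : X.Opens) (hi : W ≤ U i) (hj : W ≤ U j) (h : W' ≤ W),
    rs h (g i j W hi hj) = g i j W' (h.trans hi) (h.trans hj)
  g_self : ∀ (i : ι) (W : X.Opens) (hi : W ≤ U i), g i i W hi hi = 1
  g_mul : ∀ (i j l : ι) (W : X.Opens) (hi : W ≤ U i) (hj : W ≤ U j) (hl : W ≤ U l),
    g i j W hi hj * g j l W hj hl = g i l W hi hl

attribute [simp] Cocycle.g_res Cocycle.g_self

namespace Cocycle

variable {V : X.Opens} {ι ι' ι'' : Type u}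

lemma g_symm_mul (c : Cocycle X V ι) (i j : ι) (W : X.Opens) (hi : W ≤ c.U i) (hj : W ≤ c.U j) :
    c.g i j W hi hj * c.g j i W hj hi = 1 := by rw [c.g_mul, c.g_self]

lemma isUnit_g (c : Cocycle X V ι) (i j : ι) (W : X.Opens) (hi : W ≤ c.U i) (hj : W ≤ c.U j) :
    IsUnit (c.g i j W hi hj) :=
  IsUnit.of_mul_eq_one _ (c.g_symm_mul i j W hi hj)

/-- The trivial cocycle. -/
noncomputable def one (V : X.Opens) : Cocycle X V PUnit.{u + 1} where
  U _ := V
  le _ := le_rfl
  cover _ hx := ⟨⟨⟩, hx⟩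
  g _ _ _ _ _ := 1
  g_res _ _ _ _ _ _ _ := map_one _
  g_self _ _ _ := rfl
  g_mul _ _ _ _ _ _ _ := mul_one _

/-- Product (tensor product). -/
noncomputable def mul (c : Cocycle X V ι) (c' : Cocycle X V ι') : Cocycle X V (ι × ι') where
  U p := c.U p.1 ⊓ c'.U p.2
  le p := inf_le_left.trans (c.le _)
  cover x hx := ⟨((c.cover x hx).choose, (c'.cover x hx).choose),
    (c.cover x hx).choose_spec, (c'.cover x hx).choose_spec⟩
  g p q W hp hq := c.g p.1 q.1 W (hp.trans inf_le_left) (hq.trans inf_le_left) *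
    c'.g p.2 q.2 W (hp.trans inf_le_right) (hq.trans inf_le_right)
  g_res p q W W' hp hq h := by simp
  g_self p W hp := by simp
  g_mul p q r W hp hq hr := by rw [mul_mul_mul_comm, c.g_mul, c'.g_mul]

/-- The dual. -/
noncomputable def inv (c : Cocycle X V ι) : Cocycle X V ι where
  U := c.U
  le := c.le
  cover := c.cover
  g i j W hi hj := c.g j i W hj hi
  g_res i j W W' hi hj h := by simp
  g_self i W hi := by simp
  g_mul i j l W hi hj hl := by rw [mul_comm, c.g_mul]

/-- Pullback. -/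
noncomputable def pull (f : X ⟶ Y) {V : Y.Opens} (c : Cocycle Y V ι) (V' : X.Opens)
    (h : V' ≤ f ⁻¹ᵁ V) : Cocycle X V' ι where
  U i := V' ⊓ f ⁻¹ᵁ c.U i
  le _ := inf_le_left
  cover x hx := ⟨(c.cover _ (h hx)).choose, hx, (c.cover _ (h hx)).choose_spec⟩
  g i j W hi hj := pb f (show W ≤ f ⁻¹ᵁ (c.U i ⊓ c.U j) from
      fun _ hx => ⟨(hi hx).2, (hj hx).2⟩) (c.g i j _ inf_le_left inf_le_right)
  g_res i j W W' hi hj hW := by rw [rs_pb]
  g_self i W hi := by simp
  g_mul i j l W hi hj hl := by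
    have e : W ≤ f ⁻¹ᵁ (c.U i ⊓ c.U j ⊓ c.U l) :=
      fun _ hx => ⟨⟨(hi hx).2, (hj hx).2⟩, (hl hx).2⟩
    have := congrArg (pb f e) (c.g_mul i j l (c.U i ⊓ c.U j ⊓ c.U l)
      (inf_le_left.trans inf_le_left) (inf_le_left.trans inf_le_right) inf_le_right)
    rw [map_mul,
      ← c.g_res i j (c.U i ⊓ c.U j) _ inf_le_left inf_le_right inf_le_left,
      ← c.g_res j l (c.U j ⊓ c.U l) _ inf_le_left inf_le_right
        (le_inf (inf_le_left.trans inf_le_right) inf_le_right),
      ← c.g_res i l (c.U i ⊓ c.U l) _ inf_le_left inf_le_right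
        (le_inf (inf_le_left.trans inf_le_left) inf_le_right),
      pb_rs, pb_rs, pb_rs] at this
    exact this

end Cocycle

/-- An isomorphism of line bundles given by cocycles. -/
structure CocycleIso {V : X.Opens} {ι ι' : Type u} (c : Cocycle X V ι) (c' : Cocycle X V ι') :
    Type u where
  h : ∀ (i : ι) (j : ι') (W : X.Opens), W ≤ c.U i → W ≤ c'.U j → Γ(X, W)
  h_res : ∀ (i : ι) (j : ι') (W W' : X.Opens) (hi : W ≤ c.U i) (hj : W ≤ c'.U j) (hW : W' ≤ W),
    rs hW (h i j W hi hj) = h i j W' (hW.trans hi) (hW.trans hj)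
  h_unit : ∀ (i : ι) (j : ι') (W : X.Opens) (hi : W ≤ c.U i) (hj : W ≤ c'.U j),
    IsUnit (h i j W hi hj)
  h_left : ∀ (i i' : ι) (j : ι') (W : X.Opens) (hi : W ≤ c.U i) (hi' : W ≤ c.U i')
    (hj : W ≤ c'.U j), c.g i i' W hi hi' * h i' j W hi' hj = h i j W hi hj
  h_right : ∀ (i : ι) (j j' : ι') (W : X.Opens) (hi : W ≤ c.U i) (hj : W ≤ c'.U j)
    (hj' : W ≤ c'.U j'), h i j W hi hj * c'.g j j' W hj hj' = h i j' W hi hj'

attribute [simp] CocycleIso.h_res

namespace CocycleIso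

variable {V : X.Opens} {ι ι' ι'' ι''' : Type u} {c : Cocycle X V ι} {c' : Cocycle X V ι'}
  {c'' : Cocycle X V ι''}

noncomputable def refl (c : Cocycle X V ι) : CocycleIso c c where
  h := c.g
  h_res := c.g_res
  h_unit i j W hi hj := c.isUnit_g i j W hi hj
  h_left i i' j W hi hi' hj := c.g_mul _ _ _ _ _ _ _
  h_right i j j' W hi hj hj' := c.g_mul _ _ _ _ _ _ _

noncomputable def symm (H : CocycleIso c c') : CocycleIso c' c where
  h j i W hj hi := ((H.h_unit i j W hi hj).unit⁻¹ : Γ(X, W)ˣ)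
  h_res j i W W' hj hi hW := by
    refine left_inv_eq_right_inv (a := H.h i j W' (hW.trans hi) (hW.trans hj)) ?_
      (IsUnit.mul_val_inv _)
    rw [← H.h_res i j W W' hi hj hW, ← map_mul, IsUnit.val_inv_mul, map_one]
  h_unit j i W hj hi := Units.isUnit _
  h_left j j' i W hj hj' hi := by
    refine (H.h_unit i j W hi hj).mul_left_cancel ?_
    rw [IsUnit.mul_val_inv, ← mul_assoc, H.h_right, IsUnit.mul_val_inv]
  h_right j i i' W hj hi hi' := by
    refine (H.h_unit i j W hi hj).mul_left_cancel ?_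
    rw [← mul_assoc, IsUnit.mul_val_inv, one_mul, ← H.h_left i i' j W hi hi' hj, mul_assoc,
      IsUnit.mul_val_inv, mul_one]

lemma trans_glue_aux (H : CocycleIso c c') (H' : CocycleIso c' c'') (i : ι) (l : ι'') (W : X.Opens)
    (hi : W ≤ c.U i) (hl : W ≤ c''.U l) (a b : ι') :
    rs (show W ⊓ c'.U a ⊓ c'.U b ≤ W ⊓ c'.U a from inf_le_left)
        (H.h i a (W ⊓ c'.U a) (inf_le_left.trans hi) inf_le_right *
          H'.h a l (W ⊓ c'.U a) inf_le_right (inf_le_left.trans hl)) =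
      rs (show W ⊓ c'.U a ⊓ c'.U b ≤ W ⊓ c'.U b from
          le_inf (inf_le_left.trans inf_le_left) inf_le_right)
        (H.h i b (W ⊓ c'.U b) (inf_le_left.trans hi) inf_le_right *
          H'.h b l (W ⊓ c'.U b) inf_le_right (inf_le_left.trans hl)) := by
  simp only [map_mul, CocycleIso.h_res]
  rw [← H.h_right i a b (W ⊓ c'.U a ⊓ c'.U b) _ (inf_le_left.trans inf_le_right) _, mul_assoc,
    H'.h_left]

lemma trans_cover (i : ι) (W : X.Opens) (hi : W ≤ c.U i) :
    ∀ x ∈ W, ∃ a, x ∈ c'.U a :=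
  fun x hx => c'.cover x (c.le i (hi hx))

noncomputable def trans (H : CocycleIso c c') (H' : CocycleIso c' c'') : CocycleIso c c'' where
  h i l W hi hl := glue c'.U (trans_cover i W hi) _ (trans_glue_aux H H' i l W hi hl)
  h_res i l W W' hi hl hW := by
    refine eq_of_locally c'.U (trans_cover i W' (hW.trans hi)) fun a => ?_
    rw [rs_rs, glue_spec _ _ _ _ a _ inf_le_right, glue_spec _ _ _ _ a _ inf_le_right]
    simp
  h_unit i l W hi hl := by
    refine isUnit_of_locally c'.U (trans_cover i W hi) fun a => ?_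
    rw [glue_spec _ _ _ _ a _ inf_le_right, rs_self]
    exact (H.h_unit ..).mul (H'.h_unit ..)
  h_left i i' l W hi hi' hl := by
    refine eq_of_locally c'.U (trans_cover i W hi) fun a => ?_
    rw [map_mul, glue_spec _ _ _ _ a _ inf_le_right, glue_spec _ _ _ _ a _ inf_le_right]
    simp only [Cocycle.g_res, rs_self]
    rw [← mul_assoc, H.h_left]
  h_right i l l' W hi hl hl' := by
    refine eq_of_locally c'.U (trans_cover i W hi) fun a => ?_
    rw [map_mul, glue_spec _ _ _ _ a _ inf_le_right, glue_spec _ _ _ _ a _ inf_le_right]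
    simp only [Cocycle.g_res, rs_self]
    rw [mul_assoc, H'.h_right]

noncomputable def mul {d : Cocycle X V ι''} {ι₄ : Type u} {d' : Cocycle X V ι₄}
    (H : CocycleIso c c') (H' : CocycleIso d d') : CocycleIso (c.mul d) (c'.mul d') where
  h p q W hp hq := H.h p.1 q.1 W (hp.trans inf_le_left) (hq.trans inf_le_left) *
    H'.h p.2 q.2 W (hp.trans inf_le_right) (hq.trans inf_le_right)
  h_res p q W W' hp hq hW := by simp
  h_unit p q W hp hq := (H.h_unit ..).mul (H'.h_unit ..)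
  h_left p p' q W hp hp' hq := by
    simp only [Cocycle.mul]
    rw [mul_mul_mul_comm, H.h_left, H'.h_left]
  h_right p q q' W hp hq hq' := by
    simp only [Cocycle.mul]
    rw [mul_mul_mul_comm, H.h_right, H'.h_right]

/-- Pullback of an isomorphism. -/
noncomputable def pull (f : X ⟶ Y) {V : Y.Opens} {c : Cocycle Y V ι} {c' : Cocycle Y V ι'}
    (H : CocycleIso c c') (V' : X.Opens) (hV : V' ≤ f ⁻¹ᵁ V) :
    CocycleIso (c.pull f V' hV) (c'.pull f V' hV) where
  h i j W hi hj := pb f (show W ≤ f ⁻¹ᵁ (c.U i ⊓ c'.U j) from fun _ hx => ⟨(hi hx).2, (hj hx).2⟩)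
    (H.h i j _ inf_le_left inf_le_right)
  h_res i j W W' hi hj hW := by rw [rs_pb]
  h_unit i j W hi hj := (H.h_unit ..).map _
  h_left i i' j W hi hi' hj := by
    have e : W ≤ f ⁻¹ᵁ (c.U i ⊓ c.U i' ⊓ c'.U j) :=
      fun _ hx => ⟨⟨(hi hx).2, (hi' hx).2⟩, (hj hx).2⟩
    have := congrArg (pb f e) (H.h_left i i' j (c.U i ⊓ c.U i' ⊓ c'.U j)
      (inf_le_left.trans inf_le_left) (inf_le_left.trans inf_le_right) inf_le_right)
    rw [map_mul,
      ← c.g_res i i' (c.U i ⊓ c.U i') _ inf_le_left inf_le_right inf_le_left,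
      ← H.h_res i' j (c.U i' ⊓ c'.U j) _ inf_le_left inf_le_right
        (le_inf (inf_le_left.trans inf_le_right) inf_le_right),
      ← H.h_res i j (c.U i ⊓ c'.U j) _ inf_le_left inf_le_right
        (le_inf (inf_le_left.trans inf_le_left) inf_le_right),
      pb_rs, pb_rs, pb_rs] at this
    exact this
  h_right i j j' W hi hj hj' := by
    have e : W ≤ f ⁻¹ᵁ (c.U i ⊓ c'.U j ⊓ c'.U j') :=
      fun _ hx => ⟨⟨(hi hx).2, (hj hx).2⟩, (hj' hx).2⟩
    have := congrArg (pb f e) (H.h_right i j j' (c.U i ⊓ c'.U j ⊓ c'.U j')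
      (inf_le_left.trans inf_le_left) (inf_le_left.trans inf_le_right) inf_le_right)
    rw [map_mul,
      ← H.h_res i j (c.U i ⊓ c'.U j) _ inf_le_left inf_le_right inf_le_left,
      ← c'.g_res j j' (c'.U j ⊓ c'.U j') _ inf_le_left inf_le_right
        (le_inf (inf_le_left.trans inf_le_right) inf_le_right),
      ← H.h_res i j' (c.U i ⊓ c'.U j') _ inf_le_left inf_le_right
        (le_inf (inf_le_left.trans inf_le_left) inf_le_right),
      pb_rs, pb_rs, pb_rs] at this
    exact this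

end CocycleIso

end FLTA.Jacobian
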