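import Fermat.Agent.Jacobian.PicRigid

/-!
# The rigidified classes form a sheaf on the base (S25, part A).
-/

set_option autoImplicit false
set_option linter.unusedVariables false
set_option backward.isDefEq.respectTransparency false

universe u

open CategoryTheory AlgebraicGeometry Opposite TopologicalSpace

namespace FLTA.Jacobian

variable {X T : Scheme.{u}} {p : X ⟶ T} {σ : T ⟶ X}

/-- The obvious trivialisation of the trivial cocycle along the section. -/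
noncomputable def oneTriv (S : RigidSetting p σ) (O : T.Opens) :
    CocycleIso ((Cocycle.one (p ⁻¹ᵁ O)).pull σ O (S.le O)) (Cocycle.one O) where
  h _ _ W _ _ := 1
  h_res _ _ _ _ _ _ _ := map_one _
  h_unit _ _ _ _ _ := isUnit_one
  h_left _ _ _ W _ _ _ := by simp [Cocycle.pull, Cocycle.one]
  h_right _ _ _ W _ _ _ := by simp [Cocycle.one]

namespace RigidSetting

variable (S : RigidSetting p σ) {Va Vb : T.Opens} {ι ι' : Type u}
  {a : Cocycle X (p ⁻¹ᵁ Va) ι} {b : Cocycle X (p ⁻¹ᵁ Vb) ι'}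

lemma pull_iso_aux {D : T.Opens} {hDa : p ⁻¹ᵁ D ≤ p ⁻¹ᵁ Va} {hDb : p ⁻¹ᵁ D ≤ p ⁻¹ᵁ Vb}
    (H : CocycleIso (a.restrict _ hDa) (b.restrict _ hDb)) (i : ι) (j : ι') (O O' : X.Opens)
    (hi : O ≤ a.U i ⊓ p ⁻¹ᵁ D) (hj : O ≤ b.U j ⊓ p ⁻¹ᵁ D) (hi' : O' ≤ a.U i ⊓ p ⁻¹ᵁ D)
    (hj' : O' ≤ b.U j ⊓ p ⁻¹ᵁ D) (W : T.Opens) (hO : W ≤ σ ⁻¹ᵁ O) (hO' : W ≤ σ ⁻¹ᵁ O') :
    pb σ hO (H.h i j O hi hj) = pb σ hO' (H.h i j O' hi' hj') := by
  have e1 := congrArg (pb σ (show W ≤ σ ⁻¹ᵁ (O ⊓ O') from le_inf hO hO'))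
    (H.h_res i j O (O ⊓ O') hi hj inf_le_left)
  have e2 := congrArg (pb σ (show W ≤ σ ⁻¹ᵁ (O ⊓ O') from le_inf hO hO'))
    (H.h_res i j O' (O ⊓ O') hi' hj' inf_le_right)
  rw [pb_rs] at e1 e2
  exact e1.trans e2.symm

/-- Every isomorphism can be normalised along the section. -/
lemma exists_normIso (τa : CocycleIso (a.pull σ Va (S.le Va)) (Cocycle.one Va))
    (τb : CocycleIso (b.pull σ Vb (S.le Vb)) (Cocycle.one Vb))
    (H : CocycleIso (a.restrict (p ⁻¹ᵁ (Va ⊓ Vb)) (p.preimage_mono inf_le_left))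
      (b.restrict (p ⁻¹ᵁ (Va ⊓ Vb)) (p.preimage_mono inf_le_right))) :
    Nonempty (S.NormIso τa τb) := by
  let D := Va ⊓ Vb
  let U : ι × ι' → X.Opens := fun q => a.U q.1 ⊓ b.U q.2 ⊓ p ⁻¹ᵁ D
  let den : ∀ (q : ι × ι') (W : T.Opens), W ≤ D → W ≤ σ ⁻¹ᵁ U q → Γ(T, W) := fun q W h h' =>
    pb σ h' (H.h q.1 q.2 (U q) (inf_le_inf_right _ inf_le_left) (inf_le_inf_right _ inf_le_right)) *
      τb.h q.2 ⟨⟩ W (le_inf (h.trans inf_le_right) fun x hx => (h' hx).1.2) (h.trans inf_le_right)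
  let num : ∀ (q : ι × ι') (W : T.Opens), W ≤ D → W ≤ σ ⁻¹ᵁ U q → Γ(T, W) := fun q W h h' =>
    τa.h q.1 ⟨⟩ W (le_inf (h.trans inf_le_left) fun x hx => (h' hx).1.1) (h.trans inf_le_left)
  have hden : ∀ q W h h', IsUnit (den q W h h') := fun q W h h' =>
    ((H.h_unit ..).map _).mul (τb.h_unit ..)
  have hnum : ∀ q W h h', IsUnit (num q W h h') := fun q W h h' => τa.h_unit ..
  have den_res : ∀ q W W' h h' (e : W' ≤ W),
      rs e (den q W h h') = den q W' (e.trans h) (e.trans h') := by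
    intro q W W' h h' e; simp only [den, map_mul, rs_pb, CocycleIso.h_res]
  have num_res : ∀ q W W' h h' (e : W' ≤ W),
      rs e (num q W h h') = num q W' (e.trans h) (e.trans h') := by
    intro q W W' h h' e; simp only [num, CocycleIso.h_res]
  have indep : ∀ q q' W (h : W ≤ D) (h' : W ≤ σ ⁻¹ᵁ U q) (h'' : W ≤ σ ⁻¹ᵁ U q'),
      num q W h h' * den q' W h h'' = num q' W h h'' * den q W h h' := by
    intro q q' W h h' h''
    let O := U q ⊓ U q'
    have ai : O ≤ a.U q.1 ⊓ p ⁻¹ᵁ D := le_inf (fun x hx => hx.1.1.1) fun x hx => hx.1.2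
    have ai' : O ≤ a.U q'.1 ⊓ p ⁻¹ᵁ D := le_inf (fun x hx => hx.2.1.1) fun x hx => hx.1.2
    have bj : O ≤ b.U q.2 ⊓ p ⁻¹ᵁ D := le_inf (fun x hx => hx.1.1.2) fun x hx => hx.1.2
    have bj' : O ≤ b.U q'.2 ⊓ p ⁻¹ᵁ D := le_inf (fun x hx => hx.2.1.2) fun x hx => hx.1.2
    have wO : W ≤ σ ⁻¹ᵁ O := fun x hx => ⟨h' hx, h'' hx⟩
    have hWa : W ≤ Va := h.trans inf_le_left
    have hWb : W ≤ Vb := h.trans inf_le_right
    have e1 := congrArg (pb σ wO) (H.h_left q.1 q'.1 q'.2 O ai ai' bj')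
    have e2 := congrArg (pb σ wO) (H.h_right q.1 q.2 q'.2 O ai bj bj')
    rw [map_mul] at e1 e2
    have fa := τa.h_left q.1 q'.1 ⟨⟩ W (le_inf hWa fun x hx => (ai (wO hx)).1)
      (le_inf hWa fun x hx => (ai' (wO hx)).1) hWa
    have fb := τb.h_left q.2 q'.2 ⟨⟩ W (le_inf hWb fun x hx => (bj (wO hx)).1)
      (le_inf hWb fun x hx => (bj' (wO hx)).1) hWb
    rw [Cocycle.pull_g a σ Va (S.le Va) _ _ W _ _ O wO (ai.trans inf_le_left)
      (ai'.trans inf_le_left)] at fa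
    rw [Cocycle.pull_g b σ Vb (S.le Vb) _ _ W _ _ O wO (bj.trans inf_le_left)
      (bj'.trans inf_le_left)] at fb
    simp only [num, den]
    rw [pull_iso_aux (σ := σ) H q'.1 q'.2 (U q') O _ _ ai' bj' W h'' wO,
      pull_iso_aux (σ := σ) H q.1 q.2 (U q) O _ _ ai bj W h' wO, ← fa, ← fb]
    change pb σ wO (a.g q.1 q'.1 O _ _) * _ * _ = _
    dsimp only [Cocycle.restrict] at e1 e2
    linear_combination (τa.h q'.1 ⟨⟩ W _ _ * τb.h q'.2 ⟨⟩ W _ _) * (e1 - e2)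
  let cov : ∀ x ∈ D, ∃ q, x ∈ σ ⁻¹ᵁ U q := fun x hx => by
    obtain ⟨i, hi⟩ := a.cover _ (S.le Va hx.1)
    obtain ⟨j, hj⟩ := b.cover _ (S.le Vb hx.2)
    exact ⟨(i, j), ⟨hi, hj⟩, S.le D hx⟩
  let s : ∀ q, Γ(T, D ⊓ σ ⁻¹ᵁ U q) := fun q =>
    num q _ inf_le_left inf_le_right * ((hden q _ inf_le_left inf_le_right).unit⁻¹ : _ˣ)
  have hs : ∀ q, s q * den q _ inf_le_left inf_le_right = num q _ inf_le_left inf_le_right :=
    fun q => by rw [mul_assoc, IsUnit.val_inv_mul, mul_one]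
  have hagree : ∀ q q', rs (show D ⊓ σ ⁻¹ᵁ U q ⊓ σ ⁻¹ᵁ U q' ≤ D ⊓ σ ⁻¹ᵁ U q from inf_le_left) (s q) =
      rs (show D ⊓ σ ⁻¹ᵁ U q ⊓ σ ⁻¹ᵁ U q' ≤ D ⊓ σ ⁻¹ᵁ U q' from
        le_inf (inf_le_left.trans inf_le_left) inf_le_right) (s q') := by
    intro q q'
    have hq := congrArg (rs (show D ⊓ σ ⁻¹ᵁ U q ⊓ σ ⁻¹ᵁ U q' ≤ D ⊓ σ ⁻¹ᵁ U q from inf_le_left))
      (hs q)
    have hq' := congrArg (rs (show D ⊓ σ ⁻¹ᵁ U q ⊓ σ ⁻¹ᵁ U q' ≤ D ⊓ σ ⁻¹ᵁ U q' from
      le_inf (inf_le_left.trans inf_le_left) inf_le_right)) (hs q')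
    simp only [map_mul, num_res, den_res] at hq hq'
    have w : D ⊓ σ ⁻¹ᵁ U q ⊓ σ ⁻¹ᵁ U q' ≤ D := inf_le_left.trans inf_le_left
    have w1 : D ⊓ σ ⁻¹ᵁ U q ⊓ σ ⁻¹ᵁ U q' ≤ σ ⁻¹ᵁ U q := inf_le_left.trans inf_le_right
    refine ((hden q _ w w1).mul (hden q' _ w inf_le_right)).mul_right_cancel ?_
    linear_combination (den q' _ w inf_le_right) * hq - (den q _ w w1) * hq' + indep q q' _ w w1 inf_le_right
  let v := glue (fun q => σ ⁻¹ᵁ U q) cov s hagree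
  have hv : ∀ q W (h : W ≤ D) (h' : W ≤ σ ⁻¹ᵁ U q), rs h v * den q W h h' = num q W h h' := by
    intro q W h h'
    have e := congrArg (rs (le_inf h h')) (hs q)
    rw [map_mul, num_res q _ _ inf_le_left inf_le_right, den_res q _ _ inf_le_left inf_le_right] at e
    rw [glue_spec _ cov s hagree q h h']
    exact e
  have hvu : IsUnit v := by
    refine isUnit_of_locally (fun q => σ ⁻¹ᵁ U q) cov fun q => ?_
    exact isUnit_of_mul_isUnit_left
      ((hv q (D ⊓ σ ⁻¹ᵁ U q) inf_le_left inf_le_right).symm ▸ hnum q _ inf_le_left inf_le_right)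
  refine ⟨{
    iso :=
      { h := fun i j W hi hj => H.h i j W hi hj * rs (hi.trans inf_le_right) (pb p le_rfl v)
        h_res := fun i j W W' hi hj hW => by simp only [map_mul, CocycleIso.h_res, rs_rs]
        h_unit := fun i j W hi hj => (H.h_unit ..).mul ((hvu.map _).map _)
        h_left := fun i i' j W hi hi' hj => by rw [← mul_assoc, H.h_left]
        h_right := fun i j j' W hi hj hj' => by rw [mul_right_comm, H.h_right] }
    norm := ?_ }⟩
  intro i j W hW hi hj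
  have hU : W ≤ σ ⁻¹ᵁ U (i, j) := fun x hx => ⟨⟨hi hx, hj hx⟩, S.le _ (hW hx)⟩
  change pb σ hU (_ * _) * _ = _
  rw [map_mul, pb_rs]
  have e : pb σ (hW.trans (S.le D)) (pb p le_rfl v) = rs hW v := S.pb_σ_pb_p hW v
  have e' := hv (i, j) W hW hU
  simp only [den, num] at e'
  rw [e]
  linear_combination e'

/-- Existence of gluing for rigidified classes. -/
theorem exists_glue_rigid {L : Type u} (V : L → T.Opens) (O : T.Opens) (hle : ∀ l, V l ≤ O)
    (hcov : ∀ t ∈ O, ∃ l, t ∈ V l) (a : ∀ l, Pic X (p ⁻¹ᵁ V l))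
    (ha : ∀ l, Pic.pull σ (V l) (S.le _) (a l) = 1)
    (hagree : ∀ l m, Pic.res (p.preimage_mono (inf_le_left : V l ⊓ V m ≤ V l)) (a l) =
      Pic.res (p.preimage_mono (inf_le_right : V l ⊓ V m ≤ V m)) (a m)) :
    ∃ c : Pic X (p ⁻¹ᵁ O), Pic.pull σ O (S.le O) c = 1 ∧
      ∀ l, Pic.res (p.preimage_mono (hle l)) c = a l := by
  have hτ : ∀ l, Nonempty (CocycleIso ((a l).rep.pull σ (V l) (S.le _)) (Cocycle.one (V l))) := by
    intro l
    rw [← cls_eq_iff, cls_pull, Pic.rep_cls, ha, cls_one]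
  let τ := fun l => (hτ l).some
  have hN : ∀ l m, Nonempty (S.NormIso (τ l) (τ m)) := by
    intro l m
    refine S.exists_normIso (τ l) (τ m) (cls_eq_iff.mp ?_).some
    rw [cls_restrict, cls_restrict, Pic.rep_cls, Pic.rep_cls, hagree]
  let N := fun l m => (hN l m).some
  let g : Cocycle X (p ⁻¹ᵁ O) (Σ l, (p ⁻¹ᵁ V l : X.Opens)) :=
    { U := fun q => (a q.1).rep.U q.2
      le := fun q => ((a q.1).rep.le q.2).trans (p.preimage_mono (hle q.1))
      cover := fun x hx => by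
        obtain ⟨l, hl⟩ := hcov _ hx
        obtain ⟨i, hi⟩ := (a l).rep.cover x hl
        exact ⟨⟨l, i⟩, hi⟩
      g := fun q r W hq hr => (N q.1 r.1).iso.h q.2 r.2 W
        (le_inf hq fun x hx => ⟨(a q.1).rep.le _ (hq hx), (a r.1).rep.le _ (hr hx)⟩)
        (le_inf hr fun x hx => ⟨(a q.1).rep.le _ (hq hx), (a r.1).rep.le _ (hr hx)⟩)
      g_res := fun q r W W' hq hr h => (N q.1 r.1).iso.h_res ..
      g_self := fun q W hq => by
        have hW : W ≤ p ⁻¹ᵁ (V q.1) := hq.trans ((a q.1).rep.le _)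
        have e := RigidSetting.NormIso.comp_eq (N q.1 q.1) (N q.1 q.1) (N q.1 q.1) q.2 q.2 q.2 W
          (fun x hx => ⟨⟨hW hx, hW hx⟩, hW hx⟩) hq hq hq
        exact ((N q.1 q.1).iso.h_unit ..).mul_right_cancel (e.trans (one_mul _).symm)
      g_mul := fun q r s W hq hr hs =>
        RigidSetting.NormIso.comp_eq (N q.1 r.1) (N r.1 s.1) (N q.1 s.1) q.2 r.2 s.2 W
          (fun x hx => ⟨⟨(a q.1).rep.le _ (hq hx), (a r.1).rep.le _ (hr hx)⟩,
            (a s.1).rep.le _ (hs hx)⟩) hq hr hs }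
  refine ⟨g.cls, ?_, fun m => ?_⟩
  · rw [← cls_pull, ← cls_one, cls_eq_iff]
    refine ⟨{
      h := fun q _ W hq _ => (τ q.1).h q.2 ⟨⟩ W
        (le_inf (fun x hx => by
          have hx2 : p.base (σ.base x) ∈ V q.1 := (a q.1).rep.le _ (hq hx).2
          have e : p.base (σ.base x) = x := by
            rw [← Scheme.Hom.comp_apply, S.comp]; rfl
          rwa [e] at hx2) (hq.trans inf_le_right))
        (fun x hx => by
          have hx2 : p.base (σ.base x) ∈ V q.1 := (a q.1).rep.le _ (hq hx).2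
          have e : p.base (σ.base x) = x := by
            rw [← Scheme.Hom.comp_apply, S.comp]; rfl
          rwa [e] at hx2)
      h_res := fun q _ W W' hq _ hW => (τ q.1).h_res ..
      h_unit := fun q _ W hq _ => (τ q.1).h_unit ..
      h_left := ?_
      h_right := fun q _ _ W hq _ _ => by simp [Cocycle.one] }⟩
    intro q r _ W hq hr hj
    have hV : ∀ (q : Σ l, (p ⁻¹ᵁ V l : X.Opens)), W ≤ (g.pull σ O (S.le O)).U q → W ≤ V q.1 := by
      intro q hq x hx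
      have hx2 : p.base (σ.base x) ∈ V q.1 := (a q.1).rep.le _ (hq hx).2
      have e : p.base (σ.base x) = x := by
        rw [← Scheme.Hom.comp_apply, S.comp]; rfl
      rwa [e] at hx2
    rw [Cocycle.pull_g g σ O (S.le O) q r W hq hr (g.U q ⊓ g.U r)
      (fun x hx => ⟨(hq hx).2, (hr hx).2⟩) inf_le_left inf_le_right]
    exact (N q.1 r.1).norm' q.2 r.2 (g.U q ⊓ g.U r) W (le_inf (hV q hq) (hV r hr))
      (fun x hx => ⟨(hq hx).2, (hr hx).2⟩) _ _
  · rw [← cls_restrict, ← Pic.rep_cls (a m), cls_eq_iff]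
    refine ⟨{
      h := fun q j W hq hj => (N q.1 m).iso.h q.2 j W
        (le_inf (hq.trans inf_le_left) fun x hx =>
          ⟨(a q.1).rep.le _ (hq hx).1, (a m).rep.le _ (hj hx)⟩)
        (le_inf hj fun x hx => ⟨(a q.1).rep.le _ (hq hx).1, (a m).rep.le _ (hj hx)⟩)
      h_res := fun q j W W' hq hj hW => (N q.1 m).iso.h_res ..
      h_unit := fun q j W hq hj => (N q.1 m).iso.h_unit ..
      h_left := fun q r j W hq hr hj =>
        RigidSetting.NormIso.comp_eq (N q.1 r.1) (N r.1 m) (N q.1 m) q.2 r.2 j W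
          (fun x hx => ⟨⟨(a q.1).rep.le _ (hq hx).1, (a r.1).rep.le _ (hr hx).1⟩,
            (a m).rep.le _ (hj hx)⟩) (hq.trans inf_le_left) (hr.trans inf_le_left) hj
      h_right := fun q j j' W hq hj hj' => (N q.1 m).iso.h_right .. }⟩

/-- A rigidified class which is locally trivial is trivial. -/
theorem eq_one_of_locally_rigid {L : Type u} (V : L → T.Opens) (O : T.Opens)
    (hle : ∀ l, V l ≤ O) (hcov : ∀ t ∈ O, ∃ l, t ∈ V l) (c : Pic X (p ⁻¹ᵁ O))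
    (hc : Pic.pull σ O (S.le O) c = 1)
    (hloc : ∀ l, Pic.res (p.preimage_mono (hle l)) c = 1) : c = 1 := by
  have hτ : Nonempty (CocycleIso (c.rep.pull σ O (S.le _)) (Cocycle.one O)) := by
    rw [← cls_eq_iff, cls_pull, Pic.rep_cls, hc, cls_one]
  let τ := hτ.some
  have hN : ∀ l, Nonempty (S.NormIso τ (oneTriv S (V l))) := by
    intro l
    refine S.exists_normIso τ (oneTriv S (V l)) (cls_eq_iff.mp ?_).some
    rw [cls_restrict, cls_restrict, Pic.rep_cls, cls_one, map_one,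
      ← Pic.res_res (p.preimage_mono (hle l)) (p.preimage_mono (inf_le_right : O ⊓ V l ≤ V l)),
      hloc, map_one]
  let N := fun l => (hN l).some
  have h11 : ∀ l m, ∃ M : S.NormIso (oneTriv S (V l)) (oneTriv S (V m)),
      ∀ i j W hi hj, M.iso.h i j W hi hj = 1 := fun l m =>
    ⟨{ iso :=
        { h := fun _ _ _ _ _ => 1
          h_res := fun _ _ _ _ _ _ _ => map_one _
          h_unit := fun _ _ _ _ _ => isUnit_one
          h_left := fun _ _ _ _ _ _ _ => mul_one _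
          h_right := fun _ _ _ _ _ _ _ => mul_one _ }
       norm := fun i j W hW hi hj => by simp [oneTriv] }, fun _ _ _ _ _ => rfl⟩
  have agree : ∀ l m i W (hi : W ≤ c.rep.U i) (hl : W ≤ p ⁻¹ᵁ V l) (hm : W ≤ p ⁻¹ᵁ V m),
      (N l).iso.h i ⟨⟩ W (le_inf hi fun x hx => ⟨c.rep.le i (hi hx), hl hx⟩)
        (le_inf hl fun x hx => ⟨c.rep.le i (hi hx), hl hx⟩) =
      (N m).iso.h i ⟨⟩ W (le_inf hi fun x hx => ⟨c.rep.le i (hi hx), hm hx⟩)
        (le_inf hm fun x hx => ⟨c.rep.le i (hi hx), hm hx⟩) := by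
    intro l m i W hi hl hm
    obtain ⟨M, hM⟩ := h11 l m
    have e := RigidSetting.NormIso.comp_eq (N l) M (N m) i ⟨⟩ ⟨⟩ W
      (fun x hx => ⟨⟨c.rep.le i (hi hx), hl hx⟩, hm hx⟩) hi hl hm
    rw [hM, mul_one] at e
    exact e
  have cov : ∀ i (W : X.Opens), W ≤ c.rep.U i → ∀ x ∈ W, ∃ l, x ∈ p ⁻¹ᵁ V l :=
    fun i W hi x hx => hcov _ (c.rep.le i (hi hx))
  let loc : ∀ i (W : X.Opens) (hi : W ≤ c.rep.U i) l, Γ(X, W ⊓ p ⁻¹ᵁ V l) := fun i W hi l =>
    (N l).iso.h i ⟨⟩ _ (le_inf (inf_le_left.trans hi) fun x hx => ⟨c.rep.le i (hi hx.1), hx.2⟩)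
      (le_inf inf_le_right fun x hx => ⟨c.rep.le i (hi hx.1), hx.2⟩)
  have locagree : ∀ i W hi l m,
      rs (show W ⊓ p ⁻¹ᵁ V l ⊓ p ⁻¹ᵁ V m ≤ W ⊓ p ⁻¹ᵁ V l from inf_le_left) (loc i W hi l) =
      rs (show W ⊓ p ⁻¹ᵁ V l ⊓ p ⁻¹ᵁ V m ≤ W ⊓ p ⁻¹ᵁ V m from
        le_inf (inf_le_left.trans inf_le_left) inf_le_right) (loc i W hi m) := by
    intro i W hi l m
    simp only [loc, CocycleIso.h_res]
    exact agree l m i _ (inf_le_left.trans (inf_le_left.trans hi))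
      (inf_le_left.trans inf_le_right) inf_le_right
  rw [← Pic.rep_cls c, ← cls_one, cls_eq_iff]
  refine ⟨{
    h := fun i _ W hi _ =>
      glue (fun l => p ⁻¹ᵁ V l) (cov i W hi) (loc i W hi) (locagree i W hi)
    h_res := ?_
    h_unit := ?_
    h_left := ?_
    h_right := fun i _ _ W hi _ _ => mul_one _ }⟩
  · intro i _ W W' hi _ hW
    refine eq_of_locally (fun l => p ⁻¹ᵁ V l) (cov i W' (hW.trans hi)) fun l => ?_
    rw [rs_rs, glue_spec (fun l => p ⁻¹ᵁ V l) _ _ _ l _ inf_le_right, glue_spec (fun l => p ⁻¹ᵁ V l) _ _ _ l _ inf_le_right]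
    simp [loc]
  · intro i _ W hi _
    refine isUnit_of_locally (fun l => p ⁻¹ᵁ V l) (cov i W hi) fun l => ?_
    rw [glue_spec (fun l => p ⁻¹ᵁ V l) _ _ _ l _ inf_le_right, rs_self]
    exact (N l).iso.h_unit ..
  · intro i i' _ W hi hi' _
    refine eq_of_locally (fun l => p ⁻¹ᵁ V l) (cov i W hi) fun l => ?_
    rw [map_mul, glue_spec (fun l => p ⁻¹ᵁ V l) _ _ _ l _ inf_le_right, glue_spec (fun l => p ⁻¹ᵁ V l) _ _ _ l _ inf_le_right]
    simp only [loc, CocycleIso.h_res, Cocycle.g_res]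
    exact (N l).iso.h_left ..

end RigidSetting

end FLTA.Jacobian
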