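import Fermat.Agent.Jacobian.PicCocycle

/-!
# The group of line bundle classes on an open of a scheme (S25, part A).
-/

set_option autoImplicit false
set_option linter.unusedVariables false

universe u

open CategoryTheory AlgebraicGeometry Opposite TopologicalSpace

namespace FLTA.Jacobian

variable {X Y Z : Scheme.{u}} {V : X.Opens} {ι ι' ι'' : Type u}

namespace Cocycle

/-- Choose an index for each point. -/
noncomputable def idx (c : Cocycle X V ι) (x : V) : ι := (c.cover x.1 x.2).choose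

/-- Reindex by points. -/
noncomputable def byPoints (c : Cocycle X V ι) : Cocycle X V V where
  U x := c.U (c.idx x)
  le x := c.le _
  cover x hx := ⟨⟨x, hx⟩, (c.cover x hx).choose_spec⟩
  g x y W hx hy := c.g (c.idx x) (c.idx y) W hx hy
  g_res x y W W' hx hy h := c.g_res _ _ _ _ _ _ _
  g_self x W hx := c.g_self _ _ _
  g_mul x y z W hx hy hz := c.g_mul _ _ _ _ _ _ _

noncomputable def byPointsIso (c : Cocycle X V ι) : CocycleIso c.byPoints c where
  h x j W hx hj := c.g (c.idx x) j W hx hj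
  h_res _ _ _ _ _ _ _ := c.g_res _ _ _ _ _ _ _
  h_unit _ _ _ _ _ := c.isUnit_g _ _ _ _ _
  h_left _ _ _ _ _ _ _ := c.g_mul _ _ _ _ _ _ _
  h_right _ _ _ _ _ _ _ := c.g_mul _ _ _ _ _ _ _

end Cocycle

instance cocycleSetoid (V : X.Opens) : Setoid (Cocycle X V V) where
  r c c' := Nonempty (CocycleIso c c')
  iseqv := ⟨fun c => ⟨.refl c⟩, fun ⟨H⟩ => ⟨H.symm⟩, fun ⟨H⟩ ⟨H'⟩ => ⟨H.trans H'⟩⟩

/-- Line bundle classes on the open `V` of `X`. -/
def Pic (X : Scheme.{u}) (V : X.Opens) : Type u := Quotient (cocycleSetoid (X := X) V)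

/-- The class of a cocycle with any index type. -/
noncomputable def Cocycle.cls (c : Cocycle X V ι) : Pic X V := Quotient.mk _ c.byPoints

lemma cls_eq_iff {c : Cocycle X V ι} {c' : Cocycle X V ι'} :
    c.cls = c'.cls ↔ Nonempty (CocycleIso c c') := by
  constructor
  · intro h
    obtain ⟨H⟩ := Quotient.exact h
    exact ⟨(c.byPointsIso.symm.trans H).trans c'.byPointsIso⟩
  · rintro ⟨H⟩
    exact Quotient.sound ⟨(c.byPointsIso.trans H).trans c'.byPointsIso.symm⟩

lemma cls_eq {c : Cocycle X V ι} {c' : Cocycle X V ι'} (H : CocycleIso c c') : c.cls = c'.cls :=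
  cls_eq_iff.mpr ⟨H⟩

lemma exists_cls (a : Pic X V) : ∃ c : Cocycle X V V, c.cls = a := by
  induction a using Quotient.ind with
  | _ c => exact ⟨c, Quotient.sound ⟨c.byPointsIso⟩⟩

@[elab_as_elim]
lemma Pic.cls_ind {motive : Pic X V → Prop} (h : ∀ c : Cocycle X V V, motive c.cls) (a : Pic X V) :
    motive a := by
  obtain ⟨c, rfl⟩ := exists_cls a
  exact h c

/-- The representative chosen for a class. -/
noncomputable def Pic.rep (a : Pic X V) : Cocycle X V V := (exists_cls a).choose

lemma Pic.rep_cls (a : Pic X V) : a.rep.cls = a := (exists_cls a).choose_spec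

noncomputable instance : Mul (Pic X V) := ⟨fun a b => (a.rep.mul b.rep).cls⟩
noncomputable instance : Inv (Pic X V) := ⟨fun a => a.rep.inv.cls⟩
noncomputable instance : One (Pic X V) := ⟨(Cocycle.one V).cls⟩

noncomputable def CocycleIso.inv {c : Cocycle X V ι} {c' : Cocycle X V ι'} (H : CocycleIso c c') :
    CocycleIso c.inv c'.inv where
  h i j W hi hj := H.symm.h j i W hj hi
  h_res i j W W' hi hj hW := H.symm.h_res j i W W' hj hi hW
  h_unit i j W hi hj := H.symm.h_unit j i W hj hi
  h_left i i' j W hi hi' hj := by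
    change c.g i' i W hi' hi * H.symm.h j i' W hj hi' = H.symm.h j i W hj hi
    exact (mul_comm _ _).trans (H.symm.h_right j i' i W hj hi' hi)
  h_right i j j' W hi hj hj' := by
    change H.symm.h j i W hj hi * c'.g j' j W hj' hj = H.symm.h j' i W hj' hi
    exact (mul_comm _ _).trans (H.symm.h_left j' j i W hj' hj hi)

lemma cls_mul (c : Cocycle X V ι) (c' : Cocycle X V ι') : (c.mul c').cls = c.cls * c'.cls :=
  (cls_eq ((cls_eq_iff.mp (Pic.rep_cls c.cls)).some.mul
    (cls_eq_iff.mp (Pic.rep_cls c'.cls)).some)).symm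

lemma cls_inv (c : Cocycle X V ι) : c.inv.cls = (c.cls)⁻¹ :=
  (cls_eq (cls_eq_iff.mp (Pic.rep_cls c.cls)).some.inv).symm

lemma cls_one : (Cocycle.one (X := X) V).cls = 1 := rfl

private noncomputable def mulCommIso (c : Cocycle X V ι) (c' : Cocycle X V ι') :
    CocycleIso (c.mul c') (c'.mul c) where
  h p q W hp hq := c.g p.1 q.2 W (hp.trans inf_le_left) (hq.trans inf_le_right) *
    c'.g p.2 q.1 W (hp.trans inf_le_right) (hq.trans inf_le_left)
  h_res p q W W' hp hq hW := by simp
  h_unit p q W hp hq := (c.isUnit_g ..).mul (c'.isUnit_g ..)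
  h_left p p' q W hp hp' hq := by
    simp only [Cocycle.mul]
    rw [mul_mul_mul_comm, c.g_mul, c'.g_mul]
  h_right p q q' W hp hq hq' := by
    simp only [Cocycle.mul]
    rw [mul_comm (c'.g q.1 q'.1 W _ _), mul_mul_mul_comm, c.g_mul, c'.g_mul]

private noncomputable def mulAssocIso (c : Cocycle X V ι) (c' : Cocycle X V ι')
    (c'' : Cocycle X V ι'') : CocycleIso ((c.mul c').mul c'') (c.mul (c'.mul c'')) where
  h p q W hp hq :=
    c.g p.1.1 q.1 W (hp.trans (inf_le_left.trans inf_le_left)) (hq.trans inf_le_left) *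
    (c'.g p.1.2 q.2.1 W (hp.trans (inf_le_left.trans inf_le_right))
      (hq.trans (inf_le_right.trans inf_le_left)) *
    c''.g p.2 q.2.2 W (hp.trans inf_le_right) (hq.trans (inf_le_right.trans inf_le_right)))
  h_res p q W W' hp hq hW := by simp
  h_unit p q W hp hq := (c.isUnit_g ..).mul ((c'.isUnit_g ..).mul (c''.isUnit_g ..))
  h_left p p' q W hp hp' hq := by
    simp only [Cocycle.mul]
    rw [mul_assoc (c.g p.1.1 p'.1.1 W _ _), mul_mul_mul_comm, c.g_mul, mul_mul_mul_comm, c'.g_mul,
      c''.g_mul]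
  h_right p q q' W hp hq hq' := by
    simp only [Cocycle.mul]
    rw [mul_mul_mul_comm, c.g_mul, mul_mul_mul_comm, c'.g_mul, c''.g_mul]

private noncomputable def oneMulIso (c : Cocycle X V ι) :
    CocycleIso ((Cocycle.one V).mul c) c where
  h p j W hp hj := c.g p.2 j W (hp.trans inf_le_right) hj
  h_res p j W W' hp hj hW := c.g_res _ _ _ _ _ _ _
  h_unit p j W hp hj := c.isUnit_g _ _ _ _ _
  h_left p p' j W hp hp' hj := by
    simp only [Cocycle.mul, Cocycle.one, one_mul]
    exact c.g_mul _ _ _ _ _ _ _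
  h_right p j j' W hp hj hj' := c.g_mul _ _ _ _ _ _ _

private noncomputable def invMulIso (c : Cocycle X V ι) :
    CocycleIso (c.inv.mul c) (Cocycle.one V) where
  h p _ W hp _ := c.g p.2 p.1 W (hp.trans inf_le_right) (hp.trans inf_le_left)
  h_res p j W W' hp hj hW := c.g_res _ _ _ _ _ _ _
  h_unit p j W hp hj := c.isUnit_g _ _ _ _ _
  h_left p p' j W hp hp' hj := by
    simp only [Cocycle.mul, Cocycle.inv]
    rw [mul_assoc, c.g_mul, mul_comm, c.g_mul]
  h_right p j j' W hp hj hj' := by simp only [Cocycle.one, mul_one]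

noncomputable instance : CommGroup (Pic X V) where
  mul_assoc a b c := by
    induction a using Pic.cls_ind with
    | _ a => induction b using Pic.cls_ind with
      | _ b => induction c using Pic.cls_ind with
        | _ c =>
          simp only [← cls_mul]
          exact cls_eq (mulAssocIso a b c)
  one_mul a := by
    induction a using Pic.cls_ind with
    | _ a =>
      rw [← cls_one, ← cls_mul]
      exact cls_eq (oneMulIso a)
  mul_one a := by
    induction a using Pic.cls_ind with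
    | _ a =>
      rw [← cls_one, ← cls_mul]
      exact cls_eq ((mulCommIso a _).trans (oneMulIso a))
  inv_mul_cancel a := by
    induction a using Pic.cls_ind with
    | _ a =>
      rw [← cls_inv, ← cls_mul, ← cls_one]
      exact cls_eq (invMulIso a)
  mul_comm a b := by
    induction a using Pic.cls_ind with
    | _ a => induction b using Pic.cls_ind with
      | _ b =>
        simp only [← cls_mul]
        exact cls_eq (mulCommIso a b)

section pull

/-- Transition functions of a pullback may be computed on any open where they are defined. -/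
lemma Cocycle.pull_g {U : Y.Opens} {κ : Type u} (c : Cocycle Y U κ) (f : X ⟶ Y) (V : X.Opens)
    (h : V ≤ f ⁻¹ᵁ U) (i j : κ) (W : X.Opens) (hi : W ≤ (c.pull f V h).U i)
    (hj : W ≤ (c.pull f V h).U j) (O : Y.Opens) (hO : W ≤ f ⁻¹ᵁ O) (hOi : O ≤ c.U i)
    (hOj : O ≤ c.U j) :
    (c.pull f V h).g i j W hi hj = pb f hO (c.g i j O hOi hOj) := by
  rw [← c.g_res i j (c.U i ⊓ c.U j) O inf_le_left inf_le_right (le_inf hOi hOj), pb_rs]
  rfl

lemma pull_mul_g (f : X ⟶ Y) {U : Y.Opens} {κ κ' : Type u} (a : Cocycle Y U κ)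
    (b : Cocycle Y U κ') (V : X.Opens) (h : V ≤ f ⁻¹ᵁ U) (p p' : κ × κ') (W : X.Opens)
    (hp : W ≤ ((a.mul b).pull f V h).U p) (hp' : W ≤ ((a.mul b).pull f V h).U p') :
    ((a.mul b).pull f V h).g p p' W hp hp' = ((a.pull f V h).mul (b.pull f V h)).g p p' W
      (le_inf (fun x hx => ⟨(hp hx).1, (hp hx).2.1⟩) (fun x hx => ⟨(hp hx).1, (hp hx).2.2⟩))
      (le_inf (fun x hx => ⟨(hp' hx).1, (hp' hx).2.1⟩) (fun x hx => ⟨(hp' hx).1, (hp' hx).2.2⟩)) := by
  set O : Y.Opens := a.U p.1 ⊓ b.U p.2 ⊓ (a.U p'.1 ⊓ b.U p'.2)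
  have hO : W ≤ f ⁻¹ᵁ O := fun x hx => ⟨(hp hx).2, (hp' hx).2⟩
  rw [Cocycle.pull_g (a.mul b) f V h p p' W hp hp' O hO inf_le_left inf_le_right]
  change pb f hO (a.g p.1 p'.1 O _ _ * b.g p.2 p'.2 O _ _) =
    (a.pull f V h).g p.1 p'.1 W _ _ * (b.pull f V h).g p.2 p'.2 W _ _
  rw [map_mul, Cocycle.pull_g a f V h p.1 p'.1 W _ _ O hO (inf_le_left.trans inf_le_left)
      (inf_le_right.trans inf_le_left),
    Cocycle.pull_g b f V h p.2 p'.2 W _ _ O hO (inf_le_left.trans inf_le_right)
      (inf_le_right.trans inf_le_right)]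

variable (f : X ⟶ Y) {U : Y.Opens}

/-- Pullback of classes. -/
noncomputable def Pic.pull (V : X.Opens) (h : V ≤ f ⁻¹ᵁ U) : Pic Y U →* Pic X V :=
  MonoidHom.mk' (fun a => (a.rep.pull f V h).cls) fun a b => by
    induction a using Pic.cls_ind with
    | _ a => induction b using Pic.cls_ind with
      | _ b =>
        simp only [← cls_mul]
        rw [cls_eq ((cls_eq_iff.mp (Pic.rep_cls (a.mul b).cls)).some.pull f V h),
          cls_eq ((cls_eq_iff.mp (Pic.rep_cls a.cls)).some.pull f V h |>.mul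
            ((cls_eq_iff.mp (Pic.rep_cls b.cls)).some.pull f V h))]
        refine cls_eq
          { h := fun p q W hp hq => ((a.pull f V h).mul (b.pull f V h)).g p q W
              (le_inf
                (fun x hx => ⟨(hp hx).1, (hp hx).2.1⟩) (fun x hx => ⟨(hp hx).1, (hp hx).2.2⟩)) hq
            h_res := fun p q W W' hp hq hW => Cocycle.g_res _ _ _ _ _ _ _ _
            h_unit := fun p q W hp hq => Cocycle.isUnit_g _ _ _ _ _ _
            h_left := ?_
            h_right := fun p q q' W hp hq hq' => Cocycle.g_mul _ _ _ _ _ _ _ _ }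
        intro p p' q W hp hp' hq
        have e := ((a.pull f V h).mul (b.pull f V h)).g_mul p p' q W
          (le_inf (fun x hx => ⟨(hp hx).1, (hp hx).2.1⟩) (fun x hx => ⟨(hp hx).1, (hp hx).2.2⟩))
          (le_inf (fun x hx => ⟨(hp' hx).1, (hp' hx).2.1⟩) (fun x hx => ⟨(hp' hx).1, (hp' hx).2.2⟩))
          hq
        refine Eq.trans ?_ e
        congr 1
        exact pull_mul_g f a b V h p p' W hp hp'

variable {f}

lemma cls_pull (c : Cocycle Y U ι) (V : X.Opens) (h : V ≤ f ⁻¹ᵁ U) :
    (c.pull f V h).cls = Pic.pull f V h c.cls :=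
  (cls_eq ((cls_eq_iff.mp (Pic.rep_cls c.cls)).some.pull f V h)).symm

end pull

end FLTA.Jacobian
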