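import Fermat.Agent.Jacobian.PicModulesOf

/-!
# Morphisms out of the sheaf of modules of a cocycle (S25, part A; owner helper13).
-/

set_option autoImplicit false

universe u

open CategoryTheory AlgebraicGeometry Opposite TopologicalSpace

namespace FLTA.Jacobian

variable {X : Scheme.{u}} {ι ι' : Type u} (c : Cocycle X ⊤ ι) (c' : Cocycle X ⊤ ι')

lemma cocycle_top_cover (W : X.Opens) : ∀ x ∈ W, ∃ i, x ∈ c.U i :=
  fun x _ => c.cover x trivial

/-- A morphism of sheaves of modules from linear maps commuting with restriction. -/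
noncomputable def modHomMk {M N : X.Modules} (φ : ∀ W : X.Opens, Γ(M, W) →+ Γ(N, W))
    (hres : ∀ (W W' : X.Opens) (h : W' ≤ W) (s : Γ(M, W)), mrs N h (φ W s) = φ W' (mrs M h s))
    (hlin : ∀ (W : X.Opens) (r : Γ(X, W)) (s : Γ(M, W)), φ W (r • s) = r • φ W s) : M ⟶ N :=
  ⟨PresheafOfModules.homMk
    { app := fun W => AddCommGrpCat.ofHom (φ W.unop)
      naturality := fun W W' f => by
        ext1
        ext s : 1
        exact (hres W.unop W'.unop (leOfHom f.unop) s).symm }
    (fun W r s => hlin W.unop r s)⟩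

@[simp]
lemma modHomMk_app {M N : X.Modules} (φ : ∀ W : X.Opens, Γ(M, W) →+ Γ(N, W))
    (hres : ∀ (W W' : X.Opens) (h : W' ≤ W) (s : Γ(M, W)), mrs N h (φ W s) = φ W' (mrs M h s))
    (hlin : ∀ (W : X.Opens) (r : Γ(X, W)) (s : Γ(M, W)), φ W (r • s) = r • φ W s)
    (W : X.Opens) (s : Γ(M, W)) : (modHomMk φ hres hlin).app W s = φ W s := rfl

/-- Morphisms out of `modOf c` are determined by the tautological sections. -/
lemma modOf_hom_ext {N : X.Modules} {φ ψ : modOf c ⟶ N}
    (h : ∀ i, φ.app (c.U i) (modGen c i) = ψ.app (c.U i) (modGen c i)) : φ = ψ := by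
  refine Scheme.Modules.hom_ext _ _ fun W => ?_
  ext s
  refine meq_of_locally N c.U (cocycle_top_cover c W) fun i => ?_
  rw [mrs_app, mrs_app, mrs_eq_smul_modGen c s i (W ⊓ c.U i) le_rfl, Scheme.Modules.Hom.app_smul,
    Scheme.Modules.Hom.app_smul, ← mrs_app φ, ← mrs_app ψ, h]

section Family

variable {c} {N : X.Modules} (n : ∀ i, Γ(N, c.U i))
  (hn : ∀ (i j : ι) (O : X.Opens) (hi : O ≤ c.U i) (hj : O ≤ c.U j),
    mrs N hi (n i) = c.g i j O hi hj • mrs N hj (n j))

include hn in
lemma famApp_compat {W : X.Opens} (s : Γ(modOf c, W)) (i j : ι) :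
    mrs N (show W ⊓ c.U i ⊓ c.U j ≤ W ⊓ c.U i from inf_le_left)
        (modOfVal c s i • mrs N inf_le_right (n i)) =
      mrs N (show W ⊓ c.U i ⊓ c.U j ≤ W ⊓ c.U j from
          le_inf (inf_le_left.trans inf_le_left) inf_le_right)
        (modOfVal c s j • mrs N inf_le_right (n j)) := by
  rw [mrs_smul, mrs_smul, mrs_mrs, mrs_mrs,
    hn i j (W ⊓ c.U i ⊓ c.U j) (inf_le_left.trans inf_le_right) inf_le_right, smul_smul,
    modOfVal_compat c s i j _ inf_le_left (le_inf (inf_le_left.trans inf_le_left) inf_le_right)]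

/-- The value at `s` of the morphism given by a family. -/
noncomputable def famApp (W : X.Opens) (s : Γ(modOf c, W)) : Γ(N, W) :=
  mglue N c.U (cocycle_top_cover c W) (fun i => modOfVal c s i • mrs N inf_le_right (n i))
    (famApp_compat n hn s)

lemma famApp_mrs (W : X.Opens) (s : Γ(modOf c, W)) (i : ι) {O : X.Opens} (hW : O ≤ W)
    (hi : O ≤ c.U i) :
    mrs N hW (famApp n hn W s) = rs (le_inf hW hi) (modOfVal c s i) • mrs N hi (n i) := by
  rw [famApp, mglue_spec' _ _ _ _ _ i hW hi, mrs_smul, mrs_mrs]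

/-- The morphism given by a compatible family of sections. -/
noncomputable def modOfDesc : modOf c ⟶ N :=
  modHomMk
    (fun W => AddMonoidHom.mk' (famApp n hn W) fun s t => by
      refine meq_of_locally N c.U (cocycle_top_cover c W) fun i => ?_
      rw [map_add, famApp_mrs n hn W _ i inf_le_left inf_le_right,
        famApp_mrs n hn W _ i inf_le_left inf_le_right,
        famApp_mrs n hn W _ i inf_le_left inf_le_right, ← add_smul, ← map_add]
      rfl)
    (fun W W' h s => by
      refine meq_of_locally N c.U (cocycle_top_cover c W') fun i => ?_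
      simp only [AddMonoidHom.mk'_apply, mrs_mrs]
      rw [famApp_mrs n hn W _ i _ inf_le_right, famApp_mrs n hn W' _ i inf_le_left inf_le_right,
        modOfVal_mrs, rs_rs])
    (fun W r s => by
      refine meq_of_locally N c.U (cocycle_top_cover c W) fun i => ?_
      simp only [AddMonoidHom.mk'_apply]
      rw [mrs_smul, famApp_mrs n hn W _ i inf_le_left inf_le_right,
        famApp_mrs n hn W _ i inf_le_left inf_le_right, modOfVal_smul, map_mul, rs_rs, smul_smul])

@[simp]
lemma modOfDesc_gen (k : ι) : (modOfDesc n hn).app (c.U k) (modGen c k) = n k := by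
  refine meq_of_locally N c.U (cocycle_top_cover c (c.U k)) fun i => ?_
  rw [modOfDesc, modHomMk_app, AddMonoidHom.mk'_apply, famApp_mrs n hn _ _ i inf_le_left
    inf_le_right, modOfVal_modGen, c.g_res]
  exact (hn k i _ inf_le_left inf_le_right).symm

end Family

section Congr

variable {c c'}

/-- The image of a tautological section under an isomorphism of cocycles. -/
noncomputable def CocycleIso.gen (H : CocycleIso c c') (i : ι) : Γ(modOf c', c.U i) :=
  modOfMk c' ⟨fun j => H.h i j _ inf_le_left inf_le_right, fun j j' O hj hj' => by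
    rw [H.h_res, H.h_res, H.h_right]⟩

lemma CocycleIso.gen_compat (H : CocycleIso c c') (i i' : ι) (O : X.Opens) (hi : O ≤ c.U i)
    (hi' : O ≤ c.U i') :
    mrs (modOf c') hi (H.gen i) = c.g i i' O hi hi' • mrs (modOf c') hi' (H.gen i') := by
  refine modOf_ext c' fun l => ?_
  simp only [CocycleIso.gen, modOfVal_mrs, modOfVal_smul, modOfVal_mk, H.h_res, c.g_res, H.h_left]

/-- The morphism given by an isomorphism of cocycles. -/
noncomputable def CocycleIso.modHom (H : CocycleIso c c') : modOf c ⟶ modOf c' :=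
  modOfDesc (fun i => H.gen i) H.gen_compat

lemma CocycleIso.modHom_comp (H : CocycleIso c c') (H' : CocycleIso c' c)
    (hHH : ∀ (i : ι) (j : ι') (l : ι) (O : X.Opens) (hi : O ≤ c.U i) (hj : O ≤ c'.U j)
      (hl : O ≤ c.U l), H.h i j O hi hj * H'.h j l O hj hl = c.g i l O hi hl) :
    H.modHom ≫ H'.modHom = 𝟙 (modOf c) := by
  refine modOf_hom_ext c fun i => ?_
  rw [Scheme.Modules.Hom.comp_app, Scheme.Modules.Hom.id_app]
  simp only [ConcreteCategory.comp_apply, ConcreteCategory.id_apply, CocycleIso.modHom,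
    modOfDesc_gen]
  refine meq_of_locally (modOf c) c'.U (cocycle_top_cover c' (c.U i)) fun j => ?_
  rw [mrs_app, mrs_eq_smul_modGen c' (H.gen i) j _ le_rfl, Scheme.Modules.Hom.app_smul, ← mrs_app,
    modOfDesc_gen]
  refine modOf_ext c fun l => ?_
  simp only [CocycleIso.gen, modOfVal_smul, modOfVal_mrs, modOfVal_mk, modOfVal_modGen, H.h_res,
    H'.h_res, c.g_res, rs_self, hHH]

/-- Isomorphic cocycles give isomorphic sheaves of modules. -/
noncomputable def CocycleIso.modIso (H : CocycleIso c c') : modOf c ≅ modOf c' where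
  hom := H.modHom
  inv := H.symm.modHom
  hom_inv_id := H.modHom_comp H.symm fun i j l O hi hj hl => by
    rw [← H.h_left i l j O hi hl hj, mul_assoc]
    exact (congrArg _ (IsUnit.mul_val_inv (H.h_unit l j O hl hj))).trans (mul_one _)
  inv_hom_id := H.symm.modHom_comp H fun j i l O hj hi hl => by
    rw [← H.h_right i j l O hi hj hl, ← mul_assoc]
    exact (congrArg (fun a => a * _) (IsUnit.val_inv_mul (H.h_unit i j O hi hj))).trans (one_mul _)

end Congr

end FLTA.Jacobian
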