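import Fermat.Prelude.Def_AlgebraicGeometry_RelativePicardFunctor
import Fermat.Agent.Jacobian.PicModulesHom

/-!
# Frames of invertible sheaves of modules (S25, part A; owner helper13).
-/

set_option autoImplicit false

universe u

open CategoryTheory AlgebraicGeometry Opposite TopologicalSpace

namespace FLTA.Jacobian

variable {X : Scheme.{u}} {M M' : X.Modules}

/-- `e` is a frame of `M` on `U`. -/
def IsFrame (M : X.Modules) {U : X.Opens} (e : Γ(M, U)) : Prop :=
  ∀ (W : X.Opens) (h : W ≤ U), Function.Bijective (fun r : Γ(X, W) => r • mrs M h e)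

lemma bijective_app (φ : M ⟶ M') [IsIso φ] (W : X.Opens) : Function.Bijective (φ.app W) :=
  (ConcreteCategory.isIso_iff_bijective (φ.app W)).mp inferInstance

lemma IsFrame.map (φ : M ⟶ M') [IsIso φ] {U : X.Opens} {e : Γ(M, U)} (he : IsFrame M e) :
    IsFrame M' (φ.app U e) := by
  intro W h
  have e' : (fun r : Γ(X, W) => r • mrs M' h (φ.app U e)) =
      φ.app W ∘ fun r : Γ(X, W) => r • mrs M h e := by
    funext r
    simp [mrs_app]
  rw [e']
  exact (bijective_app φ W).comp (he W h)

/-- A covering of `X` by frames of `M`. -/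
structure Frames (M : X.Modules) (ι : Type u) : Type u where
  U : ι → X.Opens
  cover : ∀ x : X, ∃ i, x ∈ U i
  e : ∀ i, Γ(M, U i)
  isFrame : ∀ i, IsFrame M (e i)

namespace Frames

variable {ι ι' : Type u} (F : Frames M ι)

/-- Coordinate of a section with respect to a frame. -/
noncomputable def coef (i : ι) (W : X.Opens) (h : W ≤ F.U i) (m : Γ(M, W)) : Γ(X, W) :=
  ((F.isFrame i W h).2 m).choose

lemma coef_smul (i : ι) (W : X.Opens) (h : W ≤ F.U i) (m : Γ(M, W)) :
    F.coef i W h m • mrs M h (F.e i) = m :=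
  ((F.isFrame i W h).2 m).choose_spec

lemma coef_unique {i : ι} {W : X.Opens} (h : W ≤ F.U i) {m : Γ(M, W)} {r : Γ(X, W)}
    (hr : r • mrs M h (F.e i) = m) : F.coef i W h m = r :=
  (F.isFrame i W h).1 ((F.coef_smul i W h m).trans hr.symm)

/-- The transition cocycle of the frames. -/
noncomputable abbrev cocycle : Cocycle X ⊤ ι where
  U := F.U
  le _ := le_top
  cover x _ := F.cover x
  g i j W hi hj := F.coef j W hj (mrs M hi (F.e i))
  g_res i j W W' hi hj h := by
    refine (F.coef_unique _ ?_).symm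
    have := congrArg (mrs M h) (F.coef_smul j W hj (mrs M hi (F.e i)))
    rwa [mrs_smul, mrs_mrs, mrs_mrs] at this
  g_self i W hi := F.coef_unique hi (one_smul _ _)
  g_mul i j l W hi hj hl := by
    refine (F.coef_unique hl ?_).symm
    rw [mul_smul, F.coef_smul, F.coef_smul]

/-- Transition between frames of isomorphic sheaves. -/
noncomputable def cocycleIso (F' : Frames M' ι') (φ : M ⟶ M') [IsIso φ] :
    CocycleIso F.cocycle F'.cocycle where
  h i j W hi hj := F'.coef j W hj (mrs M' hi (φ.app (F.U i) (F.e i)))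
  h_res i j W W' hi hj hW := by
    refine (F'.coef_unique _ ?_).symm
    have := congrArg (mrs M' hW) (F'.coef_smul j W hj (mrs M' hi (φ.app (F.U i) (F.e i))))
    rwa [mrs_smul, mrs_mrs, mrs_mrs] at this
  h_unit i j W hi hj := by
    obtain ⟨r, hr⟩ := ((F.isFrame i).map φ W hi).2 (mrs M' hj (F'.e j))
    refine isUnit_iff_exists_inv.mpr ⟨r, (F'.isFrame j W hj).1 ?_⟩
    simp only [one_smul]
    rw [mul_comm, mul_smul, F'.coef_smul]
    exact hr
  h_left i i' j W hi hi' hj := by
    refine (F'.coef_unique hj ?_).symm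
    rw [mul_smul, F'.coef_smul, mrs_app, mrs_app, ← Scheme.Modules.Hom.app_smul]
    exact congrArg _ (F.coef_smul i' W hi' _)
  h_right i j j' W hi hj hj' := by
    refine (F'.coef_unique hj' ?_).symm
    change (_ * F'.coef j' W hj' (mrs M' hj (F'.e j))) • _ = _
    rw [mul_smul, F'.coef_smul, F'.coef_smul]

lemma gen_compat (i j : ι) (O : X.Opens) (hi : O ≤ F.cocycle.U i) (hj : O ≤ F.cocycle.U j) :
    mrs M hi (F.e i) = F.cocycle.g i j O hi hj • mrs M hj (F.e j) :=
  (F.coef_smul j O hj _).symm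

/-- The comparison morphism. -/
noncomputable def desc : modOf F.cocycle ⟶ M :=
  modOfDesc (c := F.cocycle) (fun i => F.e i) F.gen_compat

lemma mrs_desc_app {W : X.Opens} (s : Γ(modOf F.cocycle, W)) (i : ι) {O : X.Opens} (hW : O ≤ W)
    (hi : O ≤ F.U i) :
    mrs M hW (F.desc.app W s) =
      rs (le_inf hW hi) (modOfVal F.cocycle s i) • mrs M hi (F.e i) := by
  rw [desc, modOfDesc, modHomMk_app, AddMonoidHom.mk'_apply]
  exact famApp_mrs _ _ W s i hW hi

lemma isIso_desc : IsIso F.desc := by
  rw [Scheme.Modules.Hom.isIso_iff_isIso_app]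
  intro W
  rw [ConcreteCategory.isIso_iff_bijective]
  constructor
  · intro s t hst
    refine modOf_ext _ fun i => (F.isFrame i (W ⊓ F.U i) inf_le_right).1 ?_
    have := congrArg (mrs M (inf_le_left : W ⊓ F.U i ≤ W)) hst
    rw [F.mrs_desc_app s i inf_le_left inf_le_right,
      F.mrs_desc_app t i inf_le_left inf_le_right, rs_self, rs_self] at this
    exact this
  · intro m
    let s : F.cocycle.Fam W :=
      ⟨fun i => F.coef i _ inf_le_right (mrs M inf_le_left m), fun i j O hi hj => by
        refine (F.isFrame j O (hj.trans inf_le_right)).1 ?_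
        change (_ * F.coef j O _ (mrs M _ (F.e i))) • _ = _
        rw [mul_smul, F.coef_smul]
        have h1 := congrArg (mrs M hi) (F.coef_smul i _ inf_le_right (mrs M inf_le_left m))
        have h2 := congrArg (mrs M hj) (F.coef_smul j _ inf_le_right (mrs M inf_le_left m))
        rw [mrs_smul, mrs_mrs, mrs_mrs] at h1 h2
        beta_reduce
        exact h1.trans h2.symm⟩
    refine ⟨modOfMk F.cocycle s, meq_of_locally M F.U (fun x _ => F.cover x) fun i => ?_⟩
    rw [F.mrs_desc_app _ i inf_le_left inf_le_right, rs_self, modOfVal_mk]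
    exact F.coef_smul i _ inf_le_right _

/-- A sheaf with frames is the sheaf of its cocycle. -/
noncomputable def isoModOf : modOf F.cocycle ≅ M :=
  haveI := F.isIso_desc
  asIso F.desc

end Frames

/-- The frame `1` of the structure sheaf. -/
noncomputable def unitFrames (X : Scheme.{u}) :
    Frames (M := SheafOfModules.unit X.ringCatSheaf) PUnit.{u + 1} where
  U _ := ⊤
  cover x := ⟨⟨⟩, trivial⟩
  e _ := (1 : Γ(X, ⊤))
  isFrame _ W h := by
    have e : ∀ r : Γ(X, W), (r • mrs (SheafOfModules.unit X.ringCatSheaf : X.Modules) h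
        (1 : Γ(X, ⊤)) : Γ((SheafOfModules.unit X.ringCatSheaf : X.Modules), W)) = r := fun r => by
      change r * rs h (1 : Γ(X, ⊤)) = r
      rw [map_one, mul_one]
    exact Function.bijective_iff_has_inverse.mpr
      ⟨fun r => r, fun r => e r, fun r => e r⟩

/-- `CocycleIso` between the cocycle of the unit frame and the trivial cocycle. -/
noncomputable def unitFramesIso (X : Scheme.{u}) :
    CocycleIso (unitFrames X).cocycle (Cocycle.one (X := X) ⊤) where
  h _ _ _ _ _ := 1
  h_res _ _ _ _ _ _ _ := map_one _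
  h_unit _ _ _ _ _ := isUnit_one
  h_left i i' j W hi hi' hj := by
    rw [mul_one]
    exact (unitFrames X).cocycle.g_self i W hi
  h_right _ _ _ _ _ _ _ := one_mul _

/-- The sheaf of the trivial cocycle. -/
noncomputable def modOfOneIso (X : Scheme.{u}) :
    modOf (Cocycle.one (X := X) ⊤) ≅ SheafOfModules.unit X.ringCatSheaf :=
  (unitFramesIso X).modIso.symm ≪≫ (unitFrames X).isoModOf

lemma restrict_smul_eq {Y : Scheme.{u}} (f : Y ⟶ X) [IsOpenImmersion f] (W : Y.Opens)
    (r : Γ(Y, W)) (a : Γ(M.restrict f, W)) :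
    r • a = (M.restrictAppIso f W).inv ((f.appIso W).inv r • (M.restrictAppIso f W).hom a) :=
  rfl

/-- A frame of a restriction along an open immersion gives frames on the image. -/
lemma isFrame_of_restrict {Y : Scheme.{u}} (f : Y ⟶ X) [IsOpenImmersion f]
    {e : Γ(M.restrict f, ⊤)} (he : IsFrame (M.restrict f) e) (W : Y.Opens) :
    Function.Bijective (fun r : Γ(X, f ''ᵁ W) =>
      r • mrs M (f.image_mono (le_top : W ≤ ⊤)) ((M.restrictAppIso f ⊤).hom e)) := by
  have e' : (fun r : Γ(X, f ''ᵁ W) =>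
      r • mrs M (f.image_mono (le_top : W ≤ ⊤)) ((M.restrictAppIso f ⊤).hom e)) =
      (fun r : Γ(Y, W) => r • mrs (M.restrict f) (le_top : W ≤ ⊤) e) ∘ (f.appIso W).hom := by
    funext r
    have h1 : (f.appIso W).inv ((f.appIso W).hom r) = r := by
      rw [← ConcreteCategory.comp_apply, Iso.hom_inv_id]
      rfl
    simp only [Function.comp_apply]
    rw [restrict_smul_eq, h1]
    rfl
  rw [e']
  exact (he W le_top).comp
    ((ConcreteCategory.isIso_iff_bijective (f.appIso W).hom).mp inferInstance)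

/-- An invertible sheaf has a covering by frames. -/
lemma exists_frames (hM : Scheme.Modules.IsInvertible M) : Nonempty (Frames M X) := by
  have key : ∀ x : X, ∃ (U : X.Opens) (e : Γ(M, U)), x ∈ U ∧ IsFrame M e := by
    intro x
    obtain ⟨U, hxU, ⟨φ⟩⟩ := hM.exists_trivialization x
    let ψ := (Scheme.Modules.restrictFunctorIsoPullback U.ι).app M ≪≫ φ
    let e₁ : Γ(M.restrict U.ι, ⊤) := ψ.inv.app ⊤ (1 : Γ(U.toScheme, ⊤))
    have h₁ : IsFrame (M.restrict U.ι) e₁ :=
      ((unitFrames U.toScheme).isFrame PUnit.unit).map ψ.inv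
    have main := isFrame_of_restrict U.ι h₁
    let e₀ : Γ(M, U.ι ''ᵁ ⊤) := e₁
    have hU : U.ι ''ᵁ ⊤ = U := U.ι.image_top_eq_opensRange.trans U.opensRange_ι
    refine ⟨U.ι ''ᵁ ⊤, e₀, hU.symm ▸ hxU, fun W h => ?_⟩
    obtain ⟨W', rfl⟩ : ∃ W' : U.toScheme.Opens, U.ι ''ᵁ W' = W := by
      refine ⟨U.ι ⁻¹ᵁ W, ?_⟩
      rw [Scheme.Hom.image_preimage_eq_opensRange_inf, U.opensRange_ι,
        inf_eq_right.mpr (hU ▸ h)]
    exact main W'
  choose U e hxU he using key
  exact ⟨⟨U, fun x => ⟨x, hxU x⟩, e, he⟩⟩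

end FLTA.Jacobian
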