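import Fermat.Agent.Jacobian.PicModulesSheaf

/-!
# The sheaf of modules of a cocycle (S25, part A; owner helper13).
-/

set_option autoImplicit false

universe u

open CategoryTheory AlgebraicGeometry Opposite TopologicalSpace

namespace FLTA.Jacobian

variable {X : Scheme.{u}} {V : X.Opens} {ι : Type u}

namespace Cocycle

variable (c : Cocycle X V ι)

/-- A compatible family on `W`. -/
def famSub (W : X.Opens) : AddSubgroup (∀ i, Γ(X, W ⊓ c.U i)) where
  carrier := {s | ∀ (i j : ι) (O : X.Opens) (hi : O ≤ W ⊓ c.U i) (hj : O ≤ W ⊓ c.U j),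
    rs hi (s i) * c.g i j O (hi.trans inf_le_right) (hj.trans inf_le_right) = rs hj (s j)}
  zero_mem' i j O hi hj := by simp
  add_mem' {a b} ha hb i j O hi hj := by
    simp only [Pi.add_apply, map_add, add_mul, ha i j O hi hj, hb i j O hi hj]
  neg_mem' {a} ha i j O hi hj := by
    simp only [Pi.neg_apply, map_neg, neg_mul, ha i j O hi hj]

/-- Compatible families on `W`, as a type. -/
abbrev Fam (W : X.Opens) : Type u := c.famSub W

noncomputable instance famModule (W : X.Opens) : Module Γ(X, W) (c.Fam W) where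
  smul r s := ⟨fun i => rs inf_le_left r * s.1 i, fun i j O hi hj => by
    simp only [map_mul, rs_rs, mul_assoc, s.2 i j O hi hj]⟩
  one_smul s := Subtype.ext (funext fun i => show rs inf_le_left 1 * _ = _ by simp)
  mul_smul r r' s := Subtype.ext (funext fun i =>
    show rs inf_le_left (r * r') * _ = rs inf_le_left r * (rs inf_le_left r' * _) by
      rw [map_mul, mul_assoc])
  smul_zero r := Subtype.ext (funext fun i => show rs inf_le_left r * 0 = 0 by simp)
  smul_add r s s' := Subtype.ext (funext fun i =>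
    show rs inf_le_left r * (_ + _) = rs inf_le_left r * _ + rs inf_le_left r * _ by rw [mul_add])
  add_smul r r' s := Subtype.ext (funext fun i =>
    show rs inf_le_left (r + r') * _ = rs inf_le_left r * _ + rs inf_le_left r' * _ by
      rw [map_add, add_mul])
  zero_smul s := Subtype.ext (funext fun i => show rs inf_le_left 0 * _ = 0 by simp)

lemma fam_smul_val {W : X.Opens} (r : Γ(X, W)) (s : c.Fam W) (i : ι) :
    (r • s).1 i = rs inf_le_left r * s.1 i := rfl

/-- Restriction of families. -/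
noncomputable def famRes {W W' : X.Opens} (h : W' ≤ W) : c.Fam W →+ c.Fam W' where
  toFun s := ⟨fun i => rs (inf_le_inf_right _ h) (s.1 i), fun i j O hi hj => by
    simp only [rs_rs]
    exact s.2 i j O (hi.trans (inf_le_inf_right _ h)) (hj.trans (inf_le_inf_right _ h))⟩
  map_zero' := Subtype.ext (funext fun i => map_zero _)
  map_add' s s' := Subtype.ext (funext fun i => map_add _ _ _)

lemma famRes_val {W W' : X.Opens} (h : W' ≤ W) (s : c.Fam W) (i : ι) :
    (c.famRes h s).1 i = rs (inf_le_inf_right _ h) (s.1 i) := rfl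

/-- The presheaf of compatible families. -/
noncomputable def famPresheaf : X.Opensᵒᵖ ⥤ AddCommGrpCat.{u} where
  obj W := AddCommGrpCat.of (c.Fam W.unop)
  map {W W'} f := AddCommGrpCat.ofHom (c.famRes (leOfHom f.unop))
  map_id W := by
    ext1
    ext s : 1
    exact Subtype.ext (funext fun i => rs_self _ _)
  map_comp f g := by
    ext1
    ext s : 1
    exact Subtype.ext (funext fun i => (rs_rs _ _ _).symm)

noncomputable instance (W : X.Opensᵒᵖ) :
    Module (X.ringCatSheaf.obj.obj W) (c.famPresheaf.obj W) :=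
  inferInstanceAs (Module Γ(X, W.unop) (c.Fam W.unop))

/-- The presheaf of modules of compatible families. -/
noncomputable def famPresheafOfModules : PresheafOfModules.{u} X.ringCatSheaf.obj :=
  PresheafOfModules.ofPresheaf c.famPresheaf fun {W W'} f r s =>
    Subtype.ext (funext fun i => by
      change rs _ (rs _ r * s.1 i) = rs _ (rs (leOfHom f.unop) r) * rs _ (s.1 i)
      simp only [map_mul, rs_rs])

lemma fam_isSheaf : TopCat.Presheaf.IsSheaf (X := X.toTopCat) c.famPresheaf := by
  rw [TopCat.Presheaf.isSheaf_iff_isSheafUniqueGluing]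
  intro κ O sf hsf
  have hcov : ∀ i, ∀ x ∈ iSup O ⊓ c.U i, ∃ a, x ∈ O a := fun i x hx =>
    Opens.mem_iSup.mp hx.1
  have hcompat : ∀ (a b : κ) (i : ι), rs (inf_le_inf_right _ inf_le_left) ((sf a).1 i) =
      rs (inf_le_inf_right (c.U i) (inf_le_right : O a ⊓ O b ≤ O b)) ((sf b).1 i) := fun a b i =>
    congrFun (congrArg Subtype.val (hsf a b)) i
  let piece : ∀ i a, Γ(X, (iSup O ⊓ c.U i) ⊓ O a) := fun i a =>
    rs (le_inf inf_le_right (inf_le_left.trans inf_le_right)) ((sf a).1 i)
  have hpiece : ∀ i a b,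
      rs (show iSup O ⊓ c.U i ⊓ O a ⊓ O b ≤ iSup O ⊓ c.U i ⊓ O a from inf_le_left) (piece i a) =
        rs (show iSup O ⊓ c.U i ⊓ O a ⊓ O b ≤ iSup O ⊓ c.U i ⊓ O b from
          le_inf (inf_le_left.trans inf_le_left) inf_le_right) (piece i b) := by
    intro i a b
    have := congrArg (rs (show iSup O ⊓ c.U i ⊓ O a ⊓ O b ≤ O a ⊓ O b ⊓ c.U i from
      fun x hx => ⟨⟨hx.1.2, hx.2⟩, hx.1.1.2⟩)) (hcompat a b i)
    simp only [rs_rs] at this
    simp only [piece, rs_rs]
    exact this
  let g : ∀ i, Γ(X, iSup O ⊓ c.U i) := fun i => glue O (hcov i) (piece i) (hpiece i)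
  have hg : ∀ (i : ι) (a : κ) (Z : X.Opens) (h : Z ≤ iSup O ⊓ c.U i) (ha : Z ≤ O a),
      rs h (g i) = rs (le_inf ha (h.trans inf_le_right)) ((sf a).1 i) := by
    intro i a Z h ha
    rw [glue_spec O (hcov i) (piece i) (hpiece i) a h ha]
    simp only [piece, rs_rs]
  refine ⟨⟨g, fun i j Z hi hj => ?_⟩, fun a => ?_, fun s hs => ?_⟩
  · refine eq_of_locally O (fun x hx => hcov i x (hi hx)) fun a => ?_
    rw [map_mul, rs_rs, rs_rs, c.g_res, hg i a _ _ inf_le_right, hg j a _ _ inf_le_right]
    exact (sf a).2 i j _ _ _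
  · refine Subtype.ext (funext fun i => ?_)
    change rs _ (g i) = _
    rw [hg i a _ _ inf_le_left, rs_self]
  · refine Subtype.ext (funext fun i => ?_)
    change s.1 i = g i
    refine eq_of_locally O (hcov i) fun a => ?_
    rw [hg i a _ _ inf_le_right, ← congrFun (congrArg Subtype.val (hs a)) i]
    exact (rs_rs _ _ _).symm

end Cocycle

/-- The sheaf of modules of a cocycle. -/
noncomputable def modOf (c : Cocycle X V ι) : X.Modules :=
  ({ val := c.famPresheafOfModules, isSheaf := c.fam_isSheaf } : SheafOfModules.{u} X.ringCatSheaf)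

variable (c : Cocycle X V ι)

/-- A section of `modOf c` as a compatible family. -/
def modOfVal {W : X.Opens} (s : Γ(modOf c, W)) (i : ι) : Γ(X, W ⊓ c.U i) :=
  (show c.Fam W from s).1 i

/-- A compatible family as a section of `modOf c`. -/
def modOfMk {W : X.Opens} (s : c.Fam W) : Γ(modOf c, W) := s

lemma modOf_ext {W : X.Opens} {s t : Γ(modOf c, W)} (h : ∀ i, modOfVal c s i = modOfVal c t i) :
    s = t :=
  Subtype.ext (funext h)

@[simp]
lemma modOfVal_mk {W : X.Opens} (s : c.Fam W) (i : ι) : modOfVal c (modOfMk c s) i = s.1 i := rfl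

lemma modOfVal_compat {W : X.Opens} (s : Γ(modOf c, W)) (i j : ι) (O : X.Opens)
    (hi : O ≤ W ⊓ c.U i) (hj : O ≤ W ⊓ c.U j) :
    rs hi (modOfVal c s i) * c.g i j O (hi.trans inf_le_right) (hj.trans inf_le_right) =
      rs hj (modOfVal c s j) :=
  (show c.Fam W from s).2 i j O hi hj

@[simp]
lemma modOfVal_smul {W : X.Opens} (r : Γ(X, W)) (s : Γ(modOf c, W)) (i : ι) :
    modOfVal c (r • s) i = rs inf_le_left r * modOfVal c s i := rfl

@[simp]
lemma modOfVal_mrs {W W' : X.Opens} (h : W' ≤ W) (s : Γ(modOf c, W)) (i : ι) :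
    modOfVal c (mrs (modOf c) h s) i = rs (inf_le_inf_right _ h) (modOfVal c s i) := rfl

/-- The tautological section on `U k`. -/
noncomputable def modGen (k : ι) : Γ(modOf c, c.U k) :=
  modOfMk c ⟨fun i => c.g k i _ inf_le_left inf_le_right, fun i j O hi hj => by
    rw [c.g_res, c.g_res, c.g_mul]⟩

@[simp]
lemma modOfVal_modGen (k i : ι) :
    modOfVal c (modGen c k) i = c.g k i _ inf_le_left inf_le_right := rfl

/-- Every section is the combination of the tautological ones. -/
lemma mrs_eq_smul_modGen {W : X.Opens} (s : Γ(modOf c, W)) (i : ι) (O : X.Opens)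
    (hO : O ≤ W ⊓ c.U i) :
    mrs (modOf c) (hO.trans inf_le_left) s =
      rs hO (modOfVal c s i) • mrs (modOf c) (hO.trans inf_le_right) (modGen c i) := by
  refine modOf_ext c fun j => ?_
  rw [modOfVal_mrs, modOfVal_smul, modOfVal_mrs, modOfVal_modGen, c.g_res, rs_rs]
  exact (modOfVal_compat c s i j _ (inf_le_left.trans hO)
    (inf_le_inf_right _ (hO.trans inf_le_left))).symm

lemma modGen_compat (i j : ι) (O : X.Opens) (hi : O ≤ c.U i) (hj : O ≤ c.U j) :
    mrs (modOf c) hi (modGen c i) = c.g i j O hi hj • mrs (modOf c) hj (modGen c j) := by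
  refine modOf_ext c fun l => ?_
  simp only [modOfVal_mrs, modOfVal_smul, modOfVal_modGen, c.g_res, c.g_mul]

end FLTA.Jacobian
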