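import Fermat.Agent.Jacobian.PicModulesFrame

/-!
# Pullback of the sheaf of modules of a cocycle (S25, part A; owner helper13).
-/

set_option autoImplicit false

universe u

open CategoryTheory AlgebraicGeometry Opposite TopologicalSpace

namespace FLTA.Jacobian

variable {X Y : Scheme.{u}} (f : X ⟶ Y) {ι : Type u} (c : Cocycle Y ⊤ ι)

lemma push_smul (N : X.Modules) {O : Y.Opens} (r : Γ(Y, O))
    (a : Γ((Scheme.Modules.pushforward f).obj N, O)) :
    r • a = (show Γ((Scheme.Modules.pushforward f).obj N, O) from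
      pb f (le_refl (f ⁻¹ᵁ O)) r • (show Γ(N, f ⁻¹ᵁ O) from a)) := by
  change (f.app O r • (show Γ(N, f ⁻¹ᵁ O) from a) : Γ(N, f ⁻¹ᵁ O)) =
    (pb f (le_refl (f ⁻¹ᵁ O)) r • (show Γ(N, f ⁻¹ᵁ O) from a) : Γ(N, f ⁻¹ᵁ O))
  rw [pb, Scheme.Hom.app_eq_appLE]

lemma push_mrs (N : X.Modules) {O O' : Y.Opens} (h : O' ≤ O)
    (a : Γ((Scheme.Modules.pushforward f).obj N, O)) :
    mrs ((Scheme.Modules.pushforward f).obj N) h a =
      (show Γ((Scheme.Modules.pushforward f).obj N, O') from
        mrs N (f.preimage_mono h) (show Γ(N, f ⁻¹ᵁ O) from a)) :=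
  rfl

/-- Sections upstairs attached to a morphism to a pushforward. -/
noncomputable def upApp {M : Y.Modules} {N : X.Modules}
    (η : M ⟶ (Scheme.Modules.pushforward f).obj N) (O : Y.Opens) (s : Γ(M, O)) : Γ(N, f ⁻¹ᵁ O) :=
  η.app O s

lemma upApp_mrs {M : Y.Modules} {N : X.Modules} (η : M ⟶ (Scheme.Modules.pushforward f).obj N)
    {V W : Y.Opens} (h : W ≤ V) (s : Γ(M, V)) :
    mrs N (f.preimage_mono h) (upApp f η V s) = upApp f η W (mrs M h s) :=
  (push_mrs f N h (η.app V s)).symm.trans (mrs_app η h s)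

lemma upApp_smul {M : Y.Modules} {N : X.Modules} (η : M ⟶ (Scheme.Modules.pushforward f).obj N)
    {V : Y.Opens} (r : Γ(Y, V)) (s : Γ(M, V)) :
    upApp f η V (r • s) = pb f (le_refl (f ⁻¹ᵁ V)) r • upApp f η V s :=
  (Scheme.Modules.Hom.app_smul η r s).trans (push_smul f N r (η.app V s))

/-- The adjunction unit at a sheaf of modules. -/
noncomputable abbrev pbUnit (M : Y.Modules) :
    M ⟶ (Scheme.Modules.pushforward f).obj ((Scheme.Modules.pullback f).obj M) :=
  (Scheme.Modules.pullbackPushforwardAdjunction f).unit.app M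

lemma pbUnit_app {M : Y.Modules} {N : X.Modules} (φ : (Scheme.Modules.pullback f).obj M ⟶ N)
    (O : Y.Opens) (s : Γ(M, O)) :
    φ.app (f ⁻¹ᵁ O) (upApp f (pbUnit f M) O s) =
      upApp f ((Scheme.Modules.pullbackPushforwardAdjunction f).homEquiv _ _ φ) O s := by
  rw [Adjunction.homEquiv_unit]
  rfl

lemma pullback_hom_ext {M : Y.Modules} {N : X.Modules}
    {φ ψ : (Scheme.Modules.pullback f).obj M ⟶ N}
    (h : ∀ (O : Y.Opens) (s : Γ(M, O)), φ.app (f ⁻¹ᵁ O) (upApp f (pbUnit f M) O s) =
      ψ.app (f ⁻¹ᵁ O) (upApp f (pbUnit f M) O s)) : φ = ψ := by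
  refine ((Scheme.Modules.pullbackPushforwardAdjunction f).homEquiv _ _).injective
    (Scheme.Modules.hom_ext _ _ fun O => ?_)
  ext s
  exact ((pbUnit_app f φ O s).symm.trans (h O s)).trans (pbUnit_app f ψ O s)

/-- The pulled back cocycle. -/
noncomputable abbrev pullCocycle : Cocycle X ⊤ ι := c.pull f ⊤ le_top

lemma le_pullU (i : ι) : f ⁻¹ᵁ c.U i ≤ (pullCocycle f c).U i := le_inf le_top le_rfl

/-- Tautological sections of the pullback, seen in the pushforward. -/
noncomputable def pushGen (i : ι) :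
    Γ((Scheme.Modules.pushforward f).obj (modOf (pullCocycle f c)), c.U i) :=
  mrs (modOf (pullCocycle f c)) (le_pullU f c i) (modGen (pullCocycle f c) i)

lemma pushGen_compat (i j : ι) (O : Y.Opens) (hi : O ≤ c.U i) (hj : O ≤ c.U j) :
    mrs ((Scheme.Modules.pushforward f).obj (modOf (pullCocycle f c))) hi (pushGen f c i) =
      c.g i j O hi hj •
        mrs ((Scheme.Modules.pushforward f).obj (modOf (pullCocycle f c))) hj (pushGen f c j) := by
  rw [push_smul, push_mrs, push_mrs]
  change mrs (modOf (pullCocycle f c)) (f.preimage_mono hi)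
      (mrs (modOf (pullCocycle f c)) (le_pullU f c i) (modGen (pullCocycle f c) i)) =
    pb f (le_refl (f ⁻¹ᵁ O)) (c.g i j O hi hj) •
      mrs (modOf (pullCocycle f c)) (f.preimage_mono hj)
        (mrs (modOf (pullCocycle f c)) (le_pullU f c j) (modGen (pullCocycle f c) j))
  rw [mrs_mrs, mrs_mrs,
    modGen_compat (pullCocycle f c) i j (f ⁻¹ᵁ O)
      ((f.preimage_mono hi).trans (le_pullU f c i)) ((f.preimage_mono hj).trans (le_pullU f c j)),
    Cocycle.pull_g c f ⊤ le_top i j _ _ _ O (le_refl _) hi hj]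

/-- The morphism to the pushforward. -/
noncomputable def toPush :
    modOf c ⟶ (Scheme.Modules.pushforward f).obj (modOf (pullCocycle f c)) :=
  modOfDesc (pushGen f c) (pushGen_compat f c)

/-- The adjoint morphism. -/
noncomputable def pullToModOf :
    (Scheme.Modules.pullback f).obj (modOf c) ⟶ modOf (pullCocycle f c) :=
  ((Scheme.Modules.pullbackPushforwardAdjunction f).homEquiv _ _).symm (toPush f c)

lemma pbUnit_pullToModOf (i : ι) :
    (pullToModOf f c).app (f ⁻¹ᵁ c.U i) (upApp f (pbUnit f (modOf c)) (c.U i) (modGen c i)) =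
      mrs (modOf (pullCocycle f c)) (le_pullU f c i) (modGen (pullCocycle f c) i) := by
  refine (pbUnit_app f _ _ _).trans ?_
  rw [pullToModOf, Equiv.apply_symm_apply]
  exact modOfDesc_gen (pushGen f c) (pushGen_compat f c) i

/-- The image of a tautological section in the pullback. -/
noncomputable def pullGen (i : ι) :
    Γ((Scheme.Modules.pullback f).obj (modOf c), (pullCocycle f c).U i) :=
  mrs _ (show (pullCocycle f c).U i ≤ f ⁻¹ᵁ c.U i from inf_le_right)
    (upApp f (pbUnit f (modOf c)) (c.U i) (modGen c i))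

lemma pullGen_compat (i j : ι) (O : X.Opens) (hi : O ≤ (pullCocycle f c).U i)
    (hj : O ≤ (pullCocycle f c).U j) :
    mrs _ hi (pullGen f c i) = (pullCocycle f c).g i j O hi hj • mrs _ hj (pullGen f c j) := by
  have hO : O ≤ f ⁻¹ᵁ (c.U i ⊓ c.U j) := fun x hx => ⟨(hi hx).2, (hj hx).2⟩
  have h := congrArg (upApp f (pbUnit f (modOf c)) (c.U i ⊓ c.U j))
    (modGen_compat c i j (c.U i ⊓ c.U j) inf_le_left inf_le_right)
  rw [upApp_smul, ← upApp_mrs, ← upApp_mrs] at h
  have h' := congrArg (mrs ((Scheme.Modules.pullback f).obj (modOf c)) hO) h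
  rw [mrs_mrs, mrs_smul, mrs_mrs, rs_pb] at h'
  rw [pullGen, pullGen, mrs_mrs, mrs_mrs,
    Cocycle.pull_g c f ⊤ le_top i j O hi hj (c.U i ⊓ c.U j) hO inf_le_left inf_le_right]
  exact h'

/-- The inverse morphism. -/
noncomputable def modOfToPull :
    modOf (pullCocycle f c) ⟶ (Scheme.Modules.pullback f).obj (modOf c) :=
  modOfDesc (pullGen f c) (pullGen_compat f c)

/-- The pullback of the sheaf of a cocycle is the sheaf of the pulled back cocycle. -/
noncomputable def pullbackModOfIso :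
    (Scheme.Modules.pullback f).obj (modOf c) ≅ modOf (pullCocycle f c) where
  hom := pullToModOf f c
  inv := modOfToPull f c
  hom_inv_id := by
    refine ((Scheme.Modules.pullbackPushforwardAdjunction f).homEquiv _ _).injective
      (modOf_hom_ext c fun i => ?_)
    refine ((pbUnit_app f _ _ _).symm.trans ?_).trans (pbUnit_app f _ _ _)
    refine (congrArg ((modOfToPull f c).app (f ⁻¹ᵁ c.U i)) (pbUnit_pullToModOf f c i)).trans ?_
    rw [← mrs_app, modOfToPull, modOfDesc_gen, pullGen, mrs_mrs]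
    exact mrs_self _ _ _
  inv_hom_id := by
    refine modOf_hom_ext _ fun i => ?_
    change (pullToModOf f c).app _ ((modOfToPull f c).app _ (modGen (pullCocycle f c) i)) = _
    rw [modOfToPull, modOfDesc_gen, pullGen, ← mrs_app, pbUnit_pullToModOf]
    exact (mrs_mrs _ _ _ _).trans (mrs_self _ _ _)

end FLTA.Jacobian
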