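import Fermat.Agent.Jacobian.PicFunctor

/-!
# Sections of sheaves of modules: restriction and gluing helpers (S25, part A; owner helper13).
-/

set_option autoImplicit false

universe u

open CategoryTheory AlgebraicGeometry Opposite TopologicalSpace

namespace FLTA.Jacobian

variable {X : Scheme.{u}}

/-- Restriction of sections of a sheaf of modules. -/
noncomputable def mrs (M : X.Modules) {V W : X.Opens} (h : W ≤ V) : Γ(M, V) →+ Γ(M, W) :=
  (M.presheaf.map (homOfLE h).op).hom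

@[simp]
lemma mrs_mrs (M : X.Modules) {V W W' : X.Opens} (h : W ≤ V) (h' : W' ≤ W) (a : Γ(M, V)) :
    mrs M h' (mrs M h a) = mrs M (h'.trans h) a := by
  simp only [mrs, ← ConcreteCategory.comp_apply, ← Functor.map_comp, ← op_comp]
  rfl

@[simp]
lemma mrs_self (M : X.Modules) {V : X.Opens} (h : V ≤ V) (a : Γ(M, V)) : mrs M h a = a := by
  simp only [mrs, homOfLE_refl, op_id, CategoryTheory.Functor.map_id]
  rfl

@[simp]
lemma mrs_smul (M : X.Modules) {V W : X.Opens} (h : W ≤ V) (r : Γ(X, V)) (a : Γ(M, V)) :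
    mrs M h (r • a) = rs h r • mrs M h a :=
  Scheme.Modules.map_smul M (homOfLE h) r a

lemma mrs_app {M N : X.Modules} (φ : M ⟶ N) {V W : X.Opens} (h : W ≤ V) (a : Γ(M, V)) :
    mrs N h (φ.app V a) = φ.app W (mrs M h a) :=
  (CategoryTheory.congr_fun (φ.mapPresheaf.naturality (homOfLE h).op) a).symm

lemma meq_of_locally (M : X.Modules) {ι : Type u} {V : X.Opens} (U : ι → X.Opens)
    (hcover : ∀ x ∈ V, ∃ i, x ∈ U i) {a b : Γ(M, V)}
    (h : ∀ i, mrs M (inf_le_left : V ⊓ U i ≤ V) a = mrs M inf_le_left b) : a = b := by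
  refine TopCat.Sheaf.eq_of_locally_eq' ⟨M.presheaf, M.isSheaf⟩ (fun i => V ⊓ U i) V
    (fun i => homOfLE inf_le_left) ?_ a b h
  intro x hx
  obtain ⟨i, hi⟩ := hcover x hx
  exact Opens.mem_iSup.mpr ⟨i, hx, hi⟩

lemma exists_mglue (M : X.Modules) {ι : Type u} {V : X.Opens} (U : ι → X.Opens)
    (hcover : ∀ x ∈ V, ∃ i, x ∈ U i) (s : ∀ i, Γ(M, V ⊓ U i))
    (h : ∀ i j, mrs M (show V ⊓ U i ⊓ U j ≤ V ⊓ U i from inf_le_left) (s i) =
      mrs M (show V ⊓ U i ⊓ U j ≤ V ⊓ U j from le_inf (inf_le_left.trans inf_le_left) inf_le_right)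
        (s j)) :
    ∃! a : Γ(M, V), ∀ i, mrs M (inf_le_left : V ⊓ U i ≤ V) a = s i := by
  refine TopCat.Sheaf.existsUnique_gluing' ⟨M.presheaf, M.isSheaf⟩ (fun i => V ⊓ U i) V
    (fun i => homOfLE inf_le_left) ?_ s ?_
  · intro x hx
    obtain ⟨i, hi⟩ := hcover x hx
    exact Opens.mem_iSup.mpr ⟨i, hx, hi⟩
  · intro i j
    have := congrArg
      (mrs M (show (V ⊓ U i) ⊓ (V ⊓ U j) ≤ V ⊓ U i ⊓ U j from
        le_inf inf_le_left (inf_le_right.trans inf_le_right))) (h i j)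
    rw [mrs_mrs, mrs_mrs] at this
    exact this

/-- Gluing of sections. -/
noncomputable def mglue (M : X.Modules) {ι : Type u} {V : X.Opens} (U : ι → X.Opens)
    (hcover : ∀ x ∈ V, ∃ i, x ∈ U i) (s : ∀ i, Γ(M, V ⊓ U i))
    (h : ∀ i j, mrs M (show V ⊓ U i ⊓ U j ≤ V ⊓ U i from inf_le_left) (s i) =
      mrs M (show V ⊓ U i ⊓ U j ≤ V ⊓ U j from le_inf (inf_le_left.trans inf_le_left) inf_le_right)
        (s j)) : Γ(M, V) :=
  (exists_mglue M U hcover s h).choose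

lemma mglue_spec (M : X.Modules) {ι : Type u} {V : X.Opens} (U : ι → X.Opens)
    (hcover : ∀ x ∈ V, ∃ i, x ∈ U i) (s : ∀ i, Γ(M, V ⊓ U i))
    (h : ∀ i j, mrs M (show V ⊓ U i ⊓ U j ≤ V ⊓ U i from inf_le_left) (s i) =
      mrs M (show V ⊓ U i ⊓ U j ≤ V ⊓ U j from le_inf (inf_le_left.trans inf_le_left) inf_le_right)
        (s j)) (i : ι) : mrs M inf_le_left (mglue M U hcover s h) = s i :=
  (exists_mglue M U hcover s h).choose_spec.1 i

lemma mglue_spec' (M : X.Modules) {ι : Type u} {V : X.Opens} (U : ι → X.Opens)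
    (hcover : ∀ x ∈ V, ∃ i, x ∈ U i) (s : ∀ i, Γ(M, V ⊓ U i))
    (h : ∀ i j, mrs M (show V ⊓ U i ⊓ U j ≤ V ⊓ U i from inf_le_left) (s i) =
      mrs M (show V ⊓ U i ⊓ U j ≤ V ⊓ U j from le_inf (inf_le_left.trans inf_le_left) inf_le_right)
        (s j)) (i : ι) {W : X.Opens} (hW : W ≤ V) (hWi : W ≤ U i) :
    mrs M hW (mglue M U hcover s h) = mrs M (le_inf hW hWi) (s i) := by
  rw [← mglue_spec M U hcover s h i, mrs_mrs]

end FLTA.Jacobian
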