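import Mathlib

/-!
# Sections of the structure sheaf: restriction and gluing helpers (S25, part A).
-/

set_option autoImplicit false

universe u

open CategoryTheory AlgebraicGeometry Opposite TopologicalSpace

namespace FLTA.Jacobian

variable {X Y : Scheme.{u}}

/-- Restriction of functions. -/
noncomputable def rs {V W : X.Opens} (h : W ≤ V) : Γ(X, V) →+* Γ(X, W) :=
  (X.presheaf.map (homOfLE h).op).hom

@[simp]
lemma rs_rs {V W W' : X.Opens} (h : W ≤ V) (h' : W' ≤ W) (a : Γ(X, V)) :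
    rs h' (rs h a) = rs (h'.trans h) a := by
  simp only [rs, ← ConcreteCategory.comp_apply, ← Functor.map_comp, ← op_comp]
  rfl

@[simp]
lemma rs_self {V : X.Opens} (h : V ≤ V) (a : Γ(X, V)) : rs h a = a := by
  simp only [rs, homOfLE_refl, op_id, CategoryTheory.Functor.map_id]
  rfl

lemma eq_of_locally {ι : Type u} {V : X.Opens} (U : ι → X.Opens)
    (hcover : ∀ x ∈ V, ∃ i, x ∈ U i) {a b : Γ(X, V)}
    (h : ∀ i, rs (inf_le_left : V ⊓ U i ≤ V) a = rs inf_le_left b) : a = b := by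
  refine TopCat.Sheaf.eq_of_locally_eq' (X.sheaf) (fun i => V ⊓ U i) V
    (fun i => homOfLE inf_le_left) ?_ a b h
  intro x hx
  obtain ⟨i, hi⟩ := hcover x hx
  exact Opens.mem_iSup.mpr ⟨i, hx, hi⟩

lemma existsUnique_glue {ι : Type u} {V : X.Opens} (U : ι → X.Opens)
    (hcover : ∀ x ∈ V, ∃ i, x ∈ U i) (s : ∀ i, Γ(X, V ⊓ U i))
    (h : ∀ i j, rs (show V ⊓ U i ⊓ U j ≤ V ⊓ U i from inf_le_left) (s i) =
      rs (show V ⊓ U i ⊓ U j ≤ V ⊓ U j from le_inf (inf_le_left.trans inf_le_left) inf_le_right)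
        (s j)) :
    ∃! a : Γ(X, V), ∀ i, rs (inf_le_left : V ⊓ U i ≤ V) a = s i := by
  refine TopCat.Sheaf.existsUnique_gluing' (X.sheaf) (fun i => V ⊓ U i) V
    (fun i => homOfLE inf_le_left) ?_ s ?_
  · intro x hx
    obtain ⟨i, hi⟩ := hcover x hx
    exact Opens.mem_iSup.mpr ⟨i, hx, hi⟩
  · intro i j
    have := congrArg
      (rs (show (V ⊓ U i) ⊓ (V ⊓ U j) ≤ V ⊓ U i ⊓ U j from
        le_inf inf_le_left (inf_le_right.trans inf_le_right))) (h i j)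
    rw [rs_rs, rs_rs] at this
    exact this

/-- Gluing of functions. -/
noncomputable def glue {ι : Type u} {V : X.Opens} (U : ι → X.Opens)
    (hcover : ∀ x ∈ V, ∃ i, x ∈ U i) (s : ∀ i, Γ(X, V ⊓ U i))
    (h : ∀ i j, rs (show V ⊓ U i ⊓ U j ≤ V ⊓ U i from inf_le_left) (s i) =
      rs (show V ⊓ U i ⊓ U j ≤ V ⊓ U j from le_inf (inf_le_left.trans inf_le_left) inf_le_right)
        (s j)) : Γ(X, V) :=
  (existsUnique_glue U hcover s h).choose

lemma glue_spec {ι : Type u} {V : X.Opens} (U : ι → X.Opens)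
    (hcover : ∀ x ∈ V, ∃ i, x ∈ U i) (s : ∀ i, Γ(X, V ⊓ U i))
    (h : ∀ i j, rs (show V ⊓ U i ⊓ U j ≤ V ⊓ U i from inf_le_left) (s i) =
      rs (show V ⊓ U i ⊓ U j ≤ V ⊓ U j from le_inf (inf_le_left.trans inf_le_left) inf_le_right)
        (s j)) (i : ι) {W : X.Opens} (hW : W ≤ V) (hWi : W ≤ U i) :
    rs hW (glue U hcover s h) = rs (le_inf hW hWi) (s i) := by
  rw [← (existsUnique_glue U hcover s h).choose_spec.1 i, rs_rs]
  rfl

lemma isUnit_of_locally {ι : Type u} {V : X.Opens} (U : ι → X.Opens)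
    (hcover : ∀ x ∈ V, ∃ i, x ∈ U i) {a : Γ(X, V)}
    (h : ∀ i, IsUnit (rs (inf_le_left : V ⊓ U i ≤ V) a)) : IsUnit a := by
  have hs : ∀ i, ∃ b, rs (inf_le_left : V ⊓ U i ≤ V) a * b = 1 := fun i =>
    isUnit_iff_exists_inv.mp (h i)
  choose b hb using hs
  refine isUnit_iff_exists_inv.mpr ⟨glue U hcover b fun i j => ?_, ?_⟩
  · have h1 := congrArg (rs (show V ⊓ U i ⊓ U j ≤ V ⊓ U i from inf_le_left)) (hb i)
    have h2 := congrArg (rs (show V ⊓ U i ⊓ U j ≤ V ⊓ U j from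
      le_inf (inf_le_left.trans inf_le_left) inf_le_right)) (hb j)
    simp only [map_mul, map_one, rs_rs] at h1 h2
    exact left_inv_eq_right_inv (by rw [mul_comm]; exact h1) h2
  · refine eq_of_locally U hcover fun i => ?_
    rw [map_mul, map_one, glue_spec U hcover b _ i inf_le_left inf_le_right, rs_self, hb]

/-- Pullback of functions along `f`, to a smaller open. -/
noncomputable def pb (f : X ⟶ Y) {V : Y.Opens} {W : X.Opens} (h : W ≤ f ⁻¹ᵁ V) :
    Γ(Y, V) →+* Γ(X, W) :=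
  (f.appLE V W h).hom

@[simp]
lemma rs_pb (f : X ⟶ Y) {V : Y.Opens} {W W' : X.Opens} (h : W ≤ f ⁻¹ᵁ V) (h' : W' ≤ W)
    (a : Γ(Y, V)) : rs h' (pb f h a) = pb f (h'.trans h) a := by
  simp only [rs, pb, ← ConcreteCategory.comp_apply,
    Scheme.Hom.appLE_map]

@[simp]
lemma pb_rs (f : X ⟶ Y) {V V' : Y.Opens} {W : X.Opens} (h : W ≤ f ⁻¹ᵁ V) (h' : V ≤ V')
    (a : Γ(Y, V')) : pb f h (rs h' a) = pb f (h.trans (f.preimage_mono h')) a := by
  simp only [rs, pb, ← ConcreteCategory.comp_apply,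
    Scheme.Hom.map_appLE]

@[simp]
lemma pb_pb {Z : Scheme.{u}} (f : X ⟶ Y) (g : Y ⟶ Z) {V : Z.Opens} {V' : Y.Opens} {W : X.Opens}
    (h : W ≤ f ⁻¹ᵁ V') (h' : V' ≤ g ⁻¹ᵁ V) (a : Γ(Z, V)) :
    pb f h (pb g h' a) = pb (f ≫ g) (h.trans (f.preimage_mono h')) a := by
  simp only [pb, ← ConcreteCategory.comp_apply,
    Scheme.Hom.appLE_comp_appLE]

end FLTA.Jacobian
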